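import Mathlib
import Fermat.Prelude.Def_AlgebraicGeometry_NeronModelPropertyBundleCarrier
import Fermat.Prelude.Def_JacJ1Iface
import Fermat.Prelude.Def_AlgebraicGeometry_RelativePicardFunctor
import Fermat.Prelude.Def_AlgebraicGeometry_RepresentsRelSubPic
import Fermat.Prelude.Def_AlgebraicGeometry_RelPicardAlgEquivZeroCut

/-!
# S25, package TOP, part AEZ (wiring against the prelude, no degree theory)

* `poincare_fibre_isAlgEquivZero`: the fibre of a "Poincaré" bundle (a rigidified line bundle on
  `C ×_R J` whose pullback along the zero section is trivial) at any field-valued point of `J` is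
  algebraically equivalent to zero, provided `J → Spec R` is geometrically integral and locally of
  finite type: the connecting family is the Poincaré bundle itself on `C_{k'} ×_{k'} J_{k'}`.
* `poincare_fibrewiseAlgEquivZero`: hence the Poincaré bundle is `FibrewiseAlgEquivZero`.
* `fibrewiseAlgEquivZero_of_classified`: every bundle classified by a map to `J` is
  `FibrewiseAlgEquivZero`.
* `representsAlgEquivZeroCut_of`: if `D` represents a sub-Picard condition `P'` which is implied by
  `FibrewiseAlgEquivZero`, then `D` represents `algEquivZeroCut`.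
-/

set_option autoImplicit false
set_option linter.unusedSimpArgs false

universe u

open CategoryTheory CategoryTheory.Limits AlgebraicGeometry AlgebraicGeometry.RelPicard NeronModelInfra
  GoodReductionJacobian

namespace Fermat.Agent.S25.Top.H61

variable {R : Type u} [CommRing R] {C : Scheme.{u}} {c : C ⟶ Spec (CommRingCat.of R)}
  {ε : SchemeHomOver (𝟙 (Spec (CommRingCat.of R))) c}

/-- The fibre of the Poincaré bundle at a field-valued point of `J` is algebraically equivalent
to zero (connecting variety `J_{k'}`). -/
theorem poincare_fibre_isAlgEquivZero (D : RelativePic0Designation R c)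
    [GeometricallyIntegral D.toBase] [LocallyOfFiniteType D.toBase]
    (poincare : RigidifiedLineBundle c ε D.toBase)
    (zero : Nonempty ((poincare.pullbackAlong ⟨D.zeroSection, D.zeroSection_toBase⟩).L ≅
      (RigidifiedLineBundle.unit (c := c) (ε := ε) (𝟙 _)).L))
    (k' : Type u) [Field k'] (s : Spec (CommRingCat.of k') ⟶ D.P) :
    IsAlgEquivZero (fibreAt c D.toBase s)
      ((Scheme.Modules.pullback (pullback.fst (pullback.snd c D.toBase) s)).obj poincare.L) := by
  obtain ⟨ez⟩ := zero
  -- notation
  let σ : Spec (CommRingCat.of k') ⟶ Spec (CommRingCat.of R) := s ≫ D.toBase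
  let a := fibreAt c D.toBase s
  let h : Limits.pullback D.toBase σ ⟶ Spec (CommRingCat.of k') := pullback.snd D.toBase σ
  have hA : pullback.fst (pullback.snd c D.toBase) s ≫ pullback.snd c D.toBase = a ≫ s :=
    pullback.condition
  -- the map `C_{k'} ×_{k'} J_{k'} ⟶ C ×_R J`
  let q : Limits.pullback a h ⟶ Limits.pullback c D.toBase :=
    pullback.lift (pullback.fst a h ≫ pullback.fst (pullback.snd c D.toBase) s ≫ pullback.fst c D.toBase)
      (pullback.snd a h ≫ pullback.fst D.toBase σ) (by
        have h1 : pullback.fst a h ≫ a = pullback.snd a h ≫ h := pullback.condition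
        have h2 : pullback.fst D.toBase σ ≫ D.toBase = h ≫ σ := pullback.condition
        have h3 : pullback.fst c D.toBase ≫ c = pullback.snd c D.toBase ≫ D.toBase :=
          pullback.condition
        simp only [Category.assoc]
        rw [h3, reassoc_of% hA, h2, reassoc_of% h1])
  let t₁ : SchemeHomOver (𝟙 (Spec (CommRingCat.of k'))) h :=
    ⟨pullback.lift s (𝟙 _) (by rw [Category.id_comp]), pullback.lift_snd _ _ _⟩
  let t₀ : SchemeHomOver (𝟙 (Spec (CommRingCat.of k'))) h :=
    ⟨pullback.lift (σ ≫ D.zeroSection) (𝟙 _) (by
      rw [Category.assoc, D.zeroSection_toBase, Category.comp_id, Category.id_comp]),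
      pullback.lift_snd _ _ _⟩
  -- the map `C_{k'} ⟶ C`
  let v : Limits.pullback a (𝟙 (Spec (CommRingCat.of k'))) ⟶
      Limits.pullback c (𝟙 (Spec (CommRingCat.of R))) :=
    pullback.lift
      (pullback.fst a (𝟙 _) ≫ pullback.fst (pullback.snd c D.toBase) s ≫ pullback.fst c D.toBase)
      (pullback.snd a (𝟙 _) ≫ σ) (by
        have h1 : pullback.fst a (𝟙 (Spec (CommRingCat.of k'))) ≫ a =
            pullback.snd a (𝟙 _) ≫ 𝟙 _ := pullback.condition
        have h3 : pullback.fst c D.toBase ≫ c = pullback.snd c D.toBase ≫ D.toBase :=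
          pullback.condition
        simp only [Category.assoc, Category.comp_id] at h1 ⊢
        rw [h3, reassoc_of% hA, reassoc_of% h1])
  have hq₁ : baseChangeSnd a t₁ ≫ q =
      pullback.fst a (𝟙 _) ≫ pullback.fst (pullback.snd c D.toBase) s := by
    have h1 : pullback.fst a (𝟙 (Spec (CommRingCat.of k'))) ≫ a =
        pullback.snd a (𝟙 _) ≫ 𝟙 _ := pullback.condition
    rw [Category.comp_id] at h1
    apply pullback.hom_ext
    · simp only [q, t₁, baseChangeSnd, Category.assoc, pullback.lift_fst, pullback.lift_snd,
        pullback.lift_fst_assoc, pullback.lift_snd_assoc, Category.comp_id]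
    · simp only [q, t₁, baseChangeSnd, Category.assoc, pullback.lift_fst, pullback.lift_snd,
        pullback.lift_fst_assoc, pullback.lift_snd_assoc, Category.comp_id]
      rw [hA, reassoc_of% h1]
  have hq₀ : baseChangeSnd a t₀ ≫ q =
      v ≫ baseChangeSnd c (⟨D.zeroSection, D.zeroSection_toBase⟩ :
        SchemeHomOver (𝟙 (Spec (CommRingCat.of R))) D.toBase) := by
    apply pullback.hom_ext
    · simp only [q, v, t₀, baseChangeSnd, Category.assoc, pullback.lift_fst, pullback.lift_snd,
        pullback.lift_fst_assoc, pullback.lift_snd_assoc, Category.comp_id]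
    · simp only [q, v, t₀, baseChangeSnd, Category.assoc, pullback.lift_fst, pullback.lift_snd,
        pullback.lift_fst_assoc, pullback.lift_snd_assoc, Category.comp_id]
  refine ⟨Limits.pullback D.toBase σ, h, inferInstance, inferInstance,
    (Scheme.Modules.pullback q).obj poincare.L, poincare.isInvertible.pullback q, t₀, t₁, ⟨?_⟩, ⟨?_⟩⟩
  · exact (Scheme.Modules.pullbackComp _ _).app poincare.L ≪≫
      (Scheme.Modules.pullbackCongr hq₀).app poincare.L ≪≫
      ((Scheme.Modules.pullbackComp _ _).app poincare.L).symm ≪≫
      (Scheme.Modules.pullback v).mapIso ez ≪≫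
      Scheme.Modules.pullbackUnitIso v
  · exact (Scheme.Modules.pullbackComp _ _).app poincare.L ≪≫
      (Scheme.Modules.pullbackCongr hq₁).app poincare.L ≪≫
      ((Scheme.Modules.pullbackComp _ _).app poincare.L).symm

/-- The Poincaré bundle is fibrewise algebraically equivalent to zero. -/
theorem poincare_fibrewiseAlgEquivZero (D : RelativePic0Designation R c)
    [GeometricallyIntegral D.toBase] [LocallyOfFiniteType D.toBase]
    (poincare : RigidifiedLineBundle c ε D.toBase)
    (zero : Nonempty ((poincare.pullbackAlong ⟨D.zeroSection, D.zeroSection_toBase⟩).L ≅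
      (RigidifiedLineBundle.unit (c := c) (ε := ε) (𝟙 _)).L)) :
    FibrewiseAlgEquivZero poincare :=
  fun k' _ _ s => poincare_fibre_isAlgEquivZero D poincare zero k' s

/-- Every rigidified line bundle classified by a morphism to `J` is fibrewise algebraically
equivalent to zero. -/
theorem fibrewiseAlgEquivZero_of_classified (D : RelativePic0Designation R c)
    [GeometricallyIntegral D.toBase] [LocallyOfFiniteType D.toBase]
    (poincare : RigidifiedLineBundle c ε D.toBase)
    (zero : Nonempty ((poincare.pullbackAlong ⟨D.zeroSection, D.zeroSection_toBase⟩).L ≅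
      (RigidifiedLineBundle.unit (c := c) (ε := ε) (𝟙 _)).L))
    {T : Scheme.{u}} (t : T ⟶ Spec (CommRingCat.of R)) (M : RigidifiedLineBundle c ε t)
    (g : SchemeHomOver t D.toBase) (hg : Nonempty ((poincare.pullbackAlong g).L ≅ M.L)) :
    FibrewiseAlgEquivZero M :=
  ((poincare_fibrewiseAlgEquivZero D poincare zero).pullback g).congr hg

/-- If `D` represents a sub-Picard condition `P'` implied by `FibrewiseAlgEquivZero`, and `D` is
geometrically integral and locally of finite type, then `D` represents `algEquivZeroCut`. -/
noncomputable def representsAlgEquivZeroCut_of {P' : SubPicCondition c ε}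
    {D : RelativePic0Designation R c}
    [GeometricallyIntegral D.toBase] [LocallyOfFiniteType D.toBase]
    (h : RepresentsRelSubPic c ε P' D)
    (hP' : ∀ {T : Scheme.{u}} (t : T ⟶ Spec (CommRingCat.of R)) (M : RigidifiedLineBundle c ε t),
      FibrewiseAlgEquivZero M → P'.P t M) :
    RepresentsRelSubPic c ε (algEquivZeroCut c ε) D where
  poincare := h.poincare
  poincare_mem := poincare_fibrewiseAlgEquivZero D h.poincare h.zero
  univ := fun t M hM => h.univ t M (hP' t M hM)
  zero := h.zero

/-- Raw-data form of `representsAlgEquivZeroCut_of`. -/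
noncomputable def representsAlgEquivZeroCut_mk (D : RelativePic0Designation R c)
    [GeometricallyIntegral D.toBase] [LocallyOfFiniteType D.toBase]
    (poincare : RigidifiedLineBundle c ε D.toBase)
    (zero : Nonempty ((poincare.pullbackAlong ⟨D.zeroSection, D.zeroSection_toBase⟩).L ≅
      (RigidifiedLineBundle.unit (c := c) (ε := ε) (𝟙 _)).L))
    (univ : ∀ {T : Scheme.{u}} (t : T ⟶ Spec (CommRingCat.of R)) (M : RigidifiedLineBundle c ε t),
      FibrewiseAlgEquivZero M →
        ∃! g : SchemeHomOver t D.toBase, Nonempty ((poincare.pullbackAlong g).L ≅ M.L)) :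
    RepresentsRelSubPic c ε (algEquivZeroCut c ε) D where
  poincare := poincare
  poincare_mem := poincare_fibrewiseAlgEquivZero D poincare zero
  univ := fun t M hM => univ t M hM
  zero := zero

end Fermat.Agent.S25.Top.H61
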