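/-
helper32 (owner of S25), package TOP: INTERFACE FILE of the top level (prelude-facing).
Plan: NOTES/plan/S25.md.  Imports: Mathlib + the prelude modules of Statements/S25 + helper61's AEZ wiring.

The top level is split into statements which speak only about the prelude's objects
(`RigidifiedLineBundle`, `pullbackAlong`, `SubPicCondition`, `RepresentsRelSubPic`):

* `Stmt_CORE`      : what the whole construction delivers; `stmt_S25_of_CORE` (PROVED here) turns it into S25.
* `LocIso`, `Glue`, `SmallClasses` : the rigidified Picard presheaf is a Zariski sheaf with small values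
                     (`Stmt_LOCISO`, `Stmt_GLUEPIC`, `Stmt_SMALL`: pure sheaf theory on `C × T`).
* `ChartFamily` with `Mono`, `Open`, `Cover` : a family of charts of a sub-Picard functor.
* `Stmt_REPLOCAL`  : a local sub-Picard condition with a covering family of charts is representable, and the
                     charts become an open cover of the representing scheme
                     (= Mathlib's `Scheme.LocalRepresentability.isRepresentable` in the prelude's language).
-/
import Mathlib
import Fermat.Prelude.Def_AlgebraicGeometry_NeronModelPropertyBundleCarrier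
import Fermat.Prelude.Def_JacJ1Iface
import Fermat.Prelude.Def_AlgebraicGeometry_RelativePicardFunctor
import Fermat.Prelude.Def_AlgebraicGeometry_RepresentsRelSubPic
import Fermat.Prelude.Def_AlgebraicGeometry_RelPicardAlgEquivZeroCut
import Fermat.Agent.S25.Top.H61_Aez

set_option autoImplicit false

universe u

open CategoryTheory CategoryTheory.Limits AlgebraicGeometry AlgebraicGeometry.RelPicard NeronModelInfra
  GoodReductionJacobian

namespace Fermat.Agent.S25.Top

/-- The frozen statement S25. -/
def Stmt_S25 : Prop :=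
  ∀ (k : Type u) [Field k] [IsAlgClosed k] {C : Scheme.{u}} (c : C ⟶ Spec (CommRingCat.of k))
    [IsProper c] [SmoothOfRelativeDimension 1 c] [IsIntegral C]
    (ε : SchemeHomOver (𝟙 (Spec (CommRingCat.of k))) c),
    ∃ D : RelativePic0Designation k c,
      Nonempty (RepresentsRelSubPic c ε (algEquivZeroCut c ε) D) ∧
        Smooth D.toBase ∧ IsProper D.toBase ∧ GeometricallyConnected D.toBase

/-- **CORE**: what the construction delivers: a scheme `J` representing SOME sub-Picard condition `P'`
which contains the bundles fibrewise algebraically equivalent to zero (`P'` will be "fibrewise of degree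
zero"), smooth, proper and geometrically integral. -/
def Stmt_CORE : Prop :=
  ∀ (k : Type u) [Field k] [IsAlgClosed k] {C : Scheme.{u}} (c : C ⟶ Spec (CommRingCat.of k))
    [IsProper c] [SmoothOfRelativeDimension 1 c] [IsIntegral C]
    (ε : SchemeHomOver (𝟙 (Spec (CommRingCat.of k))) c),
    ∃ (P' : SubPicCondition c ε) (D : RelativePic0Designation k c),
      Nonempty (RepresentsRelSubPic c ε P' D) ∧
      (∀ {T : Scheme.{u}} (t : T ⟶ Spec (CommRingCat.of k)) (M : RigidifiedLineBundle c ε t),
        FibrewiseAlgEquivZero M → P'.P t M) ∧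
      Smooth D.toBase ∧ IsProper D.toBase ∧ GeometricallyIntegral D.toBase

section Local

variable {k : Type u} [Field k] {C : Scheme.{u}} (c : C ⟶ Spec (CommRingCat.of k))
  (ε : SchemeHomOver (𝟙 (Spec (CommRingCat.of k))) c)

/-- `f : U ⟶ T` as a morphism over the base from `f ≫ t` to `t`. -/
abbrev overOf {T U : Scheme.{u}} (t : T ⟶ Spec (CommRingCat.of k)) (f : U ⟶ T) :
    SchemeHomOver (f ≫ t) t := ⟨f, rfl⟩

variable {c ε}

/-- `M` is classified by `g` with respect to the bundle `𝓛` on `C × X`. -/
def Classifies {X T : Scheme.{u}} {x : X ⟶ Spec (CommRingCat.of k)} (𝓛 : RigidifiedLineBundle c ε x)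
    {t : T ⟶ Spec (CommRingCat.of k)} (M : RigidifiedLineBundle c ε t) (g : SchemeHomOver t x) : Prop :=
  Nonempty ((𝓛.pullbackAlong g).L ≅ M.L)

variable (c ε)

/-- A sub-Picard condition is Zariski local on the base. -/
def IsLocalCond (P : SubPicCondition c ε) : Prop :=
  ∀ {T : Scheme.{u}} (t : T ⟶ Spec (CommRingCat.of k)) (M : RigidifiedLineBundle c ε t)
    (𝒰 : Scheme.OpenCover.{u} T), (∀ i, P.P (𝒰.f i ≫ t) (M.pullbackAlong (overOf t (𝒰.f i)))) → P.P t M

/-- **LOCISO** (the rigidified Picard presheaf is separated): two rigidified line bundles on `C × T` which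
are isomorphic over every member of an open cover of `T` are isomorphic. -/
def LocIso : Prop :=
  ∀ {T : Scheme.{u}} (t : T ⟶ Spec (CommRingCat.of k)) (M M' : RigidifiedLineBundle c ε t)
    (𝒰 : Scheme.OpenCover.{u} T),
    (∀ i, Nonempty ((M.pullbackAlong (overOf t (𝒰.f i))).L ≅ (M'.pullbackAlong (overOf t (𝒰.f i))).L)) →
    Nonempty (M.L ≅ M'.L)

/-- **GLUE** (the rigidified Picard presheaf satisfies gluing): rigidified line bundles `M i` on the
`C × U i` whose classes agree on the overlaps come from a rigidified line bundle on `C × T`. -/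
def Glue : Prop :=
  ∀ {T : Scheme.{u}} (t : T ⟶ Spec (CommRingCat.of k)) (𝒰 : Scheme.OpenCover.{u} T)
    (M : ∀ i, RigidifiedLineBundle c ε (𝒰.f i ≫ t)),
    (∀ i j, Nonempty
      (((M i).pullbackAlong
          (⟨pullback.fst (𝒰.f i) (𝒰.f j), rfl⟩ :
            SchemeHomOver (pullback.fst (𝒰.f i) (𝒰.f j) ≫ 𝒰.f i ≫ t) (𝒰.f i ≫ t))).L ≅
        ((M j).pullbackAlong
          (⟨pullback.snd (𝒰.f i) (𝒰.f j), by
              rw [← Category.assoc, ← pullback.condition, Category.assoc]⟩ :
            SchemeHomOver (pullback.fst (𝒰.f i) (𝒰.f j) ≫ 𝒰.f i ≫ t) (𝒰.f j ≫ t))).L)) →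
    ∃ N : RigidifiedLineBundle c ε t,
      ∀ i, Nonempty ((N.pullbackAlong (overOf t (𝒰.f i))).L ≅ (M i).L)

/-- **SMALL**: the isomorphism classes of rigidified line bundles on `C × T` form a `u`-small type. -/
def SmallClasses : Prop :=
  ∀ {T : Scheme.{u}} (t : T ⟶ Spec (CommRingCat.of k)), Small.{u} (RigidifiedLineBundle.Classes c ε t)

/-- A family of charts of the sub-Picard functor of `P'`: schemes `X a` over `k` with rigidified line
bundles `𝓛 a` on `C × X a` satisfying `P'`. -/
structure ChartFamily (P' : SubPicCondition c ε) where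
  ι : Type u
  X : ι → Scheme.{u}
  x : ∀ a, X a ⟶ Spec (CommRingCat.of k)
  𝓛 : ∀ a, RigidifiedLineBundle c ε (x a)
  mem : ∀ a, P'.P (x a) (𝓛 a)

variable {c ε}

namespace ChartFamily

variable {P' : SubPicCondition c ε} (𝒳 : ChartFamily c ε P')

/-- The chart maps are monomorphisms: a classifying map into a chart is unique. -/
def Mono : Prop :=
  ∀ (a : 𝒳.ι) {T : Scheme.{u}} (t : T ⟶ Spec (CommRingCat.of k)) (g g' : SchemeHomOver t (𝒳.x a)),
    Nonempty (((𝒳.𝓛 a).pullbackAlong g).L ≅ ((𝒳.𝓛 a).pullbackAlong g').L) → g = g'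

/-- The chart maps are relatively representable by open immersions: for every `M` on `C × T` there is
an open `U ⊆ T` such that `h : T' ⟶ T` factors through `U` iff `h^* M` is classified by the chart. -/
def Open : Prop :=
  ∀ (a : 𝒳.ι) {T : Scheme.{u}} (t : T ⟶ Spec (CommRingCat.of k)) (M : RigidifiedLineBundle c ε t),
    P'.P t M → ∃ U : T.Opens, ∀ {T' : Scheme.{u}} (h : T' ⟶ T),
      (Set.range h.base ⊆ (U : Set T)) ↔
        ∃ g : SchemeHomOver (h ≫ t) (𝒳.x a), Classifies (𝒳.𝓛 a) (M.pullbackAlong (overOf t h)) g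

/-- The charts cover: every `M` is Zariski locally on `T` classified by some chart. -/
def Cover : Prop :=
  ∀ {T : Scheme.{u}} (t : T ⟶ Spec (CommRingCat.of k)) (M : RigidifiedLineBundle c ε t),
    P'.P t M → ∀ p : T, ∃ (a : 𝒳.ι) (U : T.Opens), p ∈ U ∧
      ∃ g : SchemeHomOver (U.ι ≫ t) (𝒳.x a), Classifies (𝒳.𝓛 a) (M.pullbackAlong (overOf t U.ι)) g

end ChartFamily

end Local

/-- **REPLOCAL** (= `Scheme.LocalRepresentability.isRepresentable` in the prelude's language):
a Zariski-local sub-Picard condition with a covering family of charts is representable; the charts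
are an open cover of the representing scheme and the Poincaré bundle restricts to the chart bundles. -/
def Stmt_REPLOCAL : Prop :=
  ∀ (k : Type u) [Field k] {C : Scheme.{u}} (c : C ⟶ Spec (CommRingCat.of k))
    (ε : SchemeHomOver (𝟙 (Spec (CommRingCat.of k))) c) (P' : SubPicCondition c ε)
    (𝒳 : ChartFamily c ε P'),
    IsLocalCond c ε P' → LocIso c ε → Glue c ε → SmallClasses c ε → 𝒳.Mono → 𝒳.Open → 𝒳.Cover →
    ∃ (D : RelativePic0Designation k c) (h : RepresentsRelSubPic c ε P' D)
      (j : ∀ a, SchemeHomOver (𝒳.x a) D.toBase),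
      (∀ a, IsOpenImmersion (j a).1) ∧ (∀ p : D.P, ∃ a, p ∈ Set.range (j a).1.base) ∧
      ∀ a, Classifies h.poincare (𝒳.𝓛 a) (j a)

/-- **LOCISO** for a proper smooth integral curve over an algebraically closed field. -/
def Stmt_LOCISO : Prop :=
  ∀ (k : Type u) [Field k] [IsAlgClosed k] {C : Scheme.{u}} (c : C ⟶ Spec (CommRingCat.of k))
    [IsProper c] [SmoothOfRelativeDimension 1 c] [IsIntegral C]
    (ε : SchemeHomOver (𝟙 (Spec (CommRingCat.of k))) c), LocIso c ε

/-- **GLUEPIC** for a proper smooth integral curve over an algebraically closed field. -/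
def Stmt_GLUEPIC : Prop :=
  ∀ (k : Type u) [Field k] [IsAlgClosed k] {C : Scheme.{u}} (c : C ⟶ Spec (CommRingCat.of k))
    [IsProper c] [SmoothOfRelativeDimension 1 c] [IsIntegral C]
    (ε : SchemeHomOver (𝟙 (Spec (CommRingCat.of k))) c), Glue c ε

/-- **SMALL**: smallness of the classes (any `c`, `ε`). -/
def Stmt_SMALL : Prop :=
  ∀ (k : Type u) [Field k] {C : Scheme.{u}} (c : C ⟶ Spec (CommRingCat.of k))
    (ε : SchemeHomOver (𝟙 (Spec (CommRingCat.of k))) c), SmallClasses c ε

/-- **GAMMA**: `Γ(C × T, O) = Γ(T, O)` for every `k`-scheme `T`. -/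
def Stmt_GAMMA : Prop :=
  ∀ (k : Type u) [Field k] [IsAlgClosed k] {C : Scheme.{u}} (c : C ⟶ Spec (CommRingCat.of k))
    [IsProper c] [IsIntegral C] {T : Scheme.{u}} (t : T ⟶ Spec (CommRingCat.of k)),
    Function.Bijective ((pullback.snd c t).appTop)

/-- A geometrically integral morphism is geometrically connected. -/
theorem geometricallyConnected_of_geometricallyIntegral {X Y : Scheme.{u}} (f : X ⟶ Y)
    [GeometricallyIntegral f] : GeometricallyConnected f := by
  refine ⟨fun K _ y Z fst snd hpb => ?_⟩
  have hZ : IsIntegral Z := GeometricallyIntegral.geometrically_isIntegral (f := f) y fst snd hpb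
  have : IrreducibleSpace Z := inferInstance
  exact inferInstanceAs (ConnectedSpace Z)

/-- S25 from CORE (wiring; uses helper61's `representsAlgEquivZeroCut_of`). -/
theorem stmt_S25_of_CORE (h : Stmt_CORE.{u}) : Stmt_S25.{u} := by
  intro k _ _ C c _ _ _ ε
  obtain ⟨P', D, ⟨hrep⟩, hP', hsm, hpr, hgi⟩ := h k c ε
  have := hgi
  have := hpr
  have : LocallyOfFiniteType D.toBase := inferInstance
  exact ⟨D, ⟨H61.representsAlgEquivZeroCut_of hrep (fun t M hM => hP' t M hM)⟩, hsm, hpr,
    geometricallyConnected_of_geometricallyIntegral D.toBase⟩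

end Fermat.Agent.S25.Top
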