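/-
helper32 (owner of S25), package TOP: INTERFACE FILE, part C = the chart level in the prelude's language.
Plan: NOTES/plan/S25.md.

`Stmt_CHARTS` is the ONLY thing the top level asks from the packages CURVE / BRIDGE / LB / NUM / DIV / ET:
a sub-Picard condition `P'` (Zariski local, containing the bundles which are fibrewise algebraically
equivalent to zero; intended: "fibrewise of degree zero" or "Zariski-locally classified by the charts")
and a family of charts of it which are smooth and reduced, such that
* `Mono`, `Open`, `Cover` (file `Top/Defs.lean`),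
* `ValUniq`  : the valuative criterion of separatedness for the functor,
* `Surj`     : a proper integral `Y` with a bundle `N` on `C × Y` hitting every `k`-point (`Y = C^g`).
`Stmt_GI` : an integral scheme over an algebraically closed field is geometrically integral (helper61).
The assembly `Stmt_CORE` ⟸ `Stmt_REPLOCAL`, `Stmt_LOCISO`, `Stmt_GLUEPIC`, `Stmt_SMALL`, `Stmt_GI`, `Stmt_CHARTS`
is proved in `Top/H32_Core.lean`.
-/
import Fermat.Agent.S25.Top.Defs

set_option autoImplicit false

universe u

open CategoryTheory CategoryTheory.Limits AlgebraicGeometry AlgebraicGeometry.RelPicard NeronModelInfra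
  GoodReductionJacobian

namespace Fermat.Agent.S25.Top

section

variable {k : Type u} [Field k] {C : Scheme.{u}} (c : C ⟶ Spec (CommRingCat.of k))
  (ε : SchemeHomOver (𝟙 (Spec (CommRingCat.of k))) c)

/-- **VAL-UNIQ**: the valuative criterion of separatedness for the sub-Picard functor of `P'`:
two bundles over a valuation ring `O` which satisfy `P'` and are isomorphic over the fraction field
are isomorphic. -/
def ValUniq (P' : SubPicCondition c ε) : Prop :=
  ∀ (O : Type u) [CommRing O] [IsDomain O] [ValuationRing O] (K : Type u) [Field K] [Algebra O K]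
    [IsFractionRing O K] (t : Spec (CommRingCat.of O) ⟶ Spec (CommRingCat.of k))
    (M M' : RigidifiedLineBundle c ε t), P'.P t M → P'.P t M' →
    Nonempty
      ((M.pullbackAlong (overOf t (Spec.map (CommRingCat.ofHom (algebraMap O K))))).L ≅
        (M'.pullbackAlong (overOf t (Spec.map (CommRingCat.ofHom (algebraMap O K))))).L) →
    Nonempty (M.L ≅ M'.L)

/-- **SURJ**: there is a proper integral `k`-scheme `Y` (in the proof: `Y = C^g`) with a bundle `N` on
`C × Y` satisfying `P'` such that every bundle with `P'` over the base field `k` is a fibre of `N`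
at a `k`-point of `Y`.  (Only `k`-points: the assembly uses that the representing scheme is a Jacobson
space and that the image of `Y` is closed.) -/
def Surj (P' : SubPicCondition c ε) : Prop :=
  ∃ (Y : Scheme.{u}) (y : Y ⟶ Spec (CommRingCat.of k)) (_ : IsProper y) (_ : IsIntegral Y)
    (N : RigidifiedLineBundle c ε y), P'.P y N ∧
    ∀ M : RigidifiedLineBundle c ε (𝟙 (Spec (CommRingCat.of k))),
      P'.P (𝟙 (Spec (CommRingCat.of k))) M →
      ∃ p : SchemeHomOver (𝟙 (Spec (CommRingCat.of k))) y, Classifies N M p

end

/-- **CHARTS**: everything the top level needs from the chart side. -/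
def Stmt_CHARTS : Prop :=
  ∀ (k : Type u) [Field k] [IsAlgClosed k] {C : Scheme.{u}} (c : C ⟶ Spec (CommRingCat.of k))
    [IsProper c] [SmoothOfRelativeDimension 1 c] [IsIntegral C]
    (ε : SchemeHomOver (𝟙 (Spec (CommRingCat.of k))) c),
    ∃ (P' : SubPicCondition c ε) (𝒳 : ChartFamily c ε P'),
      IsLocalCond c ε P' ∧ 𝒳.Mono ∧ 𝒳.Open ∧ 𝒳.Cover ∧
      (∀ {T : Scheme.{u}} (t : T ⟶ Spec (CommRingCat.of k)) (M : RigidifiedLineBundle c ε t),
        FibrewiseAlgEquivZero M → P'.P t M) ∧
      (∀ a, Smooth (𝒳.x a)) ∧ (∀ a, IsReduced (𝒳.X a)) ∧ ValUniq c ε P' ∧ Surj c ε P'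

/-- **GI**: an integral scheme over an algebraically closed field is geometrically integral. -/
def Stmt_GI : Prop :=
  ∀ (k : Type u) [Field k] [IsAlgClosed k] {X : Scheme.{u}} (f : X ⟶ Spec (CommRingCat.of k))
    [IsIntegral X], GeometricallyIntegral f

end Fermat.Agent.S25.Top
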