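/-
helper32 (owner of S25), package TOP: INTERFACE FILE, part P = the decomposition of `Stmt_CHARTS`.
Plan: NOTES/plan/S25.md.

`P'` := "fibrewise of degree zero", defined through the BRIDGE on affine test schemes:
`DegZero ρ g t M` : for every `k`-algebra `R` and every `φ : Spec R ⟶ T` over `k`, every triple of `φ^* M` has
Euler characteristic `1 - g` on all fibres (`IsDeg0`).
A `DegSetup c ε` bundles a good curve datum realised by `C`, its genus, and a `SubPicCondition` `P'` with
`P'.P = DegZero`.  The leaves: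

| leaf | Stmt | content |
|---|---|---|
| TOP-SETUP    | `Stmt_SETUP`    | a `DegSetup` exists (LINK + genus + bridge T1-T4, unit) |
| TOP-DEGLOC   | `Stmt_DEGLOC`   | `P'` is Zariski local |
| TOP-AEZDEG   | `Stmt_AEZDEG`   | fibrewise algebraically equivalent to zero ⟹ fibrewise of degree zero |
| TOP-VALUNIQ  | `Stmt_VALUNIQ`  | valuative criterion of separatedness for degree zero bundles |
| TOP-SURJ     | `Stmt_SURJ`     | the family over `C^g` |
| TOP-CHARTFAM | `Stmt_CHARTFAM` | affine smooth charts with `MonoAff`, `OpenAff`, `CoverAff` (affine test schemes only) |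
| TOP-AFFRED   | `Stmt_AFFRED`   | affine test schemes are enough: `MonoAff`, `OpenAff`, `CoverAff` ⟹ `Mono`, `Open`, `Cover` |
-/
import Fermat.Agent.S25.Top.DefsC
import Fermat.Agent.S25.Bridge.Defs
import Fermat.Agent.S25.Chart.Defs2
import Fermat.Agent.S25.P1.DefsC

set_option autoImplicit false

universe u

open CategoryTheory CategoryTheory.Limits AlgebraicGeometry AlgebraicGeometry.RelPicard NeronModelInfra
  GoodReductionJacobian TensorProduct

namespace Fermat.Agent.S25.Top

open Fermat.Agent.S25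

section

variable {k : Type u} [Field k]

/-- A triple over `R` is fibrewise of degree zero: the Euler characteristic of every fibre is `1 - g`. -/
def IsDeg0 {𝒞 : LB.CurveDatum k} (g : ℕ) {R : Type u} [CommRing R] [Algebra k R]
    (L : LB.Triple 𝒞 R) : Prop :=
  ∀ p : PrimeSpectrum R, (L.toData.h0At p : ℤ) - (L.toData.h1At p : ℤ) = 1 - (g : ℤ)

variable {C : Scheme.{u}} {c : C ⟶ Spec (CommRingCat.of k)}
  {ε : SchemeHomOver (𝟙 (Spec (CommRingCat.of k))) c}

variable (k) in
/-- The morphism `Spec R' ⟶ Spec R` over `k` of an algebra map. -/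
noncomputable def specOver (R R' : Type u) [CommRing R] [Algebra k R] [CommRing R'] [Algebra k R']
    [Algebra R R'] [IsScalarTower k R R'] : SchemeHomOver (Bridge.tR k R') (Bridge.tR k R) :=
  ⟨Spec.map (CommRingCat.ofHom (algebraMap R R')), by
    rw [← Spec.map_comp, ← CommRingCat.ofHom_comp, ← IsScalarTower.algebraMap_eq]⟩

/-- A rigidified line bundle on `C × T` is fibrewise of degree zero. -/
def DegZero {𝒞 : LB.CurveDatum k} (ρ : Bridge.Realizes c ε 𝒞) (g : ℕ) {T : Scheme.{u}}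
    (t : T ⟶ Spec (CommRingCat.of k)) (M : RigidifiedLineBundle c ε t) : Prop :=
  ∀ (R : Type u) [CommRing R] [Algebra k R] (φ : SchemeHomOver (Bridge.tR k R) t)
    (L : LB.Triple 𝒞 R), Bridge.IsTripleOf ρ R (M.pullbackAlong φ).L L → IsDeg0 g L

variable (c ε)

/-- The set-up of the degree: a good curve datum realised by `C`, its genus, and the sub-Picard condition
"fibrewise of degree zero". -/
structure DegSetup where
  𝒞 : LB.CurveDatum k
  good : 𝒞.IsGood
  ρ : Bridge.Realizes c ε 𝒞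
  g : ℕ
  genus : Chart.IsGenus 𝒞 g
  P' : SubPicCondition c ε
  hP' : ∀ {T : Scheme.{u}} (t : T ⟶ Spec (CommRingCat.of k)) (M : RigidifiedLineBundle c ε t),
    P'.P t M ↔ DegZero ρ g t M

variable {c ε}

namespace ChartFamily

variable {P' : SubPicCondition c ε} (𝒳 : ChartFamily c ε P')

/-- `Mono` for affine test schemes `Spec R`. -/
def MonoAff : Prop :=
  ∀ (a : 𝒳.ι) (R : Type u) [CommRing R] [Algebra k R] (g g' : SchemeHomOver (Bridge.tR k R) (𝒳.x a)),
    Nonempty (((𝒳.𝓛 a).pullbackAlong g).L ≅ ((𝒳.𝓛 a).pullbackAlong g').L) → g = g'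

/-- `Open` for affine test schemes: for `M` on `C × Spec R` there is an open `U ⊆ Spec R` such that
`Spec R' ⟶ Spec R` factors through `U` iff the pull-back of `M` to `R'` is classified by the chart. -/
def OpenAff : Prop :=
  ∀ (a : 𝒳.ι) (R : Type u) [CommRing R] [Algebra k R] (M : RigidifiedLineBundle c ε (Bridge.tR k R)),
    P'.P (Bridge.tR k R) M → ∃ U : (Spec (CommRingCat.of R)).Opens,
      ∀ (R' : Type u) [CommRing R'] [Algebra k R'] [Algebra R R'] [IsScalarTower k R R'],
        (Set.range (specOver k R R').1.base ⊆ (U : Set (Spec (CommRingCat.of R)))) ↔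
          ∃ g : SchemeHomOver (Bridge.tR k R') (𝒳.x a),
            Classifies (𝒳.𝓛 a) (M.pullbackAlong (specOver k R R')) g

/-- `Cover` for affine test schemes: every `M` on `C × Spec R` is classified by a chart over a principal
open neighbourhood `D(r)` of any given point. -/
def CoverAff : Prop :=
  ∀ (R : Type u) [CommRing R] [Algebra k R] (M : RigidifiedLineBundle c ε (Bridge.tR k R)),
    P'.P (Bridge.tR k R) M → ∀ p : PrimeSpectrum R, ∃ (a : 𝒳.ι) (r : R), r ∉ p.asIdeal ∧
      ∃ g : SchemeHomOver (Bridge.tR k (Localization.Away r)) (𝒳.x a),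
        Classifies (𝒳.𝓛 a) (M.pullbackAlong (specOver k R (Localization.Away r))) g

end ChartFamily

end

/-- **TOP-SETUP**: the degree set-up exists. -/
def Stmt_SETUP : Prop :=
  ∀ (k : Type u) [Field k] [IsAlgClosed k] {C : Scheme.{u}} (c : C ⟶ Spec (CommRingCat.of k))
    [IsProper c] [SmoothOfRelativeDimension 1 c] [IsIntegral C]
    (ε : SchemeHomOver (𝟙 (Spec (CommRingCat.of k))) c), Nonempty (DegSetup c ε)

/-- **TOP-DEGLOC**: "fibrewise of degree zero" is Zariski local on the base. -/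
def Stmt_DEGLOC : Prop :=
  ∀ (k : Type u) [Field k] [IsAlgClosed k] {C : Scheme.{u}} (c : C ⟶ Spec (CommRingCat.of k))
    [IsProper c] [SmoothOfRelativeDimension 1 c] [IsIntegral C]
    (ε : SchemeHomOver (𝟙 (Spec (CommRingCat.of k))) c) (S : DegSetup c ε), IsLocalCond c ε S.P'

/-- **TOP-AEZDEG**: fibrewise algebraically equivalent to zero ⟹ fibrewise of degree zero. -/
def Stmt_AEZDEG : Prop :=
  ∀ (k : Type u) [Field k] [IsAlgClosed k] {C : Scheme.{u}} (c : C ⟶ Spec (CommRingCat.of k))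
    [IsProper c] [SmoothOfRelativeDimension 1 c] [IsIntegral C]
    (ε : SchemeHomOver (𝟙 (Spec (CommRingCat.of k))) c) (S : DegSetup c ε)
    {T : Scheme.{u}} (t : T ⟶ Spec (CommRingCat.of k)) (M : RigidifiedLineBundle c ε t),
    FibrewiseAlgEquivZero M → S.P'.P t M

/-- **TOP-VALUNIQ**: the valuative criterion of separatedness for degree zero bundles. -/
def Stmt_VALUNIQ : Prop :=
  ∀ (k : Type u) [Field k] [IsAlgClosed k] {C : Scheme.{u}} (c : C ⟶ Spec (CommRingCat.of k))
    [IsProper c] [SmoothOfRelativeDimension 1 c] [IsIntegral C]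
    (ε : SchemeHomOver (𝟙 (Spec (CommRingCat.of k))) c) (S : DegSetup c ε), ValUniq c ε S.P'

/-- **TOP-SURJ**: the family of degree zero bundles over `C^g` hitting every degree zero bundle over `k`. -/
def Stmt_SURJ : Prop :=
  ∀ (k : Type u) [Field k] [IsAlgClosed k] {C : Scheme.{u}} (c : C ⟶ Spec (CommRingCat.of k))
    [IsProper c] [SmoothOfRelativeDimension 1 c] [IsIntegral C]
    (ε : SchemeHomOver (𝟙 (Spec (CommRingCat.of k))) c) (S : DegSetup c ε), Surj c ε S.P'

/-- **TOP-CHARTFAM**: smooth charts of the degree zero functor, tested on affine schemes. -/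
def Stmt_CHARTFAM : Prop :=
  ∀ (k : Type u) [Field k] [IsAlgClosed k] {C : Scheme.{u}} (c : C ⟶ Spec (CommRingCat.of k))
    [IsProper c] [SmoothOfRelativeDimension 1 c] [IsIntegral C]
    (ε : SchemeHomOver (𝟙 (Spec (CommRingCat.of k))) c) (S : DegSetup c ε),
    ∃ 𝒳 : ChartFamily c ε S.P', 𝒳.MonoAff ∧ 𝒳.OpenAff ∧ 𝒳.CoverAff ∧ ∀ a, Smooth (𝒳.x a)

/-- **TOP-AFFRED**: affine test schemes are enough (formal: morphisms glue, `LocIso`). -/
def Stmt_AFFRED : Prop :=
  ∀ (k : Type u) [Field k] {C : Scheme.{u}} (c : C ⟶ Spec (CommRingCat.of k))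
    (ε : SchemeHomOver (𝟙 (Spec (CommRingCat.of k))) c) (P' : SubPicCondition c ε)
    (𝒳 : ChartFamily c ε P'), LocIso c ε → IsLocalCond c ε P' →
    𝒳.MonoAff → 𝒳.OpenAff → 𝒳.CoverAff → 𝒳.Mono ∧ 𝒳.Open ∧ 𝒳.Cover

/-- **TOP-CHRED**: a scheme smooth over a field is reduced (helper99, `Top/H99_RedScheme.lean`). -/
def Stmt_CHRED : Prop :=
  ∀ (k : Type u) [Field k] {X : Scheme.{u}} (x : X ⟶ Spec (CommRingCat.of k)) [Smooth x], IsReduced X

/-- The chart level from its leaves. -/
theorem stmt_CHARTS_of (hSet : Stmt_SETUP.{u}) (hLoc : Stmt_DEGLOC.{u}) (hAez : Stmt_AEZDEG.{u})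
    (hVal : Stmt_VALUNIQ.{u}) (hSurj : Stmt_SURJ.{u}) (hFam : Stmt_CHARTFAM.{u})
    (hRed : Stmt_AFFRED.{u}) (hL : Stmt_LOCISO.{u}) (hCR : Stmt_CHRED.{u}) : Stmt_CHARTS.{u} := by
  intro k _ _ C c _ _ _ ε
  obtain ⟨S⟩ := hSet k c ε
  obtain ⟨𝒳, hm, ho, hc, hsm⟩ := hFam k c ε S
  obtain ⟨hM, hO, hCv⟩ := hRed k c ε S.P' 𝒳 (hL k c ε) (hLoc k c ε S) hm ho hc
  exact ⟨S.P', 𝒳, hLoc k c ε S, hM, hO, hCv, fun t M hM' => hAez k c ε S t M hM', hsm,
    fun a => have := hsm a; hCR k (𝒳.x a), hVal k c ε S, hSurj k c ε S⟩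

end Fermat.Agent.S25.Top
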