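/-
helper20, S25 (Jacobian exists), package TOP, leaf TOP-VALUNIQ: INTERFACE between the bridge wiring
(helper20, `Top/H20_ValUniq.lean`) and the algebra core on triples (helper30, `Top/H30_ValUniq.lean`).

* `T4Rel R R' T T'` : the relation between a triple `T` over `R` and a triple `T'` over `R'` which
  `Bridge.Stmt_T4` delivers for the triples of a sheaf and of its pull-back (the relational form of `LB.Stmt_BC`).
* `Stmt_VALCORE`    : two triples over a valuation ring `O ⊇ k`, fibrewise of degree zero, whose generic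
  fibres (triples over `K = Frac O`, related by `T4Rel`) are isomorphic, are isomorphic.
-/
import Fermat.Agent.S25.Top.DefsP

set_option autoImplicit false

universe u

open TensorProduct

namespace Fermat.Agent.S25.Top.H20

open Fermat.Agent.S25

/-- The relation between the triple `T` of a sheaf on `C × Spec R` and the triple `T'` of its pull-back
to `C × Spec R'` (the conclusion of `Bridge.Stmt_T4`). -/
def T4Rel {k : Type u} [Field k] {𝒞 : LB.CurveDatum k} (R R' : Type u) [CommRing R] [Algebra k R]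
    [CommRing R'] [Algebra k R'] [Algebra R R'] [IsScalarTower k R R']
    (T : LB.Triple 𝒞 R) (T' : LB.Triple 𝒞 R') : Prop :=
  ∃ (b0 : T.P0 →+ T'.P0) (b1 : T.P1 →+ T'.P1) (b01 : T.P01 →+ T'.P01)
    (E : P1.Data.Iso (T.toData.baseChange R') T'.toData),
    (∀ p, b01 (T.r0 p) = T'.r0 (b0 p)) ∧ (∀ p, b01 (T.r1 p) = T'.r1 (b1 p)) ∧
    (∀ (a : R') (p : T.P0), E.e0 (a ⊗ₜ[R] p) = algebraMap R' (R' ⊗[k] 𝒞.B0) a • b0 p) ∧
    (∀ (a : R') (p : T.P1), E.e1 (a ⊗ₜ[R] p) = algebraMap R' (R' ⊗[k] 𝒞.B1) a • b1 p) ∧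
    (∀ (a : R') (p : T.P01), E.e01 (a ⊗ₜ[R] p) = algebraMap R' (R' ⊗[k] 𝒞.B01) a • b01 p) ∧
    (∀ (a : R ⊗[k] 𝒞.B0) (p : T.P0),
      b0 (a • p) = Algebra.TensorProduct.map (Algebra.ofId R R') (AlgHom.id k 𝒞.B0) a • b0 p) ∧
    (∀ (a : R ⊗[k] 𝒞.B1) (p : T.P1),
      b1 (a • p) = Algebra.TensorProduct.map (Algebra.ofId R R') (AlgHom.id k 𝒞.B1) a • b1 p)

/-- **VALCORE** (helper30): the valuative criterion of separatedness on triples. -/
def Stmt_VALCORE : Prop :=
  ∀ (k : Type u) [Field k] [IsAlgClosed k] (𝒞 : LB.CurveDatum k), 𝒞.IsGood →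
    ∀ g : ℕ, Chart.IsGenus 𝒞 g →
    ∀ (O : Type u) [CommRing O] [IsDomain O] [ValuationRing O] [Algebra k O]
      (K : Type u) [Field K] [Algebra k K] [Algebra O K] [IsScalarTower k O K] [IsFractionRing O K]
      (L L' : LB.Triple 𝒞 O) (LK LK' : LB.Triple 𝒞 K),
      IsDeg0 g L → IsDeg0 g L' → IsDeg0 g LK → IsDeg0 g LK' →
      T4Rel O K L LK → T4Rel O K L' LK' →
      Nonempty (LB.Triple.Iso LK LK') → Nonempty (LB.Triple.Iso L L')

end Fermat.Agent.S25.Top.H20
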