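/-
helper19 (sub-planner of TOP-CHARTFAM), S25 (Jacobian exists), package TOP: INTERFACE FILE, part F =
the TRANSLATION of the charts of triples (`Trip.Stmt_TCHARTS`, helper71) into a chart family of the
degree zero functor in the prelude's language (`Top.Stmt_CHARTFAM`, helper32).
Plan: NOTES/plan/S25.md, NOTES/plan/S25_FAM.md.

INPUT  : `TChartsFor 𝒞` (the conclusion of `Trip.Stmt_TCHARTS` for ONE curve datum), the bridge
         (`Bridge.Stmt_T1 … T4`, `Stmt_RIG`), `Top.Stmt_LOCISO`.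
OUTPUT : `Stmt_CHARTFAME` (= `Top.Stmt_CHARTFAM` for a set-up with an étale element and `g = genus`),
         and `stmt_CHARTS_of_e`, the chart level `Top.Stmt_CHARTS` from `Stmt_SETUPE` + `Stmt_CHARTFAME`.

THE CUT (each leaf is developed against the `Stmt_*` it needs as HYPOTHESES):

| leaf | Stmt | content | needs |
|---|---|---|---|
| FAM-SMOOTH   | `Stmt_FAMSMOOTH`   | `Algebra.Smooth k B` ⟹ `Smooth (Spec B ⟶ Spec k)` | Mathlib |
| FAM-HOM      | `Stmt_FAMHOM`      | `φ ↦ homOf k φ` is a bijection `(B →ₐ[k] R) → SchemeHomOver (tR k R) (tR k B)` | Mathlib |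
| FAM-T4BC     | `Stmt_FAMT4BC`     | pure algebra: `H20.T4Rel R R' T T'` ⟹ `Chart.BC (toAlgHom) T T'` | LB |
| FAM-PULL     | `Stmt_FAMPULL`     | the triple of the pull-back of a sheaf along `homOf k φ` is a base change along `φ` | T4, FAM-T4BC |
| FAM-ISOTR    | `Stmt_FAMISOTR`    | `IsTripleOf` is invariant under isomorphisms of the sheaf | Mathlib |
| FAM-DICT     | `Stmt_FAMDICT`     | `Top.Classifies 𝓛 M (homOf k φ) ↔ Trip.ClassBy Q L φ` | T1, T2, FAM-PULL, BCUNIQ |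
| FAM-OBJ      | `Stmt_FAMOBJ`      | a rigid triple over `B` is the triple of a rigidified line bundle on `C × Spec B` | T3, RIG |
| FAM-DEG      | `Stmt_FAMDEG`      | `P'` (degree zero) of a bundle over `Spec R` ⟺ `Trip.Deg0` of its triple | FAM-HOM, FAM-PULL, FAM-ISOTR, DEGBC |
| FAM-MONO     | `Stmt_FAMMONO`     | `MonoCh` ⟹ `MonoAff` | FAM-HOM, FAM-DICT, T1 |
| FAM-COVER    | `Stmt_FAMCOVER`    | `LocIn` ⟹ `CoverAff` | FAM-DEG, FAM-DICT, FAM-PULL, T1, BCUNIQ |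
| FAM-OPENPT   | `Stmt_FAMOPENPT`   | `OpenCh` ⟹ `OpenPtAff` | FAM-HOM, FAM-DICT, FAM-PULL, T1, BCUNIQ |
| FAM-OPENGLUE | `Stmt_FAMOPENGLUE` | FORMAL (any chart family): `LocIso`, `MonoAff`, `OpenPtAff` ⟹ `OpenAff` | Mathlib (gluing of morphisms) |
| FAM-ASM      | `stmt_CHARTFAME_of` | the assembly (PROVED in `Top/H19_FamAsm.lean`) | all |
-/
import Fermat.Agent.S25.Top.DefsP
import Fermat.Agent.S25.Top.H20_ValUniqDefs
import Fermat.Agent.S25.Trip.Defs

set_option autoImplicit false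

universe u

open CategoryTheory CategoryTheory.Limits AlgebraicGeometry AlgebraicGeometry.RelPicard NeronModelInfra
  GoodReductionJacobian TensorProduct

namespace Fermat.Agent.S25.Top.F

open Fermat.Agent.S25

/-! ## Definitions -/

section Defs

variable (k : Type u) [Field k]

/-- The morphism `Spec R ⟶ Spec B` over `k` of a `k`-algebra map `φ : B → R`. -/
noncomputable def homOf {B R : Type u} [CommRing B] [Algebra k B] [CommRing R] [Algebra k R]
    (φ : B →ₐ[k] R) : SchemeHomOver (Bridge.tR k R) (Bridge.tR k B) :=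
  ⟨Spec.map (CommRingCat.ofHom φ.toRingHom), by
    rw [← Spec.map_comp, ← CommRingCat.ofHom_comp]
    exact congrArg (fun f => Spec.map (CommRingCat.ofHom f)) φ.comp_algebraMap⟩

@[simp] theorem homOf_val {B R : Type u} [CommRing B] [Algebra k B] [CommRing R] [Algebra k R]
    (φ : B →ₐ[k] R) : (homOf k φ).1 = Spec.map (CommRingCat.ofHom φ.toRingHom) := rfl

/-- `specOver` is `homOf` of the structure map. -/
theorem specOver_eq_homOf (R R' : Type u) [CommRing R] [Algebra k R] [CommRing R'] [Algebra k R']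
    [Algebra R R'] [IsScalarTower k R R'] :
    specOver k R R' = homOf k (IsScalarTower.toAlgHom k R R') := rfl

variable {k}

/-- The conclusion of `Trip.Stmt_TCHARTS` for one curve datum `𝒞`: smooth finitely presented charts with
rigid chart bundles of degree `0`, which are monomorphisms, open, and cover the triples of degree `0`. -/
def TChartsFor (𝒞 : LB.CurveDatum k) : Prop :=
  ∃ X : Trip.Charts 𝒞,
    (∀ a, Algebra.FinitePresentation k (X.B a)) ∧ (∀ a, Algebra.Smooth k (X.B a)) ∧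
    (∀ a, (X.Q a).IsRigid) ∧ (∀ a, Trip.Deg0 (X.Q a)) ∧
    (∀ a, Trip.MonoCh (X.Q a)) ∧ (∀ a, Trip.OpenCh (X.Q a)) ∧
    ∀ (R : Type u) [CommRing R] [Algebra k R] (L : LB.Triple 𝒞 R), Trip.Deg0 L → X.LocIn L

variable {C : Scheme.{u}} {c : C ⟶ Spec (CommRingCat.of k)}
  {ε : SchemeHomOver (𝟙 (Spec (CommRingCat.of k))) c}

/-- The sheaf form of a family of charts of triples: `X a := Spec (B a)` with the bundle `𝓛 a`. -/
noncomputable def famOf {𝒞 : LB.CurveDatum k} (P' : SubPicCondition c ε) (X : Trip.Charts 𝒞)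
    (𝓛 : ∀ a, RigidifiedLineBundle c ε (Bridge.tR k (X.B a)))
    (mem : ∀ a, P'.P (Bridge.tR k (X.B a)) (𝓛 a)) : ChartFamily c ε P' where
  ι := X.ι
  X := fun a => Spec (CommRingCat.of (X.B a))
  x := fun a => Bridge.tR k (X.B a)
  𝓛 := 𝓛
  mem := mem

/-- **OpenPtAff** (the chart is open at every point, affine test schemes): if the pull-back of `M` to
`Spec R'` is classified by the chart `a`, then every point of `Spec R'` maps into a principal open `D(r)`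
of `Spec R` over which `M` is classified by the chart `a`. -/
def OpenPtAff {P' : SubPicCondition c ε} (𝒳 : ChartFamily c ε P') : Prop :=
  ∀ (a : 𝒳.ι) (R : Type u) [CommRing R] [Algebra k R] (M : RigidifiedLineBundle c ε (Bridge.tR k R)),
    P'.P (Bridge.tR k R) M →
    ∀ (R' : Type u) [CommRing R'] [Algebra k R'] [Algebra R R'] [IsScalarTower k R R']
      (g : SchemeHomOver (Bridge.tR k R') (𝒳.x a)),
      Classifies (𝒳.𝓛 a) (M.pullbackAlong (specOver k R R')) g →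
      ∀ p' : PrimeSpectrum R', ∃ r : R, algebraMap R R' r ∉ p'.asIdeal ∧
        ∃ g' : SchemeHomOver (Bridge.tR k (Localization.Away r)) (𝒳.x a),
          Classifies (𝒳.𝓛 a) (M.pullbackAlong (specOver k R (Localization.Away r))) g'

end Defs

/-! ## The leaves -/

/-- **FAM-SMOOTH**: the spectrum of a smooth `k`-algebra is smooth over `Spec k`. -/
def Stmt_FAMSMOOTH : Prop :=
  ∀ (k : Type u) [Field k] (B : Type u) [CommRing B] [Algebra k B], Algebra.Smooth k B →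
    Smooth (Bridge.tR k B)

/-- **FAM-HOM**: morphisms `Spec R ⟶ Spec B` over `k` are the `k`-algebra maps `B → R`. -/
def Stmt_FAMHOM : Prop :=
  ∀ (k : Type u) [Field k] (B R : Type u) [CommRing B] [Algebra k B] [CommRing R] [Algebra k R],
    Function.Bijective (homOf k : (B →ₐ[k] R) → SchemeHomOver (Bridge.tR k R) (Bridge.tR k B))

/-- **FAM-T4BC** (pure algebra): the relation which `Bridge.Stmt_T4` delivers is a base change in the sense
of `Chart.BC`.  (`semi01`: `P01` is the localisation of `P0` at `x0` and `b01` commutes with `x0` by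
`E.e01_T`; `gen_i`: `E.e_i` is onto.) -/
def Stmt_FAMT4BC : Prop :=
  ∀ (k : Type u) [Field k] (𝒞 : LB.CurveDatum k), 𝒞.IsGood →
    ∀ (R R' : Type u) [CommRing R] [Algebra k R] [CommRing R'] [Algebra k R'] [Algebra R R']
      [IsScalarTower k R R'] (T : LB.Triple 𝒞 R) (T' : LB.Triple 𝒞 R'), H20.T4Rel R R' T T' →
      Nonempty (Chart.BC (IsScalarTower.toAlgHom k R R') T T')

/-- **FAM-PULL**: the triple of the pull-back of a sheaf along `homOf k φ` is a base change of its triple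
along `φ`. -/
def Stmt_FAMPULL : Prop :=
  ∀ (k : Type u) [Field k] {C : Scheme.{u}} (c : C ⟶ Spec (CommRingCat.of k))
    (ε : SchemeHomOver (𝟙 (Spec (CommRingCat.of k))) c) (𝒞 : LB.CurveDatum k), 𝒞.IsGood →
    ∀ (ρ : Bridge.Realizes c ε 𝒞) (R R' : Type u) [CommRing R] [Algebra k R] [CommRing R']
      [Algebra k R'] (φ : R →ₐ[k] R') (L : (Bridge.XR c R).Modules) (T : LB.Triple 𝒞 R)
      (T' : LB.Triple 𝒞 R'),
      Scheme.Modules.IsInvertible L → Bridge.IsTripleOf ρ R L T →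
      Bridge.IsTripleOf ρ R' ((Scheme.Modules.pullback (baseChangeSnd c (homOf k φ))).obj L) T' →
      Nonempty (Chart.BC φ T T')

/-- **FAM-ISOTR**: a triple of a sheaf is a triple of every isomorphic sheaf. -/
def Stmt_FAMISOTR : Prop :=
  ∀ (k : Type u) [Field k] {C : Scheme.{u}} (c : C ⟶ Spec (CommRingCat.of k))
    (ε : SchemeHomOver (𝟙 (Spec (CommRingCat.of k))) c) (𝒞 : LB.CurveDatum k)
    (ρ : Bridge.Realizes c ε 𝒞) (R : Type u) [CommRing R] [Algebra k R]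
    (L L' : (Bridge.XR c R).Modules) (T : LB.Triple 𝒞 R),
    Nonempty (L ≅ L') → Bridge.IsTripleOf ρ R L T → Bridge.IsTripleOf ρ R L' T

/-- **FAM-DICT** (the dictionary): `M` is classified by `𝓛` through `homOf k φ` iff the triple of `M` is
classified by the triple of `𝓛` through `φ`. -/
def Stmt_FAMDICT : Prop :=
  ∀ (k : Type u) [Field k] {C : Scheme.{u}} (c : C ⟶ Spec (CommRingCat.of k))
    (ε : SchemeHomOver (𝟙 (Spec (CommRingCat.of k))) c) (𝒞 : LB.CurveDatum k), 𝒞.IsGood →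
    ∀ (ρ : Bridge.Realizes c ε 𝒞) (B R : Type u) [CommRing B] [Algebra k B] [CommRing R]
      [Algebra k R] (𝓛 : RigidifiedLineBundle c ε (Bridge.tR k B)) (Q : LB.Triple 𝒞 B)
      (M : RigidifiedLineBundle c ε (Bridge.tR k R)) (L : LB.Triple 𝒞 R) (φ : B →ₐ[k] R),
      Bridge.IsTripleOf ρ B 𝓛.L Q → Bridge.IsTripleOf ρ R M.L L →
      (Classifies 𝓛 M (homOf k φ) ↔ Trip.ClassBy Q L φ)

/-- **FAM-OBJ**: a rigid triple over `B` is the triple of a rigidified line bundle on `C × Spec B`. -/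
def Stmt_FAMOBJ : Prop :=
  ∀ (k : Type u) [Field k] {C : Scheme.{u}} (c : C ⟶ Spec (CommRingCat.of k))
    (ε : SchemeHomOver (𝟙 (Spec (CommRingCat.of k))) c) (𝒞 : LB.CurveDatum k), 𝒞.IsGood →
    ∀ (ρ : Bridge.Realizes c ε 𝒞) (B : Type u) [CommRing B] [Algebra k B] (Q : LB.Triple 𝒞 B),
      Q.IsRigid → ∃ 𝓛 : RigidifiedLineBundle c ε (Bridge.tR k B), Bridge.IsTripleOf ρ B 𝓛.L Q

/-- **FAM-DEG**: for a set-up with `g = genus`, a bundle on `C × Spec R` is of degree zero iff its triple has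
degree `0` on all fibres. -/
def Stmt_FAMDEG : Prop :=
  ∀ (k : Type u) [Field k] {C : Scheme.{u}} (c : C ⟶ Spec (CommRingCat.of k))
    (ε : SchemeHomOver (𝟙 (Spec (CommRingCat.of k))) c) (S : DegSetup c ε),
    S.g = Num.genus S.𝒞 →
    ∀ (R : Type u) [CommRing R] [Algebra k R] (M : RigidifiedLineBundle c ε (Bridge.tR k R))
      (L : LB.Triple S.𝒞 R), Bridge.IsTripleOf S.ρ R M.L L →
      (S.P'.P (Bridge.tR k R) M ↔ Trip.Deg0 L)

/-- **FAM-MONO**: charts of triples which are monomorphisms give a chart family with `MonoAff`. -/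
def Stmt_FAMMONO : Prop :=
  ∀ (k : Type u) [Field k] {C : Scheme.{u}} (c : C ⟶ Spec (CommRingCat.of k))
    (ε : SchemeHomOver (𝟙 (Spec (CommRingCat.of k))) c) (S : DegSetup c ε) (X : Trip.Charts S.𝒞)
    (𝓛 : ∀ a, RigidifiedLineBundle c ε (Bridge.tR k (X.B a)))
    (mem : ∀ a, S.P'.P (Bridge.tR k (X.B a)) (𝓛 a)),
    (∀ a, Bridge.IsTripleOf S.ρ (X.B a) (𝓛 a).L (X.Q a)) → (∀ a, Trip.MonoCh (X.Q a)) →
    (famOf S.P' X 𝓛 mem).MonoAff

/-- **FAM-COVER**: charts of triples which cover the triples of degree `0` give a chart family with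
`CoverAff`. -/
def Stmt_FAMCOVER : Prop :=
  ∀ (k : Type u) [Field k] {C : Scheme.{u}} (c : C ⟶ Spec (CommRingCat.of k))
    (ε : SchemeHomOver (𝟙 (Spec (CommRingCat.of k))) c) (S : DegSetup c ε),
    S.g = Num.genus S.𝒞 →
    ∀ (X : Trip.Charts S.𝒞) (𝓛 : ∀ a, RigidifiedLineBundle c ε (Bridge.tR k (X.B a)))
      (mem : ∀ a, S.P'.P (Bridge.tR k (X.B a)) (𝓛 a)),
      (∀ a, Bridge.IsTripleOf S.ρ (X.B a) (𝓛 a).L (X.Q a)) →
      (∀ (R : Type u) [CommRing R] [Algebra k R] (L : LB.Triple S.𝒞 R), Trip.Deg0 L → X.LocIn L) →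
      (famOf S.P' X 𝓛 mem).CoverAff

/-- **FAM-OPENPT**: open charts of triples give a chart family with `OpenPtAff`. -/
def Stmt_FAMOPENPT : Prop :=
  ∀ (k : Type u) [Field k] {C : Scheme.{u}} (c : C ⟶ Spec (CommRingCat.of k))
    (ε : SchemeHomOver (𝟙 (Spec (CommRingCat.of k))) c) (S : DegSetup c ε) (X : Trip.Charts S.𝒞)
    (𝓛 : ∀ a, RigidifiedLineBundle c ε (Bridge.tR k (X.B a)))
    (mem : ∀ a, S.P'.P (Bridge.tR k (X.B a)) (𝓛 a)),
    (∀ a, Bridge.IsTripleOf S.ρ (X.B a) (𝓛 a).L (X.Q a)) → (∀ a, Trip.OpenCh (X.Q a)) →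
    OpenPtAff (famOf S.P' X 𝓛 mem)

/-- **FAM-OPENGLUE** (formal, any chart family): classifying maps glue (`MonoAff`), isomorphisms glue
(`LocIso`); hence a chart which is open at every point satisfies `OpenAff`, with
`U := ⋃ {D(r) | M is classified by the chart over D(r)}`. -/
def Stmt_FAMOPENGLUE : Prop :=
  ∀ (k : Type u) [Field k] {C : Scheme.{u}} (c : C ⟶ Spec (CommRingCat.of k))
    (ε : SchemeHomOver (𝟙 (Spec (CommRingCat.of k))) c) (P' : SubPicCondition c ε)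
    (𝒳 : ChartFamily c ε P'), LocIso c ε → 𝒳.MonoAff → OpenPtAff 𝒳 → 𝒳.OpenAff

/-! ## The output -/

/-- **TOP-SETUPE**: a degree set-up with an étale element and `g = genus` exists
(the curve datum from `Curve.Stmt_BCOVER_SEP`). -/
def Stmt_SETUPE : Prop :=
  ∀ (k : Type u) [Field k] [IsAlgClosed k] {C : Scheme.{u}} (c : C ⟶ Spec (CommRingCat.of k))
    [IsProper c] [SmoothOfRelativeDimension 1 c] [IsIntegral C]
    (ε : SchemeHomOver (𝟙 (Spec (CommRingCat.of k))) c),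
    ∃ S : DegSetup c ε, (∃ h : S.𝒞.B0, Chart.IsEtAt S.𝒞 h) ∧ S.g = Num.genus S.𝒞

/-- **T-CHARTSE**: `Trip.Stmt_TCHARTS` for curve data with an étale element. -/
def Stmt_TCHARTSE : Prop :=
  ∀ (k : Type u) [Field k] [IsAlgClosed k] (𝒞 : LB.CurveDatum k), 𝒞.IsGood →
    ∀ h : 𝒞.B0, Chart.IsEtAt 𝒞 h → TChartsFor 𝒞

/-- **TOP-CHARTFAME**: `Top.Stmt_CHARTFAM` for a set-up with an étale element and `g = genus`. -/
def Stmt_CHARTFAME : Prop :=
  ∀ (k : Type u) [Field k] [IsAlgClosed k] {C : Scheme.{u}} (c : C ⟶ Spec (CommRingCat.of k))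
    [IsProper c] [SmoothOfRelativeDimension 1 c] [IsIntegral C]
    (ε : SchemeHomOver (𝟙 (Spec (CommRingCat.of k))) c) (S : DegSetup c ε),
    (∃ h : S.𝒞.B0, Chart.IsEtAt S.𝒞 h) → S.g = Num.genus S.𝒞 →
    ∃ 𝒳 : ChartFamily c ε S.P', 𝒳.MonoAff ∧ 𝒳.OpenAff ∧ 𝒳.CoverAff ∧ ∀ a, Smooth (𝒳.x a)

/-- The chart level from its leaves, in the form with the étale element. -/
theorem stmt_CHARTS_of_e (hSet : Stmt_SETUPE.{u}) (hLoc : Stmt_DEGLOC.{u}) (hAez : Stmt_AEZDEG.{u})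
    (hVal : Stmt_VALUNIQ.{u}) (hSurj : Stmt_SURJ.{u}) (hFam : Stmt_CHARTFAME.{u})
    (hRed : Stmt_AFFRED.{u}) (hL : Stmt_LOCISO.{u}) (hCR : Stmt_CHRED.{u}) : Stmt_CHARTS.{u} := by
  intro k _ _ C c _ _ _ ε
  obtain ⟨S, hS, hg⟩ := hSet k c ε
  obtain ⟨𝒳, hm, ho, hc, hsm⟩ := hFam k c ε S hS hg
  obtain ⟨hM, hO, hCv⟩ := hRed k c ε S.P' 𝒳 (hL k c ε) (hLoc k c ε S) hm ho hc
  exact ⟨S.P', 𝒳, hLoc k c ε S, hM, hO, hCv, fun t M hM' => hAez k c ε S t M hM', hsm,
    fun a => have := hsm a; hCR k (𝒳.x a), hVal k c ε S, hSurj k c ε S⟩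

/-- **FAM-ASM**: the chart family from the charts of triples and the leaves of the translation. -/
theorem chartfam_of_tcharts (hObj : Stmt_FAMOBJ.{u}) (hDeg : Stmt_FAMDEG.{u})
    (hMono : Stmt_FAMMONO.{u}) (hCov : Stmt_FAMCOVER.{u}) (hOpt : Stmt_FAMOPENPT.{u})
    (hGlue : Stmt_FAMOPENGLUE.{u}) (hSm : Stmt_FAMSMOOTH.{u})
    {k : Type u} [Field k] {C : Scheme.{u}} (c : C ⟶ Spec (CommRingCat.of k))
    (ε : SchemeHomOver (𝟙 (Spec (CommRingCat.of k))) c) (S : DegSetup c ε)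
    (hg : S.g = Num.genus S.𝒞) (hLI : LocIso c ε) (hX : TChartsFor S.𝒞) :
    ∃ 𝒳 : ChartFamily c ε S.P', 𝒳.MonoAff ∧ 𝒳.OpenAff ∧ 𝒳.CoverAff ∧ ∀ a, Smooth (𝒳.x a) := by
  obtain ⟨X, _hfp, hsm, hrig, hdeg, hmono, hopen, hcov⟩ := hX
  choose 𝓛 h𝓛 using fun a => hObj k c ε S.𝒞 S.good S.ρ (X.B a) (X.Q a) (hrig a)
  have mem : ∀ a, S.P'.P (Bridge.tR k (X.B a)) (𝓛 a) := fun a =>
    (hDeg k c ε S hg (X.B a) (𝓛 a) (X.Q a) (h𝓛 a)).2 (hdeg a)
  have hM := hMono k c ε S X 𝓛 mem h𝓛 hmono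
  refine ⟨famOf S.P' X 𝓛 mem, hM, ?_, hCov k c ε S hg X 𝓛 mem h𝓛 hcov, fun a => hSm k (X.B a) (hsm a)⟩
  exact hGlue k c ε S.P' _ hLI hM (hOpt k c ε S X 𝓛 mem h𝓛 hopen)

/-- **TOP-CHARTFAME** from `Stmt_TCHARTSE`, `Top.Stmt_LOCISO` and the leaves of the translation. -/
theorem stmt_CHARTFAME_of (hT : Stmt_TCHARTSE.{u}) (hL : Stmt_LOCISO.{u}) (hObj : Stmt_FAMOBJ.{u})
    (hDeg : Stmt_FAMDEG.{u}) (hMono : Stmt_FAMMONO.{u}) (hCov : Stmt_FAMCOVER.{u})
    (hOpt : Stmt_FAMOPENPT.{u}) (hGlue : Stmt_FAMOPENGLUE.{u}) (hSm : Stmt_FAMSMOOTH.{u}) :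
    Stmt_CHARTFAME.{u} := by
  intro k _ _ C c _ _ _ ε S hS hg
  obtain ⟨h, hh⟩ := hS
  exact chartfam_of_tcharts hObj hDeg hMono hCov hOpt hGlue hSm c ε S hg (hL k c ε)
    (hT k S.𝒞 S.good h hh)

end Fermat.Agent.S25.Top.F
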