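/-
helper19, S25 (Jacobian exists), package TOP, part F (`Top/DefsF.lean`): the three leaves of the
translation which turn the properties of the charts of triples into the properties of the chart family.

* `stmt_FAMMONO_of`   : FAM-HOM, FAM-DICT, T1                          ⟹ `F.Stmt_FAMMONO`;
* `stmt_FAMCOVER_of`  : FAM-DEG, FAM-DICT, FAM-PULL, T1, BCUNIQ         ⟹ `F.Stmt_FAMCOVER`;
* `stmt_FAMOPENPT_of` : FAM-HOM, FAM-DICT, FAM-PULL, T1, BCUNIQ         ⟹ `F.Stmt_FAMOPENPT`.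

The common core is `classifies_of_classOn`: if the triple `L` of `M` is classified by the chart bundle `Q`
on `D(r)` (`Trip.ClassOn`), then the pull-back of `M` to `Spec R[1/r]` is classified by the chart.
-/
import Fermat.Agent.S25.Top.DefsF
import Fermat.Agent.S25.LB.H60_Tens

set_option autoImplicit false

universe u

open CategoryTheory CategoryTheory.Limits AlgebraicGeometry AlgebraicGeometry.RelPicard NeronModelInfra
  GoodReductionJacobian TensorProduct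

namespace Fermat.Agent.S25.Top.F.H19

open Fermat.Agent.S25

section Core

variable {k : Type u} [Field k] {𝒞 : LB.CurveDatum k}

/-- `ClassBy` depends only on the isomorphism class of the classified triple. -/
theorem classBy_of_iso {B R : Type u} [CommRing B] [Algebra k B] [CommRing R] [Algebra k R]
    {Q : LB.Triple 𝒞 B} {L L' : LB.Triple 𝒞 R} {φ : B →ₐ[k] R} (h : Trip.ClassBy Q L φ)
    (I : Nonempty (LB.Triple.Iso L' L)) : Trip.ClassBy Q L' φ := by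
  obtain ⟨Qφ, hbc, ⟨J⟩⟩ := h
  obtain ⟨I⟩ := I
  exact ⟨Qφ, hbc, ⟨LB.H60.isoTrans I J⟩⟩

variable {C : Scheme.{u}} {c : C ⟶ Spec (CommRingCat.of k)}
  {ε : SchemeHomOver (𝟙 (Spec (CommRingCat.of k))) c}

/-- The triple of the pull-back of `M` along `homOf k ψ` is a base change of the triple of `M`, and it
exists. -/
theorem exists_triple_pull (hT1 : Bridge.Stmt_T1.{u}) (hPull : Stmt_FAMPULL.{u}) (h𝒞 : 𝒞.IsGood)
    (ρ : Bridge.Realizes c ε 𝒞) {R R' : Type u} [CommRing R] [Algebra k R] [CommRing R']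
    [Algebra k R'] (ψ : R →ₐ[k] R') (M : RigidifiedLineBundle c ε (Bridge.tR k R))
    (L : LB.Triple 𝒞 R) (hL : Bridge.IsTripleOf ρ R M.L L) :
    ∃ L' : LB.Triple 𝒞 R', Bridge.IsTripleOf ρ R' (M.pullbackAlong (homOf k ψ)).L L' ∧
      Nonempty (Chart.BC ψ L L') := by
  obtain ⟨L', hL'⟩ := hT1 k c ε 𝒞 h𝒞 ρ R' (M.pullbackAlong (homOf k ψ)).L
    (M.pullbackAlong (homOf k ψ)).isInvertible
  exact ⟨L', hL', hPull k c ε 𝒞 h𝒞 ρ R R' ψ M.L L L' M.isInvertible hL hL'⟩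

/-- **The core**: a triple which is classified by the chart bundle on `D(r)` belongs to a sheaf whose
pull-back to `Spec R[1/r]` is classified by the chart. -/
theorem classifies_of_classOn (hT1 : Bridge.Stmt_T1.{u}) (hPull : Stmt_FAMPULL.{u})
    (hDict : Stmt_FAMDICT.{u}) (hU : LB.Stmt_BCUNIQ.{u}) (h𝒞 : 𝒞.IsGood)
    (ρ : Bridge.Realizes c ε 𝒞) {B R : Type u} [CommRing B] [Algebra k B] [CommRing R] [Algebra k R]
    (𝓛 : RigidifiedLineBundle c ε (Bridge.tR k B)) (Q : LB.Triple 𝒞 B)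
    (hQ : Bridge.IsTripleOf ρ B 𝓛.L Q)
    (M : RigidifiedLineBundle c ε (Bridge.tR k R)) (L : LB.Triple 𝒞 R)
    (hL : Bridge.IsTripleOf ρ R M.L L) (r : R) (h : Trip.ClassOn Q L r) :
    ∃ g : SchemeHomOver (Bridge.tR k (Localization.Away r)) (Bridge.tR k B),
      Classifies 𝓛 (M.pullbackAlong (specOver k R (Localization.Away r))) g := by
  obtain ⟨Lr, φ, ⟨hbc⟩, hcl⟩ := h
  obtain ⟨L', hL', ⟨hbc'⟩⟩ := exists_triple_pull hT1 hPull h𝒞 ρ (Chart.awayMap (k := k) r) M L hL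
  have hI : Nonempty (LB.Triple.Iso L' Lr) :=
    hU k 𝒞 h𝒞 R (Localization.Away r) (Chart.awayMap r) L L L' Lr hbc' hbc ⟨LB.H60.isoRefl L⟩
  refine ⟨homOf k φ, ?_⟩
  exact (hDict k c ε 𝒞 h𝒞 ρ B (Localization.Away r) 𝓛 Q
    (M.pullbackAlong (specOver k R (Localization.Away r))) L' φ hQ hL').2 (classBy_of_iso hcl hI)

end Core

/-- **FAM-MONO**: charts of triples which are monomorphisms give a chart family with `MonoAff`. -/
theorem stmt_FAMMONO_of (hHom : Stmt_FAMHOM.{u}) (hDict : Stmt_FAMDICT.{u})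
    (hT1 : Bridge.Stmt_T1.{u}) : Stmt_FAMMONO.{u} := by
  intro k _ C c ε S X 𝓛 mem h𝓛 hmono a R _ _ g g' hgg'
  obtain ⟨φ, rfl⟩ := (hHom k (X.B a) R).2 g
  obtain ⟨φ', rfl⟩ := (hHom k (X.B a) R).2 g'
  obtain ⟨L, hL⟩ := hT1 k c ε S.𝒞 S.good S.ρ R ((𝓛 a).pullbackAlong (homOf k φ)).L
    ((𝓛 a).pullbackAlong (homOf k φ)).isInvertible
  have h1 : Trip.ClassBy (X.Q a) L φ :=
    (hDict k c ε S.𝒞 S.good S.ρ (X.B a) R (𝓛 a) (X.Q a) ((𝓛 a).pullbackAlong (homOf k φ)) L φ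
      (h𝓛 a) hL).1 ⟨Iso.refl _⟩
  have h2 : Trip.ClassBy (X.Q a) L φ' :=
    (hDict k c ε S.𝒞 S.good S.ρ (X.B a) R (𝓛 a) (X.Q a) ((𝓛 a).pullbackAlong (homOf k φ)) L φ'
      (h𝓛 a) hL).1 ⟨hgg'.some.symm⟩
  rw [hmono a R L φ φ' h1 h2]

/-- **FAM-COVER**: charts of triples which cover the triples of degree `0` give a chart family with
`CoverAff`. -/
theorem stmt_FAMCOVER_of (hDeg : Stmt_FAMDEG.{u}) (hDict : Stmt_FAMDICT.{u})
    (hPull : Stmt_FAMPULL.{u}) (hT1 : Bridge.Stmt_T1.{u}) (hU : LB.Stmt_BCUNIQ.{u}) :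
    Stmt_FAMCOVER.{u} := by
  intro k _ C c ε S hg X 𝓛 mem h𝓛 hcov R _ _ M hM p
  obtain ⟨L, hL⟩ := hT1 k c ε S.𝒞 S.good S.ρ R M.L M.isInvertible
  have hL0 : Trip.Deg0 L := (hDeg k c ε S hg R M L hL).1 hM
  obtain ⟨r, hr, a, hcl⟩ := hcov R L hL0 p
  exact ⟨a, r, hr, classifies_of_classOn hT1 hPull hDict hU S.good S.ρ (𝓛 a) (X.Q a) (h𝓛 a) M L hL r hcl⟩

/-- **FAM-OPENPT**: open charts of triples give a chart family with `OpenPtAff`. -/
theorem stmt_FAMOPENPT_of (hHom : Stmt_FAMHOM.{u}) (hDict : Stmt_FAMDICT.{u})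
    (hPull : Stmt_FAMPULL.{u}) (hT1 : Bridge.Stmt_T1.{u}) (hU : LB.Stmt_BCUNIQ.{u}) :
    Stmt_FAMOPENPT.{u} := by
  intro k _ C c ε S X 𝓛 mem h𝓛 hopen a R _ _ M _hM R' _ _ _ _ g hg p'
  obtain ⟨φ', rfl⟩ := (hHom k (X.B a) R').2 g
  obtain ⟨L, hL⟩ := hT1 k c ε S.𝒞 S.good S.ρ R M.L M.isInvertible
  obtain ⟨L', hL', ⟨hbc'⟩⟩ := exists_triple_pull hT1 hPull S.good S.ρ
    (IsScalarTower.toAlgHom k R R') M L hL
  have hcl' : Trip.ClassBy (X.Q a) L' φ' :=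
    (hDict k c ε S.𝒞 S.good S.ρ (X.B a) R' (𝓛 a) (X.Q a) (M.pullbackAlong (specOver k R R')) L' φ'
      (h𝓛 a) hL').1 hg
  obtain ⟨r, hr, hcl⟩ := hopen a R R' (IsScalarTower.toAlgHom k R R') L L' φ' hbc' hcl' p'
  exact ⟨r, hr, classifies_of_classOn hT1 hPull hDict hU S.good S.ρ (𝓛 a) (X.Q a) (h𝓛 a) M L hL r hcl⟩

end Fermat.Agent.S25.Top.F.H19
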