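/-
helper30, S25 (Jacobian exists), package TOP, leaf TOP-VALUNIQ, the algebra core `H20.Stmt_VALCORE`.

* `t4rel_bc`        : the relation `H20.T4Rel` (the conclusion of `Bridge.Stmt_T4`) gives a base change
                      `Chart.BC` of triples (the map on the overlap is semilinear because the overlap is a
                      localisation of the first chart; the images generate because `E` is onto).
* `stmt_VALCORE_of` : `Trip.Stmt_TVAL ⟹ H20.Stmt_VALCORE` (the hypotheses on the degrees are not needed).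
-/
import Fermat.Agent.S25.Top.H20_ValUniqDefs
import Fermat.Agent.S25.Trip.Defs
import Fermat.Agent.S25.LB.H60_TensBC
import Fermat.Agent.S25.LB.H74_Hom

set_option autoImplicit false

universe u

open TensorProduct

noncomputable section

namespace Fermat.Agent.S25.Top.H30

open Fermat.Agent.S25 Fermat.Agent.S25.LB

variable {k : Type u} [Field k] {𝒞 : LB.CurveDatum k} {R R' : Type u} [CommRing R] [Algebra k R]
  [CommRing R'] [Algebra k R'] [Algebra R R'] [IsScalarTower k R R']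

/-- The two forms of the ring map `R ⊗ B → R' ⊗ B` agree. -/
theorem map_ofId_eq_tmap (B : Type u) [CommRing B] [Algebra k B] (c : R ⊗[k] B) :
    Algebra.TensorProduct.map (Algebra.ofId R R') (AlgHom.id k B) c =
      Chart.tmap (IsScalarTower.toAlgHom k R R') B c := by
  induction c using TensorProduct.induction_on with
  | zero => rw [map_zero, map_zero]
  | tmul r b => rfl
  | add a b ha hb => rw [map_add, map_add, ha, hb]

omit [Algebra R R'] [IsScalarTower k R R'] in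
/-- `tmap` fixes `1 ⊗ b`. -/
theorem tmap_one_tmul (φ : R →ₐ[k] R') (B : Type u) [CommRing B] [Algebra k B] (b : B) :
    Chart.tmap φ B ((1 : R) ⊗ₜ[k] b) = (1 : R') ⊗ₜ[k] b := by
  change φ 1 ⊗ₜ[k] b = _
  rw [map_one]

/-- **`T4Rel` gives a base change of triples.** -/
theorem t4rel_bc (h : 𝒞.IsGood) {T : LB.Triple 𝒞 R} {T' : LB.Triple 𝒞 R'}
    (hrel : H20.T4Rel R R' T T') :
    Nonempty (Chart.BC (IsScalarTower.toAlgHom k R R') T T') := by
  obtain ⟨b0, b1, b01, E, hc0, hc1, he0, he1, he01, hs0, hs1⟩ := hrel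
  -- `b01` commutes with the multiplication by `x`
  have hb01 : ∀ m : T.toData.N01, E.e01 ((1 : R') ⊗ₜ[R] m) = b01 m := by
    intro m
    have h1 := he01 1 m
    rw [map_one, one_smul] at h1
    exact h1
  have hx : ∀ m : T.P01, b01 (((1 : R) ⊗ₜ[k] 𝒞.i0 𝒞.x0 : R ⊗[k] 𝒞.B01) • m) =
      ((1 : R') ⊗ₜ[k] 𝒞.i0 𝒞.x0 : R' ⊗[k] 𝒞.B01) • b01 m := by
    intro m
    have h1 := E.e01_T ((1 : R') ⊗ₜ[R] (m : T.toData.N01))
    have h2 : (T.toData.baseChange R').T ((1 : R') ⊗ₜ[R] (m : T.toData.N01)) =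
        (1 : R') ⊗ₜ[R] (T.toData.T m) := rfl
    exact (hb01 (T.toData.T m)).symm.trans (((congrArg E.e01 h2).symm.trans h1).trans
      (congrArg T'.toData.T (hb01 m)))
  have hxn : ∀ (n : ℕ) (m : T.P01), b01 (((1 : R) ⊗ₜ[k] 𝒞.i0 𝒞.x0 : R ⊗[k] 𝒞.B01) ^ n • m) =
      ((1 : R') ⊗ₜ[k] 𝒞.i0 𝒞.x0 : R' ⊗[k] 𝒞.B01) ^ n • b01 m := by
    intro n
    induction n with
    | zero => intro m; rw [pow_zero, pow_zero, one_smul, one_smul]
    | succ n ih =>
      intro m
      rw [pow_succ, pow_succ, mul_smul, mul_smul, ih, hx]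
  have hsemi0 : ∀ (c : R ⊗[k] 𝒞.B0) (q : T.P0),
      b0 (c • q) = Chart.tmap (IsScalarTower.toAlgHom k R R') 𝒞.B0 c • b0 q := by
    intro c q
    rw [hs0, map_ofId_eq_tmap]
  have hsemi1 : ∀ (c : R ⊗[k] 𝒞.B1) (q : T.P1),
      b1 (c • q) = Chart.tmap (IsScalarTower.toAlgHom k R R') 𝒞.B1 c • b1 q := by
    intro c q
    rw [hs1, map_ofId_eq_tmap]
  have hsemi01 : ∀ (c : R ⊗[k] 𝒞.B01) (q : T.P01),
      b01 (c • q) = Chart.tmap (IsScalarTower.toAlgHom k R R') 𝒞.B01 c • b01 q := by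
    intro c q
    obtain ⟨n, p, hp⟩ := T.surj0 q
    obtain ⟨n', c₀, hc₀⟩ := H60.surj0_unit R h c
    apply H74.XX_pow_smul_cancel T' (n' + n)
    have e1 : ((1 : R) ⊗ₜ[k] 𝒞.i0 𝒞.x0 : R ⊗[k] 𝒞.B01) ^ (n' + n) • (c • q) =
        T.r0 (c₀ • p) := by
      rw [T.r0.map_smulₛₗ, ← hp, ← hc₀, pow_add, smul_smul, smul_smul]
      congr 1
      ring
    have e2 : Chart.tmap (IsScalarTower.toAlgHom k R R') 𝒞.B01
        (((1 : R) ⊗ₜ[k] 𝒞.i0 𝒞.x0 : R ⊗[k] 𝒞.B01)) =
        ((1 : R') ⊗ₜ[k] 𝒞.i0 𝒞.x0 : R' ⊗[k] 𝒞.B01) := tmap_one_tmul _ _ _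
    have e3 : Chart.tmap (IsScalarTower.toAlgHom k R R') 𝒞.B01 (𝒞.ι0 R c₀) =
        𝒞.ι0 R' (Chart.tmap (IsScalarTower.toAlgHom k R R') 𝒞.B0 c₀) :=
      H60.sig_ι0 (IsScalarTower.toAlgHom k R R') c₀
    rw [← hxn, e1, hc0, hsemi0, T'.r0.map_smulₛₗ, ← e3, ← hc₀, map_mul, map_pow, e2, ← hc0, ← hp,
      hxn, smul_smul, smul_smul, pow_add]
    congr 1
    ring
  have hgen0 : Submodule.span (R' ⊗[k] 𝒞.B0) (Set.range b0) = ⊤ := by
    rw [eq_top_iff]
    intro y _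
    obtain ⟨w, rfl⟩ := E.e0.surjective y
    refine TensorProduct.induction_on w ?_ ?_ ?_
    · exact (map_zero E.e0).symm ▸ Submodule.zero_mem _
    · intro a p
      exact (he0 a p).symm ▸ Submodule.smul_mem _ _ (Submodule.subset_span ⟨p, rfl⟩)
    · intro x y hx hy
      exact (map_add E.e0 x y).symm ▸ Submodule.add_mem _ hx hy
  have hgen1 : Submodule.span (R' ⊗[k] 𝒞.B1) (Set.range b1) = ⊤ := by
    rw [eq_top_iff]
    intro y _
    obtain ⟨w, rfl⟩ := E.e1.surjective y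
    refine TensorProduct.induction_on w ?_ ?_ ?_
    · exact (map_zero E.e1).symm ▸ Submodule.zero_mem _
    · intro a p
      exact (he1 a p).symm ▸ Submodule.smul_mem _ _ (Submodule.subset_span ⟨p, rfl⟩)
    · intro x y hx hy
      exact (map_add E.e1 x y).symm ▸ Submodule.add_mem _ hx hy
  exact ⟨⟨b0, b1, b01, hsemi0, hsemi1, hsemi01, hc0, hc1, hgen0, hgen1⟩⟩

/-- **VALCORE from T-VAL**: the valuative criterion of separatedness on triples, in the form consumed by the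
bridge wiring of `Top.Stmt_VALUNIQ`. -/
theorem stmt_VALCORE_of (hT : Trip.Stmt_TVAL.{u}) : H20.Stmt_VALCORE.{u} := by
  intro k _ _ 𝒞 hG g _ O _ _ _ _ K _ _ _ _ _ L L' LK LK' _ _ _ _ hL hL' hiso
  obtain ⟨β⟩ := t4rel_bc hG hL
  obtain ⟨β'⟩ := t4rel_bc hG hL'
  exact hT k 𝒞 hG O K L L' LK LK' β β' hiso

end Fermat.Agent.S25.Top.H30
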