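/-
helper7, S25 (Jacobian exists), package TOP, leaf TOP-SETUP, part NUM (algebra only):

* `isoBaseChange A' E` : base change of an isomorphism of two-chart data;
* `stdData 𝒞 : P1.Data k` : the two-chart data `(B0, B1, B01)` of the structure sheaf over `k`, and
  `unitStd R good : Data.Iso ((stdData 𝒞).baseChange R) (unitTriple 𝒞 R good).toData`;
* `isGenus_genus : Chart.IsGenus 𝒞 (Num.genus 𝒞)`;
* `isDeg0_of_iso_unit` : a triple over `R` isomorphic to the unit triple is fibrewise of degree zero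
  (`h0 = 1`, `h1 = genus` on every fibre).
-/
import Fermat.Agent.S25.Top.DefsP
import Fermat.Agent.S25.Num.H45_Iso
import Fermat.Agent.S25.P1.H54_BcIso
import Fermat.Agent.S25.P1.H92_FieldExt

set_option autoImplicit false
set_option linter.style.haveILetI false

universe u

open TensorProduct

namespace Fermat.Agent.S25.Top.H7

open Fermat.Agent.S25 Fermat.Agent.S25.LB Fermat.Agent.S25.P1

section BC

variable {A : Type u} [CommRing A] (A' : Type u) [CommRing A'] [Algebra A A']
variable {M M' P P' : Type u} [AddCommGroup M] [AddCommGroup M'] [Module A M] [Module A M']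
  [AddCommGroup P] [AddCommGroup P'] [Module A P] [Module A P']

theorem h7_bc_tmul (e : M ≃ₗ[A] M') (a : A') (m : M) :
    LinearEquiv.baseChange A A' M M' e (a ⊗ₜ[A] m) = a ⊗ₜ[A] e m := rfl

/-- base change of a commutative square of an equivalence -/
theorem h7_bc_comm (e : M ≃ₗ[A] M') (e' : P ≃ₗ[A] P') (f : M →ₗ[A] P) (f' : M' →ₗ[A] P')
    (h : ∀ m, e' (f m) = f' (e m)) (x : A' ⊗[A] M) :
    LinearEquiv.baseChange A A' P P' e' (f.baseChange A' x) =
      f'.baseChange A' (LinearEquiv.baseChange A A' M M' e x) := by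
  induction x using TensorProduct.induction_on with
  | zero => simp only [map_zero]
  | tmul a m => simp only [LinearMap.baseChange_tmul, h7_bc_tmul, h]
  | add x y hx hy => simp only [map_add, hx, hy]

variable {N N' : Data A}

/-- base change of an isomorphism of two-chart data -/
noncomputable def isoBaseChange (E : Data.Iso N N') :
    Data.Iso (N.baseChange A') (N'.baseChange A') where
  e0 := LinearEquiv.baseChange A A' _ _ E.e0
  e1 := LinearEquiv.baseChange A A' _ _ E.e1
  e01 := LinearEquiv.baseChange A A' _ _ E.e01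
  e0_X := fun n => h7_bc_comm A' E.e0 E.e0 N.X0 N'.X0 E.e0_X n
  e1_Z := fun n => h7_bc_comm A' E.e1 E.e1 N.Z1 N'.Z1 E.e1_Z n
  e01_T := fun n => h7_bc_comm A' E.e01 E.e01 N.T.toLinearMap N'.T.toLinearMap E.e01_T n
  e_j0 := fun n => h7_bc_comm A' E.e0 E.e01 N.j0 N'.j0 E.e_j0 n
  e_j1 := fun n => h7_bc_comm A' E.e1 E.e01 N.j1 N'.j1 E.e_j1 n

end BC

section Std

variable {k : Type u} [Field k] (𝒞 : CurveDatum k)

/-- the two-chart data of the structure sheaf over `k`, in standard form -/
@[reducible] noncomputable def stdData : Data k where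
  N0 := 𝒞.B0
  N1 := 𝒞.B1
  N01 := 𝒞.B01
  X0 := LinearMap.mulLeft k 𝒞.x0
  Z1 := LinearMap.mulLeft k 𝒞.z1
  T :=
    { toFun := fun m => 𝒞.i0 𝒞.x0 * m
      invFun := fun m => 𝒞.i1 𝒞.z1 * m
      map_add' := fun p q => mul_add _ p q
      map_smul' := fun r p => by simp
      left_inv := fun m => by
        change 𝒞.i1 𝒞.z1 * (𝒞.i0 𝒞.x0 * m) = m
        rw [← mul_assoc, mul_comm (𝒞.i1 𝒞.z1), 𝒞.hxz, one_mul]
      right_inv := fun m => by
        change 𝒞.i0 𝒞.x0 * (𝒞.i1 𝒞.z1 * m) = m
        rw [← mul_assoc, 𝒞.hxz, one_mul] }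
  j0 := 𝒞.i0.toLinearMap
  j1 := 𝒞.i1.toLinearMap
  j0_X := fun n => by
    change 𝒞.i0 (𝒞.x0 * n) = 𝒞.i0 𝒞.x0 * 𝒞.i0 n
    rw [map_mul]
  j1_Z := fun n => by
    change 𝒞.i0 𝒞.x0 * 𝒞.i1 (𝒞.z1 * n) = 𝒞.i1 n
    rw [map_mul, ← mul_assoc, 𝒞.hxz, one_mul]

variable (R : Type u) [CommRing R] [Algebra k R]

theorem h7_std_X (n : R ⊗[k] 𝒞.B0) :
    (LinearMap.mulLeft k 𝒞.x0).baseChange R n = ((1 : R) ⊗ₜ[k] 𝒞.x0 : R ⊗[k] 𝒞.B0) * n := by
  induction n using TensorProduct.induction_on with
  | zero => simp only [map_zero, mul_zero]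
  | tmul r b =>
    rw [LinearMap.baseChange_tmul, Algebra.TensorProduct.tmul_mul_tmul, one_mul]
    rfl
  | add x y hx hy => simp only [map_add, hx, hy, mul_add]

theorem h7_std_Z (n : R ⊗[k] 𝒞.B1) :
    (LinearMap.mulLeft k 𝒞.z1).baseChange R n = ((1 : R) ⊗ₜ[k] 𝒞.z1 : R ⊗[k] 𝒞.B1) * n := by
  induction n using TensorProduct.induction_on with
  | zero => simp only [map_zero, mul_zero]
  | tmul r b =>
    rw [LinearMap.baseChange_tmul, Algebra.TensorProduct.tmul_mul_tmul, one_mul]
    rfl
  | add x y hx hy => simp only [map_add, hx, hy, mul_add]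

theorem h7_std_T (n : R ⊗[k] 𝒞.B01) :
    (LinearEquiv.baseChange k R _ _ (stdData 𝒞).T) n =
      ((1 : R) ⊗ₜ[k] 𝒞.i0 𝒞.x0 : R ⊗[k] 𝒞.B01) * n := by
  induction n using TensorProduct.induction_on with
  | zero => simp only [map_zero, mul_zero]
  | tmul r b =>
    rw [h7_bc_tmul, Algebra.TensorProduct.tmul_mul_tmul, one_mul]
    rfl
  | add x y hx hy => simp only [map_add, hx, hy, mul_add]

theorem h7_std_j0 (n : R ⊗[k] 𝒞.B0) :
    𝒞.i0.toLinearMap.baseChange R n = 𝒞.ι0 R n := by
  induction n using TensorProduct.induction_on with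
  | zero => simp only [map_zero]
  | tmul r b => rfl
  | add x y hx hy => simp only [map_add, hx, hy]

theorem h7_std_j1 (n : R ⊗[k] 𝒞.B1) :
    𝒞.i1.toLinearMap.baseChange R n = 𝒞.ι1 R n := by
  induction n using TensorProduct.induction_on with
  | zero => simp only [map_zero]
  | tmul r b => rfl
  | add x y hx hy => simp only [map_add, hx, hy]

variable {𝒞}

/-- the two-chart data of the unit triple over `R` is the base change of the standard data -/
noncomputable def unitStd (good : 𝒞.IsGood) :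
    Data.Iso ((stdData 𝒞).baseChange R) (H60.unitTriple 𝒞 R good).toData where
  e0 :=
    { toFun := fun x => x
      invFun := fun x => x
      map_add' := fun _ _ => rfl
      map_smul' := fun r (x : R ⊗[k] 𝒞.B0) => by
        change r • x = algebraMap R (R ⊗[k] 𝒞.B0) r * x
        rw [Algebra.smul_def]
      left_inv := fun _ => rfl
      right_inv := fun _ => rfl }
  e1 :=
    { toFun := fun x => x
      invFun := fun x => x
      map_add' := fun _ _ => rfl
      map_smul' := fun r (x : R ⊗[k] 𝒞.B1) => by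
        change r • x = algebraMap R (R ⊗[k] 𝒞.B1) r * x
        rw [Algebra.smul_def]
      left_inv := fun _ => rfl
      right_inv := fun _ => rfl }
  e01 :=
    { toFun := fun x => x
      invFun := fun x => x
      map_add' := fun _ _ => rfl
      map_smul' := fun r (x : R ⊗[k] 𝒞.B01) => by
        change r • x = algebraMap R (R ⊗[k] 𝒞.B01) r * x
        rw [Algebra.smul_def]
      left_inv := fun _ => rfl
      right_inv := fun _ => rfl }
  e0_X := fun n => h7_std_X 𝒞 R n
  e1_Z := fun n => h7_std_Z 𝒞 R n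
  e01_T := fun n => h7_std_T 𝒞 R n
  e_j0 := fun n => h7_std_j0 𝒞 R n
  e_j1 := fun n => h7_std_j1 𝒞 R n

end Std

section Numbers

variable {k : Type u} [Field k] {𝒞 : CurveDatum k} (good : 𝒞.IsGood)

include good in
theorem h7_isUnitTriple : Num.IsUnitTriple (H60.unitTriple 𝒞 k good) :=
  ⟨LinearEquiv.refl _ _, LinearEquiv.refl _ _, LinearEquiv.refl _ _, fun _ => rfl, fun _ => rfl⟩

include good in
/-- `h0 (O) = 1` for the standard data -/
theorem h7_std_h0 : Module.finrank k (stdData 𝒞).H0 = 1 := by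
  have h := Num.H45.h0_unit good (h7_isUnitTriple good)
  rw [← h]
  change _ = Module.finrank k (H60.unitTriple 𝒞 k good).toData.H0
  rw [← (H45.h0Equiv (unitStd k good)).finrank_eq, ← (H45.h0Equiv (H54.isoLid (stdData 𝒞))).finrank_eq]

include good in
/-- `h1 (O) = genus` for the standard data -/
theorem h7_std_h1 : Module.finrank k (stdData 𝒞).H1 = Num.genus 𝒞 := by
  have h := Num.H45.h1_unit good (h7_isUnitTriple good)
  rw [← h]
  change _ = Module.finrank k (H60.unitTriple 𝒞 k good).toData.H1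
  rw [← (H45.h1Equiv (unitStd k good)).finrank_eq, ← (H45.h1Equiv (H54.isoLid (stdData 𝒞))).finrank_eq]

include good in
/-- the genus exists -/
theorem isGenus_genus : Chart.IsGenus 𝒞 (Num.genus 𝒞) := by
  intro L e0 e1 e01 h0 h1
  exact Num.H45.h1_unit good ⟨e0, e1, e01, h0, h1⟩

variable {R : Type u} [CommRing R] [Algebra k R]

/-- the fibres of a triple isomorphic to the unit triple are those of the standard data -/
noncomputable def fibreIso {T : Triple 𝒞 R} (E : Triple.Iso T (H60.unitTriple 𝒞 R good))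
    (p : PrimeSpectrum R) :
    Data.Iso (T.toData.fibre p) ((stdData 𝒞).baseChange p.asIdeal.ResidueField) :=
  H45.isoTrans (isoBaseChange p.asIdeal.ResidueField (Num.H45.dataIso E))
    (H45.isoTrans (isoBaseChange p.asIdeal.ResidueField (H45.isoSymm (unitStd R good)))
      (H54.isoCancel (stdData 𝒞) R p.asIdeal.ResidueField))

/-- a triple isomorphic to the unit triple is fibrewise of degree zero -/
theorem isDeg0_of_iso_unit {T : Triple 𝒞 R} (E : Triple.Iso T (H60.unitTriple 𝒞 R good)) :
    IsDeg0 (Num.genus 𝒞) T := by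
  intro p
  have e0 := (H45.h0Equiv (fibreIso good E p)).finrank_eq
  have e1 := (H45.h1Equiv (fibreIso good E p)).finrank_eq
  have f0 := H92.finrank_H0_baseChange (stdData 𝒞) p.asIdeal.ResidueField
  have f1 := H92.finrank_H1_baseChange (stdData 𝒞) p.asIdeal.ResidueField
  unfold Data.h0At Data.h1At
  rw [e0, e1, f0, f1, h7_std_h0 good, h7_std_h1 good]
  simp

end Numbers

end Fermat.Agent.S25.Top.H7
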