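/-
helper7, S25 (Jacobian exists), package TOP, leaf **TOP-SETUP**:

* `isTripleOf_of_iso` : `IsTripleOf ρ R L T` and `L ≅ L'` give `IsTripleOf ρ R L' T`;
* `isTripleOf_unit`   : the triple of the structure sheaf of `C × Spec R` is the unit triple;
* `degZero_unit`, `degZero_congr`, `degZero_pullback` : `DegZero ρ g` is a sub-Picard condition
  (for `g = Num.genus 𝒞`);
* `degSetupOf ρ good : DegSetup c ε` with `.𝒞 = 𝒞`, `.ρ = ρ`, `.g = Num.genus 𝒞` BY `rfl`
  (so every further property of `𝒞`, e.g. an étale element, carries over);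
* `stmt_SETUP_of : Bridge.Stmt_LINK → Stmt_SETUP`.
-/
import Fermat.Agent.S25.Top.H7_SetupNum
import Fermat.Agent.S25.Bridge.H24_T1
import Fermat.Agent.S25.Bridge.H99_T2
import Fermat.Agent.S25.Glue.H18_Gen

set_option autoImplicit false
set_option linter.style.haveILetI false

universe u

open CategoryTheory CategoryTheory.Limits AlgebraicGeometry AlgebraicGeometry.RelPicard NeronModelInfra
  TopologicalSpace TensorProduct

namespace Fermat.Agent.S25.Top.H7

open Fermat.Agent.S25 Fermat.Agent.S25.LB Fermat.Agent.S25.Bridge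

section Sheaf

variable {k : Type u} [Field k] {C : Scheme.{u}} {c : C ⟶ Spec (CommRingCat.of k)}
  {ε : SchemeHomOver (𝟙 (Spec (CommRingCat.of k))) c} {𝒞 : LB.CurveDatum k}
  (ρ : Realizes c ε 𝒞) (R : Type u) [CommRing R] [Algebra k R]

/-- the triple of a sheaf is a triple of every isomorphic sheaf -/
theorem isTripleOf_of_iso {L L' : (XR c R).Modules} {T : LB.Triple 𝒞 R}
    (hT : IsTripleOf ρ R L T) (e : L ≅ L') : IsTripleOf ρ R L' T := by
  obtain ⟨f0, f1, f01, s0, s1, s01, hr0, hr1⟩ := hT.ex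
  refine ⟨⟨f0.trans (H99.appEquiv e (WR c R ρ.U₀)).toAddEquiv,
    f1.trans (H99.appEquiv e (WR c R ρ.U₁)).toAddEquiv,
    f01.trans (H99.appEquiv e (WR c R (ρ.U₀ ⊓ ρ.U₁))).toAddEquiv, ?_, ?_, ?_, ?_, ?_⟩⟩
  · intro r b p
    change H99.appEquiv e _ (f0 _) = _ • H99.appEquiv e _ (f0 p)
    rw [s0, map_smul]
  · intro r b p
    change H99.appEquiv e _ (f1 _) = _ • H99.appEquiv e _ (f1 p)
    rw [s1, map_smul]
  · intro r b p
    change H99.appEquiv e _ (f01 _) = _ • H99.appEquiv e _ (f01 p)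
    rw [s01, map_smul]
  · intro p
    change H99.appEquiv e _ (f01 _) = res L' _ (H99.appEquiv e _ (f0 p))
    rw [hr0, H99.appEquiv_res]
  · intro p
    change H99.appEquiv e _ (f01 _) = res L' _ (H99.appEquiv e _ (f1 p))
    rw [hr1, H99.appEquiv_res]

/-- the triple of the structure sheaf is the unit triple -/
theorem isTripleOf_unit (good : 𝒞.IsGood) :
    IsTripleOf ρ R (Glue.unitM (XR c R)) (H60.unitTriple 𝒞 R good) := by
  obtain ⟨Θ⟩ := H24.nonempty_chartRing ρ R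
  refine ⟨⟨Θ.Θ0.toAddEquiv, Θ.Θ1.toAddEquiv, Θ.Θ01.toAddEquiv, ?_, ?_, ?_, ?_, ?_⟩⟩
  · intro r b p
    change Θ.Θ0 ((r ⊗ₜ[k] b) * p) = _ * Θ.Θ0 p
    rw [map_mul, Θ.h0]
  · intro r b p
    change Θ.Θ1 ((r ⊗ₜ[k] b) * p) = _ * Θ.Θ1 p
    rw [map_mul, Θ.h1]
  · intro r b p
    change Θ.Θ01 ((r ⊗ₜ[k] b) * p) = _ * Θ.Θ01 p
    rw [map_mul, Θ.h01]
  · intro p
    exact (Θ.resO_Θ0 p).symm
  · intro p
    exact (Θ.resO_Θ1 p).symm

end Sheaf

section Setup

variable {k : Type u} [Field k] {C : Scheme.{u}} {c : C ⟶ Spec (CommRingCat.of k)}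
  {ε : SchemeHomOver (𝟙 (Spec (CommRingCat.of k))) c} {𝒞 : LB.CurveDatum k}

/-- pulling back twice is pulling back along the composite -/
noncomputable def h7_pullbackAlongCompIso {X X' T' : Scheme.{u}}
    {x : X ⟶ Spec (CommRingCat.of k)} {x' : X' ⟶ Spec (CommRingCat.of k)}
    {t' : T' ⟶ Spec (CommRingCat.of k)} (M : RigidifiedLineBundle c ε x')
    (φ : SchemeHomOver x x') (ψ : SchemeHomOver t' x) :
    ((M.pullbackAlong φ).pullbackAlong ψ).L ≅ (M.pullbackAlong (postComp φ ψ)).L :=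
  (Scheme.Modules.pullbackComp _ _).app M.L ≪≫
    (Scheme.Modules.pullbackCongr (baseChangeSnd_comp c φ ψ)).app M.L

variable (ρ : Realizes c ε 𝒞)

/-- the unit bundle is fibrewise of degree zero -/
theorem degZero_unit (good : 𝒞.IsGood) {T : Scheme.{u}} (t : T ⟶ Spec (CommRingCat.of k)) :
    DegZero ρ (Num.genus 𝒞) t (RigidifiedLineBundle.unit t) := by
  intro R _ _ φ L hL
  have e : ((RigidifiedLineBundle.unit (c := c) (ε := ε) t).pullbackAlong φ).L ≅
      Glue.unitM (XR c R) := Scheme.Modules.pullbackUnitIso (baseChangeSnd c φ)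
  obtain ⟨E⟩ := H99.tripleIso_of_iso ρ R hL (isTripleOf_unit ρ R good) e
  exact isDeg0_of_iso_unit good E

/-- `DegZero` only depends on the isomorphism class -/
theorem degZero_congr (g : ℕ) {T : Scheme.{u}} (t : T ⟶ Spec (CommRingCat.of k))
    (M M' : RigidifiedLineBundle c ε t) (h : Nonempty (M.L ≅ M'.L))
    (hM : DegZero ρ g t M) : DegZero ρ g t M' := by
  intro R _ _ φ L hL
  exact hM R φ L (isTripleOf_of_iso ρ R hL (RigidifiedLineBundle.pullbackAlong_congr φ h).some.symm)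

/-- `DegZero` is stable under pull-back -/
theorem degZero_pullback (g : ℕ) {T T' : Scheme.{u}} (t : T ⟶ Spec (CommRingCat.of k))
    (t' : T' ⟶ Spec (CommRingCat.of k)) (ψ : SchemeHomOver t' t)
    (M : RigidifiedLineBundle c ε t) (hM : DegZero ρ g t M) :
    DegZero ρ g t' (M.pullbackAlong ψ) := by
  intro R _ _ φ L hL
  exact hM R (postComp ψ φ) L (isTripleOf_of_iso ρ R hL (h7_pullbackAlongCompIso M ψ φ))

/-- **The degree set-up of a good curve datum realised by `C`.** -/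
noncomputable def degSetupOf (good : 𝒞.IsGood) : DegSetup c ε where
  𝒞 := 𝒞
  good := good
  ρ := ρ
  g := Num.genus 𝒞
  genus := isGenus_genus good
  P' :=
    { P := fun t M => DegZero ρ (Num.genus 𝒞) t M
      unit_mem := fun t => degZero_unit ρ good t
      congr := fun t M M' h hM => degZero_congr ρ _ t M M' h hM
      pullback_mem := fun t t' ψ M hM => degZero_pullback ρ _ t t' ψ M hM }
  hP' := fun _ _ => Iff.rfl

theorem degSetupOf_𝒞 (good : 𝒞.IsGood) : (degSetupOf ρ good).𝒞 = 𝒞 := rfl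

theorem degSetupOf_g (good : 𝒞.IsGood) : (degSetupOf ρ good).g = Num.genus 𝒞 := rfl

theorem degSetupOf_ρ (good : 𝒞.IsGood) : (degSetupOf ρ good).ρ = ρ := rfl

/-- **TOP-SETUP** from LINK. -/
theorem stmt_SETUP_of (hL : Bridge.Stmt_LINK.{u}) : Stmt_SETUP.{u} := by
  intro k _ _ C c _ _ _ ε
  obtain ⟨𝒞, good, ⟨ρ⟩⟩ := hL k c ε
  exact ⟨degSetupOf ρ good⟩

end Setup

end Fermat.Agent.S25.Top.H7
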