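/-
helper19, S25 (Jacobian exists), package TOP, part F (`Top/DefsF.lean`): the two leaves of the
translation which are already in the tree.

* `stmt_FAMISOTR : F.Stmt_FAMISOTR` (UNCONDITIONAL) = helper7's `H7.isTripleOf_of_iso`;
* `stmt_FAMT4BC  : F.Stmt_FAMT4BC`  (UNCONDITIONAL) = helper30's `H30.t4rel_bc`.
-/
import Fermat.Agent.S25.Top.DefsF
import Fermat.Agent.S25.Top.H7_Setup
import Fermat.Agent.S25.Top.H30_ValUniq

set_option autoImplicit false

universe u

open CategoryTheory CategoryTheory.Limits AlgebraicGeometry AlgebraicGeometry.RelPicard NeronModelInfra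
  GoodReductionJacobian TensorProduct

namespace Fermat.Agent.S25.Top.F.H19

open Fermat.Agent.S25

/-- **FAM-ISOTR**: a triple of a sheaf is a triple of every isomorphic sheaf. -/
theorem stmt_FAMISOTR : Stmt_FAMISOTR.{u} := by
  intro k _ C c ε 𝒞 ρ R _ _ L L' T ⟨e⟩ hT
  exact H7.isTripleOf_of_iso ρ R hT e

/-- **FAM-T4BC**: the relation which `Bridge.Stmt_T4` delivers is a base change. -/
theorem stmt_FAMT4BC : Stmt_FAMT4BC.{u} := by
  intro k _ 𝒞 h𝒞 R R' _ _ _ _ _ _ T T' hrel
  exact H30.t4rel_bc h𝒞 hrel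

end Fermat.Agent.S25.Top.F.H19
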