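/-
helper23, S25 package TOP, part CHARTFAM (sub-planner helper19), leaf FAM-PULL (`F.Stmt_FAMPULL` of
`S25/Top/DefsF.lean`): the triple of the pull-back of a sheaf along `homOf k φ` is a base change of its triple
along `φ`.

`stmt_FAMPULL_of : Bridge.Stmt_T4 → F.Stmt_FAMT4BC → F.Stmt_FAMPULL`.

Proof: make `R'` an `R`-algebra through `φ`; then `Bridge.bcMap c R R'` is `baseChangeSnd c (homOf k φ)`
(definitionally), `Bridge.Stmt_T4` gives `H20.T4Rel R R' T T'`, FAM-T4BC turns it into a `Chart.BC` along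
`IsScalarTower.toAlgHom k R R' = φ`.
-/
import Fermat.Agent.S25.Top.DefsF

set_option autoImplicit false
set_option linter.style.haveILetI false

universe u

open CategoryTheory CategoryTheory.Limits AlgebraicGeometry AlgebraicGeometry.RelPicard NeronModelInfra
  GoodReductionJacobian TensorProduct

namespace Fermat.Agent.S25.Top.F.H23

open Fermat.Agent.S25

/-- For the algebra structure given by `φ`, the structure map is `φ`. -/
theorem toAlgHom_eq_of_toAlgebra {k : Type u} [Field k] {R R' : Type u} [CommRing R] [Algebra k R]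
    [CommRing R'] [Algebra k R'] (φ : R →ₐ[k] R') :
    letI : Algebra R R' := φ.toRingHom.toAlgebra
    haveI : IsScalarTower k R R' := IsScalarTower.of_algebraMap_eq (fun a => (φ.commutes a).symm)
    IsScalarTower.toAlgHom k R R' = φ := by
  letI : Algebra R R' := φ.toRingHom.toAlgebra
  haveI : IsScalarTower k R R' := IsScalarTower.of_algebraMap_eq (fun a => (φ.commutes a).symm)
  exact AlgHom.ext fun _ => rfl

/-- The relation of `Bridge.Stmt_T4` for the pull-back along `homOf k φ`, for the algebra structure given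
by `φ`. -/
theorem t4Rel_of_pull (hT4 : Bridge.Stmt_T4.{u}) {k : Type u} [Field k] {C : Scheme.{u}}
    (c : C ⟶ Spec (CommRingCat.of k)) (ε : SchemeHomOver (𝟙 (Spec (CommRingCat.of k))) c)
    (𝒞 : LB.CurveDatum k) (h𝒞 : 𝒞.IsGood) (ρ : Bridge.Realizes c ε 𝒞)
    (R R' : Type u) [CommRing R] [Algebra k R] [CommRing R'] [Algebra k R'] (φ : R →ₐ[k] R')
    (L : (Bridge.XR c R).Modules) (T : LB.Triple 𝒞 R) (T' : LB.Triple 𝒞 R')
    (hL : Scheme.Modules.IsInvertible L) (hT : Bridge.IsTripleOf ρ R L T)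
    (hT' : Bridge.IsTripleOf ρ R'
      ((Scheme.Modules.pullback (baseChangeSnd c (homOf k φ))).obj L) T') :
    letI : Algebra R R' := φ.toRingHom.toAlgebra
    haveI : IsScalarTower k R R' := IsScalarTower.of_algebraMap_eq (fun a => (φ.commutes a).symm)
    H20.T4Rel R R' T T' := by
  letI : Algebra R R' := φ.toRingHom.toAlgebra
  haveI : IsScalarTower k R R' := IsScalarTower.of_algebraMap_eq (fun a => (φ.commutes a).symm)
  exact hT4 k c ε 𝒞 h𝒞 ρ R R' L T T' hL hT hT'

/-- **FAM-PULL** from `Bridge.Stmt_T4` and FAM-T4BC. -/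
theorem stmt_FAMPULL_of (hT4 : Bridge.Stmt_T4.{u}) (hBC : Stmt_FAMT4BC.{u}) : Stmt_FAMPULL.{u} := by
  intro k _ C c ε 𝒞 h𝒞 ρ R R' _ _ _ _ φ L T T' hL hT hT'
  letI : Algebra R R' := φ.toRingHom.toAlgebra
  haveI : IsScalarTower k R R' := IsScalarTower.of_algebraMap_eq (fun a => (φ.commutes a).symm)
  have hrel : H20.T4Rel R R' T T' := t4Rel_of_pull hT4 c ε 𝒞 h𝒞 ρ R R' φ L T T' hL hT hT'
  obtain ⟨β⟩ := hBC k 𝒞 h𝒞 R R' T T' hrel
  have hφ : IsScalarTower.toAlgHom k R R' = φ := toAlgHom_eq_of_toAlgebra φ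
  exact ⟨hφ ▸ β⟩

end Fermat.Agent.S25.Top.F.H23
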