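import Fermat.Agent.S25.Top.DefsF

/-!
# S25, package TOP, part F (CHARTFAM), leaf FAM-DEG (helper34)

For a set-up with `g = genus`: a bundle `M` on `C × Spec R` is fibrewise of degree zero (`S.P'`) iff its
triple has degree `0` on all fibres (`Trip.Deg0`):
`stmt_FAMDEG_of : F.Stmt_FAMHOM → F.Stmt_FAMPULL → F.Stmt_FAMISOTR → Trip.Stmt_DEGBC → F.Stmt_FAMDEG`.

(→) `DegZero` at the identity of `Spec R`: the pull-back along the identity is isomorphic to `M`.
(←) every `Spec R' ⟶ Spec R` over `k` is `homOf k ψ` (FAM-HOM), the triple of the pull-back is a base change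
of the triple along `ψ` (FAM-PULL), and the Euler characteristic of the fibres is compatible with base
change (DEGBC).
-/

set_option autoImplicit false

universe u

open CategoryTheory CategoryTheory.Limits AlgebraicGeometry AlgebraicGeometry.RelPicard NeronModelInfra
  GoodReductionJacobian TensorProduct

namespace Fermat.Agent.S25.Top.F.H34

open Fermat.Agent.S25

variable {k : Type u} [Field k]

/-- `IsDeg0` for `g = genus` is `Trip.Deg0`. -/
theorem isDeg0_iff_deg0 {𝒞 : LB.CurveDatum k} {g : ℕ} (hg : g = Num.genus 𝒞) {R : Type u}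
    [CommRing R] [Algebra k R] (L : LB.Triple 𝒞 R) : IsDeg0 g L ↔ Trip.Deg0 L := by
  subst hg
  unfold IsDeg0 Trip.Deg0 Trip.degAt Trip.chiAt
  exact forall_congr' fun p => by rw [sub_eq_zero]

variable {C : Scheme.{u}} {c : C ⟶ Spec (CommRingCat.of k)}
  {ε : SchemeHomOver (𝟙 (Spec (CommRingCat.of k))) c}

/-- the pull-back of a bundle along the identity is isomorphic to the bundle -/
theorem nonempty_iso_pullbackAlong_id {T : Scheme.{u}} (t : T ⟶ Spec (CommRingCat.of k))
    (M : RigidifiedLineBundle c ε t) :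
    Nonempty (M.L ≅ (M.pullbackAlong (⟨𝟙 T, Category.id_comp t⟩ : SchemeHomOver t t)).L) :=
  ⟨((Scheme.Modules.pullbackCongr (baseChangeSnd_id c t)).app M.L ≪≫
    (Scheme.Modules.pullbackId (pullback c t)).app M.L).symm⟩

/-- **FAM-DEG** -/
theorem stmt_FAMDEG_of (hHom : F.Stmt_FAMHOM.{u}) (hPull : F.Stmt_FAMPULL.{u})
    (hIso : F.Stmt_FAMISOTR.{u}) (hBC : Trip.Stmt_DEGBC.{u}) : F.Stmt_FAMDEG.{u} := by
  intro k _ C c ε S hg R _ _ M L hL
  rw [S.hP', ← isDeg0_iff_deg0 hg]
  constructor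
  · intro h
    exact h R ⟨𝟙 _, Category.id_comp _⟩ L
      (hIso k c ε S.𝒞 S.ρ R _ _ L (nonempty_iso_pullbackAlong_id _ M) hL)
  · intro h R' _ _ φ L' hL'
    obtain ⟨ψ, rfl⟩ := (hHom k R R').2 φ
    obtain ⟨β⟩ := hPull k c ε S.𝒞 S.good S.ρ R R' ψ M.L L L' M.isInvertible hL hL'
    intro p'
    have h1 := hBC k S.𝒞 S.good R R' ψ L L' β p'
    have h2 := h (PrimeSpectrum.comap ψ.toRingHom p')
    unfold Trip.chiAt at h1
    rw [h1]
    exact h2

end Fermat.Agent.S25.Top.F.H34
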