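import Fermat.Agent.S25.Top.DefsF

/-!
# S25, package TOP, part F (CHARTFAM), leaf FAM-OBJ (helper34)

A rigid triple over `B` is the triple of a rigidified line bundle on `C × Spec B`:
`stmt_FAMOBJ_of : Bridge.Stmt_T3 → Bridge.Stmt_RIG → F.Stmt_FAMOBJ`.
-/

set_option autoImplicit false

universe u

open CategoryTheory CategoryTheory.Limits AlgebraicGeometry AlgebraicGeometry.RelPicard NeronModelInfra
  GoodReductionJacobian TensorProduct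

namespace Fermat.Agent.S25.Top.F.H34

open Fermat.Agent.S25

/-- **FAM-OBJ** -/
theorem stmt_FAMOBJ_of (hT3 : Bridge.Stmt_T3.{u}) (hRig : Bridge.Stmt_RIG.{u}) :
    F.Stmt_FAMOBJ.{u} := by
  intro k _ C c ε 𝒞 h𝒞 ρ B _ _ Q hQ
  obtain ⟨L, hL, hLQ⟩ := hT3 k c ε 𝒞 h𝒞 ρ B Q
  exact ⟨⟨L, hL, (hRig k c ε 𝒞 h𝒞 ρ B L Q hL hLQ).2 hQ⟩, hLQ⟩

end Fermat.Agent.S25.Top.F.H34
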