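import Fermat.Agent.S25.Top.H52_ClassGlue
import Fermat.Agent.S25.Top.DefsF

/-!
# S25 FAM-OPENGLUE: `LocIso`, `MonoAff`, `OpenPtAff` ⟹ `OpenAff`

helper52.  The open set is `U := ⋃ {D(r) | M is classified by the chart over D(r)}`.
-/

set_option autoImplicit false
set_option linter.style.haveILetI false

universe u

open CategoryTheory CategoryTheory.Limits AlgebraicGeometry AlgebraicGeometry.RelPicard NeronModelInfra
  GoodReductionJacobian

namespace Fermat.Agent.S25.Top.H52

open Fermat.Agent.S25

/-- **FAM-OPENGLUE**. -/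
theorem stmt_FAMOPENGLUE : F.Stmt_FAMOPENGLUE.{u} := by
  intro k _ C c ε P' 𝒳 hL hm hpt a R _ _ M hMP
  have hMono : 𝒳.Mono := mono_of_monoAff 𝒳 hm
  refine ⟨⨆ r : {r : R // ∃ g' : SchemeHomOver (Bridge.tR k (Localization.Away r)) (𝒳.x a),
      Classifies (𝒳.𝓛 a) (M.pullbackAlong (specOver k R (Localization.Away r))) g'},
    (Spec.map (CommRingCat.ofHom (algebraMap R (Localization.Away r.1)))).opensRange,
    fun R' _ _ _ _ => ⟨fun hsub => ?_, ?_⟩⟩
  · -- glue the local classifying morphisms
    have hex : ∀ p' : Spec (CommRingCat.of R'), ∃ (R'' : CommRingCat.{u})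
        (w : Spec R'' ⟶ Spec (CommRingCat.of R')) (_ : IsOpenImmersion w),
        p' ∈ Set.range w ∧ ∃ g : SchemeHomOver (w ≫ Bridge.tR k R') (𝒳.x a),
          Classifies (𝒳.𝓛 a) ((M.pullbackAlong (specOver k R R')).pullbackAlong
            (overOf (Bridge.tR k R') w)) g := by
      intro p'
      have hp' : (specOver k R R').1 p' ∈ ⨆ r : {r : R // ∃ g' : SchemeHomOver
          (Bridge.tR k (Localization.Away r)) (𝒳.x a),
          Classifies (𝒳.𝓛 a) (M.pullbackAlong (specOver k R (Localization.Away r))) g'},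
          (Spec.map (CommRingCat.ofHom (algebraMap R (Localization.Away r.1)))).opensRange :=
        hsub ⟨p', rfl⟩
      obtain ⟨⟨r, g', hg'⟩, hi⟩ := TopologicalSpace.Opens.mem_iSup.mp hp'
      have hp'V : p' ∈ (specOver k R R').1 ⁻¹ᵁ
          (Spec.map (CommRingCat.ofHom (algebraMap R (Localization.Away r)))).opensRange := hi
      obtain ⟨R'', w, hw, hmem, hsubw⟩ := Scheme.exists_affine_mem_range_and_range_subset hp'V
      have hrange : Set.range (w ≫ (specOver k R R').1) ⊆
          Set.range (Spec.map (CommRingCat.ofHom (algebraMap R (Localization.Away r)))) := by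
        rintro _ ⟨s', rfl⟩
        exact hsubw ⟨s', rfl⟩
      have hℓ : IsOpenImmersion.lift
          (Spec.map (CommRingCat.ofHom (algebraMap R (Localization.Away r))))
          (w ≫ (specOver k R R').1) hrange ≫ (specOver k R (Localization.Away r)).1 =
          w ≫ (specOver k R R').1 := IsOpenImmersion.lift_fac _ _ _
      have hover : IsOpenImmersion.lift
          (Spec.map (CommRingCat.ofHom (algebraMap R (Localization.Away r))))
          (w ≫ (specOver k R R').1) hrange ≫ Bridge.tR k (Localization.Away r) =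
          w ≫ Bridge.tR k R' := by
        rw [← (specOver k R (Localization.Away r)).2, ← Category.assoc, hℓ, Category.assoc,
          (specOver k R R').2]
      refine ⟨R'', w, hw, hmem, postComp g' ⟨_, hover⟩, ?_⟩
      obtain ⟨e1⟩ := classifies_postComp (𝒳.𝓛 a) _ g' hg'
        (⟨_, hover⟩ : SchemeHomOver (w ≫ Bridge.tR k R') (Bridge.tR k (Localization.Away r)))
      obtain ⟨e2⟩ := pullback_pullback M (specOver k R (Localization.Away r))
        (⟨_, hover⟩ : SchemeHomOver (w ≫ Bridge.tR k R') (Bridge.tR k (Localization.Away r)))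
        (postComp (specOver k R R') (overOf (Bridge.tR k R') w)) hℓ
      obtain ⟨e3⟩ := pullback_pullback M (specOver k R R') (overOf (Bridge.tR k R') w)
        (postComp (specOver k R R') (overOf (Bridge.tR k R') w)) rfl
      exact ⟨e1 ≪≫ e2 ≪≫ e3.symm⟩
    choose R'' w hw hmem g hg using hex
    exact classifies_glue 𝒳 hMono hL a (Bridge.tR k R') (M.pullbackAlong (specOver k R R'))
      (Scheme.Cover.mkOfCovers (Spec (CommRingCat.of R')) (fun p' => Spec (R'' p')) w
        (fun p' => ⟨p', hmem p'⟩) hw) (fun p' => ⟨g p', hg p'⟩)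
  · -- a classified bundle lands in the open set
    rintro ⟨g, hg⟩ _ ⟨p', rfl⟩
    obtain ⟨r, hr, g', hg'⟩ := hpt a R M hMP R' g hg p'
    refine TopologicalSpace.Opens.mem_iSup.mpr ⟨⟨r, g', hg'⟩, ?_⟩
    have h1 := Scheme.Hom.opensRange_localizationAway (R := CommRingCat.of R) r
    have h2 : (specOver k R R').1 p' ∈
        ((Spec.map (CommRingCat.ofHom (algebraMap (CommRingCat.of R)
          (Localization.Away (r : CommRingCat.of R))))).opensRange : Set _) := by
      rw [h1]
      exact hr
    exact h2

end Fermat.Agent.S25.Top.H52
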