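/-
helper91, S25 (Jacobian exists), package TOP, leaf TOP-GAMMA: `Top.Stmt_GAMMA`.

For `C` proper and integral over an algebraically closed field `k` and EVERY `k`-scheme `T`,
the second projection `C ×ₖ T ⟶ T` induces a bijection on global functions,
`Γ(T, 𝒪) ≃ Γ(C ×ₖ T, 𝒪)`; more generally `Γ(T, U) ≃ Γ(C ×ₖ T, pr₂⁻¹ U)` for every open `U ⊆ T`.

Proof.
* `Γ(C, 𝒪) = k` (helper93, `Curve.H93.stmt_H0`).
* `U ⊆ T` affine open: flat base change of sections for the quasi-compact quasi-separated `C`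
  (Mathlib `isIso_pushoutSection_of_isQuasiSeparated_of_flat_right`; every `T ⟶ Spec k` is flat):
  `Γ(C) ⊗ₖ Γ(T, U) ≃ Γ(C ×ₖ T, pr₂⁻¹ U)`, and `Γ(T, U) ⟶ Γ(C) ⊗ₖ Γ(T, U)` is an isomorphism
  because `k ⟶ Γ(C)` is one.
* all opens: a morphism of sheaves which is an isomorphism on a basis is an isomorphism
  (Mathlib `TopCat.Sheaf.isIso_iff_isIso_basis`), applied to `𝒪_T ⟶ pr₂_* 𝒪_{C ×ₖ T}`.
-/
import Fermat.Agent.S25.Top.Defs
import Fermat.Agent.S25.Curve.H93_H0

set_option autoImplicit false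

universe u

open CategoryTheory CategoryTheory.Limits AlgebraicGeometry Opposite TopologicalSpace

namespace Fermat.Agent.S25.Top.H91

/-- A morphism of schemes `f : Y ⟶ T` whose comorphism is an isomorphism over every affine open of
`T` has a comorphism which is an isomorphism over every open of `T`. -/
theorem isIso_app_of_affine {Y T : Scheme.{u}} (f : Y ⟶ T)
    (h : ∀ U : T.affineOpens, IsIso (f.app U.1)) (V : T.Opens) : IsIso (f.app V) := by
  let G : TopCat.Sheaf CommRingCat.{u} T.toTopCat :=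
    (TopCat.Sheaf.pushforward _ f.base).obj Y.sheaf
  let φ : T.sheaf ⟶ G := ⟨f.c⟩
  have hB : Opens.IsBasis (Set.range (fun U : T.affineOpens => (U.1 : T.Opens))) := by
    have := T.isBasis_affineOpens
    simpa using this
  have hφ : IsIso φ :=
    TopCat.Sheaf.isIso_iff_isIso_basis (B := fun U : T.affineOpens => (U.1 : T.Opens)) hB
      (fun U => h U)
  have h1 : IsIso ((TopCat.Sheaf.forget _ _).map φ) := inferInstance
  have h2 : IsIso (((TopCat.Sheaf.forget _ _).map φ).app (op V)) := inferInstance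
  exact h2

/-- The version of `isIso_app_of_affine` for global sections. -/
theorem isIso_appTop_of_affine {Y T : Scheme.{u}} (f : Y ⟶ T)
    (h : ∀ U : T.affineOpens, IsIso (f.app U.1)) : IsIso f.appTop :=
  isIso_app_of_affine f h ⊤

variable {k : Type u} [Field k]

theorem appLE_top_top {X Y : Scheme.{u}} (f : X ⟶ Y) (h : (⊤ : X.Opens) ≤ f ⁻¹ᵁ ⊤) :
    f.appLE ⊤ ⊤ h = f.appTop :=
  Scheme.Hom.appLE_eq_app f (U := ⊤)

/-- The structure map of a proper integral scheme over an algebraically closed field is an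
isomorphism on global sections. -/
theorem isIso_appTop_of_proper [IsAlgClosed k] {C : Scheme.{u}} (c : C ⟶ Spec (CommRingCat.of k))
    [IsProper c] [IsIntegral C] : IsIso c.appTop := by
  have h0 : Function.Bijective (Curve.kSec c ⊤) := Curve.H93.stmt_H0 k c
  have h1 : Function.Bijective (c.appTop).hom := by
    have h4 : Curve.kSec c ⊤ =
        (c.appTop).hom.comp (Scheme.ΓSpecIso (CommRingCat.of k)).inv.hom := by
      unfold Curve.kSec
      congr 1
      exact congrArg CommRingCat.Hom.hom (appLE_top_top c _)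
    rw [h4] at h0
    have h6 : Function.Bijective ((Scheme.ΓSpecIso (CommRingCat.of k)).hom.hom) :=
      ConcreteCategory.bijective_of_isIso (Scheme.ΓSpecIso (CommRingCat.of k)).hom
    have : ⇑(c.appTop).hom =
        ⇑((c.appTop).hom.comp (Scheme.ΓSpecIso (CommRingCat.of k)).inv.hom) ∘
          ⇑(Scheme.ΓSpecIso (CommRingCat.of k)).hom.hom := by
      funext x
      simp
    rw [this]
    exact h0.comp h6
  exact (ConcreteCategory.isIso_iff_bijective _).mpr h1

/-- Affine case: `Γ(T, U) ⟶ Γ(C ×ₖ T, pr₂⁻¹ U)` is an isomorphism for `U ⊆ T` affine open. -/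
theorem isIso_app_snd_of_isAffineOpen [IsAlgClosed k] {C : Scheme.{u}}
    (c : C ⟶ Spec (CommRingCat.of k)) [IsProper c] [IsIntegral C] {T : Scheme.{u}}
    (t : T ⟶ Spec (CommRingCat.of k)) (U : T.Opens) (hU : IsAffineOpen U) :
    IsIso ((pullback.snd c t).app U) := by
  have H : IsPullback (pullback.fst c t) (pullback.snd c t) c t := IsPullback.of_hasPullback c t
  have hcomp : CompactSpace C := (quasiCompact_iff_compactSpace c).mp inferInstance
  have hqs : QuasiSeparatedSpace C :=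
    (quasiSeparated_iff_quasiSeparatedSpace c).mp inferInstance
  have hUST : U ≤ t ⁻¹ᵁ (⊤ : (Spec (CommRingCat.of k)).Opens) := le_top
  have hUSX : (⊤ : C.Opens) ≤ c ⁻¹ᵁ (⊤ : (Spec (CommRingCat.of k)).Opens) := le_top
  have hUY : (pullback.snd c t) ⁻¹ᵁ U =
      (pullback.fst c t) ⁻¹ᵁ (⊤ : C.Opens) ⊓ (pullback.snd c t) ⁻¹ᵁ U := by
    simp
  have hiso : IsIso (pushoutSection H hUST hUSX hUY) :=
    isIso_pushoutSection_of_isQuasiSeparated_of_flat_right H hUST hUSX hUY (isAffineOpen_top _) hU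
      (by simpa using isCompact_univ) (by simpa using isQuasiSeparated_univ)
  have hc : IsIso (c.appLE ⊤ ⊤ hUSX) := by
    rw [appLE_top_top]
    exact isIso_appTop_of_proper c
  have hinr : IsIso (pushout.inr (c.appLE ⊤ ⊤ hUSX) (t.appLE ⊤ U hUST)) := inferInstance
  have hfac : (pullback.snd c t).app U =
      pushout.inr (c.appLE ⊤ ⊤ hUSX) (t.appLE ⊤ U hUST) ≫ pushoutSection H hUST hUSX hUY := by
    rw [pushout.inr_desc]
    exact (Scheme.Hom.appLE_eq_app _).symm
  rw [hfac]
  infer_instance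

/-- `Γ(T, U) ⟶ Γ(C ×ₖ T, pr₂⁻¹ U)` is an isomorphism for EVERY open `U` of EVERY `k`-scheme `T`. -/
theorem isIso_app_snd [IsAlgClosed k] {C : Scheme.{u}}
    (c : C ⟶ Spec (CommRingCat.of k)) [IsProper c] [IsIntegral C] {T : Scheme.{u}}
    (t : T ⟶ Spec (CommRingCat.of k)) (U : T.Opens) :
    IsIso ((pullback.snd c t).app U) :=
  isIso_app_of_affine _ (fun V => isIso_app_snd_of_isAffineOpen c t V.1 V.2) U

/-- The same as a bijection. -/
theorem bijective_app_snd [IsAlgClosed k] {C : Scheme.{u}}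
    (c : C ⟶ Spec (CommRingCat.of k)) [IsProper c] [IsIntegral C] {T : Scheme.{u}}
    (t : T ⟶ Spec (CommRingCat.of k)) (U : T.Opens) :
    Function.Bijective ((pullback.snd c t).app U) :=
  haveI := isIso_app_snd c t U
  ConcreteCategory.bijective_of_isIso _

/-- Units: a unit of `Γ(C ×ₖ T, pr₂⁻¹ U)` is the image of a unique unit of `Γ(T, U)`. -/
theorem existsUnique_unit_app_snd [IsAlgClosed k] {C : Scheme.{u}}
    (c : C ⟶ Spec (CommRingCat.of k)) [IsProper c] [IsIntegral C] {T : Scheme.{u}}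
    (t : T ⟶ Spec (CommRingCat.of k)) (U : T.Opens)
    (a : Γ(pullback c t, (pullback.snd c t) ⁻¹ᵁ U)) (ha : IsUnit a) :
    ∃! b : Γ(T, U), IsUnit b ∧ (pullback.snd c t).app U b = a := by
  obtain ⟨hinj, hsurj⟩ := bijective_app_snd c t U
  obtain ⟨b, hb⟩ := hsurj a
  obtain ⟨a', ha'⟩ := ha.exists_right_inv
  obtain ⟨b', hb'⟩ := hsurj a'
  have hbb' : b * b' = 1 := by
    apply hinj
    rw [map_mul, hb, hb', ha', map_one]
  refine ⟨b, ⟨IsUnit.of_mul_eq_one _ hbb', hb⟩, ?_⟩
  rintro b₂ ⟨-, hb₂⟩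
  exact hinj (hb₂.trans hb.symm)

/-- **TOP-GAMMA**: `Γ(C ×ₖ T, 𝒪) = Γ(T, 𝒪)` for every `k`-scheme `T`. -/
theorem stmt_GAMMA : Stmt_GAMMA.{u} := by
  intro k _ _ C c _ _ T t
  exact bijective_app_snd c t ⊤

end Fermat.Agent.S25.Top.H91
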