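import Fermat.Agent.S25.Top.H56_LocIsoCore
import Fermat.Agent.S25.Top.H91_Gamma

/-!
# S25, package TOP, leaf LOCISO (helper56): `stmt_LOCISO : Stmt_LOCISO`

The rigidified Picard presheaf of a proper integral curve over an algebraically closed field is
separated for the Zariski topology: two rigidified line bundles on `C × T` which are isomorphic
over every member of an open cover of `T` are isomorphic.

* `isPullback_baseChangeSnd`, `isOpenImmersion_baseChangeSnd`, `preimage_opensRange_le` :
  `C × U ⟶ C × T` is an open immersion onto `pr₂⁻¹(U)` for an open immersion `U ⟶ T`;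
* `stmt_LOCISO` : from the abstract core `locIso_core` and helper91's `H91.bijective_app_snd`.

This file contains no unproved statement.
-/

set_option autoImplicit false
open CategoryTheory CategoryTheory.Limits AlgebraicGeometry TopologicalSpace Opposite AlgebraicGeometry.RelPicard NeronModelInfra
universe u

namespace Fermat.Agent.S25.Top.H56
open Fermat.Agent.S25.Glue Fermat.Agent.S25.Glue.H56

theorem range_of_isPullback {P X Y S : Scheme.{u}} {fst : P ⟶ X} {snd : P ⟶ Y} {f : X ⟶ S}
    {g : Y ⟶ S} (h : IsPullback fst snd f g) :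
    Set.range fst = f ⁻¹' Set.range g := by
  rw [← Scheme.Pullback.range_fst f g]
  have e : fst = h.isoPullback.hom ≫ pullback.fst f g := (h.isoPullback_hom_fst).symm
  have hs : Function.Surjective h.isoPullback.hom := by
    intro x
    refine ⟨h.isoPullback.inv x, ?_⟩
    rw [← Scheme.Hom.comp_apply, Iso.inv_hom_id]
    rfl
  rw [e]
  ext x
  constructor
  · rintro ⟨y, rfl⟩
    exact ⟨h.isoPullback.hom y, rfl⟩
  · rintro ⟨y, rfl⟩
    obtain ⟨z, rfl⟩ := hs y
    exact ⟨z, rfl⟩

variable {k : Type u} [Field k]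

theorem isPullback_baseChangeSnd {C T U : Scheme.{u}} (c : C ⟶ Spec (CommRingCat.of k))
    (t : T ⟶ Spec (CommRingCat.of k)) (g : U ⟶ T) :
    IsPullback (baseChangeSnd c (overOf t g)) (pullback.snd c (g ≫ t)) (pullback.snd c t) g := by
  have hbig : IsPullback (pullback.fst c (g ≫ t)) (pullback.snd c (g ≫ t)) c (g ≫ t) :=
    IsPullback.of_hasPullback _ _
  have hright : IsPullback (pullback.fst c t) (pullback.snd c t) c t :=
    IsPullback.of_hasPullback _ _
  have e1 : baseChangeSnd c (overOf t g) ≫ pullback.fst c t = pullback.fst c (g ≫ t) := by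
    unfold baseChangeSnd pullback.map
    exact (pullback.lift_fst _ _ _).trans (Category.comp_id _)
  have e2 : baseChangeSnd c (overOf t g) ≫ pullback.snd c t = pullback.snd c (g ≫ t) ≫ g := by
    unfold baseChangeSnd pullback.map
    exact pullback.lift_snd _ _ _
  exact IsPullback.of_right (by rw [e1]; exact hbig) e2 hright

theorem isOpenImmersion_baseChangeSnd {C T U : Scheme.{u}} (c : C ⟶ Spec (CommRingCat.of k))
    (t : T ⟶ Spec (CommRingCat.of k)) (g : U ⟶ T) [IsOpenImmersion g] :
    IsOpenImmersion (baseChangeSnd c (overOf t g)) :=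
  MorphismProperty.of_isPullback (P := @IsOpenImmersion) (isPullback_baseChangeSnd c t g).flip
    inferInstance

theorem preimage_opensRange_le {C T U : Scheme.{u}} (c : C ⟶ Spec (CommRingCat.of k))
    (t : T ⟶ Spec (CommRingCat.of k)) (g : U ⟶ T) [IsOpenImmersion g]
    [IsOpenImmersion (baseChangeSnd c (overOf t g))] :
    (pullback.snd c t) ⁻¹ᵁ g.opensRange ≤ (baseChangeSnd c (overOf t g)).opensRange := by
  intro x hx
  have h := range_of_isPullback (isPullback_baseChangeSnd c t g)
  have hx' : x ∈ (pullback.snd c t) ⁻¹' Set.range g := hx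
  rw [← h] at hx'
  exact hx'

theorem stmt_LOCISO : Stmt_LOCISO.{u} := by
  intro k _ _ C c _ _ _ ε T t M M' 𝒰 h
  have hσ : rigSection c t ε ≫ pullback.snd c t = 𝟙 T := pullback.lift_snd _ _ _
  refine locIso_core (pullback.snd c t) (rigSection c t ε) hσ
    (fun V => (H91.bijective_app_snd c t V).2) M.L M'.L
    (locGen_of_isInvertible M.isInvertible ⊤) M.rigidified.some M'.rigidified.some
    (fun i => (𝒰.f i).opensRange) (fun x => ⟨𝒰.idx x, 𝒰.covers x⟩) fun i => ?_
  have : IsOpenImmersion (baseChangeSnd c (overOf t (𝒰.f i))) :=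
    isOpenImmersion_baseChangeSnd c t (𝒰.f i)
  have hr := preimage_opensRange_le c t (𝒰.f i)
  obtain ⟨φ⟩ := h i
  let ψ : M.L.restrict (baseChangeSnd c (overOf t (𝒰.f i))) ≅
      M'.L.restrict (baseChangeSnd c (overOf t (𝒰.f i))) :=
    (Scheme.Modules.restrictFunctorIsoPullback _).app M.L ≪≫ φ ≪≫
      ((Scheme.Modules.restrictFunctorIsoPullback _).app M'.L).symm
  exact ⟨(LocHom.ofRestrict _ ψ.hom).restrict hr, (LocHom.ofRestrict _ ψ.inv).restrict hr,
    (LocHom.ofRestrict_isInv _ ψ).restrict hr⟩

end Fermat.Agent.S25.Top.H56
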