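import Fermat.Agent.S25.Top.DefsF

/-!
# S25 TOP-CHARTFAM, leaves FAM-HOM and FAM-SMOOTH (helper79)

For `k`-algebras `R`, `B`: the morphisms `Spec R ⟶ Spec B` over `Spec k` (structure maps
`Bridge.tR k R`, `Bridge.tR k B`) are the `k`-algebra maps `B →ₐ[k] R`.

* `algHomOfHom φ : B →ₐ[k] R` of `φ : SchemeHomOver (tR k R) (tR k B)`;
* `homEquivAlgHom : SchemeHomOver (tR k R) (tR k B) ≃ (B →ₐ[k] R)` (inverse `F.homOf k`);
* `homOf_id`, `homOf_comp`, `homOf_injective`, `exists_algHom`;
* **`stmt_FAMHOM : F.Stmt_FAMHOM`**;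
* **`stmt_FAMSMOOTH : F.Stmt_FAMSMOOTH`** : `Algebra.Smooth k B ⟹ Smooth (Spec B ⟶ Spec k)`.
-/

set_option autoImplicit false

universe u

open CategoryTheory CategoryTheory.Limits AlgebraicGeometry NeronModelInfra

namespace Fermat.Agent.S25.Top.F.H79

open Fermat.Agent.S25 Fermat.Agent.S25.Top.F

variable (k : Type u) [Field k] {R B B' : Type u} [CommRing R] [Algebra k R] [CommRing B]
  [Algebra k B] [CommRing B'] [Algebra k B']

variable {k} in
/-- The compatibility of the ring map of a morphism over `k` with the structure maps. -/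
theorem preimage_comp_algebraMap (φ : SchemeHomOver (Bridge.tR k R) (Bridge.tR k B)) :
    (Spec.preimage φ.1).hom.comp (algebraMap k B) = algebraMap k R := by
  have h : Spec.map (CommRingCat.ofHom (algebraMap k B) ≫ Spec.preimage φ.1)
      = Spec.map (CommRingCat.ofHom (algebraMap k R)) := by
    rw [Spec.map_comp, Spec.map_preimage]
    exact φ.2
  have h2 := Spec.map_injective h
  have h3 := congrArg CommRingCat.Hom.hom h2
  exact h3

/-- The `k`-algebra map `B →ₐ[k] R` of a morphism `Spec R ⟶ Spec B` over `k`. -/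
noncomputable def algHomOfHom (φ : SchemeHomOver (Bridge.tR k R) (Bridge.tR k B)) : B →ₐ[k] R :=
  { (Spec.preimage φ.1).hom with
    commutes' := fun x => RingHom.congr_fun (preimage_comp_algebraMap φ) x }

@[simp]
theorem algHomOfHom_toRingHom (φ : SchemeHomOver (Bridge.tR k R) (Bridge.tR k B)) :
    (algHomOfHom k φ).toRingHom = (Spec.preimage φ.1).hom := rfl

theorem homOf_algHomOfHom (φ : SchemeHomOver (Bridge.tR k R) (Bridge.tR k B)) :
    homOf k (algHomOfHom k φ) = φ := by
  apply Subtype.ext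
  show Spec.map (CommRingCat.ofHom (Spec.preimage φ.1).hom) = φ.1
  rw [CommRingCat.ofHom_hom, Spec.map_preimage]

theorem algHomOfHom_homOf (f : B →ₐ[k] R) :
    algHomOfHom k (homOf k f) = f := by
  apply AlgHom.coe_ringHom_injective
  show (Spec.preimage (Spec.map (CommRingCat.ofHom f.toRingHom))).hom = f.toRingHom
  rw [Spec.preimage_map]
  rfl

/-- The morphisms `Spec R ⟶ Spec B` over `k` are the `k`-algebra maps `B → R`. -/
noncomputable def homEquivAlgHom :
    SchemeHomOver (Bridge.tR k R) (Bridge.tR k B) ≃ (B →ₐ[k] R) where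
  toFun := algHomOfHom k
  invFun := homOf k
  left_inv := homOf_algHomOfHom k
  right_inv := algHomOfHom_homOf k

@[simp]
theorem homEquivAlgHom_apply (φ : SchemeHomOver (Bridge.tR k R) (Bridge.tR k B)) :
    homEquivAlgHom k φ = algHomOfHom k φ := rfl

@[simp]
theorem homEquivAlgHom_symm_apply (f : B →ₐ[k] R) :
    (homEquivAlgHom k).symm f = homOf k f := rfl

theorem homOf_injective :
    Function.Injective (homOf k : (B →ₐ[k] R) → _) :=
  (homEquivAlgHom k).symm.injective

theorem homOf_bijective :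
    Function.Bijective
      (homOf k : (B →ₐ[k] R) → SchemeHomOver (Bridge.tR k R) (Bridge.tR k B)) :=
  (homEquivAlgHom k).symm.bijective

/-- Every morphism over `k` of affine schemes comes from a `k`-algebra map. -/
theorem exists_algHom (φ : SchemeHomOver (Bridge.tR k R) (Bridge.tR k B)) :
    ∃ f : B →ₐ[k] R, homOf k f = φ :=
  ⟨algHomOfHom k φ, homOf_algHomOfHom k φ⟩

/-- The morphism of the identity. -/
theorem homOf_id :
    (homOf k (AlgHom.id k R)).1 = 𝟙 (Spec (CommRingCat.of R)) := by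
  show Spec.map (CommRingCat.ofHom (RingHom.id R)) = _
  rw [CommRingCat.ofHom_id, Spec.map_id]

/-- The morphism of a composite. -/
theorem homOf_comp (f : B →ₐ[k] R) (g : B' →ₐ[k] B) :
    (homOf k (f.comp g)).1 = (homOf k f).1 ≫ (homOf k g).1 := by
  show Spec.map (CommRingCat.ofHom (f.toRingHom.comp g.toRingHom)) = _
  rw [CommRingCat.ofHom_comp, Spec.map_comp]
  rfl

/-- **FAM-HOM**: `φ ↦ homOf k φ` is a bijection from the `k`-algebra maps `B → R` onto the
morphisms `Spec R ⟶ Spec B` over `k`. -/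
theorem stmt_FAMHOM : Stmt_FAMHOM.{u} :=
  fun k _ _ _ _ _ _ _ => homOf_bijective k

/-- **FAM-SMOOTH**: the spectrum of a smooth `k`-algebra is smooth over `Spec k`. -/
theorem stmt_FAMSMOOTH : Stmt_FAMSMOOTH.{u} := by
  intro k _ B _ _ hB
  show Smooth (Spec.map (CommRingCat.ofHom (algebraMap k B)))
  rw [HasRingHomProperty.Spec_iff (P := @Smooth)]
  show RingHom.Smooth (algebraMap k B)
  rw [RingHom.smooth_algebraMap]
  exact hB

end Fermat.Agent.S25.Top.F.H79
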