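/-
helper19 (sub-planner of TOP-CHARTFAM), S25 (Jacobian exists), package TOP, part F: THE CLOSING FILE of
the translation of the charts of triples into a chart family of the degree zero functor.

All leaves of `Top/DefsF.lean` are plugged in:

| leaf | theorem | by |
|---|---|---|
| FAM-HOM, FAM-SMOOTH | `F.H79.stmt_FAMHOM`, `F.H79.stmt_FAMSMOOTH` | helper79 |
| FAM-T4BC, FAM-ISOTR | `F.H19.stmt_FAMT4BC`, `F.H19.stmt_FAMISOTR` | helper30, helper7 (helper56) |
| FAM-PULL            | `F.H23.stmt_FAMPULL_of`                     | helper23 |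
| FAM-DICT            | `F.H99.stmt_FAMDICT_of`                     | helper99 |
| FAM-OBJ, FAM-DEG    | `F.H34.stmt_FAMOBJ_of`, `F.H34.stmt_FAMDEG_of` | helper34 |
| FAM-OPENGLUE        | `H52.stmt_FAMOPENGLUE`                      | helper52 |
| FAM-MONO, FAM-COVER, FAM-OPENPT | `F.H19.stmt_FAM…_of`            | helper19 |
| T1, T2, T3, T4, RIG | BRIDGE (helper24, helper99, helper18, helper34, helper41) | |
| BCUNIQ, DEGBC, LOCISO | helper73, helper36, helper56 | |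

OUTPUT: `stmt_CHARTFAME_of_tcharts : Trip.H71.Stmt_TCHARTSE → F.Stmt_CHARTFAME`
(the only open input is the assembly of the charts of triples, `Trip.H71.tcharts_of`).
-/
import Fermat.Agent.S25.Top.H19_FamCharts
import Fermat.Agent.S25.Top.H19_FamEasy
import Fermat.Agent.S25.Top.H23_FamPull
import Fermat.Agent.S25.Top.H34_FamDeg
import Fermat.Agent.S25.Top.H34_FamObj
import Fermat.Agent.S25.Top.H52_FamOpenGlue
import Fermat.Agent.S25.Top.H79_FamHom
import Fermat.Agent.S25.Top.H99_FamDict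
import Fermat.Agent.S25.Top.H56_LocIso
import Fermat.Agent.S25.Bridge.H24_Closed
import Fermat.Agent.S25.Bridge.H18_T3Closed
import Fermat.Agent.S25.Bridge.H41_Rig
import Fermat.Agent.S25.LB.H73_BCUniq
import Fermat.Agent.S25.Trip.H36_DegBC
import Fermat.Agent.S25.Trip.H71_TCharts

set_option autoImplicit false

universe u

open CategoryTheory CategoryTheory.Limits AlgebraicGeometry AlgebraicGeometry.RelPicard NeronModelInfra
  GoodReductionJacobian TensorProduct

namespace Fermat.Agent.S25.Top.F.H19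

open Fermat.Agent.S25

/-- **FAM-PULL**, unconditional. -/
theorem stmt_FAMPULL : Stmt_FAMPULL.{u} :=
  H23.stmt_FAMPULL_of Bridge.H24.closed_T4 stmt_FAMT4BC

/-- **FAM-DICT**, unconditional. -/
theorem stmt_FAMDICT : Stmt_FAMDICT.{u} :=
  H99.stmt_FAMDICT_of Bridge.H24.stmt_T1 Bridge.H24.closed_T2 stmt_FAMPULL LB.H73.stmt_BCUNIQ

/-- **FAM-OBJ**, unconditional. -/
theorem stmt_FAMOBJ : Stmt_FAMOBJ.{u} :=
  H34.stmt_FAMOBJ_of Bridge.H18.stmt_T3 Bridge.H41.stmt_RIG

/-- **FAM-DEG**, unconditional. -/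
theorem stmt_FAMDEG : Stmt_FAMDEG.{u} :=
  H34.stmt_FAMDEG_of H79.stmt_FAMHOM stmt_FAMPULL stmt_FAMISOTR Trip.H36.stmt_DEGBC

/-- **FAM-MONO**, unconditional. -/
theorem stmt_FAMMONO : Stmt_FAMMONO.{u} :=
  stmt_FAMMONO_of H79.stmt_FAMHOM stmt_FAMDICT Bridge.H24.stmt_T1

/-- **FAM-COVER**, unconditional. -/
theorem stmt_FAMCOVER : Stmt_FAMCOVER.{u} :=
  stmt_FAMCOVER_of stmt_FAMDEG stmt_FAMDICT stmt_FAMPULL Bridge.H24.stmt_T1 LB.H73.stmt_BCUNIQ

/-- **FAM-OPENPT**, unconditional. -/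
theorem stmt_FAMOPENPT : Stmt_FAMOPENPT.{u} :=
  stmt_FAMOPENPT_of H79.stmt_FAMHOM stmt_FAMDICT stmt_FAMPULL Bridge.H24.stmt_T1
    LB.H73.stmt_BCUNIQ

/-- The two forms of the statement on the charts of triples agree. -/
theorem stmt_TCHARTSE_of_trip (h : Trip.H71.Stmt_TCHARTSE.{u}) : Stmt_TCHARTSE.{u} := h

/-- **TOP-CHARTFAME** from the charts of triples (`F.Stmt_TCHARTSE`), everything else plugged in. -/
theorem stmt_CHARTFAME_of_tchartsF (hT : Stmt_TCHARTSE.{u}) : Stmt_CHARTFAME.{u} :=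
  stmt_CHARTFAME_of hT H56.stmt_LOCISO stmt_FAMOBJ stmt_FAMDEG stmt_FAMMONO stmt_FAMCOVER
    stmt_FAMOPENPT H52.stmt_FAMOPENGLUE H79.stmt_FAMSMOOTH

/-- **TOP-CHARTFAME** from the charts of triples in helper71's form. -/
theorem stmt_CHARTFAME_of_tcharts (hT : Trip.H71.Stmt_TCHARTSE.{u}) : Stmt_CHARTFAME.{u} :=
  stmt_CHARTFAME_of_tchartsF (stmt_TCHARTSE_of_trip hT)

end Fermat.Agent.S25.Top.F.H19
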