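import Fermat.Agent.S25.Top.H61_AezDeg
import Fermat.Agent.S25.Bridge.H24_Closed
import Fermat.Agent.S25.LB.H16_IsoData
import Fermat.Agent.S25.LB.H7_VB
import Fermat.Agent.S25.P1.H97_Close

/-!
# TOP-AEZDEG, unconditional

`stmt_AEZDEG_of` (in `H61_AezDeg`) with all six inputs discharged by the landed
closers: BRIDGE T1/T2/T4 (`Bridge.H24`), LB ISODATA (`LB.H16`), P1 CHI (`P1.H97`),
LB VB (`LB.H7`).
-/

universe u

namespace Fermat.Agent.S25.Top.H61

/-- **TOP-AEZDEG** (unconditional): fibrewise algebraically equivalent to zero implies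
fibrewise of degree zero. -/
theorem stmt_AEZDEG : Top.Stmt_AEZDEG.{u} :=
  stmt_AEZDEG_of Bridge.H24.stmt_T1 Bridge.H24.closed_T2 Bridge.H24.closed_T4
    LB.H16.stmt_ISODATA P1.H97.stmt_CHI LB.H7.stmt_VB

end Fermat.Agent.S25.Top.H61
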