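/-
helper23, S25 package TOP, part CHARTFAM: FAM-T4BC and FAM-PULL UNCONDITIONAL.

* `stmt_FAMT4BC : F.Stmt_FAMT4BC`  = helper30's `Top.H30.t4rel_bc` (landed in `Top/H30_ValUniq.lean`);
* `stmt_FAMPULL : F.Stmt_FAMPULL`  = `F.H23.stmt_FAMPULL_of` with `Bridge.H34.stmt_T4` and `stmt_FAMT4BC`.
-/
import Fermat.Agent.S25.Top.H23_FamPull
import Fermat.Agent.S25.Top.H30_ValUniq
import Fermat.Agent.S25.Bridge.H34_T4Close

set_option autoImplicit false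

universe u

namespace Fermat.Agent.S25.Top.F.H23

open Fermat.Agent.S25

/-- **FAM-T4BC** (helper30's `t4rel_bc`). -/
theorem stmt_FAMT4BC : Stmt_FAMT4BC.{u} := by
  intro k _ 𝒞 h𝒞 R R' _ _ _ _ _ _ T T' hrel
  exact Top.H30.t4rel_bc h𝒞 hrel

/-- **FAM-PULL**, unconditional. -/
theorem stmt_FAMPULL : Stmt_FAMPULL.{u} :=
  stmt_FAMPULL_of Bridge.H34.stmt_T4 stmt_FAMT4BC

end Fermat.Agent.S25.Top.F.H23
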