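import Fermat.Agent.S25.Top.H25_Rep

/-!
# S25, package TOP, part REP (helper25): the Yoneda bridge

* `PicModel c ε P G` : a functor `G : Schemeᵒᵖ ⥤ Type w` (any universe `w`) is a MODEL of the
  (absolute) sub-Picard functor cut out by the condition `P : SubPicCondition c ε`: every
  `x : G T` has a structure map `str x : T ⟶ Spec k` and a class `cls x : Classes c ε (str x)`
  satisfying `P`, compatible with pull-back, and every `(t, M)` with `P` is classified by exactly
  one `x`.
* `IsUnivElt G u` : `u : G J` is a universal element (`g ↦ G(g) u` is bijective for every `T`).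
* `PicModel.jacUniv` : if `G` is a model and `u : G J` is universal, then `J` carries a Poincaré
  bundle with the universal property for ALL `T`.
* `PicModel.represents` : ... hence `RepresentsRelSubPic c ε P D` for the designation `D`
  whose zero section classifies the trivial bundle.
* `PicModel.jacData`, `PicModel.s25_of_model` : the case `P = algEquivZeroCut`.
* `isUnivElt_of_representableBy` : for `F : Schemeᵒᵖ ⥤ Type u`, a `F.RepresentableBy J` gives a
  universal element.

Complete proofs, standard axioms only.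
-/

set_option autoImplicit false

open CategoryTheory CategoryTheory.Limits AlgebraicGeometry AlgebraicGeometry.RelPicard
  NeronModelInfra GoodReductionJacobian Opposite

universe w u

namespace Fermat.Agent.S25.Top.H25

section Transport

variable {k : Type u} [Field k] {C : Scheme.{u}} {c : C ⟶ Spec (CommRingCat.of k)}
  {ε : SchemeHomOver (𝟙 (Spec (CommRingCat.of k))) c}

/-- Pulling back along the identity does nothing. -/
noncomputable def pullbackAlongIdIso {T : Scheme.{u}} {t : T ⟶ Spec (CommRingCat.of k)}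
    (M : RigidifiedLineBundle c ε t) (h : 𝟙 T ≫ t = t) :
    (M.pullbackAlong ⟨𝟙 T, h⟩).L ≅ M.L :=
  (Scheme.Modules.pullbackCongr (baseChangeSnd_id c t)).app M.L ≪≫
    (Scheme.Modules.pullbackId (pullback c t)).app M.L

/-- Pulling back twice is pulling back along the composite. -/
noncomputable def pullbackAlongCompIso {X X' T' : Scheme.{u}}
    {x : X ⟶ Spec (CommRingCat.of k)} {x' : X' ⟶ Spec (CommRingCat.of k)}
    {t' : T' ⟶ Spec (CommRingCat.of k)} (M : RigidifiedLineBundle c ε x')
    (φ : SchemeHomOver x x') (ψ : SchemeHomOver t' x) :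
    ((M.pullbackAlong φ).pullbackAlong ψ).L ≅ (M.pullbackAlong (postComp φ ψ)).L :=
  (Scheme.Modules.pullbackComp _ _).app M.L ≪≫
    (Scheme.Modules.pullbackCongr (baseChangeSnd_comp c φ ψ)).app M.L

/-- Transport of a classification along an equality of structure maps. -/
theorem iso_pullbackAlong_id_iff {T J : Scheme.{u}} {toBase : J ⟶ Spec (CommRingCat.of k)}
    (P : RigidifiedLineBundle c ε toBase) {t s : T ⟶ Spec (CommRingCat.of k)}
    (M : RigidifiedLineBundle c ε t) (g : SchemeHomOver s toBase) (h : 𝟙 T ≫ t = s) :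
    Nonempty ((P.pullbackAlong g).L ≅ (M.pullbackAlong ⟨𝟙 T, h⟩).L) ↔
      Nonempty ((P.pullbackAlong
        (⟨g.1, g.2.trans (h.symm.trans (Category.id_comp t))⟩ : SchemeHomOver t toBase)).L ≅
          M.L) := by
  obtain rfl : t = s := (Category.id_comp t).symm.trans h
  constructor
  · rintro ⟨e⟩
    exact ⟨e ≪≫ pullbackAlongIdIso M h⟩
  · rintro ⟨e⟩
    exact ⟨e ≪≫ (pullbackAlongIdIso M h).symm⟩

end Transport

section UnivElt

/-- `u : G J` is a universal element of `G : Schemeᵒᵖ ⥤ Type w`. -/
def IsUnivElt (G : Scheme.{u}ᵒᵖ ⥤ Type w) {J : Scheme.{u}} (u : G.obj (op J)) : Prop :=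
  ∀ T : Scheme.{u}, Function.Bijective (fun g : T ⟶ J => G.map g.op u)

theorem isUnivElt_of_representableBy {F : Scheme.{u}ᵒᵖ ⥤ Type u} {J : Scheme.{u}}
    (hrep : F.RepresentableBy J) : IsUnivElt F (hrep.homEquiv (𝟙 J)) := by
  intro T
  have : (fun g : T ⟶ J => F.map g.op (hrep.homEquiv (𝟙 J))) = hrep.homEquiv := by
    funext g
    rw [← hrep.homEquiv_comp, Category.comp_id]
  rw [this]
  exact hrep.homEquiv.bijective

end UnivElt

section Model

variable {k : Type u} [Field k] {C : Scheme.{u}} (c : C ⟶ Spec (CommRingCat.of k))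
  (ε : SchemeHomOver (𝟙 (Spec (CommRingCat.of k))) c)

/-- A functor `G : Schemeᵒᵖ ⥤ Type w` is a model of the absolute sub-Picard functor of
`(C, ε)` cut out by `P`. -/
structure PicModel (P : SubPicCondition c ε) (G : Scheme.{u}ᵒᵖ ⥤ Type w) where
  /-- the structure map of a point -/
  str : ∀ {T : Scheme.{u}}, G.obj (op T) → (T ⟶ Spec (CommRingCat.of k))
  /-- the class of a point -/
  cls : ∀ {T : Scheme.{u}} (x : G.obj (op T)), RigidifiedLineBundle.Classes c ε (str x)
  str_map : ∀ {T T' : Scheme.{u}} (φ : T' ⟶ T) (x : G.obj (op T)),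
    φ ≫ str x = str (G.map φ.op x)
  cls_map : ∀ {T T' : Scheme.{u}} (φ : T' ⟶ T) (x : G.obj (op T)),
    cls (G.map φ.op x) =
      RigidifiedLineBundle.classesMap (⟨φ, str_map φ x⟩ : SchemeHomOver _ _) (cls x)
  mem : ∀ {T : Scheme.{u}} (x : G.obj (op T)) (M : RigidifiedLineBundle c ε (str x)),
    Quotient.mk _ M = cls x → P.P (str x) M
  classify : ∀ {T : Scheme.{u}} (t : T ⟶ Spec (CommRingCat.of k))
    (M : RigidifiedLineBundle c ε t), P.P t M →
    ∃! x : G.obj (op T), ∃ h : 𝟙 T ≫ t = str x,
      cls x = Quotient.mk _ (M.pullbackAlong (⟨𝟙 T, h⟩ : SchemeHomOver _ _))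

variable {c ε} {P : SubPicCondition c ε} {G : Scheme.{u}ᵒᵖ ⥤ Type w}

namespace PicModel

/-- `x` classifies `(t, M)`. -/
def Classifies (m : PicModel c ε P G) {T : Scheme.{u}} (x : G.obj (op T))
    (t : T ⟶ Spec (CommRingCat.of k)) (M : RigidifiedLineBundle c ε t) : Prop :=
  ∃ h : 𝟙 T ≫ t = m.str x,
    m.cls x = Quotient.mk _ (M.pullbackAlong (⟨𝟙 T, h⟩ : SchemeHomOver _ _))

/-- The key dictionary: `G.map φ x` classifies `(t', M')` iff `M'` is the pull-back along `φ` of
a representative of the class of `x`. -/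
theorem classifies_map_iff (m : PicModel c ε P G) {T T' : Scheme.{u}} (φ : T' ⟶ T)
    (x : G.obj (op T)) (Q : RigidifiedLineBundle c ε (m.str x)) (hQ : Quotient.mk _ Q = m.cls x)
    (t' : T' ⟶ Spec (CommRingCat.of k)) (M' : RigidifiedLineBundle c ε t') :
    m.Classifies (G.map φ.op x) t' M' ↔
      ∃ h : φ ≫ m.str x = t',
        Nonempty ((Q.pullbackAlong (⟨φ, h⟩ : SchemeHomOver _ _)).L ≅ M'.L) := by
  have key : ∀ (s : T' ⟶ Spec (CommRingCat.of k)) (hs : φ ≫ m.str x = s) (h : 𝟙 T' ≫ t' = s),
      (RigidifiedLineBundle.classesMap (⟨φ, hs⟩ : SchemeHomOver _ _) (m.cls x) =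
        Quotient.mk _ (M'.pullbackAlong (⟨𝟙 T', h⟩ : SchemeHomOver _ _))) ↔
      Nonempty ((Q.pullbackAlong (⟨φ, hs.trans (h.symm.trans (Category.id_comp t'))⟩ :
        SchemeHomOver _ _)).L ≅ M'.L) := by
    intro s hs h
    rw [← hQ]
    refine Iff.trans ⟨fun e => Quotient.exact e, fun e => Quotient.sound e⟩ ?_
    exact iso_pullbackAlong_id_iff Q M' ⟨φ, hs⟩ h
  constructor
  · rintro ⟨h, hc⟩
    rw [m.cls_map φ x] at hc
    exact ⟨_, (key _ (m.str_map φ x) h).1 hc⟩
  · rintro ⟨h, e⟩
    have h' : 𝟙 T' ≫ t' = m.str (G.map φ.op x) :=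
      (Category.id_comp t').trans (h.symm.trans (m.str_map φ x))
    refine ⟨h', ?_⟩
    rw [m.cls_map φ x]
    exact (key _ (m.str_map φ x) h').2 e

variable {J : Scheme.{u}}

/-- The structure map of a representing object. -/
def jacBase (m : PicModel c ε P G) (u : G.obj (op J)) : J ⟶ Spec (CommRingCat.of k) :=
  m.str u

/-- The Poincaré bundle of a representing object. -/
noncomputable def jacPoin (m : PicModel c ε P G) (u : G.obj (op J)) :
    RigidifiedLineBundle c ε (m.jacBase u) :=
  (m.cls u).out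

theorem jacPoin_mk (m : PicModel c ε P G) (u : G.obj (op J)) :
    Quotient.mk _ (m.jacPoin u) = m.cls u :=
  Quotient.out_eq _

theorem jacPoin_mem (m : PicModel c ε P G) (u : G.obj (op J)) :
    P.P (m.jacBase u) (m.jacPoin u) :=
  m.mem _ _ (m.jacPoin_mk u)

/-- `G.map g u` classifies `(t, M)` iff `g` is over `Spec k` and pulls the Poincaré bundle
back to `M`. -/
theorem classifies_map_univ_iff (m : PicModel c ε P G) (u : G.obj (op J))
    {T : Scheme.{u}} (g : T ⟶ J) (t : T ⟶ Spec (CommRingCat.of k))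
    (M : RigidifiedLineBundle c ε t) :
    m.Classifies (G.map g.op u) t M ↔
      ∃ h : g ≫ m.jacBase u = t,
        Nonempty (((m.jacPoin u).pullbackAlong (⟨g, h⟩ : SchemeHomOver _ _)).L ≅ M.L) :=
  m.classifies_map_iff g _ (m.jacPoin u) (m.jacPoin_mk u) t M

/-- **The Yoneda bridge.**  A representing object of a model carries a Poincaré bundle with the
universal property for all `T`. -/
theorem jacUniv (m : PicModel c ε P G) (u : G.obj (op J)) (hu : IsUnivElt G u)
    {T : Scheme.{u}} (t : T ⟶ Spec (CommRingCat.of k)) (M : RigidifiedLineBundle c ε t)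
    (hM : P.P t M) :
    ∃! g : SchemeHomOver t (m.jacBase u),
      Nonempty (((m.jacPoin u).pullbackAlong g).L ≅ M.L) := by
  obtain ⟨x, hx, huniq⟩ := m.classify t M hM
  obtain ⟨g₀, rfl⟩ : ∃ g₀ : T ⟶ J, G.map g₀.op u = x := (hu T).2 x
  obtain ⟨h, e⟩ := (m.classifies_map_univ_iff u g₀ t M).1 hx
  refine ⟨⟨g₀, h⟩, e, ?_⟩
  rintro ⟨g', hg'⟩ e'
  have : G.map g'.op u = G.map g₀.op u :=
    huniq _ ((m.classifies_map_univ_iff u g' t M).2 ⟨hg', e'⟩)
  exact Subtype.ext ((hu T).1 this)

/-- The zero section: the classifying map of the trivial bundle. -/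
noncomputable def jacZero (m : PicModel c ε P G) (u : G.obj (op J)) (hu : IsUnivElt G u) :
    SchemeHomOver (𝟙 (Spec (CommRingCat.of k))) (m.jacBase u) :=
  (m.jacUniv u hu (𝟙 _) (RigidifiedLineBundle.unit (c := c) (ε := ε) (𝟙 _))
    (P.unit_mem _)).choose

theorem jacZero_spec (m : PicModel c ε P G) (u : G.obj (op J)) (hu : IsUnivElt G u) :
    Nonempty (((m.jacPoin u).pullbackAlong (m.jacZero u hu)).L ≅
      (RigidifiedLineBundle.unit (c := c) (ε := ε) (𝟙 _)).L) :=
  (m.jacUniv u hu (𝟙 _) (RigidifiedLineBundle.unit (c := c) (ε := ε) (𝟙 _))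
    (P.unit_mem _)).choose_spec.1

/-- The designation of a representing object. -/
noncomputable def designation (m : PicModel c ε P G) (u : G.obj (op J)) (hu : IsUnivElt G u) :
    RelativePic0Designation k c where
  P := J
  toBase := m.jacBase u
  zeroSection := (m.jacZero u hu).1
  zeroSection_toBase := (m.jacZero u hu).2

/-- A representing object of a model of `P` represents `P`. -/
noncomputable def represents (m : PicModel c ε P G) (u : G.obj (op J)) (hu : IsUnivElt G u) :
    RepresentsRelSubPic c ε P (m.designation u hu) where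
  poincare := m.jacPoin u
  poincare_mem := m.jacPoin_mem u
  univ := fun t M hM => m.jacUniv u hu t M hM
  zero := m.jacZero_spec u hu

end PicModel

/-- A representing object of a model of `algEquivZeroCut` which is smooth, proper and
geometrically connected is a `JacData`. -/
noncomputable def PicModel.jacData {J : Scheme.{u}}
    (m : PicModel c ε (algEquivZeroCut c ε) G) (u : G.obj (op J))
    (hu : IsUnivElt G u) (hs : Smooth (m.jacBase u)) (hp : IsProper (m.jacBase u))
    (hc : GeometricallyConnected (m.jacBase u)) : JacData c ε where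
  J := J
  toBase := m.jacBase u
  poin := m.jacPoin u
  mem := m.jacPoin_mem u
  univ := fun t M hM => m.jacUniv u hu t M hM
  smooth := hs
  proper := hp
  conn := hc

/-- **S25 from a representable model of `algEquivZeroCut`.** -/
theorem PicModel.s25_of_model {J : Scheme.{u}}
    (m : PicModel c ε (algEquivZeroCut c ε) G) (u : G.obj (op J))
    (hu : IsUnivElt G u) (hs : Smooth (m.jacBase u)) (hp : IsProper (m.jacBase u))
    (hc : GeometricallyConnected (m.jacBase u)) :
    ∃ D : RelativePic0Designation k c,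
      Nonempty (RepresentsRelSubPic c ε (algEquivZeroCut c ε) D) ∧
        Smooth D.toBase ∧ IsProper D.toBase ∧ GeometricallyConnected D.toBase :=
  s25_of_jacData (m.jacData u hu hs hp hc)

end Model

end Fermat.Agent.S25.Top.H25
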