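import Fermat.Agent.S25.Top.DefsP
import Fermat.Agent.S25.Top.H25_RepYoneda

/-!
# S25 TOP-AFFRED, part 1: the flexible forms of `MonoAff`, `OpenAff`, `CoverAff`

helper52.  The affine conditions of `Top/DefsP.lean` are stated for `Spec (CommRingCat.of R)`
with the structure map `Bridge.tR k R` of a `k`-algebra `R`.  Here they are restated for an
arbitrary `R : CommRingCat` and an ARBITRARY structure map `τ : Spec R ⟶ Spec k`
(`MonoFlex`, `OpenFlex`, `CoverFlex`), which is the form in which they are used on the members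
of an affine open cover.
-/

set_option autoImplicit false
set_option linter.style.haveILetI false

universe u

open CategoryTheory CategoryTheory.Limits AlgebraicGeometry AlgebraicGeometry.RelPicard NeronModelInfra
  GoodReductionJacobian

namespace Fermat.Agent.S25.Top.H52

open Fermat.Agent.S25

section Calc

variable {k : Type u} [Field k] {C : Scheme.{u}} {c : C ⟶ Spec (CommRingCat.of k)}
  {ε : SchemeHomOver (𝟙 (Spec (CommRingCat.of k))) c}

/-- Pulling back twice is pulling back along any morphism over the base with the composite as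
underlying morphism. -/
theorem pullback_pullback {T T' T'' : Scheme.{u}} {t : T ⟶ Spec (CommRingCat.of k)}
    {t' : T' ⟶ Spec (CommRingCat.of k)} {t'' : T'' ⟶ Spec (CommRingCat.of k)}
    (M : RigidifiedLineBundle c ε t) (φ : SchemeHomOver t' t) (ψ : SchemeHomOver t'' t')
    (χ : SchemeHomOver t'' t) (h : ψ.1 ≫ φ.1 = χ.1) :
    Nonempty (((M.pullbackAlong φ).pullbackAlong ψ).L ≅ (M.pullbackAlong χ).L) := by
  have e : χ = postComp φ ψ := Subtype.ext h.symm
  rw [e]
  exact ⟨H25.pullbackAlongCompIso M φ ψ⟩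

/-- Every structure map of an affine scheme is the structure map of an algebra. -/
theorem exists_algebra (R : CommRingCat.{u}) (τ : Spec R ⟶ Spec (CommRingCat.of k)) :
    ∃ inst : Algebra k R, @Bridge.tR k _ R _ inst = τ := by
  refine ⟨(Spec.preimage τ).hom.toAlgebra, ?_⟩
  exact Spec.map_preimage τ

end Calc

section Flex

variable {k : Type u} [Field k] {C : Scheme.{u}} {c : C ⟶ Spec (CommRingCat.of k)}
  {ε : SchemeHomOver (𝟙 (Spec (CommRingCat.of k))) c}
  {P' : SubPicCondition c ε} (𝒳 : ChartFamily c ε P')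

/-- `MonoAff` for an arbitrary structure map. -/
def MonoFlex : Prop :=
  ∀ (a : 𝒳.ι) (R : CommRingCat.{u}) (τ : Spec R ⟶ Spec (CommRingCat.of k))
    (g g' : SchemeHomOver τ (𝒳.x a)),
    Nonempty (((𝒳.𝓛 a).pullbackAlong g).L ≅ ((𝒳.𝓛 a).pullbackAlong g').L) → g = g'

theorem monoFlex_of (h : 𝒳.MonoAff) : MonoFlex 𝒳 := by
  intro a R τ g g' hiso
  obtain ⟨inst, rfl⟩ := exists_algebra R τ
  exact h a R g g' hiso

/-- `OpenAff` for arbitrary structure maps. -/
def OpenFlex : Prop :=
  ∀ (a : 𝒳.ι) (R : CommRingCat.{u}) (τ : Spec R ⟶ Spec (CommRingCat.of k))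
    (M : RigidifiedLineBundle c ε τ), P'.P τ M → ∃ U : (Spec R).Opens,
      ∀ (R' : CommRingCat.{u}) (ψ : R ⟶ R') (τ' : Spec R' ⟶ Spec (CommRingCat.of k))
        (hτ' : Spec.map ψ ≫ τ = τ'),
        (Set.range (Spec.map ψ).base ⊆ (U : Set (Spec R))) ↔
          ∃ g : SchemeHomOver τ' (𝒳.x a),
            Classifies (𝒳.𝓛 a) (M.pullbackAlong (⟨Spec.map ψ, hτ'⟩ : SchemeHomOver τ' τ)) g

theorem openFlex_of (h : 𝒳.OpenAff) : OpenFlex 𝒳 := by
  intro a R τ M hM
  obtain ⟨inst, rfl⟩ := exists_algebra R τ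
  obtain ⟨U, hU⟩ := h a R M hM
  refine ⟨U, fun R' ψ τ' hτ' => ?_⟩
  letI : Algebra R R' := ψ.hom.toAlgebra
  letI : Algebra k R' := (ψ.hom.comp (algebraMap k R)).toAlgebra
  haveI : IsScalarTower k R R' := IsScalarTower.of_algebraMap_eq (fun _ => rfl)
  have e : Bridge.tR k R' = τ' := by
    rw [← hτ']
    show Spec.map _ = Spec.map ψ ≫ Spec.map _
    rw [← Spec.map_comp]
    rfl
  subst e
  exact hU R'

/-- `CoverAff` for an arbitrary structure map. -/
def CoverFlex : Prop :=
  ∀ (R : CommRingCat.{u}) (τ : Spec R ⟶ Spec (CommRingCat.of k))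
    (M : RigidifiedLineBundle c ε τ), P'.P τ M → ∀ p : PrimeSpectrum R,
      ∃ (a : 𝒳.ι) (r : R), r ∉ p.asIdeal ∧
        ∃ (τ' : Spec (CommRingCat.of (Localization.Away r)) ⟶ Spec (CommRingCat.of k))
          (hτ' : Spec.map (CommRingCat.ofHom (algebraMap R (Localization.Away r))) ≫ τ = τ')
          (g : SchemeHomOver τ' (𝒳.x a)),
          Classifies (𝒳.𝓛 a) (M.pullbackAlong
            (⟨Spec.map (CommRingCat.ofHom (algebraMap R (Localization.Away r))), hτ'⟩ :
              SchemeHomOver τ' τ)) g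

theorem coverFlex_of (h : 𝒳.CoverAff) : CoverFlex 𝒳 := by
  intro R τ M hM p
  obtain ⟨inst, rfl⟩ := exists_algebra R τ
  obtain ⟨a, r, hr, g, hg⟩ := h R M hM p
  exact ⟨a, r, hr, Bridge.tR k (Localization.Away r), (specOver k R (Localization.Away r)).2, g, hg⟩

end Flex

end Fermat.Agent.S25.Top.H52
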