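/-
helper81, S25 (Jacobian exists), package TOP, leaf **TOP-VALUNIQ** (hedge of the bridge wiring).

`valuniq_of : Bridge.Stmt_T1 → Bridge.Stmt_T2 → F.Stmt_FAMPULL → Trip.Stmt_TVAL → Top.Stmt_VALUNIQ`
`stmt_VALUNIQ_of_TVAL : Trip.Stmt_TVAL → Top.Stmt_VALUNIQ`   (landed bridge leaves plugged in)
`stmt_VALUNIQ : Top.Stmt_VALUNIQ`                            (with `Trip.H23.stmt_TVAL_of_CHI Num.H50.stmt_CHI`)

Proof: the structure map `t : Spec O ⟶ Spec k` is the structure map of a `k`-algebra structure on `O`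
(`H52.exists_algebra`); `K` is a `k`-algebra through `O`.  The triples `L`, `L'` of `M`, `M'` (T1) and the triples
`LK`, `LK'` of their pull-backs to `K` (T1) are related by base change (FAM-PULL); the pull-backs are isomorphic,
so `LK ≅ LK'` (T2 over `K`), so `L ≅ L'` (`Trip.Stmt_TVAL`, no hypothesis on the degrees), so `M ≅ M'`
(T2 over `O`).
-/
import Fermat.Agent.S25.Top.DefsF
import Fermat.Agent.S25.Top.H52_AffCalc
import Fermat.Agent.S25.Top.H23_FamPullClose
import Fermat.Agent.S25.Bridge.H24_Closed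
import Fermat.Agent.S25.Trip.H23_TValClose
import Fermat.Agent.S25.Num.H50_ChiStmt

set_option autoImplicit false
set_option linter.style.haveILetI false
set_option linter.unusedSectionVars false
set_option linter.unusedVariables false

universe u

open CategoryTheory CategoryTheory.Limits AlgebraicGeometry AlgebraicGeometry.RelPicard NeronModelInfra
  GoodReductionJacobian TensorProduct

namespace Fermat.Agent.S25.Top.H81V

open Fermat.Agent.S25

section Core

variable {k : Type u} [Field k] {C : Scheme.{u}} {c : C ⟶ Spec (CommRingCat.of k)}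
  {ε : SchemeHomOver (𝟙 (Spec (CommRingCat.of k))) c}

/-- The valuative criterion for bundles on `C × Spec O` with the structure map of a `k`-algebra `O` and the
pull-back along `F.homOf`. -/
theorem valuniq_core (hT1 : Bridge.Stmt_T1.{u}) (hT2 : Bridge.Stmt_T2.{u})
    (hPull : F.Stmt_FAMPULL.{u}) (hTV : Trip.Stmt_TVAL.{u}) [IsAlgClosed k]
    {𝒞 : LB.CurveDatum k} (hg : 𝒞.IsGood) (ρ : Bridge.Realizes c ε 𝒞)
    (O : Type u) [CommRing O] [IsDomain O] [ValuationRing O] [Algebra k O]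
    (K : Type u) [Field K] [Algebra O K] [IsFractionRing O K] [Algebra k K] [IsScalarTower k O K]
    (M M' : RigidifiedLineBundle c ε (Bridge.tR k O))
    (h : Nonempty ((M.pullbackAlong (F.homOf k (IsScalarTower.toAlgHom k O K))).L ≅
      (M'.pullbackAlong (F.homOf k (IsScalarTower.toAlgHom k O K))).L)) :
    Nonempty (M.L ≅ M'.L) := by
  obtain ⟨L, hL⟩ := hT1 k c ε 𝒞 hg ρ O M.L M.isInvertible
  obtain ⟨L', hL'⟩ := hT1 k c ε 𝒞 hg ρ O M'.L M'.isInvertible
  obtain ⟨LK, hLK⟩ := hT1 k c ε 𝒞 hg ρ K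
    (M.pullbackAlong (F.homOf k (IsScalarTower.toAlgHom k O K))).L
    (M.pullbackAlong (F.homOf k (IsScalarTower.toAlgHom k O K))).isInvertible
  obtain ⟨LK', hLK'⟩ := hT1 k c ε 𝒞 hg ρ K
    (M'.pullbackAlong (F.homOf k (IsScalarTower.toAlgHom k O K))).L
    (M'.pullbackAlong (F.homOf k (IsScalarTower.toAlgHom k O K))).isInvertible
  obtain ⟨β⟩ := hPull k c ε 𝒞 hg ρ O K (IsScalarTower.toAlgHom k O K) M.L L LK M.isInvertible hL hLK
  obtain ⟨β'⟩ := hPull k c ε 𝒞 hg ρ O K (IsScalarTower.toAlgHom k O K) M'.L L' LK' M'.isInvertible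
    hL' hLK'
  have hisoK : Nonempty (LB.Triple.Iso LK LK') :=
    (hT2 k c ε 𝒞 hg ρ K _ _ LK LK'
      (M.pullbackAlong (F.homOf k (IsScalarTower.toAlgHom k O K))).isInvertible
      (M'.pullbackAlong (F.homOf k (IsScalarTower.toAlgHom k O K))).isInvertible hLK hLK').1 h
  have hisoO : Nonempty (LB.Triple.Iso L L') := hTV k 𝒞 hg O K L L' LK LK' β β' hisoK
  exact (hT2 k c ε 𝒞 hg ρ O M.L M'.L L L' M.isInvertible M'.isInvertible hL hL').2 hisoO

/-- Transport of an isomorphism of pull-backs along an equality of the structure maps. -/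
theorem transport {T T' : Scheme.{u}} {t : T ⟶ Spec (CommRingCat.of k)}
    (M M' : RigidifiedLineBundle c ε t) (τ τ' : T' ⟶ Spec (CommRingCat.of k)) (hτ : τ = τ')
    (ψ : SchemeHomOver τ t) (ψ' : SchemeHomOver τ' t) (hψ : ψ.1 = ψ'.1)
    (h : Nonempty ((M.pullbackAlong ψ).L ≅ (M'.pullbackAlong ψ).L)) :
    Nonempty ((M.pullbackAlong ψ').L ≅ (M'.pullbackAlong ψ').L) := by
  subst hτ
  have e : ψ = ψ' := Subtype.ext hψ
  subst e
  exact h

end Core

/-- **TOP-VALUNIQ** from the bridge and `Trip.Stmt_TVAL`. -/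
theorem valuniq_of (hT1 : Bridge.Stmt_T1.{u}) (hT2 : Bridge.Stmt_T2.{u})
    (hPull : F.Stmt_FAMPULL.{u}) (hTV : Trip.Stmt_TVAL.{u}) : Stmt_VALUNIQ.{u} := by
  intro k _ _ C c _ _ _ ε S O _ _ _ K _ _ _ t M M' _ _ hiso
  obtain ⟨inst, hinst⟩ := H52.exists_algebra (k := k) (CommRingCat.of O) t
  subst hinst
  letI : Algebra k O := inst
  letI : Algebra k K := ((algebraMap O K).comp (algebraMap k O)).toAlgebra
  haveI : IsScalarTower k O K := IsScalarTower.of_algebraMap_eq (fun _ => rfl)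
  have hτ : Spec.map (CommRingCat.ofHom (algebraMap O K)) ≫ Bridge.tR k O = Bridge.tR k K := by
    change _ = Spec.map (CommRingCat.ofHom (algebraMap k K))
    rw [← Spec.map_comp, ← CommRingCat.ofHom_comp]
  have h2 := transport M M' _ _ hτ
    (overOf (Bridge.tR k O) (Spec.map (CommRingCat.ofHom (algebraMap O K))))
    (F.homOf k (IsScalarTower.toAlgHom k O K)) rfl hiso
  exact valuniq_core hT1 hT2 hPull hTV S.good S.ρ O K M M' h2

/-- **TOP-VALUNIQ** from `Trip.Stmt_TVAL` (the landed bridge leaves plugged in). -/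
theorem stmt_VALUNIQ_of_TVAL (hTV : Trip.Stmt_TVAL.{u}) : Stmt_VALUNIQ.{u} :=
  valuniq_of Bridge.H24.stmt_T1 Bridge.H24.closed_T2 F.H23.stmt_FAMPULL hTV

/-- **TOP-VALUNIQ**, unconditional. -/
theorem stmt_VALUNIQ : Stmt_VALUNIQ.{u} :=
  stmt_VALUNIQ_of_TVAL (Trip.H23.stmt_TVAL_of_CHI Num.H50.stmt_CHI)

end Fermat.Agent.S25.Top.H81V
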