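/-
helper32 (owner of S25), package TOP: the INTEGRATION file, fifth state (09:15Z).
Plugged in: SMALL (helper83), GI (helper61), CHRED (helper99), REPLOCAL (helper25), LOCISO (helper56),
AFFRED (helper52), DEGLOC (helper89), GLUEPIC (helper91, helper22, helper56), SETUPE (helper7, helper66, helper34),
AEZDEG (helper61), VALUNIQ (helper81, helper23, helper30, helper20), CHARTFAME (helper19 + the TRIP package of helper71
+ the CHART package of helper4 / helper33 + the NUM package of helper21).
OPEN: SURJ (helper45).
-/
import Fermat.Agent.S25.Top.H32_Final4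
import Fermat.Agent.S25.Top.H61_AezDegFinal
import Fermat.Agent.S25.Top.H81_ValUniq
import Fermat.Agent.S25.Top.H19_FamFinal
import Fermat.Agent.S25.Trip.H71_Final

set_option autoImplicit false

universe u

open CategoryTheory CategoryTheory.Limits AlgebraicGeometry AlgebraicGeometry.RelPicard NeronModelInfra
  GoodReductionJacobian

namespace Fermat.Agent.S25.Top.H32

/-- TOP-CHARTFAME, unconditional. -/
theorem stmt_CHARTFAME : F.Stmt_CHARTFAME.{u} :=
  F.H19.stmt_CHARTFAME_of_tcharts Trip.H71.stmt_TCHARTSE

/-- S25 from the last open statement of the spine: the family over `C^g`. -/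
theorem stmt_S25_of_SURJ (hSurj : Stmt_SURJ.{u}) : Stmt_S25.{u} :=
  stmt_S25_of_open4 H61.stmt_AEZDEG H81V.stmt_VALUNIQ hSurj stmt_CHARTFAME

end Fermat.Agent.S25.Top.H32
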