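/-
helper45 (sub-planner of TOP-SURJ), S25 package TOP: INTERFACE FILE, part S = the decomposition of `Stmt_SURJ`.
Plan: NOTES/plan/S25_SURJ.md.

THE FAMILY.  `Y = C^g` (helper61, `H61.exists_power`), `N = O(Γ_1 + … + Γ_g - g ε)` on `C × Y`, `Γ_j` = graph of `pr_j`.
Everything is done on affine test schemes `Spec R` in the language of triples (BRIDGE):

* `CPt 𝒞 R`      : an `R`-point of the curve lying in one of the two charts (`B0 → R` or `B1 → R`);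
* `gr0 β`, `gr1 β` : the ideals of the graph of `β` in `R ⊗ B0`, `R ⊗ B1` (invertible: S-GRINV);
* `TwistBy J0 J1 φ` : the morphism of triples `φ : L → L'` identifies `L` with `L'(-D)`, `D = (J0, J1)`;
* `IsFam β N`     : `N ≅ O(Σ_j Γ_(β j) - g ε)`:  there are a unit triple `U`, a triple `N₁` (`= O(Σ Γ)`) and morphisms
                    `U → N₁` (twist by `Σ Γ`), `N → N₁` (twist by `g ε`).

ALGEBRA LEAVES (Mathlib + LB only): S-GRINV, S-GRBC, S-GRCHART, S-TWEX, S-TWUNIQ, S-TWBC, S-RIGLOC, S-RIGBC,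
S-FAMEX, S-FAMUNIQ, S-FAMBC, S-DEGK, S-SURJK, S-DEG.
-/
import Fermat.Agent.S25.Top.DefsP
import Fermat.Agent.S25.Num.Defs

set_option autoImplicit false

universe u

open TensorProduct

namespace Fermat.Agent.S25.Top.S

open Fermat.Agent.S25 Fermat.Agent.S25.LB

/-! ## Part A: the algebra of the family -/

section Algebra

variable {k : Type u} [Field k] (𝒞 : CurveDatum k) (R : Type u) [CommRing R] [Algebra k R]

/-- An `R`-point of the curve lying in the chart `V0` (`inl`) or in the chart `V1` (`inr`). -/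
abbrev CPt : Type u := (𝒞.B0 →ₐ[k] R) ⊕ (𝒞.B1 →ₐ[k] R)

variable {𝒞 R}

/-- Evaluation at a point of `V0`: `R ⊗ B0 → R`, `r ⊗ b ↦ r β(b)`. -/
noncomputable def ev0 (β : 𝒞.B0 →ₐ[k] R) : (R ⊗[k] 𝒞.B0) →ₐ[R] R :=
  Algebra.TensorProduct.lift (AlgHom.id R R) β (fun _ _ => Commute.all _ _)

/-- Evaluation at a point of `V1`: `R ⊗ B1 → R`, `r ⊗ b ↦ r β(b)`. -/
noncomputable def ev1 (β : 𝒞.B1 →ₐ[k] R) : (R ⊗[k] 𝒞.B1) →ₐ[R] R :=
  Algebra.TensorProduct.lift (AlgHom.id R R) β (fun _ _ => Commute.all _ _)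

/-- The ideal of the graph of `β` on the chart `V0 × Spec R`. -/
noncomputable def gr0 : CPt 𝒞 R → Ideal (R ⊗[k] 𝒞.B0)
  | Sum.inl β => RingHom.ker (ev0 β)
  | Sum.inr β => Ideal.comap (𝒞.ι0 R) (Ideal.map (𝒞.ι1 R) (RingHom.ker (ev1 β)))

/-- The ideal of the graph of `β` on the chart `V1 × Spec R`. -/
noncomputable def gr1 : CPt 𝒞 R → Ideal (R ⊗[k] 𝒞.B1)
  | Sum.inl β => Ideal.comap (𝒞.ι1 R) (Ideal.map (𝒞.ι0 R) (RingHom.ker (ev0 β)))
  | Sum.inr β => RingHom.ker (ev1 β)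

variable (𝒞 R) in
/-- The base point `ε` as an `R`-point (it lies in `V1`; `ev1` of it is `𝒞.eR R`). -/
noncomputable def basePt : CPt 𝒞 R := Sum.inr ((Algebra.ofId k R).comp 𝒞.e)

/-- Base change of a point along `f : R → R'`. -/
def CPt.map {R' : Type u} [CommRing R'] [Algebra k R'] (f : R →ₐ[k] R') : CPt 𝒞 R → CPt 𝒞 R' :=
  Sum.map (fun β => f.comp β) (fun β => f.comp β)

/-- The ideal on `V0 × Spec R` of the divisor `Γ_(β 1) + … + Γ_(β g)`. -/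
noncomputable def div0 {g : ℕ} (β : Fin g → CPt 𝒞 R) : Ideal (R ⊗[k] 𝒞.B0) := ∏ j, gr0 (β j)

/-- The ideal on `V1 × Spec R` of the divisor `Γ_(β 1) + … + Γ_(β g)`. -/
noncomputable def div1 {g : ℕ} (β : Fin g → CPt 𝒞 R) : Ideal (R ⊗[k] 𝒞.B1) := ∏ j, gr1 (β j)

/-- `(J0, J1)` is a relative effective Cartier divisor on `C × Spec R`: invertible ideals on the two charts with
the same extension to the overlap. -/
def IsRelDiv (J0 : Ideal (R ⊗[k] 𝒞.B0)) (J1 : Ideal (R ⊗[k] 𝒞.B1)) : Prop :=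
  Module.Invertible (R ⊗[k] 𝒞.B0) J0 ∧ Module.Invertible (R ⊗[k] 𝒞.B1) J1 ∧
    J0.map (𝒞.ι0 R) = J1.map (𝒞.ι1 R)

/-- `φ : L → L'` identifies `L` with `L'(-D)`, `D = (J0, J1)`: injective with image `J_i • L'.P_i` on the charts. -/
def TwistBy (J0 : Ideal (R ⊗[k] 𝒞.B0)) (J1 : Ideal (R ⊗[k] 𝒞.B1)) {L L' : Triple 𝒞 R}
    (φ : Triple.Hom L L') : Prop :=
  Function.Injective φ.f0 ∧ Function.Injective φ.f1 ∧
    LinearMap.range φ.f0 = J0 • (⊤ : Submodule (R ⊗[k] 𝒞.B0) L'.P0) ∧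
    LinearMap.range φ.f1 = J1 • (⊤ : Submodule (R ⊗[k] 𝒞.B1) L'.P1)

/-- `L' ≅ L(D)`, `D = (J0, J1)`. -/
def IsTw (J0 : Ideal (R ⊗[k] 𝒞.B0)) (J1 : Ideal (R ⊗[k] 𝒞.B1)) (L L' : Triple 𝒞 R) : Prop :=
  ∃ φ : Triple.Hom L L', TwistBy J0 J1 φ

/-- `L` is isomorphic to the structure sheaf (the shape of `LB.Stmt_UNIT`, over any `R`). -/
def IsUnitR (L : Triple 𝒞 R) : Prop :=
  ∃ (e0 : L.P0 ≃ₗ[R ⊗[k] 𝒞.B0] (R ⊗[k] 𝒞.B0)) (e1 : L.P1 ≃ₗ[R ⊗[k] 𝒞.B1] (R ⊗[k] 𝒞.B1))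
    (e01 : L.P01 ≃ₗ[R ⊗[k] 𝒞.B01] (R ⊗[k] 𝒞.B01)),
    (∀ p, e01 (L.r0 p) = 𝒞.ι0 R (e0 p)) ∧ (∀ p, e01 (L.r1 p) = 𝒞.ι1 R (e1 p))

/-- **The family**: `N ≅ O(Γ_(β 1) + … + Γ_(β g) - g ε)` on `C × Spec R`. -/
def IsFam {g : ℕ} (β : Fin g → CPt 𝒞 R) (N : Triple 𝒞 R) : Prop :=
  ∃ U N₁ : Triple 𝒞 R, IsUnitR U ∧ IsTw (div0 β) (div1 β) U N₁ ∧
    IsTw (gr0 (basePt 𝒞 R) ^ g) (gr1 (basePt 𝒞 R) ^ g) N N₁

end Algebra

/-! ### The algebra leaves.  Setting: `𝒞.IsGood`, `R`, `R'` arbitrary `k`-algebras (no finiteness!). -/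

/-- **S-GRINV** (helper60): the graph of a point is a relative effective Cartier divisor
(`I_β` is the base change of the diagonal ideal `I_Δ ⊂ B ⊗ B`, which is invertible: `B` smooth of dimension 1). -/
def Stmt_GRINV : Prop :=
  ∀ (k : Type u) [Field k] [IsAlgClosed k] (𝒞 : CurveDatum k), 𝒞.IsGood →
    ∀ (R : Type u) [CommRing R] [Algebra k R] (β : CPt 𝒞 R), IsRelDiv (gr0 β) (gr1 β)

/-- **S-RELDIV**: products (sums of divisors) and base changes of relative effective Cartier divisors of the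
form `div β`; the unit ideal is one. -/
def Stmt_RELDIV : Prop :=
  ∀ (k : Type u) [Field k] (𝒞 : CurveDatum k), 𝒞.IsGood →
    ∀ (R : Type u) [CommRing R] [Algebra k R],
      IsRelDiv (𝒞 := 𝒞) (R := R) ⊤ ⊤ ∧
      ∀ (J0 I0 : Ideal (R ⊗[k] 𝒞.B0)) (J1 I1 : Ideal (R ⊗[k] 𝒞.B1)),
        IsRelDiv J0 J1 → IsRelDiv I0 I1 → IsRelDiv (J0 * I0) (J1 * I1)

/-- **S-GRBC**: the graph ideals commute with base change. -/
def Stmt_GRBC : Prop :=
  ∀ (k : Type u) [Field k] (𝒞 : CurveDatum k), 𝒞.IsGood →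
    ∀ (R R' : Type u) [CommRing R] [Algebra k R] [CommRing R'] [Algebra k R'] (f : R →ₐ[k] R')
      (β : CPt 𝒞 R),
      gr0 (β.map f) = (gr0 β).map (Chart.tmap f 𝒞.B0) ∧ gr1 (β.map f) = (gr1 β).map (Chart.tmap f 𝒞.B1)

/-- **S-GRCHART**: for a point of the overlap the graph ideals do not depend on the chart used to present it;
a point of `V1` with `z1 = 0` (e.g. the base point) does not meet `V0`. -/
def Stmt_GRCHART : Prop :=
  ∀ (k : Type u) [Field k] (𝒞 : CurveDatum k), 𝒞.IsGood →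
    ∀ (R : Type u) [CommRing R] [Algebra k R],
      (∀ β01 : 𝒞.B01 →ₐ[k] R,
        gr0 (Sum.inl (β01.comp 𝒞.i0) : CPt 𝒞 R) = gr0 (Sum.inr (β01.comp 𝒞.i1)) ∧
        gr1 (Sum.inl (β01.comp 𝒞.i0) : CPt 𝒞 R) = gr1 (Sum.inr (β01.comp 𝒞.i1))) ∧
      (∀ β : 𝒞.B1 →ₐ[k] R, β 𝒞.z1 = 0 → gr0 (Sum.inr β : CPt 𝒞 R) = ⊤) ∧
      (∀ β : 𝒞.B0 →ₐ[k] R, β 𝒞.x0 = 0 → gr1 (Sum.inl β : CPt 𝒞 R) = ⊤)

/-- **S-TWEX**: twists by relative effective Cartier divisors exist: `L(D)` and `L(-D)`. -/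
def Stmt_TWEX : Prop :=
  ∀ (k : Type u) [Field k] (𝒞 : CurveDatum k), 𝒞.IsGood →
    ∀ (R : Type u) [CommRing R] [Algebra k R] (J0 : Ideal (R ⊗[k] 𝒞.B0)) (J1 : Ideal (R ⊗[k] 𝒞.B1)),
      IsRelDiv J0 J1 → ∀ L : Triple 𝒞 R,
        (∃ L' : Triple 𝒞 R, IsTw J0 J1 L L') ∧ (∃ L' : Triple 𝒞 R, IsTw J0 J1 L' L)

/-- **S-TWUNIQ**: twists are unique up to isomorphism, in both directions. -/
def Stmt_TWUNIQ : Prop :=
  ∀ (k : Type u) [Field k] (𝒞 : CurveDatum k), 𝒞.IsGood →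
    ∀ (R : Type u) [CommRing R] [Algebra k R] (J0 : Ideal (R ⊗[k] 𝒞.B0)) (J1 : Ideal (R ⊗[k] 𝒞.B1)),
      IsRelDiv J0 J1 → ∀ L L' M M' : Triple 𝒞 R, IsTw J0 J1 L L' → IsTw J0 J1 M M' →
        (Nonempty (Triple.Iso L M) ↔ Nonempty (Triple.Iso L' M'))

/-- **S-TWBC**: twists commute with base change (`J_i'` = the extension of `J_i`, assumed to be a relative
effective Cartier divisor again: a surjection of invertible modules is bijective). -/
def Stmt_TWBC : Prop :=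
  ∀ (k : Type u) [Field k] (𝒞 : CurveDatum k), 𝒞.IsGood →
    ∀ (R R' : Type u) [CommRing R] [Algebra k R] [CommRing R'] [Algebra k R'] (f : R →ₐ[k] R')
      (J0 : Ideal (R ⊗[k] 𝒞.B0)) (J1 : Ideal (R ⊗[k] 𝒞.B1)),
      IsRelDiv J0 J1 → IsRelDiv (J0.map (Chart.tmap f 𝒞.B0)) (J1.map (Chart.tmap f 𝒞.B1)) →
      ∀ (L L₁ : Triple 𝒞 R) (M M₁ : Triple 𝒞 R'), IsTw J0 J1 L L₁ →
        Nonempty (Chart.BC f L M) → Nonempty (Chart.BC f L₁ M₁) →
        IsTw (J0.map (Chart.tmap f 𝒞.B0)) (J1.map (Chart.tmap f 𝒞.B1)) M M₁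

/-- **S-UNITBC**: unit triples exist, are unique up to isomorphism, closed under isomorphism, and a base
change of a unit triple is a unit triple. -/
def Stmt_UNITBC : Prop :=
  ∀ (k : Type u) [Field k] (𝒞 : CurveDatum k), 𝒞.IsGood →
    ∀ (R : Type u) [CommRing R] [Algebra k R],
      (∃ U : Triple 𝒞 R, IsUnitR U) ∧
      (∀ U U' : Triple 𝒞 R, IsUnitR U → IsUnitR U' → Nonempty (Triple.Iso U U')) ∧
      (∀ U U' : Triple 𝒞 R, IsUnitR U → Nonempty (Triple.Iso U U') → IsUnitR U') ∧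
      ∀ (R' : Type u) [CommRing R'] [Algebra k R'] (f : R →ₐ[k] R') (U : Triple 𝒞 R)
        (U' : Triple 𝒞 R'), IsUnitR U → Nonempty (Chart.BC f U U') → IsUnitR U'

/-- **S-RIGLOC**: every triple is rigid Zariski locally on `Spec R`
(`P1 / I_e P1` is an invertible `R`-module, hence free of rank one on a principal open neighbourhood of `p`). -/
def Stmt_RIGLOC : Prop :=
  ∀ (k : Type u) [Field k] (𝒞 : CurveDatum k), 𝒞.IsGood →
    ∀ (R : Type u) [CommRing R] [Algebra k R] (L : Triple 𝒞 R) (p : PrimeSpectrum R),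
      ∃ r : R, r ∉ p.asIdeal ∧ ∀ L' : Triple 𝒞 (Localization.Away r),
        Nonempty (Chart.BC (Chart.awayMap r) L L') → L'.IsRigid

/-- **S-RIGBC**: rigidity is invariant under isomorphism and stable under base change. -/
def Stmt_RIGBC : Prop :=
  ∀ (k : Type u) [Field k] (𝒞 : CurveDatum k), 𝒞.IsGood →
    ∀ (R : Type u) [CommRing R] [Algebra k R] (L : Triple 𝒞 R), L.IsRigid →
      (∀ L' : Triple 𝒞 R, Nonempty (Triple.Iso L L') → L'.IsRigid) ∧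
      ∀ (R' : Type u) [CommRing R'] [Algebra k R'] (f : R →ₐ[k] R') (L' : Triple 𝒞 R'),
        Nonempty (Chart.BC f L L') → L'.IsRigid

/-- **S-FAMEX**: the family exists over every `R` (S-UNITBC, S-GRINV, S-RELDIV, S-TWEX). -/
def Stmt_FAMEX : Prop :=
  ∀ (k : Type u) [Field k] [IsAlgClosed k] (𝒞 : CurveDatum k), 𝒞.IsGood →
    ∀ (R : Type u) [CommRing R] [Algebra k R] (g : ℕ) (β : Fin g → CPt 𝒞 R),
      ∃ N : Triple 𝒞 R, IsFam β N

/-- **S-FAMUNIQ**: the family is unique up to isomorphism and closed under isomorphism; it depends only on the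
divisor `(div0 β, div1 β)`  (S-TWUNIQ, S-UNITBC, S-GRINV, S-RELDIV). -/
def Stmt_FAMUNIQ : Prop :=
  ∀ (k : Type u) [Field k] [IsAlgClosed k] (𝒞 : CurveDatum k), 𝒞.IsGood →
    ∀ (R : Type u) [CommRing R] [Algebra k R] (g : ℕ) (β β' : Fin g → CPt 𝒞 R) (N N' : Triple 𝒞 R),
      div0 β = div0 β' → div1 β = div1 β' → IsFam β N →
        (IsFam β' N' ↔ Nonempty (Triple.Iso N N'))

/-- **S-FAMBC**: the family commutes with base change (S-TWBC, S-GRBC, S-UNITBC, LB-BCEX, LB-BCUNIQ). -/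
def Stmt_FAMBC : Prop :=
  ∀ (k : Type u) [Field k] [IsAlgClosed k] (𝒞 : CurveDatum k), 𝒞.IsGood →
    ∀ (R R' : Type u) [CommRing R] [Algebra k R] [CommRing R'] [Algebra k R'] (f : R →ₐ[k] R')
      (g : ℕ) (β : Fin g → CPt 𝒞 R) (N : Triple 𝒞 R) (N' : Triple 𝒞 R'),
      IsFam β N → Nonempty (Chart.BC f N N') → IsFam (fun j => (β j).map f) N'

/-- **S-DEGK**: over the base field the family has degree zero (`chi = 1 - genus`)
(NUM-CHI twice, NUM-PTS, NUM-ISO; dictionary `gr_i` of a `k`-point = `Num.ext_i` of its ideal). -/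
def Stmt_DEGK : Prop :=
  ∀ (k : Type u) [Field k] [IsAlgClosed k] (𝒞 : CurveDatum k), 𝒞.IsGood →
    ∀ (g : ℕ) (β : Fin g → CPt 𝒞 k) (N : Triple 𝒞 k), IsFam β N →
      Num.chi N = 1 - (Num.genus 𝒞 : ℤ)

/-- **S-SURJK**: over the base field every triple of degree zero is a member of the family with
`g = genus` points  (`L(g ε)` has `chi = 1`, hence a section: NUM-EFF; NUM-TWEX, NUM-CHI, NUM-PTS). -/
def Stmt_SURJK : Prop :=
  ∀ (k : Type u) [Field k] [IsAlgClosed k] (𝒞 : CurveDatum k), 𝒞.IsGood →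
    ∀ L : Triple 𝒞 k, Num.chi L = 1 - (Num.genus 𝒞 : ℤ) →
      ∃ β : Fin (Num.genus 𝒞) → CPt 𝒞 k, IsFam β L

/-- **S-DEG**: over a domain of finite type the family is fibrewise of degree zero
(P1-CHI: `chi` is locally constant; `Spec R` is connected and has a `k`-point; S-FAMBC + S-DEGK at that point;
the fibre numbers at a `k`-point are those of the base change to `k`: P1-BCTRANS, P1-FIELDEXT, LB-BCDATA). -/
def Stmt_DEG : Prop :=
  ∀ (k : Type u) [Field k] [IsAlgClosed k] (𝒞 : CurveDatum k), 𝒞.IsGood →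
    ∀ (R : Type u) [CommRing R] [Algebra k R] [IsDomain R] [Algebra.FiniteType k R] (g : ℕ)
      (β : Fin g → CPt 𝒞 R) (N : Triple 𝒞 R), IsFam β N → IsDeg0 (Num.genus 𝒞) N

end Fermat.Agent.S25.Top.S
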