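import Fermat.Agent.S25.Top.H45_SClose2
import Fermat.Agent.S25.Chart.H59_GrInv

/-!
# S25 / TOP-SURJ : closed (helper45)

`stmt_SURJ : Top.Stmt_SURJ`, unconditional: the assembly `stmt_SURJ_of_grinv` of
`Top/H45_SClose2.lean` with helper59's `Top.S.H59.stmt_GRINV` plugged in.  Also the family
leaves `stmt_FAMEX`, `stmt_FAMUNIQ`, `stmt_FAMBC`, `stmt_DEGALL`, `stmt_LOCFAM`, unconditional.
-/

universe u

namespace Fermat.Agent.S25.Top.S.H45

open Fermat.Agent.S25 Fermat.Agent.S25.Top.S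

/-- **S-FAMEX**, unconditional. -/
theorem stmt_FAMEX : Stmt_FAMEX.{u} := stmt_FAMEX_of H59.stmt_GRINV

/-- **S-FAMUNIQ**, unconditional. -/
theorem stmt_FAMUNIQ : Stmt_FAMUNIQ.{u} := stmt_FAMUNIQ_of H59.stmt_GRINV

/-- **S-FAMBC**, unconditional. -/
theorem stmt_FAMBC : Stmt_FAMBC.{u} := stmt_FAMBC_of' H59.stmt_GRINV

/-- **S-DEGALL**, unconditional. -/
theorem stmt_DEGALL : Stmt_DEGALL.{u} := stmt_DEGALL_of' H59.stmt_GRINV

/-- **S-LOCFAM**, unconditional. -/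
theorem stmt_LOCFAM : Stmt_LOCFAM.{u} := stmt_LOCFAM_of H59.stmt_GRINV

/-- **TOP-SURJ**, unconditional. -/
theorem stmt_SURJ : Top.Stmt_SURJ.{u} := stmt_SURJ_of_grinv H59.stmt_GRINV

end Fermat.Agent.S25.Top.S.H45
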