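/-
helper32 (owner of S25), package TOP: the FINAL integration file.
`stmt_S25 : Stmt_S25` — the frozen statement S25 (existence of the Jacobian of a proper smooth integral curve with a
rational point over an algebraically closed field), with every statement of the spine plugged in:
SMALL (helper83), GI (helper61), CHRED (helper99), REPLOCAL (helper25), LOCISO (helper56), AFFRED (helper52),
DEGLOC (helper89), GLUEPIC (helper91, helper22, helper56), SETUPE (helper7, helper66, helper34), AEZDEG (helper61),
VALUNIQ (helper81, helper23, helper30, helper20), CHARTFAME (helper19; TRIP helper71; CHART helper4, helper33;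
NUM helper21), SURJ (helper45, helper88, helper60, helper59 and the owners of the S-leaves).
-/
import Fermat.Agent.S25.Top.H32_Final5
import Fermat.Agent.S25.Top.H45_SFinal

set_option autoImplicit false

universe u

open CategoryTheory CategoryTheory.Limits AlgebraicGeometry AlgebraicGeometry.RelPicard NeronModelInfra
  GoodReductionJacobian

namespace Fermat.Agent.S25.Top.H32

/-- **S25**: the Jacobian exists. -/
theorem stmt_S25 : Stmt_S25.{u} := stmt_S25_of_SURJ S.H45.stmt_SURJ

end Fermat.Agent.S25.Top.H32
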