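import Fermat.Agent.S25.Top.H56_Ratio

/-!
# S25, package TOP, leaf GLUE-ABS (helper22): gluing of sheaves of modules

`X` an arbitrary scheme, `V : ι → X.Opens` a family of opens, `P i : X.Modules` sheaves of modules
(only their restrictions to `V i` matter), `F i j : LocHom (P i) (P j) (V i ⊓ V j)` local morphisms
with `F i i = id` and `F j k ∘ F i j = F i k` on triple overlaps (`GData`).

* `Sec D W` : the sections over `W` of the glued sheaf: the families `a i ∈ Γ(P i, W ⊓ V i)` with
  `F i j (a i) = a j` on `W ⊓ V i ⊓ V j`;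
* `glPresheaf`, `glPresheaf_isSheaf`, `glSheaf D : X.Modules`;
* `proj D i : LocHom (glSheaf D) (P i) (V i)`, `incl D i : LocHom (P i) (glSheaf D) (V i)`,
  mutually inverse, `F i j ∘ proj i = proj j`;
* `isInvertible_glSheaf` : the glued sheaf is invertible if the `V i` cover `X` and the `P i` are
  locally generated by one section on `V i`;
* `stmt_GLUEABS : Stmt_GLUEABS`.

This file contains no unproved statement.
-/

set_option autoImplicit false

open CategoryTheory AlgebraicGeometry TopologicalSpace Opposite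

universe u

namespace Fermat.Agent.S25.Top.H22G

open Fermat.Agent.S25.Glue Fermat.Agent.S25.Glue.H56 Fermat.Agent.S25.Top.H56

/-- Gluing data for sheaves of modules on a scheme. -/
structure GData (X : Scheme.{u}) (ι : Type u) where
  /-- the opens -/
  V : ι → X.Opens
  /-- the sheaves -/
  P : ι → X.Modules
  /-- the transition morphisms -/
  F : ∀ i j, LocHom (P i) (P j) (V i ⊓ V j)
  F_id : ∀ (i : ι) (W : X.Opens) (h : W ≤ V i ⊓ V i) (t : Γ(P i, W)), (F i i).map W h t = t
  F_comp : ∀ (i j k : ι) (W : X.Opens) (hij : W ≤ V i ⊓ V j) (hjk : W ≤ V j ⊓ V k)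
    (hik : W ≤ V i ⊓ V k) (t : Γ(P i, W)),
    (F j k).map W hjk ((F i j).map W hij t) = (F i k).map W hik t

variable {X : Scheme.{u}} {ι : Type u} (D : GData X ι)

namespace GData

/-- The condition on the components of a section of the glued sheaf. -/
def IsSec (W : X.Opens) (a : ∀ i, Γ(D.P i, W ⊓ D.V i)) : Prop :=
  ∀ i j, (D.F i j).map (W ⊓ D.V i ⊓ D.V j)
      (le_inf (inf_le_left.trans inf_le_right) inf_le_right)
      (resM (D.P i) (inf_le_left : W ⊓ D.V i ⊓ D.V j ≤ W ⊓ D.V i) (a i)) =
    resM (D.P j) (le_inf (inf_le_left.trans inf_le_left) inf_le_right :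
      W ⊓ D.V i ⊓ D.V j ≤ W ⊓ D.V j) (a j)

theorem map_zero' (i j : ι) (W : X.Opens) (h : W ≤ D.V i ⊓ D.V j) :
    (D.F i j).map W h 0 = 0 := by
  have := (D.F i j).map_add W h 0 0
  rw [add_zero] at this
  exact left_eq_add.mp this

theorem map_neg' (i j : ι) (W : X.Opens) (h : W ≤ D.V i ⊓ D.V j) (t : Γ(D.P i, W)) :
    (D.F i j).map W h (-t) = -(D.F i j).map W h t := by
  have := (D.F i j).map_add W h t (-t)
  rw [add_neg_cancel, map_zero'] at this
  exact (neg_eq_of_add_eq_zero_right this.symm).symm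

theorem resM_zero' (M : X.Modules) {U W : X.Opens} (h : W ≤ U) : resM M h (0 : Γ(M, U)) = 0 := by
  unfold resM
  exact map_zero _

theorem resM_neg' (M : X.Modules) {U W : X.Opens} (h : W ≤ U) (t : Γ(M, U)) :
    resM M h (-t) = -resM M h t := by
  unfold resM
  exact map_neg _ _

/-- The sections over `W` of the glued sheaf. -/
def Sec (W : X.Opens) : AddSubgroup (∀ i, Γ(D.P i, W ⊓ D.V i)) where
  carrier := {a | IsSec D W a}
  add_mem' := by
    intro a b ha hb i j
    have h1 := ha i j
    have h2 := hb i j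
    simp only [Pi.add_apply, resM_add, (D.F i j).map_add, h1, h2]
  zero_mem' := by
    intro i j
    simp only [Pi.zero_apply, resM_zero', map_zero']
  neg_mem' := by
    intro a ha i j
    have h1 := ha i j
    simp only [Pi.neg_apply, resM_neg', map_neg', h1]

theorem mem_sec {W : X.Opens} {a : ∀ i, Γ(D.P i, W ⊓ D.V i)} : a ∈ Sec D W ↔ IsSec D W a :=
  Iff.rfl

/-- scalar multiplication on components -/
noncomputable def secSmul (W : X.Opens) (r : Γ(X, W)) (a : Sec D W) : Sec D W :=
  ⟨fun i => resO X (inf_le_left : W ⊓ D.V i ≤ W) r • a.1 i, by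
    intro i j
    have h1 := a.2 i j
    rw [resM_smul, (D.F i j).map_smul, resM_smul, h1, resO_resO, resO_resO]⟩

noncomputable instance instSMulSec (W : X.Opens) : SMul Γ(X, W) (Sec D W) := ⟨secSmul D W⟩

theorem smul_val (W : X.Opens) (r : Γ(X, W)) (a : Sec D W) (i : ι) :
    (r • a).1 i = resO X (inf_le_left : W ⊓ D.V i ≤ W) r • a.1 i := rfl

noncomputable instance instModSec (W : X.Opens) : Module Γ(X, W) (Sec D W) where
  one_smul a := by
    apply Subtype.ext
    funext i
    rw [smul_val, resO_one, one_smul]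
  mul_smul r r' a := by
    apply Subtype.ext
    funext i
    rw [smul_val, smul_val, smul_val, resO_mul, mul_smul]
  smul_zero r := by
    apply Subtype.ext
    funext i
    rw [smul_val]
    simp
  smul_add r a b := by
    apply Subtype.ext
    funext i
    rw [smul_val]
    simp only [AddSubgroup.coe_add, Pi.add_apply, smul_add]
    rfl
  add_smul r r' a := by
    apply Subtype.ext
    funext i
    rw [smul_val]
    simp only [AddSubgroup.coe_add, Pi.add_apply, resO_add, add_smul]
    rfl
  zero_smul a := by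
    apply Subtype.ext
    funext i
    rw [smul_val, resO_zero, zero_smul]
    rfl

/-- restriction of sections -/
noncomputable def secRes {W W' : X.Opens} (h : W' ≤ W) (a : Sec D W) : Sec D W' :=
  ⟨fun i => resM (D.P i) (inf_le_inf_right (D.V i) h) (a.1 i), by
    intro i j
    have h1 := congrArg (resM (D.P j) (inf_le_inf_right (D.V j) (inf_le_inf_right (D.V i) h)))
      (a.2 i j)
    rw [← (D.F i j).map_res] at h1
    simp only [resM_resM] at h1 ⊢
    exact h1⟩

theorem secRes_val {W W' : X.Opens} (h : W' ≤ W) (a : Sec D W) (i : ι) :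
    (secRes D h a).1 i = resM (D.P i) (inf_le_inf_right (D.V i) h) (a.1 i) := rfl

theorem secRes_add {W W' : X.Opens} (h : W' ≤ W) (a b : Sec D W) :
    secRes D h (a + b) = secRes D h a + secRes D h b := by
  apply Subtype.ext
  funext i
  simp only [secRes_val, AddSubgroup.coe_add, Pi.add_apply, resM_add]

theorem secRes_smul {W W' : X.Opens} (h : W' ≤ W) (r : Γ(X, W)) (a : Sec D W) :
    secRes D h (r • a) = resO X h r • secRes D h a := by
  apply Subtype.ext
  funext i
  simp only [secRes_val, smul_val, resM_smul, resO_resO]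

theorem secRes_id {W : X.Opens} (a : Sec D W) : secRes D (le_refl W) a = a := by
  apply Subtype.ext
  funext i
  rw [secRes_val]
  exact resM_id (D.P i) _

theorem secRes_secRes {W W' W'' : X.Opens} (h : W' ≤ W) (h' : W'' ≤ W') (a : Sec D W) :
    secRes D h' (secRes D h a) = secRes D (h'.trans h) a := by
  apply Subtype.ext
  funext i
  simp only [secRes_val, resM_resM]

noncomputable instance instModuleSecOp (W : (Opens X)ᵒᵖ) :
    Module (X.ringCatSheaf.obj.obj W) (Sec D W.unop) :=
  inferInstanceAs (Module Γ(X, W.unop) (Sec D W.unop))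

/-- The presheaf of modules defined by gluing data. -/
noncomputable def glPresheaf : PresheafOfModules.{u} X.ringCatSheaf.obj where
  obj W := ModuleCat.of (X.ringCatSheaf.obj.obj W) (Sec D W.unop)
  map {W W'} f := ModuleCat.ofHom
      (Y := (ModuleCat.restrictScalars (X.ringCatSheaf.obj.map f).hom).obj
        (ModuleCat.of (X.ringCatSheaf.obj.obj W') (Sec D W'.unop)))
    { toFun := fun a => secRes D (leOfHom f.unop) a
      map_add' := fun a b => secRes_add D (leOfHom f.unop) a b
      map_smul' := fun r a => secRes_smul D (leOfHom f.unop) r a }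
  map_id W := by
    ext a
    exact secRes_id D a
  map_comp f g := by
    ext a
    exact (secRes_secRes D (leOfHom f.unop) (leOfHom g.unop) a).symm

theorem glPresheaf_map_apply {W W' : X.Opens} (h : W' ≤ W) (a : Sec D W) :
    ((glPresheaf D).presheaf.map (homOfLE h).op a : Sec D W') = secRes D h a := rfl

/-- Gluing of sections of a sheaf of modules. -/
theorem glue_sec (M : X.Modules) {κ : Type u} (V : κ → X.Opens) (U : X.Opens)
    (hV : ∀ k, V k ≤ U) (hU : U ≤ ⨆ k, V k) (c : ∀ k, Γ(M, V k))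
    (hc : ∀ k l, resM M (inf_le_left : V k ⊓ V l ≤ V k) (c k) =
      resM M (inf_le_right : V k ⊓ V l ≤ V l) (c l)) :
    ∃! a : Γ(M, U), ∀ k, resM M (hV k) a = c k :=
  TopCat.Sheaf.existsUnique_gluing' ⟨M.presheaf, M.isSheaf⟩ V U (fun k => homOfLE (hV k)) hU c hc

/-- The presheaf defined by gluing data is a sheaf. -/
theorem glPresheaf_isSheaf : TopCat.Presheaf.IsSheaf (glPresheaf D).presheaf := by
  rw [TopCat.Presheaf.isSheaf_iff_isSheafUniqueGluing]
  intro κ W sf hsf
  change ∀ α, Sec D (W α) at sf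
  have hcompat : ∀ α β, secRes D inf_le_left (sf α) = secRes D inf_le_right (sf β) :=
    fun α β => hsf α β
  have hglue : ∀ i, ∃! a : Γ(D.P i, iSup W ⊓ D.V i),
      ∀ α, resM (D.P i) (inf_le_inf_right (D.V i) (le_iSup W α)) a = (sf α).1 i := by
    intro i
    refine glue_sec (D.P i) (fun α => W α ⊓ D.V i) (iSup W ⊓ D.V i)
      (fun α => inf_le_inf_right _ (le_iSup W α)) (inf_iSup_le W (D.V i))
      (fun α => (sf α).1 i) ?_
    intro α β
    have h1 := congrArg (fun t : Sec D (W α ⊓ W β) => t.1 i) (hcompat α β)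
    simp only [secRes_val] at h1
    have h2 := congrArg (resM (D.P i) (le_inf (inf_le_inf inf_le_left inf_le_left)
      (inf_le_left.trans inf_le_right) :
        (W α ⊓ D.V i) ⊓ (W β ⊓ D.V i) ≤ (W α ⊓ W β) ⊓ D.V i)) h1
    simp only [resM_resM] at h2
    exact h2
  choose a ha ha' using hglue
  have hsec : IsSec D (iSup W) a := by
    intro i j
    refine eq_of_resM_eq' (D.P j) (fun α => W α ⊓ D.V i ⊓ D.V j) _
      (fun α => inf_le_inf_right _ (inf_le_inf_right _ (le_iSup W α))) ?_ _ _ ?_
    · rintro x ⟨⟨hx, hxi⟩, hxj⟩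
      obtain ⟨α, hα⟩ := Opens.mem_iSup.mp hx
      exact Opens.mem_iSup.mpr ⟨α, ⟨hα, hxi⟩, hxj⟩
    · intro α
      have h1 := (sf α).2 i j
      rw [← ha i α, ← ha j α] at h1
      rw [← (D.F i j).map_res]
      simp only [resM_resM] at h1 ⊢
      exact h1
  refine ⟨(⟨a, hsec⟩ : Sec D (iSup W)), ?_, ?_⟩
  · intro α
    apply Subtype.ext
    funext i
    exact ha i α
  · intro s hs
    change Sec D (iSup W) at s
    apply Subtype.ext
    funext i
    refine ha' i (s.1 i) fun α => ?_
    have := congrArg (fun t : Sec D (W α) => t.1 i) (hs α)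
    exact this

/-- The glued sheaf of modules. -/
noncomputable def glSheaf : X.Modules where
  val := glPresheaf D
  isSheaf := glPresheaf_isSheaf D

/-- A compatible family as a section of the glued sheaf. -/
noncomputable def toΓ {W : X.Opens} (a : Sec D W) : Γ(glSheaf D, W) := a

/-- The components of a section of the glued sheaf. -/
noncomputable def ofΓ {W : X.Opens} (t : Γ(glSheaf D, W)) : Sec D W := t

theorem ofΓ_toΓ {W : X.Opens} (a : Sec D W) : ofΓ D (toΓ D a) = a := rfl

theorem toΓ_ofΓ {W : X.Opens} (t : Γ(glSheaf D, W)) : toΓ D (ofΓ D t) = t := rfl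

theorem resM_toΓ {W W' : X.Opens} (h : W' ≤ W) (a : Sec D W) :
    resM (glSheaf D) h (toΓ D a) = toΓ D (secRes D h a) := rfl

theorem smul_toΓ {W : X.Opens} (r : Γ(X, W)) (a : Sec D W) :
    r • toΓ D a = toΓ D (r • a) := rfl

theorem add_toΓ {W : X.Opens} (a b : Sec D W) :
    toΓ D a + toΓ D b = toΓ D (a + b) := rfl

theorem ofΓ_res {W W' : X.Opens} (h : W' ≤ W) (t : Γ(glSheaf D, W)) :
    ofΓ D (resM (glSheaf D) h t) = secRes D h (ofΓ D t) := rfl

theorem ofΓ_smul {W : X.Opens} (r : Γ(X, W)) (t : Γ(glSheaf D, W)) :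
    ofΓ D (r • t) = r • ofΓ D t := rfl

theorem ofΓ_add {W : X.Opens} (t t' : Γ(glSheaf D, W)) :
    ofΓ D (t + t') = ofΓ D t + ofΓ D t' := rfl

/-- The projection of the glued sheaf to the `i`-th sheaf over `V i`. -/
noncomputable def proj (i : ι) : LocHom (glSheaf D) (D.P i) (D.V i) where
  map W h t := resM (D.P i) (le_inf le_rfl h : W ≤ W ⊓ D.V i) ((ofΓ D t).1 i)
  map_add W h t t' := by
    rw [ofΓ_add, AddSubgroup.coe_add, Pi.add_apply, resM_add]
  map_smul W h r t := by
    rw [ofΓ_smul, smul_val, resM_smul, resO_resO, resO_id]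
  map_res W W' h h' t := by
    rw [ofΓ_res, secRes_val, resM_resM, resM_resM]

theorem proj_map (i : ι) (W : X.Opens) (h : W ≤ D.V i) (t : Γ(glSheaf D, W)) :
    (proj D i).map W h t = resM (D.P i) (le_inf le_rfl h : W ≤ W ⊓ D.V i) ((ofΓ D t).1 i) := rfl

/-- the components of the image of a section of the `i`-th sheaf in the glued sheaf -/
noncomputable def inclSec (i : ι) (W : X.Opens) (h : W ≤ D.V i) (t : Γ(D.P i, W)) : Sec D W :=
  ⟨fun k => (D.F i k).map (W ⊓ D.V k) (inf_le_inf_right _ h)
      (resM (D.P i) (inf_le_left : W ⊓ D.V k ≤ W) t), by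
    intro k l
    rw [← (D.F i k).map_res (W ⊓ D.V k) (W ⊓ D.V k ⊓ D.V l) (inf_le_inf_right _ h) inf_le_left,
      ← (D.F i l).map_res (W ⊓ D.V l) (W ⊓ D.V k ⊓ D.V l) (inf_le_inf_right _ h)
        (le_inf (inf_le_left.trans inf_le_left) inf_le_right),
      D.F_comp i k l (W ⊓ D.V k ⊓ D.V l) _ _
        (le_inf ((inf_le_left.trans inf_le_left).trans h) inf_le_right),
      resM_resM, resM_resM]⟩

theorem inclSec_val (i : ι) (W : X.Opens) (h : W ≤ D.V i) (t : Γ(D.P i, W)) (k : ι) :
    (inclSec D i W h t).1 k = (D.F i k).map (W ⊓ D.V k) (inf_le_inf_right _ h)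
      (resM (D.P i) (inf_le_left : W ⊓ D.V k ≤ W) t) := rfl

/-- The inclusion of the `i`-th sheaf into the glued sheaf over `V i`. -/
noncomputable def incl (i : ι) : LocHom (D.P i) (glSheaf D) (D.V i) where
  map W h t := toΓ D (inclSec D i W h t)
  map_add W h t t' := by
    rw [add_toΓ]
    congr 1
    apply Subtype.ext
    funext k
    rw [AddSubgroup.coe_add, Pi.add_apply, inclSec_val, inclSec_val, inclSec_val, resM_add,
      (D.F i k).map_add]
  map_smul W h r t := by
    rw [smul_toΓ]
    congr 1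
    apply Subtype.ext
    funext k
    rw [smul_val, inclSec_val, inclSec_val, resM_smul, (D.F i k).map_smul]
  map_res W W' h h' t := by
    rw [resM_toΓ]
    congr 1
    apply Subtype.ext
    funext k
    rw [secRes_val, inclSec_val, inclSec_val,
      ← (D.F i k).map_res (W ⊓ D.V k) (W' ⊓ D.V k) (inf_le_inf_right _ h)
        (inf_le_inf_right _ h'), resM_resM, resM_resM]

theorem incl_map (i : ι) (W : X.Opens) (h : W ≤ D.V i) (t : Γ(D.P i, W)) :
    (incl D i).map W h t = toΓ D (inclSec D i W h t) := rfl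

/-- `proj i` and `incl i` are mutually inverse. -/
theorem proj_isInv_incl (i : ι) : (proj D i).IsInv (incl D i) := by
  refine ⟨fun W h t => ?_, fun W h t => ?_⟩
  · rw [incl_map, proj_map]
    rw [← toΓ_ofΓ D t]
    congr 1
    apply Subtype.ext
    funext k
    rw [inclSec_val, resM_resM, ofΓ_toΓ]
    have h1 := congrArg (resM (D.P k) (le_inf (le_inf inf_le_left (inf_le_left.trans h))
      inf_le_right : W ⊓ D.V k ≤ W ⊓ D.V i ⊓ D.V k)) ((ofΓ D t).2 i k)
    rw [← (D.F i k).map_res, resM_resM, resM_resM, resM_id] at h1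
    exact h1
  · rw [incl_map, proj_map, ofΓ_toΓ, inclSec_val, D.F_id, resM_resM, resM_id]

/-- The projections are compatible with the transition morphisms. -/
theorem F_proj (i j : ι) (W : X.Opens) (hi : W ≤ D.V i) (hj : W ≤ D.V j)
    (t : Γ(glSheaf D, W)) :
    (D.F i j).map W (le_inf hi hj) ((proj D i).map W hi t) = (proj D j).map W hj t := by
  rw [proj_map, proj_map]
  have h1 := congrArg (resM (D.P j) (le_inf (le_inf le_rfl hi) hj : W ≤ W ⊓ D.V i ⊓ D.V j))
    ((ofΓ D t).2 i j)
  rw [← (D.F i j).map_res, resM_resM, resM_resM] at h1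
  exact h1

/-- The inclusions are compatible with the transition morphisms. -/
theorem incl_F (i j : ι) (W : X.Opens) (hi : W ≤ D.V i) (hj : W ≤ D.V j) (t : Γ(D.P i, W)) :
    (incl D j).map W hj ((D.F i j).map W (le_inf hi hj) t) = (incl D i).map W hi t := by
  have h1 := F_proj D i j W hi hj ((incl D i).map W hi t)
  rw [(proj_isInv_incl D i).2 W hi t] at h1
  rw [h1, (proj_isInv_incl D j).1 W hj]

/-- The glued sheaf is locally generated by one section if the glued sheaves are. -/
theorem locGen_glSheaf (hP : ∀ i, LocGen (D.P i) (D.V i)) (i : ι) :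
    LocGen (glSheaf D) (D.V i) := by
  intro x hx
  obtain ⟨W, hW, hxW, s, hs⟩ := hP i x hx
  exact ⟨W, hW, hxW, (incl D i).map W hW s, (proj_isInv_incl D i).symm.presGen W hW s hs⟩

/-- The glued sheaf is invertible if the `V i` cover `X` and every `P i` is locally generated by
one section on `V i`. -/
theorem isInvertible_glSheaf (hV : ∀ x : X, ∃ i, x ∈ D.V i)
    (hP : ∀ i, LocGen (D.P i) (D.V i)) : Scheme.Modules.IsInvertible (glSheaf D) := by
  refine (stmt_BGEN X (glSheaf D)).2 fun x => ?_
  obtain ⟨i, hi⟩ := hV x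
  obtain ⟨W, _, hxW, s, hs⟩ := locGen_glSheaf D hP i x hi
  exact ⟨W, hxW, s, hs⟩

end GData

/-- **GLUE-ABS** (gluing of sheaves of modules): sheaves of modules `P i` on a scheme with local
morphisms `F i j : P i ⟶ P j` over `V i ⊓ V j` such that `F i i = id` and `F j k ∘ F i j = F i k`
glue to a sheaf of modules `N` with mutually inverse local morphisms `G i : N ⟶ P i`,
`G' i : P i ⟶ N` over `V i` such that `F i j ∘ G i = G j`; `N` is invertible if the `V i` cover
and the `P i` are locally generated by one section on `V i`. -/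
def Stmt_GLUEABS : Prop :=
  ∀ (X : Scheme.{u}) {ι : Type u} (V : ι → X.Opens) (P : ι → X.Modules)
    (F : ∀ i j, LocHom (P i) (P j) (V i ⊓ V j)),
    (∀ (i : ι) (W : X.Opens) (h : W ≤ V i ⊓ V i) (t : Γ(P i, W)), (F i i).map W h t = t) →
    (∀ (i j k : ι) (W : X.Opens) (hij : W ≤ V i ⊓ V j) (hjk : W ≤ V j ⊓ V k)
      (hik : W ≤ V i ⊓ V k) (t : Γ(P i, W)),
      (F j k).map W hjk ((F i j).map W hij t) = (F i k).map W hik t) →
    ∃ (N : X.Modules) (G : ∀ i, LocHom N (P i) (V i)) (G' : ∀ i, LocHom (P i) N (V i)),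
      (∀ i, (G i).IsInv (G' i)) ∧
      (∀ (i j : ι) (W : X.Opens) (hi : W ≤ V i) (hj : W ≤ V j) (t : Γ(N, W)),
        (F i j).map W (le_inf hi hj) ((G i).map W hi t) = (G j).map W hj t) ∧
      (∀ (i j : ι) (W : X.Opens) (hi : W ≤ V i) (hj : W ≤ V j) (t : Γ(P i, W)),
        (G' j).map W hj ((F i j).map W (le_inf hi hj) t) = (G' i).map W hi t) ∧
      ((∀ x : X, ∃ i, x ∈ V i) → (∀ i, LocGen (P i) (V i)) → Scheme.Modules.IsInvertible N)

theorem stmt_GLUEABS : Stmt_GLUEABS.{u} := by
  intro X ι V P F hid hcomp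
  let D : GData X ι := ⟨V, P, F, hid, hcomp⟩
  exact ⟨D.glSheaf, D.proj, D.incl, D.proj_isInv_incl, D.F_proj, D.incl_F,
    D.isInvertible_glSheaf⟩

end Fermat.Agent.S25.Top.H22G
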