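import Fermat.Agent.S25.Top.H56_Ratio

/-!
# S25, package TOP, leaf LOCISO (helper56): the abstract core

`p : X ⟶ T` with a section `σ : T ⟶ X`, such that every function on `p⁻¹V` comes from `V`
(`V ⊆ T` open).  `M`, `M'` sheaves of modules on `X`, locally generated by one section, with
rigidifications `ρ : σ^* M ≅ 𝒪_T`, `ρ' : σ^* M' ≅ 𝒪_T`.

* `ev p σ M ρ` : evaluation along the section, `Γ(M, W) → Γ(T, σ⁻¹W)`;
* `IsNormal` : a local morphism `M|_U ⟶ M'|_U` is compatible with the evaluations;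
* `exists_normal` : every local isomorphism over `p⁻¹V` can be normalised;
* `normal_unique` : normalised local isomorphisms over `p⁻¹V` are unique;
* `locIso_core` : local isomorphisms over the `p⁻¹(V i)`, `V` an open cover of `T`, give `M ≅ M'`.

This file contains no unproved statement.
-/

set_option autoImplicit false

open CategoryTheory AlgebraicGeometry TopologicalSpace Opposite

universe u

namespace Fermat.Agent.S25.Top.H56

open Fermat.Agent.S25.Glue Fermat.Agent.S25.Glue.H56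

variable {X T : Scheme.{u}}

theorem resO_app_of_eq_id (g : T ⟶ T) (hg : g = 𝟙 T) {Z Z' : T.Opens} (h : Z' ≤ g ⁻¹ᵁ Z)
    (h' : Z' ≤ Z) (d : Γ(T, Z)) : resO T h (g.app Z d) = resO T h' d := by
  subst hg
  rfl

section Core

variable (p : X ⟶ T) (σ : T ⟶ X) (hσ : σ ≫ p = 𝟙 T)

include hσ in
theorem section_apply (y : T) : p.base (σ.base y) = y := by
  have := congrArg (fun g : T ⟶ T => g.base y) hσ
  simpa using this

include hσ in
theorem preimage_section_le {Z : T.Opens} {W : X.Opens} (hW : W ≤ p ⁻¹ᵁ Z) : σ ⁻¹ᵁ W ≤ Z := by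
  intro y hy
  have h1 : p.base (σ.base y) ∈ Z := hW hy
  rwa [section_apply p σ hσ] at h1

include hσ in
theorem le_preimage_section (V : T.Opens) : V ≤ σ ⁻¹ᵁ (p ⁻¹ᵁ V) := by
  intro y hy
  change p.base (σ.base y) ∈ V
  rwa [section_apply p σ hσ]

include hσ in
theorem preimage_le_preimage_section (V : T.Opens) : p ⁻¹ᵁ V ≤ p ⁻¹ᵁ (σ ⁻¹ᵁ (p ⁻¹ᵁ V)) :=
  preimage_le p (le_preimage_section p σ hσ V)

include hσ in
/-- `σ^♯ ∘ p^♯ = id` on functions. -/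
theorem section_app_app {Z : T.Opens} {W : X.Opens} (hW : W ≤ p ⁻¹ᵁ Z) (d : Γ(T, Z)) :
    σ.app W (resO X hW (p.app Z d)) = resO T (preimage_section_le p σ hσ hW) d := by
  rw [app_resO]
  have h1 : σ.app (p ⁻¹ᵁ Z) (p.app Z d) = (σ ≫ p).app Z d := by
    rw [Scheme.Hom.comp_app]
    rfl
  rw [h1]
  exact resO_app_of_eq_id (σ ≫ p) hσ _ _ d

end Core

/-- pre-composition of a semilinear map with a local morphism -/
def SemiHom.precomp {Y : Scheme.{u}} {f : Y ⟶ X} {M₀ M : X.Modules} {N : Y.Modules}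
    {U : X.Opens} (lam : SemiHom f M N U) (F : LocHom M₀ M U) : SemiHom f M₀ N U where
  map W h t := lam.map W h (F.map W h t)
  map_add W h t t' := by rw [F.map_add, lam.map_add]
  map_smul W h a t := by rw [F.map_smul, lam.map_smul]
  map_res W W' h h' t := by rw [F.map_res W W' h h', lam.map_res W W' h h']

theorem SemiHom.PresGen.precomp {Y : Scheme.{u}} {f : Y ⟶ X} {M₀ M : X.Modules}
    {N : Y.Modules} {U : X.Opens} {lam : SemiHom f M N U} (hlam : lam.PresGen)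
    {F : LocHom M₀ M U} (hF : F.PresGen) : (lam.precomp F).PresGen :=
  fun W h s hs => hlam W h _ (hF W h s hs)

section Ev

variable (σ : T ⟶ X) (M : X.Modules) (ρ : (Scheme.Modules.pullback σ).obj M ≅ unitM T)

/-- evaluation along the section `σ`, trivialised by `ρ` -/
noncomputable def ev (U : X.Opens) : SemiHom σ M (unitM T) U :=
  (SemiHom.pull σ M U).postcomp ρ.hom

theorem ev_presGen (U : X.Opens) : (ev σ M ρ U).PresGen :=
  (SemiHom.presGen_pull U).postcomp ρ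

theorem ev_map (U : X.Opens) (W : X.Opens) (h : W ≤ U) (t : Γ(M, W)) :
    (ev σ M ρ U).map W h t = (ev σ M ρ ⊤).map W le_top t := rfl

end Ev

section Normal

variable (p : X ⟶ T) (σ : T ⟶ X) (hσ : σ ≫ p = 𝟙 T)
  (M M' : X.Modules)
  (ρ : (Scheme.Modules.pullback σ).obj M ≅ unitM T)
  (ρ' : (Scheme.Modules.pullback σ).obj M' ≅ unitM T)

/-- A local morphism is normalised: it is compatible with the evaluations along `σ`. -/
def IsNormal {U : X.Opens} (Φ : LocHom M M' U) : Prop :=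
  ∀ (W : X.Opens) (h : W ≤ U) (t : Γ(M, W)),
    (ev σ M' ρ' U).map W h (Φ.map W h t) = (ev σ M ρ U).map W h t

variable {M M'}

theorem IsNormal.restrict {U U' : X.Opens} {Φ : LocHom M M' U} (hΦ : IsNormal σ M M' ρ ρ' Φ)
    (hU : U' ≤ U) : IsNormal σ M M' ρ ρ' (Φ.restrict hU) :=
  fun W h t => hΦ W (h.trans hU) t

include hσ in
/-- **Normalisation**: a local isomorphism over `p⁻¹V` can be normalised. -/
theorem exists_normal (hM : LocGen M ⊤) (V : T.Opens) (F : LocHom M M' (p ⁻¹ᵁ V))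
    (G : LocHom M' M (p ⁻¹ᵁ V)) (hFG : F.IsInv G) :
    ∃ (Φ : LocHom M M' (p ⁻¹ᵁ V)) (Ψ : LocHom M' M (p ⁻¹ᵁ V)),
      Φ.IsInv Ψ ∧ IsNormal σ M M' ρ ρ' Φ := by
  have hM' : LocGen M (p ⁻¹ᵁ V) := hM.mono le_top
  let lam : SemiHom σ M (unitM T) (p ⁻¹ᵁ V) := (ev σ M' ρ' (p ⁻¹ᵁ V)).precomp F
  have hlam : lam.PresGen := (ev_presGen σ M' ρ' _).precomp hFG.presGen
  have hmu : (ev σ M ρ (p ⁻¹ᵁ V)).PresGen := ev_presGen σ M ρ _
  obtain ⟨a, ha, -⟩ := SemiHom.existsUnique_ratio lam (ev σ M ρ (p ⁻¹ᵁ V)) hM' hmu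
  have hu : IsUnit a := SemiHom.isUnit_ratio lam (ev σ M ρ (p ⁻¹ᵁ V)) hM' hlam ha
  obtain ⟨a', ha'⟩ := hu.exists_left_inv
  have hle := preimage_le_preimage_section p σ hσ V
  let b : Γ(X, p ⁻¹ᵁ V) := resO X hle (p.app _ a')
  let b' : Γ(X, p ⁻¹ᵁ V) := resO X hle (p.app _ a)
  have hbb : b * b' = 1 := by
    change resO X hle (p.app _ a') * resO X hle (p.app _ a) = 1
    rw [← resO_mul, ← map_mul, ha', map_one, resO_one]
  refine ⟨F.smul b, G.smul b', hFG.smul hbb, fun W h t => ?_⟩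
  change (ev σ M' ρ' (p ⁻¹ᵁ V)).map W h (resO X h b • F.map W h t) = _
  rw [(ev σ M' ρ' (p ⁻¹ᵁ V)).map_smul]
  have h1 : (ev σ M' ρ' (p ⁻¹ᵁ V)).map W h (F.map W h t) =
      resO T (preimage_le σ h) a • (ev σ M ρ (p ⁻¹ᵁ V)).map W h t := ha W h t
  rw [h1, smul_smul]
  have h2 : σ.app W (resO X h b) = resO T (preimage_le σ h) a' := by
    change σ.app W (resO X h (resO X hle (p.app _ a'))) = _
    rw [resO_resO, section_app_app p σ hσ]
  rw [h2, ← resO_mul, ha', resO_one, one_smul]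

include hσ in
/-- **Uniqueness**: two normalised local isomorphisms over `p⁻¹V` are equal. -/
theorem normal_unique (hΓ : ∀ V : T.Opens, Function.Surjective (p.app V)) (hM : LocGen M ⊤)
    (V : T.Opens) (Φ₁ Φ₂ : LocHom M M' (p ⁻¹ᵁ V))
    (h₁ : IsNormal σ M M' ρ ρ' Φ₁) (h₂ : IsNormal σ M M' ρ ρ' Φ₂) (hg : Φ₂.PresGen)
    (W : X.Opens) (h : W ≤ p ⁻¹ᵁ V) (t : Γ(M, W)) : Φ₁.map W h t = Φ₂.map W h t := by
  have hM' : LocGen M (p ⁻¹ᵁ V) := hM.mono le_top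
  obtain ⟨c, hc, -⟩ := LocHom.existsUnique_ratio Φ₁ Φ₂ hM' hg
  obtain ⟨d, rfl⟩ := hΓ V c
  have hd : d = 1 := by
    let κ : Type u := {q : Σ W : X.Opens, Γ(M, W) // q.1 ≤ p ⁻¹ᵁ V ∧ IsGen M q.1 q.2}
    refine eq_of_resO_eq T (fun k : κ => σ ⁻¹ᵁ k.1.1) V
      (fun k => preimage_section_le p σ hσ k.2.1) ?_ _ _ fun k => ?_
    · intro y hy
      have hy' : σ.base y ∈ p ⁻¹ᵁ V := le_preimage_section p σ hσ V hy
      obtain ⟨W₀, hW₀, hx, s, hs⟩ := hM' _ hy'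
      exact Opens.mem_iSup.mpr ⟨⟨⟨W₀, s⟩, hW₀, hs⟩, hx⟩
    · have e1 := h₁ _ k.2.1 k.1.2
      rw [hc _ k.2.1 k.1.2, (ev σ M' ρ' (p ⁻¹ᵁ V)).map_smul, h₂ _ k.2.1 k.1.2,
        section_app_app p σ hσ] at e1
      have hgen := ev_presGen σ M ρ (p ⁻¹ᵁ V) _ k.2.1 _ k.2.2
      have hinj := (isGen_iff.1 hgen _ (le_refl _)).1
      apply hinj
      simp only [resM_id]
      rw [e1, resO_one, one_smul]
  rw [hc W h t, hd, map_one, resO_one, one_smul]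

end Normal

section Main

variable (p : X ⟶ T) (σ : T ⟶ X) (hσ : σ ≫ p = 𝟙 T)

include hσ in
/-- **LOCISO, abstract core**. -/
theorem locIso_core (hΓ : ∀ V : T.Opens, Function.Surjective (p.app V))
    (M M' : X.Modules) (hM : LocGen M ⊤)
    (ρ : (Scheme.Modules.pullback σ).obj M ≅ unitM T)
    (ρ' : (Scheme.Modules.pullback σ).obj M' ≅ unitM T)
    {ι : Type*} (V : ι → T.Opens) (hV : ∀ x : T, ∃ i, x ∈ V i)
    (hloc : ∀ i, ∃ (F : LocHom M M' (p ⁻¹ᵁ V i)) (G : LocHom M' M (p ⁻¹ᵁ V i)), F.IsInv G) :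
    Nonempty (M ≅ M') := by
  classical
  have hnorm : ∀ i, ∃ (Φ : LocHom M M' (p ⁻¹ᵁ V i)) (Ψ : LocHom M' M (p ⁻¹ᵁ V i)),
      Φ.IsInv Ψ ∧ IsNormal σ M M' ρ ρ' Φ := by
    intro i
    obtain ⟨F, G, hFG⟩ := hloc i
    exact exists_normal p σ hσ ρ ρ' hM (V i) F G hFG
  choose Φ Ψ hinv hΦ using hnorm
  have hcov : ∀ x : X, ∃ i, x ∈ p ⁻¹ᵁ V i := fun x => hV (p.base x)
  have hcompΦ : ∀ (i j : ι) (W : X.Opens) (hi : W ≤ p ⁻¹ᵁ V i) (hj : W ≤ p ⁻¹ᵁ V j)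
      (t : Γ(M, W)), (Φ i).map W hi t = (Φ j).map W hj t := by
    intro i j W hi hj t
    have hij : W ≤ p ⁻¹ᵁ (V i ⊓ V j) := fun x hx => ⟨hi hx, hj hx⟩
    have hi' : p ⁻¹ᵁ (V i ⊓ V j) ≤ p ⁻¹ᵁ V i := preimage_le p inf_le_left
    have hj' : p ⁻¹ᵁ (V i ⊓ V j) ≤ p ⁻¹ᵁ V j := preimage_le p inf_le_right
    exact normal_unique p σ hσ ρ ρ' hΓ hM (V i ⊓ V j) ((Φ i).restrict hi') ((Φ j).restrict hj')
      ((hΦ i).restrict σ ρ ρ' hi') ((hΦ j).restrict σ ρ ρ' hj')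
      ((hinv j).restrict hj').presGen W hij t
  have hcompΨ : ∀ (i j : ι) (W : X.Opens) (hi : W ≤ p ⁻¹ᵁ V i) (hj : W ≤ p ⁻¹ᵁ V j)
      (t : Γ(M', W)), (Ψ i).map W hi t = (Ψ j).map W hj t := by
    intro i j W hi hj t
    have e1 : (Φ i).map W hi ((Ψ j).map W hj t) = t := by
      rw [hcompΦ i j W hi hj, (hinv j).2]
    rw [← e1, (hinv i).1, e1]
  obtain ⟨φ, hφ, -⟩ := LocHom.glue (fun i => p ⁻¹ᵁ V i) hcov Φ hcompΦ
  obtain ⟨ψ, hψ, -⟩ := LocHom.glue (fun i => p ⁻¹ᵁ V i) hcov Ψ hcompΨ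
  refine ⟨⟨φ, ψ, ?_, ?_⟩⟩
  · refine hom_ext_small M M (fun i => p ⁻¹ᵁ V i) hcov _ _ ?_
    rintro W ⟨i, hi⟩ t
    change ψ.app W (φ.app W t) = t
    rw [hφ i W hi, hψ i W hi, (hinv i).1]
  · refine hom_ext_small M' M' (fun i => p ⁻¹ᵁ V i) hcov _ _ ?_
    rintro W ⟨i, hi⟩ t
    change φ.app W (ψ.app W t) = t
    rw [hψ i W hi, hφ i W hi, (hinv i).2]

end Main

end Fermat.Agent.S25.Top.H56
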