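/-
helper91, S25 (Jacobian exists), package TOP, leaf TOP-GLUEPIC: INTERFACE of the three-way split.

`Top.Stmt_GLUEPIC` (rigidified line bundles on `C × U_i` whose classes agree on the overlaps glue to
a rigidified line bundle on `C × T`) is proved from

* `H22G.stmt_GLUEABS` (helper22, LANDED): gluing of sheaves of modules along a cocycle of local
  morphisms (`LocHom`);
* `Stmt_GBRIDGE` (helper22): local isomorphism with a push-forward along an open immersion `j`
  ⟹ isomorphism of the pull-back along `j`;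
* `Stmt_GNORM` (helper56): normalisation of the overlap isomorphisms by local evaluations along a
  section `σ` of `p : X ⟶ T` (with `Γ(p⁻¹V, 𝒪) = Γ(V, 𝒪)`): the normalised isomorphisms are unique,
  hence form a cocycle;
* `Stmt_GRIG` (helper56): compatible local evaluations which preserve generating sections give a
  trivialisation of `σ^* N`;
* the prelude-facing part and the wiring (helper91, `Top/H91_GluePic*.lean`).

Language: helper56's `LocHom`, `SemiHom`, `LocGen` (`Top/H56_Ratio.lean`).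
-/
import Fermat.Agent.S25.Top.H56_LocIsoCore
import Fermat.Agent.S25.Top.H22_GlueAbs

set_option autoImplicit false

open CategoryTheory AlgebraicGeometry TopologicalSpace Opposite

universe u

namespace Fermat.Agent.S25.Top.G

open Fermat.Agent.S25.Glue Fermat.Agent.S25.Glue.H56 Fermat.Agent.S25.Top.H56

/-- **GNORM**: `p : X ⟶ T` with a section `σ` and `Γ(p⁻¹V, 𝒪) = Γ(V, 𝒪)`; `R i` opens of `T`,
`D i = p⁻¹(R i)`; sheaves `P i` on `X`, locally generated by one section on `D i`, with local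
evaluations `ev i` along `σ` which preserve generating sections, and invertible local morphisms
`F i j : P i ⟶ P j` over `D i ⊓ D j`.  Then there are local morphisms `Φ i j` over `D i ⊓ D j`
which preserve generating sections, are compatible with the evaluations, and form a cocycle. -/
def Stmt_GNORM : Prop :=
  ∀ {X T : Scheme.{u}} (p : X ⟶ T) (σ : T ⟶ X), σ ≫ p = 𝟙 T →
    (∀ V : T.Opens, Function.Bijective (p.app V)) →
    ∀ {ι : Type u} (R : ι → T.Opens) (P : ι → X.Modules),
      (∀ i, LocGen (P i) (p ⁻¹ᵁ R i)) →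
      ∀ (ev : ∀ i, SemiHom σ (P i) (unitM T) (p ⁻¹ᵁ R i)), (∀ i, (ev i).PresGen) →
      ∀ (F : ∀ i j, LocHom (P i) (P j) (p ⁻¹ᵁ R i ⊓ p ⁻¹ᵁ R j))
        (G : ∀ i j, LocHom (P j) (P i) (p ⁻¹ᵁ R i ⊓ p ⁻¹ᵁ R j)),
        (∀ i j, (F i j).IsInv (G i j)) →
        ∃ Φ : ∀ i j, LocHom (P i) (P j) (p ⁻¹ᵁ R i ⊓ p ⁻¹ᵁ R j),
          (∀ i j, (Φ i j).PresGen) ∧
          (∀ i j (W : X.Opens) (h : W ≤ p ⁻¹ᵁ R i ⊓ p ⁻¹ᵁ R j) (t : Γ(P i, W)),
            (ev j).map W (h.trans inf_le_right) ((Φ i j).map W h t) =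
              (ev i).map W (h.trans inf_le_left) t) ∧
          (∀ i (W : X.Opens) (h : W ≤ p ⁻¹ᵁ R i ⊓ p ⁻¹ᵁ R i) (t : Γ(P i, W)),
            (Φ i i).map W h t = t) ∧
          (∀ i j k (W : X.Opens) (hij : W ≤ p ⁻¹ᵁ R i ⊓ p ⁻¹ᵁ R j)
            (hjk : W ≤ p ⁻¹ᵁ R j ⊓ p ⁻¹ᵁ R k) (hik : W ≤ p ⁻¹ᵁ R i ⊓ p ⁻¹ᵁ R k) (t : Γ(P i, W)),
            (Φ j k).map W hjk ((Φ i j).map W hij t) = (Φ i k).map W hik t)

/-- **GRIG**: a sheaf of modules `N` on `X`, locally generated by one section, with local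
evaluations along `σ : T ⟶ X` over the members of an open cover of `X` which preserve generating
sections and agree on the overlaps: then `σ^* N` is trivial. -/
def Stmt_GRIG : Prop :=
  ∀ {X T : Scheme.{u}} (σ : T ⟶ X) (N : X.Modules), LocGen N ⊤ →
    ∀ {ι : Type u} (D : ι → X.Opens), (∀ x : X, ∃ i, x ∈ D i) →
    ∀ (lam : ∀ i, SemiHom σ N (unitM T) (D i)), (∀ i, (lam i).PresGen) →
      (∀ i j (W : X.Opens) (hi : W ≤ D i) (hj : W ≤ D j) (t : Γ(N, W)),
        (lam i).map W hi t = (lam j).map W hj t) →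
      Nonempty ((Scheme.Modules.pullback σ).obj N ≅ unitM T)

/-- **GBRIDGE**: `j : Y' ⟶ Y` an open immersion, `N` on `Y`, `M'` on `Y'`, and mutually inverse
local morphisms between `N` and the push-forward of `M'` over the range of `j`: then the
pull-back of `N` along `j` is isomorphic to `M'`. -/
def Stmt_GBRIDGE : Prop :=
  ∀ {Y' Y : Scheme.{u}} (j : Y' ⟶ Y) [IsOpenImmersion j] (N : Y.Modules) (M' : Y'.Modules)
    (θ : LocHom N ((Scheme.Modules.pushforward j).obj M') j.opensRange)
    (θ' : LocHom ((Scheme.Modules.pushforward j).obj M') N j.opensRange), θ.IsInv θ' →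
    Nonempty ((Scheme.Modules.pullback j).obj N ≅ M')

end Fermat.Agent.S25.Top.G
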