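/-
helper91, S25 (Jacobian exists), package TOP, leaf TOP-GLUEPIC: the three generic lemmas on
push-forwards along open immersions which the prelude-facing part needs.

`P := (pushforward j).obj L` for an open immersion `j : X' ⟶ X` (sections `Γ(P, W) = Γ(L, j⁻¹W)`,
definitionally).

* `Stmt_LOCGENPUSH` : `L` invertible ⟹ `P` is locally generated by one section on the range of `j`;
* `Stmt_OVERLAP` : an isomorphism between the pull-backs of `L₁`, `L₂` to a common open part `Y`
  gives mutually inverse local morphisms between the push-forwards over the image of `Y`;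
* `Stmt_EVLOC` : a trivialisation of the pull-back of `L` along a section of `X'` over an open part
  `U` of `T` gives a local evaluation of `P` along `σ : T ⟶ X` which preserves generating sections.
-/
import Fermat.Agent.S25.Top.H56_LocIsoCore

set_option autoImplicit false

open CategoryTheory AlgebraicGeometry TopologicalSpace Opposite

universe u

namespace Fermat.Agent.S25.Top.G

open Fermat.Agent.S25.Glue Fermat.Agent.S25.Glue.H56 Fermat.Agent.S25.Top.H56

/-- **LOCGENPUSH** -/
def Stmt_LOCGENPUSH : Prop :=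
  ∀ {X X' : Scheme.{u}} (j : X' ⟶ X) [IsOpenImmersion j] (L : X'.Modules),
    Scheme.Modules.IsInvertible L →
    LocGen ((Scheme.Modules.pushforward j).obj L) j.opensRange

/-- **OVERLAP** -/
def Stmt_OVERLAP : Prop :=
  ∀ {X X₁ X₂ Y : Scheme.{u}} (j₁ : X₁ ⟶ X) (j₂ : X₂ ⟶ X) (a : Y ⟶ X₁) (b : Y ⟶ X₂)
    [IsOpenImmersion j₁] [IsOpenImmersion j₂] [IsOpenImmersion a] [IsOpenImmersion b],
    a ≫ j₁ = b ≫ j₂ →
    ∀ (L₁ : X₁.Modules) (L₂ : X₂.Modules),
      Nonempty ((Scheme.Modules.pullback a).obj L₁ ≅ (Scheme.Modules.pullback b).obj L₂) →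
      ∃ (F : LocHom ((Scheme.Modules.pushforward j₁).obj L₁)
            ((Scheme.Modules.pushforward j₂).obj L₂) (a ≫ j₁).opensRange)
        (G : LocHom ((Scheme.Modules.pushforward j₂).obj L₂)
            ((Scheme.Modules.pushforward j₁).obj L₁) (a ≫ j₁).opensRange), F.IsInv G

/-- **EVLOC** -/
def Stmt_EVLOC : Prop :=
  ∀ {X T X' U : Scheme.{u}} (σ : T ⟶ X) (j : X' ⟶ X) (f : U ⟶ T) (ε' : U ⟶ X')
    [IsOpenImmersion j] [IsOpenImmersion f], ε' ≫ j = f ≫ σ →
    σ ⁻¹ᵁ j.opensRange ≤ f.opensRange →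
    ∀ (L : X'.Modules), Scheme.Modules.IsInvertible L →
      Nonempty ((Scheme.Modules.pullback ε').obj L ≅ unitM U) →
      ∃ ev : SemiHom σ ((Scheme.Modules.pushforward j).obj L) (unitM T) j.opensRange, ev.PresGen

end Fermat.Agent.S25.Top.G
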