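/-
helper45 (sub-planner of TOP-SURJ), S25 package TOP: INTERFACE FILE, part S2 = the scheme side of `Stmt_SURJ`.
Plan: NOTES/plan/S25_SURJ.md.  Part A (algebra of the family) is `Top/DefsS.lean`.

* `ptMor ρ R β`   : the morphism `Spec R ⟶ C` of a chart point `β : CPt 𝒞 R`;
* `LocFam ρ y`    : a functorial family of triples on the affine test schemes `Spec R ⟶ Y`
                    (unique up to isomorphism among rigid triples, compatible with base change, locally existent);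
* `Stmt_FAMGLUE`  : a `LocFam` glues to a rigidified line bundle `N` on `C × Y` (BRIDGE T1-T4, RIG, GLUEPIC, LOCISO);
* `FamOf ρ y pr`  : the family `O(Σ_j Γ_(pr j) - g ε)` for `g` morphisms `pr j : Y ⟶ C`;
* `Stmt_PT`, `Stmt_LOCFAM`, `Stmt_DEGALL`, `Stmt_DEGGLUE`, `Stmt_ONTO` : the remaining leaves;
  the assembly `Stmt_SURJ` is in `Top/H45_SAsm.lean`.
-/
import Fermat.Agent.S25.Top.DefsS

set_option autoImplicit false

universe u

open CategoryTheory CategoryTheory.Limits AlgebraicGeometry AlgebraicGeometry.RelPicard NeronModelInfra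
  GoodReductionJacobian TensorProduct

namespace Fermat.Agent.S25.Top.S

open Fermat.Agent.S25 Fermat.Agent.S25.LB

section

variable {k : Type u} [Field k] {C : Scheme.{u}} {c : C ⟶ Spec (CommRingCat.of k)}
  {ε : SchemeHomOver (𝟙 (Spec (CommRingCat.of k))) c} {𝒞 : CurveDatum k}

/-- The morphism `Spec R ⟶ C` of an `R`-point of a chart. -/
noncomputable def ptMor (ρ : Bridge.Realizes c ε 𝒞) (R : Type u) [CommRing R] [Algebra k R] :
    CPt 𝒞 R → (Spec (CommRingCat.of R) ⟶ C)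
  | Sum.inl β =>
      Spec.map (CommRingCat.ofHom
        ((β : 𝒞.B0 →+* R).comp (ρ.φ0.symm : Γ(C, ρ.U₀) →+* 𝒞.B0))) ≫ ρ.aff₀.fromSpec
  | Sum.inr β =>
      Spec.map (CommRingCat.ofHom
        ((β : 𝒞.B1 →+* R).comp (ρ.φ1.symm : Γ(C, ρ.U₁) →+* 𝒞.B1))) ≫ ρ.aff₁.fromSpec

/-- A functorial family of triples on the affine test schemes of `Y`. -/
structure LocFam (ρ : Bridge.Realizes c ε 𝒞) {Y : Scheme.{u}} (y : Y ⟶ Spec (CommRingCat.of k)) where
  /-- `Fam R φ L`: the triple `L` over `R` is a member of the family at `φ : Spec R ⟶ Y`. -/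
  Fam : ∀ (R : Type u) [CommRing R] [Algebra k R], SchemeHomOver (Bridge.tR k R) y → Triple 𝒞 R → Prop
  congr : ∀ (R : Type u) [CommRing R] [Algebra k R] (φ : SchemeHomOver (Bridge.tR k R) y)
    (L L' : Triple 𝒞 R), Fam R φ L → Nonempty (Triple.Iso L L') → Fam R φ L'
  uniq : ∀ (R : Type u) [CommRing R] [Algebra k R] (φ : SchemeHomOver (Bridge.tR k R) y)
    (L L' : Triple 𝒞 R), Fam R φ L → Fam R φ L' → L.IsRigid → L'.IsRigid → Nonempty (Triple.Iso L L')
  bc : ∀ (R R' : Type u) [CommRing R] [Algebra k R] [CommRing R'] [Algebra k R'] [Algebra R R']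
    [IsScalarTower k R R'] (φ : SchemeHomOver (Bridge.tR k R) y) (L : Triple 𝒞 R) (L' : Triple 𝒞 R'),
    Fam R φ L → Nonempty (Chart.BC (IsScalarTower.toAlgHom k R R') L L') →
      Fam R' (postComp φ (specOver k R R')) L'
  loc : ∀ (R : Type u) [CommRing R] [Algebra k R] (φ : SchemeHomOver (Bridge.tR k R) y)
    (p : PrimeSpectrum R), ∃ r : R, r ∉ p.asIdeal ∧ ∃ L : Triple 𝒞 (Localization.Away r),
      L.IsRigid ∧ Fam (Localization.Away r) (postComp φ (specOver k R (Localization.Away r))) L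

/-- `N` on `C × Y` is glued from the family `ℱ`: on every affine test scheme the triples of the pull-back
of `N` are the rigid members of the family. -/
def IsGlued {ρ : Bridge.Realizes c ε 𝒞} {Y : Scheme.{u}} {y : Y ⟶ Spec (CommRingCat.of k)}
    (ℱ : LocFam ρ y) (N : RigidifiedLineBundle c ε y) : Prop :=
  ∀ (R : Type u) [CommRing R] [Algebra k R] (φ : SchemeHomOver (Bridge.tR k R) y) (L L' : Triple 𝒞 R),
    Bridge.IsTripleOf ρ R (N.pullbackAlong φ).L L → ℱ.Fam R φ L' → L'.IsRigid →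
      Nonempty (Triple.Iso L' L)

/-- The family `O(Σ_j Γ_(pr j) - g ε)` for `g` morphisms `pr j : Y ⟶ C`: the points `φ ≫ pr j` of `C` are
given by chart points `β j`, and `L` is the family triple of `β`. -/
def FamOf (ρ : Bridge.Realizes c ε 𝒞) {Y : Scheme.{u}} (y : Y ⟶ Spec (CommRingCat.of k)) {g : ℕ}
    (pr : Fin g → (Y ⟶ C)) (R : Type u) [CommRing R] [Algebra k R]
    (φ : SchemeHomOver (Bridge.tR k R) y) (L : Triple 𝒞 R) : Prop :=
  ∃ β : Fin g → CPt 𝒞 R, (∀ j, φ.1 ≫ pr j = ptMor ρ R (β j)) ∧ IsFam β L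

end

/-! ## The leaves of the scheme side -/

/-- **S-PT** (points of the curve in the charts): (a) `ptMor` is a morphism over `k`; (b) every `R`-point of `C` is
Zariski-locally on `Spec R` a chart point; (c) base change; (d) two presentations of the same point have the same
graph ideals (`Stmt_GRCHART`: if the charts differ, the point lies in the overlap `D(x0)`). -/
def Stmt_PT : Prop :=
  ∀ (k : Type u) [Field k] {C : Scheme.{u}} (c : C ⟶ Spec (CommRingCat.of k))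
    (ε : SchemeHomOver (𝟙 (Spec (CommRingCat.of k))) c) (𝒞 : CurveDatum k), 𝒞.IsGood →
    ∀ ρ : Bridge.Realizes c ε 𝒞,
      (∀ (R : Type u) [CommRing R] [Algebra k R] (β : CPt 𝒞 R), ptMor ρ R β ≫ c = Bridge.tR k R) ∧
      (∀ (R : Type u) [CommRing R] [Algebra k R] (f : Spec (CommRingCat.of R) ⟶ C),
        f ≫ c = Bridge.tR k R → ∀ p : PrimeSpectrum R, ∃ r : R, r ∉ p.asIdeal ∧
          ∃ β : CPt 𝒞 (Localization.Away r),
            Spec.map (CommRingCat.ofHom (algebraMap R (Localization.Away r))) ≫ f =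
              ptMor ρ (Localization.Away r) β) ∧
      (∀ (R R' : Type u) [CommRing R] [Algebra k R] [CommRing R'] [Algebra k R'] [Algebra R R']
        [IsScalarTower k R R'] (β : CPt 𝒞 R),
        Spec.map (CommRingCat.ofHom (algebraMap R R')) ≫ ptMor ρ R β =
          ptMor ρ R' (β.map (IsScalarTower.toAlgHom k R R'))) ∧
      (∀ (R : Type u) [CommRing R] [Algebra k R] (β β' : CPt 𝒞 R),
        ptMor ρ R β = ptMor ρ R β' → gr0 β = gr0 β' ∧ gr1 β = gr1 β')

/-- **S-LOCFAM**: `FamOf` is a `LocFam`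
(congr, uniq: `Stmt_FAMUNIQ` + `Stmt_PT` (d); bc: `Stmt_FAMBC` + `Stmt_PT` (c);
loc: `Stmt_PT` (b) on `D(r₁)`, `Stmt_FAMEX`, `Stmt_RIGLOC` on `D(r₂) ⊆ D(r₁)`, then base change to
`Localization.Away (r₁ a)` along `(R_(r₁))_(r₂) → R_(r₁ a)`: `LB.Stmt_BCEX`, `Stmt_RIGBC`, `Stmt_FAMBC`). -/
def Stmt_LOCFAM : Prop :=
  ∀ (k : Type u) [Field k] [IsAlgClosed k] {C : Scheme.{u}} (c : C ⟶ Spec (CommRingCat.of k))
    (ε : SchemeHomOver (𝟙 (Spec (CommRingCat.of k))) c) (𝒞 : CurveDatum k), 𝒞.IsGood →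
    ∀ (ρ : Bridge.Realizes c ε 𝒞) {Y : Scheme.{u}} (y : Y ⟶ Spec (CommRingCat.of k)) (g : ℕ)
      (pr : Fin g → (Y ⟶ C)), (∀ j, pr j ≫ c = y) →
      ∃ ℱ : LocFam ρ y, ∀ (R : Type u) [CommRing R] [Algebra k R]
        (φ : SchemeHomOver (Bridge.tR k R) y) (L : Triple 𝒞 R), ℱ.Fam R φ L ↔ FamOf ρ y pr R φ L

/-- **S-FAMGLUE** (the gluing; sheaf side): every `LocFam` on `Y` glues to a rigidified line bundle on `C × Y`.
Proof: cover `Y` by affine opens `Spec A`; by `loc` refine to `Spec A_r` with rigid members `L_r`; `Bridge.Stmt_T3` +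
`Stmt_RIG` give rigidified bundles `M_r` on `C × Spec A_r`; on the overlaps the classes agree
(`Top.LocIso` on an affine cover of the overlap, `Bridge.Stmt_T4` + `H30.t4rel_bc`, `bc`, `uniq`, `Stmt_T2`);
`Top.Glue` gives `N`; `IsGlued` by the same overlap argument. -/
def Stmt_FAMGLUE : Prop :=
  ∀ (k : Type u) [Field k] [IsAlgClosed k] {C : Scheme.{u}} (c : C ⟶ Spec (CommRingCat.of k))
    [IsProper c] [SmoothOfRelativeDimension 1 c] [IsIntegral C]
    (ε : SchemeHomOver (𝟙 (Spec (CommRingCat.of k))) c) (𝒞 : CurveDatum k), 𝒞.IsGood →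
    ∀ (ρ : Bridge.Realizes c ε 𝒞) {Y : Scheme.{u}} (y : Y ⟶ Spec (CommRingCat.of k))
      (ℱ : LocFam ρ y), ∃ N : RigidifiedLineBundle c ε y, IsGlued ℱ N

/-- **S-DEGALL**: the family is fibrewise of degree zero over EVERY `k`-algebra.
Proof: the fibre at a prime `p` is the family over the field `κ(p)` (`Stmt_FAMBC`, `Trip.Stmt_DEGBC`); over a field
`κ` the points `β j` have values in the finitely generated subalgebra `A ⊆ κ` generated by their images, a domain;
`Stmt_FAMEX` over `A`, `Stmt_DEG` over `A`, `Stmt_FAMBC` + `Stmt_FAMUNIQ` + `Trip.Stmt_DEGBC` for `A → κ`. -/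
def Stmt_DEGALL : Prop :=
  ∀ (k : Type u) [Field k] [IsAlgClosed k] (𝒞 : CurveDatum k), 𝒞.IsGood →
    ∀ (R : Type u) [CommRing R] [Algebra k R] (g : ℕ) (β : Fin g → CPt 𝒞 R) (N : Triple 𝒞 R),
      IsFam β N → IsDeg0 (Num.genus 𝒞) N

/-- **S-DEGGLUE**: a bundle glued from a family whose members are fibrewise of degree zero is fibrewise of
degree zero (`loc`, `Bridge.Stmt_T1`, `Stmt_T4` + `H30.t4rel_bc`, `Trip.Stmt_DEGBC`, isomorphism invariance). -/
def Stmt_DEGGLUE : Prop :=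
  ∀ (k : Type u) [Field k] [IsAlgClosed k] {C : Scheme.{u}} (c : C ⟶ Spec (CommRingCat.of k))
    [IsProper c] [SmoothOfRelativeDimension 1 c] [IsIntegral C]
    (ε : SchemeHomOver (𝟙 (Spec (CommRingCat.of k))) c) (𝒞 : CurveDatum k), 𝒞.IsGood →
    ∀ (ρ : Bridge.Realizes c ε 𝒞) (g : ℕ) {Y : Scheme.{u}} (y : Y ⟶ Spec (CommRingCat.of k))
      (ℱ : LocFam ρ y) (N : RigidifiedLineBundle c ε y), IsGlued ℱ N →
      (∀ (R : Type u) [CommRing R] [Algebra k R] (φ : SchemeHomOver (Bridge.tR k R) y)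
        (L : Triple 𝒞 R), ℱ.Fam R φ L → IsDeg0 g L) →
      DegZero ρ g y N

/-- **S-ONTO**: the bundle glued from the family over `Y = C^g` hits every degree zero bundle over `k`.
Proof: the triple `L` of `M` (`Bridge.Stmt_T1` over `R = k`) has `chi = 1 - g` (`DegZero`, `Trip.Stmt_DEGK`);
`Stmt_SURJK` gives `k`-points `β j` with `IsFam β L`; the universal property of `Y` gives the `k`-point `p` with
`p ≫ pr j = ptMor (β j)`; `L` is rigid (`Bridge.Stmt_RIG`); `IsGlued` + `Bridge.Stmt_T2`. -/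
def Stmt_ONTO : Prop :=
  ∀ (k : Type u) [Field k] [IsAlgClosed k] {C : Scheme.{u}} (c : C ⟶ Spec (CommRingCat.of k))
    [IsProper c] [SmoothOfRelativeDimension 1 c] [IsIntegral C]
    (ε : SchemeHomOver (𝟙 (Spec (CommRingCat.of k))) c) (S : DegSetup c ε),
    S.g = Num.genus S.𝒞 →
    ∀ {Y : Scheme.{u}} (y : Y ⟶ Spec (CommRingCat.of k)) (pr : Fin S.g → (Y ⟶ C)),
      (∀ j, pr j ≫ c = y) →
      (∀ {T : Scheme.{u}} (t : T ⟶ Spec (CommRingCat.of k)) (φ : Fin S.g → (T ⟶ C)),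
        (∀ i, φ i ≫ c = t) → ∃! ψ : T ⟶ Y, ψ ≫ y = t ∧ ∀ i, ψ ≫ pr i = φ i) →
      ∀ (ℱ : LocFam S.ρ y), (∀ (R : Type u) [CommRing R] [Algebra k R]
        (φ : SchemeHomOver (Bridge.tR k R) y) (L : Triple S.𝒞 R),
          ℱ.Fam R φ L ↔ FamOf S.ρ y pr R φ L) →
      ∀ N : RigidifiedLineBundle c ε y, IsGlued ℱ N →
      ∀ M : RigidifiedLineBundle c ε (𝟙 (Spec (CommRingCat.of k))),
        S.P'.P (𝟙 (Spec (CommRingCat.of k))) M →
        ∃ p : SchemeHomOver (𝟙 (Spec (CommRingCat.of k))) y, Classifies N M p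

end Fermat.Agent.S25.Top.S
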