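import Fermat.Agent.S25.Top.DefsS2
import Fermat.Agent.S25.LB.DefsE

/-!
# S25, package TOP-SURJ, leaf S-LOCFAM (helper17)

`FamOf ρ y pr` (the family `O(Σ_j Γ_(pr j) - g ε)`) is a `LocFam`.

`locfam_of : Stmt_PT → Stmt_FAMUNIQ → Stmt_FAMBC → Stmt_FAMEX → Stmt_RIGLOC → Stmt_RIGBC → LB.Stmt_BCEX → Stmt_LOCFAM`.

* `congr`, `uniq`: `Stmt_FAMUNIQ` + `Stmt_PT` (d);
* `bc`: `Stmt_FAMBC` + `Stmt_PT` (c);
* `loc`: `Stmt_PT` (b) on `D(r_j)`, base change to `D(r₁)`, `r₁ = ∏ r_j`; `Stmt_FAMEX` over `R_(r₁)`; `Stmt_RIGLOC`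
  at a prime `p₁` over `p` gives `r₂`; base change to `(R_(r₁))_(r₂)` and then along
  `(R_(r₁))_(r₂) → R_(r₁ a)` (`r₂ r₁^n = a`): `LB.Stmt_BCEX`, `Stmt_RIGBC`, `Stmt_FAMBC`.
-/

set_option autoImplicit false

universe u

open CategoryTheory CategoryTheory.Limits AlgebraicGeometry AlgebraicGeometry.RelPicard NeronModelInfra
  GoodReductionJacobian TensorProduct

namespace Fermat.Agent.S25.Top.S.H17

open Fermat.Agent.S25 Fermat.Agent.S25.LB Fermat.Agent.S25.Top.S

/-! ### Localisations -/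

section Loc

variable {k : Type u} [Field k] {R : Type u} [CommRing R] [Algebra k R]

theorem isUnit_awayMap (r ρ : R) (h : r ∣ ρ) : IsUnit (Chart.awayMap (k := k) ρ r) :=
  IsLocalization.Away.isUnit_of_dvd ρ h

/-- `R_r → R_ρ` for `r ∣ ρ`, as a `k`-algebra map. -/
noncomputable def awayTo (r ρ : R) (h : r ∣ ρ) : Localization.Away r →ₐ[k] Localization.Away ρ :=
  IsLocalization.Away.liftAlgHom (A := k) r (f := Chart.awayMap ρ) (isUnit_awayMap r ρ h)

theorem awayTo_algebraMap (r ρ : R) (h : r ∣ ρ) (a : R) :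
    awayTo (k := k) r ρ h (algebraMap R (Localization.Away r) a)
      = algebraMap R (Localization.Away ρ) a := by
  unfold awayTo
  rw [IsLocalization.Away.coe_liftAlgHom, IsLocalization.Away.lift_eq]
  rfl

/-- **Double localisation**: over a prime `p ∌ r₁` of `R` lies a prime `p₁` of `R_(r₁)` such that every
principal open neighbourhood `D(r₂)` of `p₁` contains the image of a principal open neighbourhood
`D(r₁ a)` of `p`. -/
theorem exists_double_loc (r₁ : R) (p : PrimeSpectrum R) (hr₁ : r₁ ∉ p.asIdeal) :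
    ∃ p₁ : PrimeSpectrum (Localization.Away r₁), ∀ r₂ : Localization.Away r₁, r₂ ∉ p₁.asIdeal →
      ∃ a : R, r₁ * a ∉ p.asIdeal ∧
        ∃ ψ : Localization.Away r₂ →ₐ[k] Localization.Away (r₁ * a),
          ∀ x : R, ψ (algebraMap (Localization.Away r₁) (Localization.Away r₂)
            (algebraMap R (Localization.Away r₁) x)) = algebraMap R (Localization.Away (r₁ * a)) x := by
  have hmem : p ∈ Set.range (PrimeSpectrum.comap (algebraMap R (Localization.Away r₁))) := by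
    rw [PrimeSpectrum.localization_away_comap_range (Localization.Away r₁) r₁]
    exact hr₁
  obtain ⟨p₁, hp₁⟩ := hmem
  refine ⟨p₁, fun r₂ hr₂ => ?_⟩
  obtain ⟨n, a, hn⟩ := IsLocalization.Away.surj r₁ r₂
  have hu₁ : IsUnit (algebraMap R (Localization.Away r₁) r₁) :=
    IsLocalization.Away.algebraMap_isUnit r₁
  have ha : a ∉ p.asIdeal := by
    intro ha
    have h1 : algebraMap R (Localization.Away r₁) a ∈ p₁.asIdeal := by
      have : a ∈ (PrimeSpectrum.comap (algebraMap R (Localization.Away r₁)) p₁).asIdeal := by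
        rw [hp₁]; exact ha
      exact this
    rw [← hn] at h1
    rcases p₁.2.mem_or_mem h1 with h2 | h2
    · exact hr₂ h2
    · exact p₁.2.ne_top (Ideal.eq_top_of_isUnit_mem _ h2 (hu₁.pow n))
  have hra : r₁ * a ∉ p.asIdeal := fun h => (p.2.mem_or_mem h).elim hr₁ ha
  refine ⟨a, hra, ?_⟩
  have hd : r₁ ∣ r₁ * a := dvd_mul_right _ _
  have hu : IsUnit (awayTo (k := k) r₁ (r₁ * a) hd r₂) := by
    have h3 : awayTo (k := k) r₁ (r₁ * a) hd r₂ *
        (algebraMap R (Localization.Away (r₁ * a)) r₁) ^ n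
        = algebraMap R (Localization.Away (r₁ * a)) a := by
      rw [← awayTo_algebraMap (k := k) r₁ (r₁ * a) hd a, ← hn, map_mul, map_pow, awayTo_algebraMap]
    have h4 : IsUnit (algebraMap R (Localization.Away (r₁ * a)) a) :=
      IsLocalization.Away.isUnit_of_dvd (r₁ * a) (dvd_mul_left _ _)
    rw [← h3] at h4
    exact isUnit_of_mul_isUnit_left h4
  refine ⟨IsLocalization.Away.liftAlgHom (A := k) r₂ (f := awayTo (k := k) r₁ (r₁ * a) hd) hu,
    fun x => ?_⟩
  rw [IsLocalization.Away.coe_liftAlgHom, IsLocalization.Away.lift_eq]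
  exact awayTo_algebraMap (k := k) r₁ (r₁ * a) hd x

end Loc

/-! ### Points -/

section Pt

variable {k : Type u} [Field k] {C : Scheme.{u}} {c : C ⟶ Spec (CommRingCat.of k)}
  {ε : SchemeHomOver (𝟙 (Spec (CommRingCat.of k))) c} {𝒞 : CurveDatum k}
  (ρ : Bridge.Realizes c ε 𝒞)

/-- `Stmt_PT` (c) for an arbitrary `k`-algebra map. -/
theorem ptMor_map
    (hc : ∀ (R R' : Type u) [CommRing R] [Algebra k R] [CommRing R'] [Algebra k R'] [Algebra R R']
      [IsScalarTower k R R'] (β : CPt 𝒞 R),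
      Spec.map (CommRingCat.ofHom (algebraMap R R')) ≫ ptMor ρ R β =
        ptMor ρ R' (β.map (IsScalarTower.toAlgHom k R R')))
    {A A' : Type u} [CommRing A] [Algebra k A] [CommRing A'] [Algebra k A'] (ψ : A →ₐ[k] A')
    (β : CPt 𝒞 A) :
    Spec.map (CommRingCat.ofHom (ψ : A →+* A')) ≫ ptMor ρ A β = ptMor ρ A' (β.map ψ) := by
  let _ : Algebra A A' := (ψ : A →+* A').toAlgebra
  have : IsScalarTower k A A' := IsScalarTower.of_algebraMap_eq (fun x => (ψ.commutes x).symm)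
  have h := hc A A' β
  have e : IsScalarTower.toAlgHom k A A' = ψ := AlgHom.ext (fun _ => rfl)
  rw [e] at h
  exact h

/-- A chart presentation of `a^* f` pushes forward along `ψ`. -/
theorem ptMor_chain
    (hc : ∀ (R R' : Type u) [CommRing R] [Algebra k R] [CommRing R'] [Algebra k R'] [Algebra R R']
      [IsScalarTower k R R'] (β : CPt 𝒞 R),
      Spec.map (CommRingCat.ofHom (algebraMap R R')) ≫ ptMor ρ R β =
        ptMor ρ R' (β.map (IsScalarTower.toAlgHom k R R')))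
    {R A A' : Type u} [CommRing R] [CommRing A] [Algebra k A] [CommRing A'] [Algebra k A']
    (f : Spec (CommRingCat.of R) ⟶ C) (a : R →+* A) (ψ : A →ₐ[k] A') (β : CPt 𝒞 A)
    (h : Spec.map (CommRingCat.ofHom a) ≫ f = ptMor ρ A β) :
    Spec.map (CommRingCat.ofHom ((ψ : A →+* A').comp a)) ≫ f = ptMor ρ A' (β.map ψ) := by
  rw [← ptMor_map ρ hc ψ β, ← h, CommRingCat.ofHom_comp, Spec.map_comp, Category.assoc]

end Pt

/-- **S-LOCFAM**: `FamOf` is a `LocFam`. -/
theorem locfam_of (hPT : Stmt_PT.{u}) (hUNIQ : Stmt_FAMUNIQ.{u}) (hBC : Stmt_FAMBC.{u})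
    (hEX : Stmt_FAMEX.{u}) (hRIGLOC : Stmt_RIGLOC.{u}) (hRIGBC : Stmt_RIGBC.{u})
    (hBCEX : LB.Stmt_BCEX.{u}) : Stmt_LOCFAM.{u} := by
  intro k _ _ C c ε 𝒞 hgood ρ Y y g pr hpr
  obtain ⟨hPa, hPb, hPc, hPd⟩ := hPT k c ε 𝒞 hgood ρ
  have hdiv : ∀ (R : Type u) [CommRing R] [Algebra k R] (β β' : Fin g → CPt 𝒞 R),
      (∀ j, ptMor ρ R (β j) = ptMor ρ R (β' j)) → div0 β = div0 β' ∧ div1 β = div1 β' := by
    intro R _ _ β β' h
    constructor
    · unfold div0
      exact Finset.prod_congr rfl (fun j _ => (hPd R (β j) (β' j) (h j)).1)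
    · unfold div1
      exact Finset.prod_congr rfl (fun j _ => (hPd R (β j) (β' j) (h j)).2)
  refine ⟨{
    Fam := fun R _ _ φ L => FamOf ρ y pr R φ L
    congr := ?_
    uniq := ?_
    bc := ?_
    loc := ?_ }, fun R _ _ φ L => Iff.rfl⟩
  · -- congr
    intro R _ _ φ L L' hL hiso
    obtain ⟨β, hβ, hfam⟩ := hL
    exact ⟨β, hβ, (hUNIQ k 𝒞 hgood R g β β L L' rfl rfl hfam).2 hiso⟩
  · -- uniq
    intro R _ _ φ L L' hL hL' _ _
    obtain ⟨β, hβ, hfam⟩ := hL
    obtain ⟨β', hβ', hfam'⟩ := hL'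
    obtain ⟨h0, h1⟩ := hdiv R β β' (fun j => (hβ j).symm.trans (hβ' j))
    exact (hUNIQ k 𝒞 hgood R g β β' L L' h0 h1 hfam).1 hfam'
  · -- bc
    intro R R' _ _ _ _ _ _ φ L L' hL hbc
    obtain ⟨β, hβ, hfam⟩ := hL
    refine ⟨fun j => (β j).map (IsScalarTower.toAlgHom k R R'), fun j => ?_,
      hBC k 𝒞 hgood R R' (IsScalarTower.toAlgHom k R R') g β L L' hfam hbc⟩
    show (Spec.map (CommRingCat.ofHom (algebraMap R R')) ≫ φ.1) ≫ pr j = _
    rw [Category.assoc, hβ j]
    exact hPc R R' (β j)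
  · -- loc
    intro R _ _ φ p
    classical
    -- chart presentations of the points on `D(r j)`
    have hover : ∀ j, (φ.1 ≫ pr j) ≫ c = Bridge.tR k R := by
      intro j
      rw [Category.assoc, hpr j]
      exact φ.2
    choose r hr β hβ using fun j => hPb R (φ.1 ≫ pr j) (hover j) p
    -- the common principal open `D(r₁)`
    set r₁ : R := ∏ j, r j with hr₁def
    have hr₁ : r₁ ∉ p.asIdeal := by
      intro h
      obtain ⟨j, -, hj⟩ := (p.2.prod_mem_iff).1 h
      exact hr j hj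
    have hdvd : ∀ j, r j ∣ r₁ := fun j => Finset.dvd_prod_of_mem r (Finset.mem_univ j)
    let β₁ : Fin g → CPt 𝒞 (Localization.Away r₁) :=
      fun j => (β j).map (awayTo (k := k) (r j) r₁ (hdvd j))
    have hβ₁ : ∀ j, Spec.map (CommRingCat.ofHom (algebraMap R (Localization.Away r₁))) ≫
        (φ.1 ≫ pr j) = ptMor ρ (Localization.Away r₁) (β₁ j) := by
      intro j
      have h := ptMor_chain ρ hPc (φ.1 ≫ pr j) (algebraMap R (Localization.Away (r j)))
        (awayTo (k := k) (r j) r₁ (hdvd j)) (β j) (hβ j)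
      have e : ((awayTo (k := k) (r j) r₁ (hdvd j) : Localization.Away (r j) →+*
          Localization.Away r₁)).comp (algebraMap R (Localization.Away (r j)))
          = algebraMap R (Localization.Away r₁) :=
        RingHom.ext (fun x => awayTo_algebraMap (k := k) (r j) r₁ (hdvd j) x)
      rw [e] at h
      exact h
    -- the family over `R_(r₁)`
    obtain ⟨N₁, hN₁⟩ := hEX k 𝒞 hgood (Localization.Away r₁) g β₁
    -- rigid on `D(r₂)`
    obtain ⟨p₁, hp₁⟩ := exists_double_loc (k := k) r₁ p hr₁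
    obtain ⟨r₂, hr₂, hrig⟩ := hRIGLOC k 𝒞 hgood (Localization.Away r₁) N₁ p₁
    obtain ⟨a, hra, ψ, hψ⟩ := hp₁ r₂ hr₂
    obtain ⟨N₂, hN₂⟩ := hBCEX k 𝒞 hgood (Localization.Away r₁) (Localization.Away r₂)
      (Chart.awayMap r₂) N₁
    have hN₂rig : N₂.IsRigid := hrig N₂ hN₂
    have hN₂fam := hBC k 𝒞 hgood (Localization.Away r₁) (Localization.Away r₂)
      (Chart.awayMap r₂) g β₁ N₁ N₂ hN₁ hN₂
    obtain ⟨L, hL⟩ := hBCEX k 𝒞 hgood (Localization.Away r₂) (Localization.Away (r₁ * a)) ψ N₂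
    have hLrig : L.IsRigid := (hRIGBC k 𝒞 hgood (Localization.Away r₂) N₂ hN₂rig).2 _ ψ L hL
    have hLfam := hBC k 𝒞 hgood (Localization.Away r₂) (Localization.Away (r₁ * a)) ψ g _ N₂ L
      hN₂fam hL
    refine ⟨r₁ * a, hra, L, hLrig, _, fun j => ?_, hLfam⟩
    show (Spec.map (CommRingCat.ofHom (algebraMap R (Localization.Away (r₁ * a)))) ≫ φ.1) ≫ pr j = _
    rw [Category.assoc]
    have h1 := ptMor_chain ρ hPc (φ.1 ≫ pr j) (algebraMap R (Localization.Away r₁))
      (Chart.awayMap (k := k) r₂) (β₁ j) (hβ₁ j)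
    have h2 := ptMor_chain ρ hPc (φ.1 ≫ pr j) _ ψ _ h1
    have e : ((ψ : Localization.Away r₂ →+* Localization.Away (r₁ * a))).comp
        (((Chart.awayMap (k := k) r₂ : Localization.Away r₁ →+* Localization.Away r₂)).comp
          (algebraMap R (Localization.Away r₁)))
        = algebraMap R (Localization.Away (r₁ * a)) :=
      RingHom.ext (fun x => hψ x)
    rw [e] at h2
    exact h2

end Fermat.Agent.S25.Top.S.H17

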