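/-
helper19, S25 (Jacobian exists), package TOP, part F: the chart family from the chart lemma.

`stmt_CHARTFAME_of_chartlemma : Chart.Stmt_CHARTLEMMA → F.Stmt_CHARTFAME`
(`Top/H19_FamFinal.lean` + helper71's closure of TRIP `Trip/H71_Close.lean` + helper60's `Trip.H60.stmt_TRANSL`).
-/
import Fermat.Agent.S25.Top.H19_FamFinal
import Fermat.Agent.S25.Trip.H71_Close
import Fermat.Agent.S25.Trip.H60_Transl

set_option autoImplicit false

universe u

namespace Fermat.Agent.S25.Top.F.H19

open Fermat.Agent.S25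

/-- **TOP-CHARTFAME** from the chart lemma: the whole translation and the whole package TRIP (part 1)
are plugged in. -/
theorem stmt_CHARTFAME_of_chartlemma (hCL : Chart.Stmt_CHARTLEMMA.{u}) : Stmt_CHARTFAME.{u} :=
  stmt_CHARTFAME_of_tcharts (Trip.H71.stmt_TCHARTSE_of hCL Trip.H60.stmt_TRANSL)

end Fermat.Agent.S25.Top.F.H19
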