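/-
helper19, S25 (Jacobian exists), package TOP, part F: **TOP-CHARTFAME, UNCONDITIONAL.**

`stmt_CHARTFAME : F.Stmt_CHARTFAME` = the translation (`Top/H19_FamFinal.lean`), the package TRIP part 1
(`Trip/H71_Close.lean`, `Trip.H60.stmt_TRANSL`) and the chart lemma (`Chart.H4.stmt_CHARTLEMMA`).
-/
import Fermat.Agent.S25.Top.H19_FamClosed
import Fermat.Agent.S25.Chart.H4_Close3

set_option autoImplicit false

universe u

namespace Fermat.Agent.S25.Top.F.H19

open Fermat.Agent.S25

/-- **TOP-CHARTFAME**, unconditional: smooth affine charts of the degree zero functor with `MonoAff`,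
`OpenAff`, `CoverAff`, for every degree set-up with an étale element and `g = genus`. -/
theorem stmt_CHARTFAME : Stmt_CHARTFAME.{u} :=
  stmt_CHARTFAME_of_chartlemma Chart.H4.stmt_CHARTLEMMA

end Fermat.Agent.S25.Top.F.H19
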