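import Mathlib
import Fermat.Agent.S25.Glue.Defs
import Fermat.Agent.S25.Glue.H18_Gen
import Fermat.Agent.S25.Glue.H18_BGen
import Fermat.Agent.S25.Glue.H56_Iso
import Fermat.Agent.S25.Glue.H56_Mk

/-!
# S25, package TOP, leaf END (helper22): endomorphisms of an invertible sheaf

`X` an arbitrary scheme, `M : X.Modules` invertible.

* `mulHom M a`          : multiplication by `a ∈ Γ(X, ⊤)` as a morphism `M ⟶ M`
                          (for every `M`), `mulHom_app`, `mulHom_one`, `mulHom_comp`;
* `stmt_END : Stmt_END` : every `φ : M ⟶ M` is `mulHom M a` for a unique `a`;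
* `stmt_ENDISO`         : `φ` is an isomorphism iff `a` is a unit;
* `stmt_AUT`            : two isomorphisms `M ≅ M'` differ by a unique unit.
-/

set_option autoImplicit false

open CategoryTheory AlgebraicGeometry TopologicalSpace Opposite

universe u

namespace Fermat.Agent.S25.Top.H22

open Fermat.Agent.S25.Glue Fermat.Agent.S25.Glue.H56

variable {X : Scheme.{u}}

/-- **END**: every endomorphism of an invertible sheaf of modules is the multiplication by a
unique global function. -/
def Stmt_END : Prop :=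
  ∀ (X : Scheme.{u}) (M : X.Modules), Scheme.Modules.IsInvertible M → ∀ φ : M ⟶ M,
    ∃! a : Γ(X, ⊤), ∀ (W : X.Opens) (t : Γ(M, W)), φ.app W t = resO X (le_top : W ≤ ⊤) a • t

/-- Multiplication by a global function exists as a morphism (any sheaf of modules). -/
theorem exists_mulHom (M : X.Modules) (a : Γ(X, ⊤)) :
    ∃! φ : M ⟶ M, ∀ (W : X.Opens) (t : Γ(M, W)), φ.app W t = resO X (le_top : W ≤ ⊤) a • t := by
  obtain ⟨φ, hφ, huniq⟩ := glue_hom M M (fun _ : Unit => (⊤ : X.Opens))
    (fun _ => ⟨(), trivial⟩)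
    (fun W _ t => resO X (le_top : W ≤ ⊤) a • t)
    (fun W _ t t' => smul_add _ _ _)
    (fun W _ r t => by rw [smul_smul, smul_smul, mul_comm])
    (fun W W' _ _ hW t => by rw [resM_smul, resO_resO])
  exact ⟨φ, fun W t => hφ W ⟨(), le_top⟩ t, fun ψ hψ => huniq ψ fun W _ t => hψ W t⟩

/-- Multiplication by a global function. -/
noncomputable def mulHom (M : X.Modules) (a : Γ(X, ⊤)) : M ⟶ M := (exists_mulHom M a).choose

theorem mulHom_app (M : X.Modules) (a : Γ(X, ⊤)) (W : X.Opens) (t : Γ(M, W)) :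
    (mulHom M a).app W t = resO X (le_top : W ≤ ⊤) a • t :=
  (exists_mulHom M a).choose_spec.1 W t

theorem hom_ext_app {M N : X.Modules} (φ ψ : M ⟶ N)
    (h : ∀ (W : X.Opens) (t : Γ(M, W)), φ.app W t = ψ.app W t) : φ = ψ :=
  hom_ext_small M N (fun _ : Unit => (⊤ : X.Opens)) (fun _ => ⟨(), trivial⟩) φ ψ
    fun W _ t => h W t

theorem mulHom_one (M : X.Modules) : mulHom M (1 : Γ(X, ⊤)) = 𝟙 M := by
  apply hom_ext_app
  intro W t
  rw [mulHom_app, resO_one, one_smul, Scheme.Modules.Hom.id_app]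
  rfl

theorem mulHom_comp (M : X.Modules) (a b : Γ(X, ⊤)) :
    mulHom M a ≫ mulHom M b = mulHom M (a * b) := by
  apply hom_ext_app
  intro W t
  rw [Scheme.Modules.Hom.comp_app]
  show (mulHom M b).app W ((mulHom M a).app W t) = _
  rw [mulHom_app, mulHom_app, mulHom_app, smul_smul, resO_mul, mul_comm]

section Inv

variable {M : X.Modules} (hM : Scheme.Modules.IsInvertible M)

/-- the local coefficient of `φ` with respect to a generating section -/
theorem app_eq_coord_smul (φ : M ⟶ M) {U : X.Opens} {s : Γ(M, U)} (hs : IsGen M U s)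
    {W : X.Opens} (h : W ≤ U) (t : Γ(M, W)) :
    φ.app W t = resO X h (coord hs (le_refl U) (φ.app U s)) • t := by
  have h1 : t = coord hs h t • resM M h s := (coord_smul_res hs h t).symm
  have h2 : φ.app U s = coord hs (le_refl U) (φ.app U s) • s := by
    have := (coord_smul_res hs (le_refl U) (φ.app U s)).symm
    rwa [resM_id] at this
  conv_lhs => rw [h1]
  rw [Scheme.Modules.Hom.app_smul, hom_app_resM, h2, resM_smul, smul_smul, mul_comm, ← smul_smul,
    ← h2, ← h1]

/-- coefficients with respect to a generating section are unique -/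
theorem eq_of_smul_gen {U : X.Opens} {s : Γ(M, U)} (hs : IsGen M U s) {W : X.Opens} (h : W ≤ U)
    {a b : Γ(X, W)} (hab : a • resM M h s = b • resM M h s) : a = b :=
  (isGen_iff.1 hs W h).1 hab

include hM in
theorem end_exists (φ : M ⟶ M) :
    ∃ a : Γ(X, ⊤), ∀ (W : X.Opens) (t : Γ(M, W)), φ.app W t = resO X (le_top : W ≤ ⊤) a • t := by
  classical
  have hgen := (Fermat.Agent.S25.Glue.stmt_BGEN X M).1 hM
  choose U hxU s hs using hgen
  -- the local coefficients
  let a : ∀ x : X, Γ(X, U x) := fun x => coord (hs x) (le_refl _) (φ.app (U x) (s x))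
  have ha : ∀ (x : X) (W : X.Opens) (h : W ≤ U x) (t : Γ(M, W)),
      φ.app W t = resO X h (a x) • t := fun x W h t => app_eq_coord_smul φ (hs x) h t
  have hcompat : TopCat.Presheaf.IsCompatible X.sheaf.1 U a := by
    intro x y
    have e1 := ha x (U x ⊓ U y) inf_le_left (resM M inf_le_left (s x))
    have e2 := ha y (U x ⊓ U y) inf_le_right (resM M inf_le_left (s x))
    exact eq_of_smul_gen (hs x) inf_le_left (e1.symm.trans e2)
  have hcover : (⊤ : X.Opens) ≤ iSup U := fun x _ => Opens.mem_iSup.mpr ⟨x, hxU x⟩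
  obtain ⟨g₀, hg, -⟩ := TopCat.Sheaf.existsUnique_gluing' X.sheaf U ⊤ (fun x => homOfLE le_top)
    hcover a hcompat
  let g : Γ(X, ⊤) := g₀
  have hg' : ∀ x, resO X (le_top : U x ≤ ⊤) g = a x := hg
  refine ⟨g, fun W t => ?_⟩
  refine eq_of_resM_eq M U W (fun x _ => Opens.mem_iSup.mpr ⟨x, hxU x⟩) _ _ fun x => ?_
  rw [← hom_app_resM, ha x (W ⊓ U x) inf_le_right, resM_smul, resO_resO, ← hg' x, resO_resO]

include hM in
theorem end_unique (a b : Γ(X, ⊤))
    (h : ∀ (W : X.Opens) (t : Γ(M, W)), resO X (le_top : W ≤ ⊤) a • t = resO X (le_top : W ≤ ⊤) b • t) : a = b := by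
  have hgen := (Fermat.Agent.S25.Glue.stmt_BGEN X M).1 hM
  choose U hxU s hs using hgen
  refine eq_of_resO_eq X U ⊤ (fun _ => le_top) (fun x _ => Opens.mem_iSup.mpr ⟨x, hxU x⟩) a b
    fun x => ?_
  have := h (U x) (s x)
  have h2 : resM M (le_refl (U x)) (s x) = s x := resM_id M (s x)
  exact eq_of_smul_gen (hs x) (le_refl _) (by rw [h2]; exact this)

end Inv

/-- **END**. -/
theorem stmt_END : Stmt_END.{u} := by
  intro X M hM φ
  obtain ⟨a, ha⟩ := end_exists hM φ
  refine ⟨a, ha, fun b hb => ?_⟩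
  exact end_unique hM b a fun W t => (hb W t).symm.trans (ha W t)

/-- The function of an endomorphism of an invertible sheaf. -/
noncomputable def endFun {M : X.Modules} (hM : Scheme.Modules.IsInvertible M) (φ : M ⟶ M) :
    Γ(X, ⊤) := (end_exists hM φ).choose

theorem endFun_spec {M : X.Modules} (hM : Scheme.Modules.IsInvertible M) (φ : M ⟶ M)
    (W : X.Opens) (t : Γ(M, W)) : φ.app W t = resO X (le_top : W ≤ ⊤) (endFun hM φ) • t :=
  (end_exists hM φ).choose_spec W t

theorem eq_mulHom_endFun {M : X.Modules} (hM : Scheme.Modules.IsInvertible M) (φ : M ⟶ M) :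
    φ = mulHom M (endFun hM φ) := by
  apply hom_ext_app
  intro W t
  rw [endFun_spec hM φ, mulHom_app]

theorem endFun_mulHom {M : X.Modules} (hM : Scheme.Modules.IsInvertible M) (a : Γ(X, ⊤)) :
    endFun hM (mulHom M a) = a :=
  end_unique hM _ _ fun W t => by rw [← endFun_spec hM, mulHom_app]

theorem endFun_id {M : X.Modules} (hM : Scheme.Modules.IsInvertible M) :
    endFun hM (𝟙 M) = 1 := by
  rw [← mulHom_one, endFun_mulHom]

theorem endFun_comp {M : X.Modules} (hM : Scheme.Modules.IsInvertible M) (φ ψ : M ⟶ M) :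
    endFun hM (φ ≫ ψ) = endFun hM φ * endFun hM ψ := by
  conv_lhs => rw [eq_mulHom_endFun hM φ, eq_mulHom_endFun hM ψ, mulHom_comp]
  exact endFun_mulHom hM _

/-- **ENDISO**: an endomorphism of an invertible sheaf is an isomorphism iff its function is a
unit. -/
def Stmt_ENDISO : Prop :=
  ∀ (X : Scheme.{u}) (M : X.Modules) (hM : Scheme.Modules.IsInvertible M) (φ : M ⟶ M),
    IsIso φ ↔ IsUnit (endFun hM φ)

theorem stmt_ENDISO : Stmt_ENDISO.{u} := by
  intro X M hM φ
  constructor
  · intro h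
    refine IsUnit.of_mul_eq_one (endFun hM (inv φ)) ?_
    rw [← endFun_comp, IsIso.hom_inv_id, endFun_id]
  · intro h
    obtain ⟨b, hb⟩ := h.exists_right_inv
    refine ⟨mulHom M b, ?_, ?_⟩
    · conv_lhs => rw [eq_mulHom_endFun hM φ, mulHom_comp, hb]
      exact mulHom_one M
    · conv_lhs => rw [eq_mulHom_endFun hM φ, mulHom_comp, mul_comm, hb]
      exact mulHom_one M

/-- **AUT**: two isomorphisms between invertible sheaves differ by a unique unit. -/
def Stmt_AUT : Prop :=
  ∀ (X : Scheme.{u}) (M M' : X.Modules), Scheme.Modules.IsInvertible M → ∀ e e' : M ≅ M',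
    ∃! a : Γ(X, ⊤), IsUnit a ∧
      ∀ (W : X.Opens) (t : Γ(M, W)), e'.hom.app W t = resO X (le_top : W ≤ ⊤) a • e.hom.app W t

theorem stmt_AUT : Stmt_AUT.{u} := by
  intro X M M' hM e e'
  have key : ∀ (a : Γ(X, ⊤)),
      (∀ (W : X.Opens) (t : Γ(M, W)), e'.hom.app W t = resO X (le_top : W ≤ ⊤) a • e.hom.app W t) ↔
      a = endFun hM (e'.hom ≫ e.inv) := by
    intro a
    constructor
    · intro h
      refine end_unique hM _ _ fun W t => ?_
      rw [← endFun_spec hM, Scheme.Modules.Hom.comp_app]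
      show _ = e.inv.app W (e'.hom.app W t)
      rw [h W t, Scheme.Modules.Hom.app_smul]
      congr 1
      have := congrArg (fun f => f.app W t) e.hom_inv_id
      simp only [Scheme.Modules.Hom.comp_app, Scheme.Modules.Hom.id_app] at this
      exact this.symm
    · rintro rfl W t
      have h1 := endFun_spec hM (e'.hom ≫ e.inv) W t
      rw [Scheme.Modules.Hom.comp_app] at h1
      have h2 : e.hom.app W (e.inv.app W (e'.hom.app W t)) = e'.hom.app W t := by
        have := congrArg (fun f => f.app W (e'.hom.app W t)) e.inv_hom_id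
        simp only [Scheme.Modules.Hom.comp_app, Scheme.Modules.Hom.id_app] at this
        exact this
      rw [← h2]
      rw [← Scheme.Modules.Hom.app_smul]
      exact congrArg _ h1
  refine ⟨endFun hM (e'.hom ≫ e.inv), ⟨?_, (key _).2 rfl⟩, fun b hb => (key b).1 hb.2⟩
  exact (stmt_ENDISO X M hM _).1 inferInstance

end Fermat.Agent.S25.Top.H22
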