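import Fermat.Agent.S25.Top.H56_Ratio

/-!
# S25, package TOP, leaf GBRIDGE (helper22): local isomorphisms over the range of an open immersion

`j : Y' ⟶ Y` an open immersion, `N`, `P` sheaves of modules on `Y`, `M'` a sheaf of modules on `Y'`.

* `toRestrict j F : LocHom (N.restrict j) (P.restrict j) ⊤` for `F : LocHom N P j.opensRange`
  (the inverse construction of helper56's `LocHom.ofRestrict`);
* `homOfLocHom`, `isoOfIsInv` : a global morphism (isomorphism) from a local morphism over `⊤`
  (from mutually inverse local morphisms);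
* `nonempty_restrict_iso` : mutually inverse local morphisms between `N` and `P` over the range of
  `j` give `N.restrict j ≅ P.restrict j`;
* `stmt_GBRIDGE : Stmt_GBRIDGE` : mutually inverse local morphisms between `N` and the push-forward
  of `M'` over the range of `j` give `(pullback j).obj N ≅ M'`.

This file contains no unproved statement.
-/

set_option autoImplicit false

open CategoryTheory AlgebraicGeometry TopologicalSpace Opposite

universe u

namespace Fermat.Agent.S25.Top.H22B

open Fermat.Agent.S25.Glue Fermat.Agent.S25.Glue.H56 Fermat.Agent.S25.Top.H56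

variable {X : Scheme.{u}}

section Global

variable {M N : X.Modules}

/-- The morphism of sheaves of modules defined by a local morphism over `⊤`. -/
theorem exists_hom_of_locHom (F : LocHom M N ⊤) :
    ∃! φ : M ⟶ N, ∀ (W : X.Opens) (t : Γ(M, W)), φ.app W t = F.map W le_top t := by
  obtain ⟨φ, hφ, hφ'⟩ := LocHom.glue (M := M) (N := N) (fun _ : PUnit.{1} => (⊤ : X.Opens))
    (fun _ => ⟨PUnit.unit, trivial⟩) (fun _ => F) (fun _ _ _ _ _ _ => rfl)
  exact ⟨φ, fun W t => hφ PUnit.unit W le_top t, fun ψ hψ => hφ' ψ fun _ W _ t => hψ W t⟩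

/-- Mutually inverse local morphisms over `⊤` define an isomorphism. -/
theorem exists_iso_of_isInv {F : LocHom M N ⊤} {G : LocHom N M ⊤} (h : F.IsInv G) :
    ∃ e : M ≅ N, (∀ (W : X.Opens) (t : Γ(M, W)), e.hom.app W t = F.map W le_top t) ∧
      ∀ (W : X.Opens) (t : Γ(N, W)), e.inv.app W t = G.map W le_top t := by
  obtain ⟨φ, hφ, -⟩ := exists_hom_of_locHom F
  obtain ⟨ψ, hψ, -⟩ := exists_hom_of_locHom G
  have h1 : φ ≫ ψ = 𝟙 M := by
    refine hom_ext_small M M (fun _ : PUnit.{1} => (⊤ : X.Opens))
      (fun _ => ⟨PUnit.unit, trivial⟩) _ _ fun W _ t => ?_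
    rw [Scheme.Modules.Hom.comp_app, Scheme.Modules.Hom.id_app]
    change ψ.app W (φ.app W t) = t
    rw [hφ, hψ, h.1]
  have h2 : ψ ≫ φ = 𝟙 N := by
    refine hom_ext_small N N (fun _ : PUnit.{1} => (⊤ : X.Opens))
      (fun _ => ⟨PUnit.unit, trivial⟩) _ _ fun W _ t => ?_
    rw [Scheme.Modules.Hom.comp_app, Scheme.Modules.Hom.id_app]
    change φ.app W (ψ.app W t) = t
    rw [hψ, hφ, h.2]
  exact ⟨⟨φ, ψ, h1, h2⟩, hφ, hψ⟩

end Global

section Restrict

variable {Y : Scheme.{u}} (j : Y ⟶ X) [IsOpenImmersion j] {N P : X.Modules}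

theorem image_le_opensRange (V : Y.Opens) : j ''ᵁ V ≤ j.opensRange := by
  rintro _ ⟨y, -, rfl⟩
  exact ⟨y, rfl⟩

/-- The local morphism between the restrictions along the open immersion `j` defined by a local
morphism over the range of `j`. -/
noncomputable def toRestrict (F : LocHom N P j.opensRange) :
    LocHom (N.restrict j) (P.restrict j) ⊤ where
  map V _ t := LocHom.toRes j P V (F.map (j ''ᵁ V) (image_le_opensRange j V) (LocHom.ofRes j N V t))
  map_add V _ t t' := by
    rw [LocHom.ofRes_add, F.map_add, LocHom.toRes_add]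
  map_smul V _ b t := by
    rw [LocHom.ofRes_smul, F.map_smul, LocHom.toRes_smul]
    congr 1
    rw [← ConcreteCategory.comp_apply, Iso.inv_hom_id]
    rfl
  map_res V V' _ h' t := by
    rw [LocHom.ofRes_res j N h', F.map_res (j ''ᵁ V) (j ''ᵁ V') (image_le_opensRange j V)
      (j.image_mono h'), LocHom.toRes_res j P h']

theorem toRestrict_map (F : LocHom N P j.opensRange) (V : Y.Opens) (h : V ≤ ⊤)
    (t : Γ(N.restrict j, V)) :
    (toRestrict j F).map V h t =
      LocHom.toRes j P V (F.map (j ''ᵁ V) (image_le_opensRange j V) (LocHom.ofRes j N V t)) := rfl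

theorem toRestrict_isInv {F : LocHom N P j.opensRange} {G : LocHom P N j.opensRange}
    (h : F.IsInv G) : (toRestrict j F).IsInv (toRestrict j G) := by
  refine ⟨fun V hV t => ?_, fun V hV t => ?_⟩
  · rw [toRestrict_map, toRestrict_map, LocHom.ofRes_toRes, h.1, LocHom.toRes_ofRes]
  · rw [toRestrict_map, toRestrict_map, LocHom.ofRes_toRes, h.2, LocHom.toRes_ofRes]

/-- Mutually inverse local morphisms over the range of an open immersion define an isomorphism
between the restrictions. -/
theorem nonempty_restrict_iso {F : LocHom N P j.opensRange} {G : LocHom P N j.opensRange}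
    (h : F.IsInv G) : Nonempty (N.restrict j ≅ P.restrict j) := by
  obtain ⟨e, -, -⟩ := exists_iso_of_isInv (toRestrict_isInv j h)
  exact ⟨e⟩

end Restrict

/-- The sections of a push-forward (definitional). -/
theorem pushforward_sections {Y Y' : Scheme.{u}} (j : Y' ⟶ Y) (M' : Y'.Modules) (W : Y.Opens) :
    Γ((Scheme.Modules.pushforward j).obj M', W) = Γ(M', j ⁻¹ᵁ W) := rfl

/-- **GBRIDGE**: for an open immersion `j : Y' ⟶ Y`, a sheaf of modules `N` on `Y` and a sheaf
of modules `M'` on `Y'`, mutually inverse local morphisms between `N` and the push-forward of `M'`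
over the range of `j` give an isomorphism `j^* N ≅ M'`. -/
def Stmt_GBRIDGE : Prop :=
  ∀ {Y Y' : Scheme.{u}} (j : Y' ⟶ Y) [IsOpenImmersion j] (N : Y.Modules) (M' : Y'.Modules)
    (G : LocHom N ((Scheme.Modules.pushforward j).obj M') j.opensRange)
    (G' : LocHom ((Scheme.Modules.pushforward j).obj M') N j.opensRange),
    G.IsInv G' → Nonempty ((Scheme.Modules.pullback j).obj N ≅ M')

theorem stmt_GBRIDGE : Stmt_GBRIDGE.{u} := by
  intro Y Y' j _ N M' G G' h
  obtain ⟨e⟩ := nonempty_restrict_iso j h
  exact ⟨((Scheme.Modules.restrictFunctorIsoPullback j).app N).symm ≪≫ e ≪≫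
    (Scheme.Modules.restrictFunctorAdjCounitIso j).app M'⟩

end Fermat.Agent.S25.Top.H22B
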