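import Fermat.Agent.S25.Top.H56_GNorm
import Fermat.Agent.S25.Top.H22_GlueAbs
import Fermat.Agent.S25.Top.H22_GBridge

/-!
# S25, package TOP, leaf GCORE (helper22): the abstract core of GLUEPIC

`p : X ⟶ T` with a section `σ`, every function on `p⁻¹V` comes from `V`; `R i` an open cover of
`T`, `D i = p⁻¹(R i)`; sheaves of modules `P i` on `X`, locally generated by one section on `D i`,
with evaluations `ev i : SemiHom σ (P i) 𝒪_T (D i)` preserving generating sections, and some local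
isomorphisms `P i ≅ P j` over `D i ⊓ D j`.

* `glue_core` : there is an invertible sheaf `N` on `X` with `σ^* N ≅ 𝒪_T` and local isomorphisms
  `N ≅ P i` over `D i` (assembly of helper56's `gnorm`, `nonempty_rigidification` and of
  `H22G.stmt_GLUEABS`);
* `glue_core_imm` : if `P i` is the push-forward of `M i` along an open immersion `j i` with range
  in `D i`, then `(j i)^* N ≅ M i` (`H22B.stmt_GBRIDGE`).

This file contains no unproved statement.
-/

set_option autoImplicit false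

open CategoryTheory AlgebraicGeometry TopologicalSpace Opposite

universe u

namespace Fermat.Agent.S25.Top.H22C

open Fermat.Agent.S25.Glue Fermat.Agent.S25.Glue.H56 Fermat.Agent.S25.Top.H56

variable {X T : Scheme.{u}}

/-- **GCORE**: gluing of rigidified invertible sheaves, abstract form. -/
theorem glue_core (p : X ⟶ T) (σ : T ⟶ X) (hσ : σ ≫ p = 𝟙 T)
    (hΓ : ∀ V : T.Opens, Function.Surjective (p.app V))
    {ι : Type u} (R : ι → T.Opens) (hR : ∀ y : T, ∃ i, y ∈ R i)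
    (P : ι → X.Modules) (hP : ∀ i, LocGen (P i) (p ⁻¹ᵁ R i))
    (ev : ∀ i, SemiHom σ (P i) (unitM T) (p ⁻¹ᵁ R i)) (hev : ∀ i, (ev i).PresGen)
    (hF : ∀ i j, ∃ (F : LocHom (P i) (P j) (p ⁻¹ᵁ R i ⊓ p ⁻¹ᵁ R j))
      (G : LocHom (P j) (P i) (p ⁻¹ᵁ R i ⊓ p ⁻¹ᵁ R j)), F.IsInv G) :
    ∃ N : X.Modules, Scheme.Modules.IsInvertible N ∧
      Nonempty ((Scheme.Modules.pullback σ).obj N ≅ SheafOfModules.unit T.ringCatSheaf) ∧
      ∀ i, ∃ (G : LocHom N (P i) (p ⁻¹ᵁ R i)) (G' : LocHom (P i) N (p ⁻¹ᵁ R i)), G.IsInv G' := by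
  obtain ⟨Φ, Ψ, hinv, hnorm, hid, hcomp⟩ := gnorm p σ hσ hΓ R P hP ev hev hF
  obtain ⟨N, G, G', hG, hFG, -, hN⟩ :=
    H22G.stmt_GLUEABS X (fun i => p ⁻¹ᵁ R i) P Φ hid hcomp
  have hcov : ∀ x : X, ∃ i, x ∈ p ⁻¹ᵁ R i := fun x => hR (p.base x)
  have hNinv : Scheme.Modules.IsInvertible N := hN hcov hP
  refine ⟨N, hNinv, ?_, fun i => ⟨G i, G' i, hG i⟩⟩
  refine nonempty_rigidification σ N (fun i => p ⁻¹ᵁ R i) hcov
    (fun i => locGen_of_isInvertible hNinv _) (fun i => (ev i).precomp (G i))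
    (fun i => (hev i).precomp (hG i).presGen) fun i j W hi hj t => ?_
  change (ev i).map W hi ((G i).map W hi t) = (ev j).map W hj ((G j).map W hj t)
  rw [← hFG i j W hi hj t]
  exact (hnorm i j W (le_inf hi hj) _).symm

/-- **GCORE**, with the sheaves given on open subschemes. -/
theorem glue_core_imm (p : X ⟶ T) (σ : T ⟶ X) (hσ : σ ≫ p = 𝟙 T)
    (hΓ : ∀ V : T.Opens, Function.Surjective (p.app V))
    {ι : Type u} (R : ι → T.Opens) (hR : ∀ y : T, ∃ i, y ∈ R i)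
    {X' : ι → Scheme.{u}} (j : ∀ i, X' i ⟶ X) [∀ i, IsOpenImmersion (j i)]
    (hj : ∀ i, (j i).opensRange ≤ p ⁻¹ᵁ R i) (M : ∀ i, (X' i).Modules)
    (hP : ∀ i, LocGen ((Scheme.Modules.pushforward (j i)).obj (M i)) (p ⁻¹ᵁ R i))
    (ev : ∀ i, SemiHom σ ((Scheme.Modules.pushforward (j i)).obj (M i)) (unitM T) (p ⁻¹ᵁ R i))
    (hev : ∀ i, (ev i).PresGen)
    (hF : ∀ i i', ∃ (F : LocHom ((Scheme.Modules.pushforward (j i)).obj (M i))
        ((Scheme.Modules.pushforward (j i')).obj (M i')) (p ⁻¹ᵁ R i ⊓ p ⁻¹ᵁ R i'))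
      (G : LocHom ((Scheme.Modules.pushforward (j i')).obj (M i'))
        ((Scheme.Modules.pushforward (j i)).obj (M i)) (p ⁻¹ᵁ R i ⊓ p ⁻¹ᵁ R i')), F.IsInv G) :
    ∃ N : X.Modules, Scheme.Modules.IsInvertible N ∧
      Nonempty ((Scheme.Modules.pullback σ).obj N ≅ SheafOfModules.unit T.ringCatSheaf) ∧
      ∀ i, Nonempty ((Scheme.Modules.pullback (j i)).obj N ≅ M i) := by
  obtain ⟨N, hN, hρ, hG⟩ := glue_core p σ hσ hΓ R hR _ hP ev hev hF
  refine ⟨N, hN, hρ, fun i => ?_⟩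
  obtain ⟨G, G', h⟩ := hG i
  exact H22B.stmt_GBRIDGE (j i) N (M i) (G.restrict (hj i)) (G'.restrict (hj i))
    (h.restrict (hj i))

end Fermat.Agent.S25.Top.H22C
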