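import Fermat.Agent.S25.Top.H56_EvLoc

/-!
# S25, package TOP, leaf GLUEPIC-LOCGENPUSH (helper22): `stmt_LOCGENPUSH : G.Stmt_LOCGENPUSH`

`j : X' ⟶ X` an open immersion, `L` a sheaf of modules on `X'`.

* `isGen_toPush` : a generating section of `L` over `V'` is a generating section of the
  push-forward `j_* L` over `j(V')` (the converse of helper56's `isGen_ofPush`);
* `locGen_pushforward` : `j_* L` is locally generated by one section on the range of `j` if `L` is
  locally generated by one section;
* `stmt_LOCGENPUSH`.

This file contains no unproved statement.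
-/

set_option autoImplicit false

open CategoryTheory AlgebraicGeometry TopologicalSpace Opposite

universe u

namespace Fermat.Agent.S25.Top.H22L

open Fermat.Agent.S25.Glue Fermat.Agent.S25.Glue.H56 Fermat.Agent.S25.Top.H56

variable {X X' : Scheme.{u}} (j : X' ⟶ X) [IsOpenImmersion j] (L : X'.Modules)

theorem image_le_range (V' : X'.Opens) : j ''ᵁ V' ≤ j.opensRange := by
  rintro _ ⟨y, -, rfl⟩
  exact ⟨y, rfl⟩

/-- A generating section of `L` over `V'` is a generating section of the push-forward along the
open immersion `j` over `j(V')`. -/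
theorem isGen_toPush {V' : X'.Opens} {s : Γ(L, V')} (hs : IsGen L V' s) :
    IsGen ((Scheme.Modules.pushforward j).obj L) (j ''ᵁ V')
      (toPush j L (j ''ᵁ V') (resM L (le_of_eq (j.preimage_image_eq V')) s)) := by
  rw [isGen_iff]
  intro W hW
  have hW' : j ⁻¹ᵁ W ≤ V' := by
    intro y hy
    obtain ⟨y', hy', e⟩ := hW hy
    have : y' = y := j.isOpenEmbedding.injective e
    exact this ▸ hy'
  have h1 := (isGen_iff.1 hs) (j ⁻¹ᵁ W) hW'
  have h2 : Function.Bijective (j.app W) := by
    have : IsIso (j.app W) := Scheme.Hom.isIso_app j W (hW.trans (image_le_range j V'))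
    exact (ConcreteCategory.isIso_iff_bijective _).1 this
  have h3 : Function.Bijective (toPush j L W) := ⟨fun _ _ h => h, fun t => ⟨t, rfl⟩⟩
  have hb : Function.Bijective
      (fun a : Γ(X, W) => toPush j L W (j.app W a • resM L hW' s)) := h3.comp (h1.comp h2)
  have key : (fun a : Γ(X, W) => a • resM ((Scheme.Modules.pushforward j).obj L) hW
      (toPush j L (j ''ᵁ V') (resM L (le_of_eq (j.preimage_image_eq V')) s))) =
      fun a : Γ(X, W) => toPush j L W (j.app W a • resM L hW' s) := by
    funext a
    change toPush j L W (ofPush j L W (a • resM ((Scheme.Modules.pushforward j).obj L) hW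
      (toPush j L (j ''ᵁ V') (resM L (le_of_eq (j.preimage_image_eq V')) s)))) = _
    rw [ofPush_smul, ofPush_res]
    change toPush j L W (j.app W a • resM L _ (resM L _ s)) = _
    rw [resM_resM]
  rw [key]
  exact hb

/-- The push-forward along an open immersion of a sheaf which is locally generated by one section
is locally generated by one section on the range. -/
theorem locGen_pushforward (hL : LocGen L ⊤) :
    LocGen ((Scheme.Modules.pushforward j).obj L) j.opensRange := by
  rintro x ⟨y, rfl⟩
  obtain ⟨V', -, hy, s, hs⟩ := hL y trivial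
  exact ⟨j ''ᵁ V', image_le_range j V', ⟨y, hy, rfl⟩, _, isGen_toPush j L hs⟩

theorem stmt_LOCGENPUSH : G.Stmt_LOCGENPUSH.{u} := by
  intro X X' j _ L hL
  exact locGen_pushforward j L (locGen_of_isInvertible hL ⊤)

end Fermat.Agent.S25.Top.H22L
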