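import Fermat.Agent.S25.Glue.H56_Mk
import Fermat.Agent.S25.Glue.H18_Pull

/-!
# S25, package TOP (helper56): local semilinear maps of sheaves of modules and their ratios

`f : Y ⟶ X` a morphism of schemes, `M : X.Modules`, `N : Y.Modules`, `U : X.Opens`.

* `SemiHom f M N U` : a family of maps `Γ(M, W) → Γ(N, f⁻¹W)`, `W ≤ U`, additive, `f^♯`-semilinear
  and compatible with restriction (examples: the pull-back of sections `SemiHom.pull`; composites);
* `LocHom M N U` : a family of maps `Γ(M, W) → Γ(N, W)`, `W ≤ U`, additive, linear and compatible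
  with restriction (a morphism `M|_U ⟶ N|_U`), `LocHom.toSemi`;
* `LocGen M U` : `M` is locally generated by one section on `U`;
* `SemiHom.existsUnique_ratio` (**RATIO**): if `M` is locally generated on `U` and `μ` maps
  generating sections to generating sections, every `λ` is `c • μ` for a unique `c ∈ Γ(Y, f⁻¹U)`;
  `SemiHom.isUnit_ratio`: `c` is a unit if `λ` preserves generating sections too;
* `LocHom.existsUnique_ratio`, `LocHom.glue` (gluing of local morphisms),
  `LocHom.ofRestrict` (from a morphism of the restrictions along an open immersion).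

This file contains no unproved statement.
-/

set_option autoImplicit false

open CategoryTheory AlgebraicGeometry TopologicalSpace Opposite

universe u

namespace Fermat.Agent.S25.Top.H56

open Fermat.Agent.S25.Glue Fermat.Agent.S25.Glue.H56

variable {X Y : Scheme.{u}}

theorem preimage_le (f : Y ⟶ X) {W W' : X.Opens} (h : W' ≤ W) : f ⁻¹ᵁ W' ≤ f ⁻¹ᵁ W :=
  fun _ hy => h hy

/-- `f^♯` commutes with restriction. -/
theorem app_resO (f : Y ⟶ X) {W W' : X.Opens} (h : W' ≤ W) (a : Γ(X, W)) :
    f.app W' (resO X h a) = resO Y (preimage_le f h) (f.app W a) := by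
  unfold resO
  have := f.naturality (homOfLE h).op
  exact congr($this a)

/-- Sections of a sheaf of modules are determined locally (general subcover). -/
theorem eq_of_resM_eq' (N : Y.Modules) {κ : Type*} (V : κ → Y.Opens) (U : Y.Opens)
    (hV : ∀ k, V k ≤ U) (hU : U ≤ ⨆ k, V k) (t t' : Γ(N, U))
    (h : ∀ k, resM N (hV k) t = resM N (hV k) t') : t = t' :=
  TopCat.Sheaf.eq_of_locally_eq' ⟨N.presheaf, N.isSheaf⟩ V U (fun k => homOfLE (hV k)) hU t t' h

/-- Gluing of functions. -/
theorem glue_fun (Y : Scheme.{u}) {κ : Type u} (V : κ → Y.Opens) (U : Y.Opens)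
    (hV : ∀ k, V k ≤ U) (hU : U ≤ ⨆ k, V k) (c : ∀ k, Γ(Y, V k))
    (hc : ∀ k l, resO Y (inf_le_left : V k ⊓ V l ≤ V k) (c k) =
      resO Y (inf_le_right : V k ⊓ V l ≤ V l) (c l)) :
    ∃! a : Γ(Y, U), ∀ k, resO Y (hV k) a = c k :=
  TopCat.Sheaf.existsUnique_gluing' Y.sheaf V U (fun k => homOfLE (hV k)) hU c hc

/-- `M` is locally generated by one section on `U`. -/
def LocGen (M : X.Modules) (U : X.Opens) : Prop :=
  ∀ x ∈ U, ∃ W : X.Opens, W ≤ U ∧ x ∈ W ∧ ∃ s : Γ(M, W), IsGen M W s

theorem LocGen.mono {M : X.Modules} {U U' : X.Opens} (hM : LocGen M U) (h : U' ≤ U) :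
    LocGen M U' := by
  intro x hx
  obtain ⟨W, hW, hxW, s, hs⟩ := hM x (h hx)
  exact ⟨W ⊓ U', inf_le_right, ⟨hxW, hx⟩, _, hs.mono inf_le_left⟩

theorem locGen_of_isInvertible {M : X.Modules} (hM : Scheme.Modules.IsInvertible M)
    (U : X.Opens) : LocGen M U := by
  intro x hx
  obtain ⟨W, hxW, s, hs⟩ := (stmt_BGEN X M).1 hM x
  exact ⟨W ⊓ U, inf_le_right, ⟨hxW, hx⟩, _, hs.mono inf_le_left⟩

/-- A family of maps `Γ(M, W) → Γ(N, f⁻¹W)`, `W ≤ U`, additive, `f^♯`-semilinear and compatible
with restriction. -/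
structure SemiHom (f : Y ⟶ X) (M : X.Modules) (N : Y.Modules) (U : X.Opens) where
  /-- the maps on sections -/
  map : ∀ W : X.Opens, W ≤ U → Γ(M, W) → Γ(N, f ⁻¹ᵁ W)
  map_add : ∀ (W : X.Opens) (h : W ≤ U) (t t' : Γ(M, W)),
    map W h (t + t') = map W h t + map W h t'
  map_smul : ∀ (W : X.Opens) (h : W ≤ U) (a : Γ(X, W)) (t : Γ(M, W)),
    map W h (a • t) = f.app W a • map W h t
  map_res : ∀ (W W' : X.Opens) (h : W ≤ U) (h' : W' ≤ W) (t : Γ(M, W)),
    map W' (h'.trans h) (resM M h' t) = resM N (preimage_le f h') (map W h t)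

namespace SemiHom

variable {f : Y ⟶ X} {M : X.Modules} {N : Y.Modules} {U : X.Opens}

/-- `μ` maps generating sections to generating sections. -/
def PresGen (mu : SemiHom f M N U) : Prop :=
  ∀ (W : X.Opens) (h : W ≤ U) (s : Γ(M, W)), IsGen M W s → IsGen N (f ⁻¹ᵁ W) (mu.map W h s)

/-- restriction to a smaller open -/
def restrict (lam : SemiHom f M N U) {U' : X.Opens} (hU : U' ≤ U) : SemiHom f M N U' where
  map W h := lam.map W (h.trans hU)
  map_add W h := lam.map_add W (h.trans hU)
  map_smul W h := lam.map_smul W (h.trans hU)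
  map_res W W' h h' := lam.map_res W W' (h.trans hU) h'

theorem PresGen.restrict {mu : SemiHom f M N U} (hmu : mu.PresGen) {U' : X.Opens}
    (hU : U' ≤ U) : (mu.restrict hU).PresGen :=
  fun W h s hs => hmu W (h.trans hU) s hs

/-- If `λ s = c • μ s` for a generating section `s` over `W`, then `λ = c • μ` below `W`. -/
theorem eq_smul_of_gen (lam mu : SemiHom f M N U) {W : X.Opens} (h : W ≤ U) {s : Γ(M, W)}
    (hs : IsGen M W s) {c : Γ(Y, f ⁻¹ᵁ W)} (hc : lam.map W h s = c • mu.map W h s)
    {W' : X.Opens} (h' : W' ≤ W) (t : Γ(M, W')) :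
    lam.map W' (h'.trans h) t = resO Y (preimage_le f h') c • mu.map W' (h'.trans h) t := by
  obtain ⟨b, rfl⟩ : ∃ b : Γ(X, W'), b • resM M h' s = t := ⟨_, coord_smul_res hs h' t⟩
  rw [lam.map_smul, mu.map_smul, lam.map_res W W' h h', mu.map_res W W' h h', hc, resM_smul,
    smul_smul, smul_smul, mul_comm]

/-- **RATIO**: if `M` is locally generated on `U` and `μ` preserves generating sections, then
every `λ` is `c • μ` for a unique function `c` on `f⁻¹U`. -/
theorem existsUnique_ratio (lam mu : SemiHom f M N U) (hM : LocGen M U) (hmu : mu.PresGen) :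
    ∃! c : Γ(Y, f ⁻¹ᵁ U), ∀ (W : X.Opens) (h : W ≤ U) (t : Γ(M, W)),
      lam.map W h t = resO Y (preimage_le f h) c • mu.map W h t := by
  classical
  let κ : Type u := {p : Σ W : X.Opens, Γ(M, W) // p.1 ≤ U ∧ IsGen M p.1 p.2}
  let V : κ → Y.Opens := fun k => f ⁻¹ᵁ k.1.1
  have hV : ∀ k, V k ≤ f ⁻¹ᵁ U := fun k => preimage_le f k.2.1
  have hU : f ⁻¹ᵁ U ≤ ⨆ k, V k := by
    intro y hy
    obtain ⟨W, hW, hx, s, hs⟩ := hM (f.base y) hy
    exact Opens.mem_iSup.mpr ⟨⟨⟨W, s⟩, hW, hs⟩, hx⟩
  let c : ∀ k : κ, Γ(Y, V k) := fun k =>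
    coord (hmu _ k.2.1 _ k.2.2) (le_refl _) (lam.map _ k.2.1 k.1.2)
  have hc : ∀ k : κ, lam.map _ k.2.1 k.1.2 = c k • mu.map _ k.2.1 k.1.2 := by
    intro k
    have := coord_smul_res (hmu _ k.2.1 _ k.2.2) (le_refl _) (lam.map _ k.2.1 k.1.2)
    rw [resM_id] at this
    exact this.symm
  have key : ∀ (k : κ) (W' : X.Opens) (h' : W' ≤ k.1.1) (t : Γ(M, W')),
      lam.map W' (h'.trans k.2.1) t =
        resO Y (preimage_le f h') (c k) • mu.map W' (h'.trans k.2.1) t :=
    fun k W' h' t => eq_smul_of_gen lam mu k.2.1 k.2.2 (hc k) h' t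
  have hcompat : ∀ k l : κ, resO Y (inf_le_left : V k ⊓ V l ≤ V k) (c k) =
      resO Y (inf_le_right : V k ⊓ V l ≤ V l) (c l) := by
    intro k l
    have hs0 : IsGen M (k.1.1 ⊓ l.1.1) (resM M inf_le_left k.1.2) := k.2.2.mono inf_le_left
    have h1 := key k _ inf_le_left (resM M (inf_le_left : k.1.1 ⊓ l.1.1 ≤ k.1.1) k.1.2)
    have h2 := key l _ inf_le_right (resM M (inf_le_left : k.1.1 ⊓ l.1.1 ≤ k.1.1) k.1.2)
    have hg := hmu _ (inf_le_left.trans k.2.1) _ hs0
    have hinj := (isGen_iff.1 hg _ (le_refl _)).1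
    have h3 : resO Y (preimage_le f (inf_le_left : k.1.1 ⊓ l.1.1 ≤ k.1.1)) (c k) =
        resO Y (preimage_le f (inf_le_right : k.1.1 ⊓ l.1.1 ≤ l.1.1)) (c l) := by
      apply hinj
      simp only [resM_id]
      rw [← h1, ← h2]
    have h4 := congrArg (resO Y (show V k ⊓ V l ≤ f ⁻¹ᵁ (k.1.1 ⊓ l.1.1) from
      fun y hy => ⟨hy.1, hy.2⟩)) h3
    simp only [resO_resO] at h4
    exact h4
  obtain ⟨a, ha, ha'⟩ := glue_fun Y V (f ⁻¹ᵁ U) hV hU c hcompat
  refine ⟨a, fun W h t => ?_, fun a' h' => ha' a' fun k => ?_⟩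
  · refine eq_of_resM_eq' N (fun k : κ => f ⁻¹ᵁ (W ⊓ k.1.1)) (f ⁻¹ᵁ W)
      (fun k => preimage_le f inf_le_left) ?_ _ _ fun k => ?_
    · intro y hy
      obtain ⟨W₀, hW₀, hx, s, hs⟩ := hM (f.base y) (h hy)
      exact Opens.mem_iSup.mpr ⟨⟨⟨W₀, s⟩, hW₀, hs⟩, hy, hx⟩
    · have h1 := key k _ inf_le_right (resM M (inf_le_left : W ⊓ k.1.1 ≤ W) t)
      rw [resM_smul, resO_resO, ← lam.map_res W _ h inf_le_left, ← mu.map_res W _ h inf_le_left,
        h1, ← ha k, resO_resO]
  · have h1 := h' _ k.2.1 k.1.2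
    have : c k = resO Y (hV k) a' := by
      apply coord_eq
      rw [resM_id]
      exact h1.symm
    exact this.symm

/-- the ratio of two semilinear maps which preserve generating sections is a unit -/
theorem isUnit_ratio (lam mu : SemiHom f M N U) (hM : LocGen M U) (hlam : lam.PresGen)
    {c : Γ(Y, f ⁻¹ᵁ U)}
    (hc : ∀ (W : X.Opens) (h : W ≤ U) (t : Γ(M, W)),
      lam.map W h t = resO Y (preimage_le f h) c • mu.map W h t) : IsUnit c := by
  obtain ⟨d, hd, -⟩ := existsUnique_ratio mu lam hM hlam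
  obtain ⟨e, -, he⟩ := existsUnique_ratio lam lam hM hlam
  have h1 : c * d = e := he _ fun W h t => by
    rw [resO_mul, mul_smul, ← hd W h t, ← hc W h t]
  have h2 : (1 : Γ(Y, f ⁻¹ᵁ U)) = e := he _ fun W h t => by
    rw [resO_one, one_smul]
  exact IsUnit.of_mul_eq_one d (h1.trans h2.symm)

/-- post-composition with a morphism of sheaves of modules -/
noncomputable def postcomp (lam : SemiHom f M N U) {N' : Y.Modules} (φ : N ⟶ N') :
    SemiHom f M N' U where
  map W h t := φ.app (f ⁻¹ᵁ W) (lam.map W h t)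
  map_add W h t t' := by rw [lam.map_add, _root_.map_add]
  map_smul W h a t := by rw [lam.map_smul, Scheme.Modules.Hom.app_smul]
  map_res W W' h h' t := by rw [lam.map_res W W' h h', hom_app_resM]

theorem PresGen.postcomp {mu : SemiHom f M N U} (hmu : mu.PresGen) {N' : Y.Modules}
    (e : N ≅ N') : (mu.postcomp e.hom).PresGen :=
  fun W h s hs => (hmu W h s hs).of_iso e

/-- multiplication by a function -/
noncomputable def smul (c : Γ(Y, f ⁻¹ᵁ U)) (lam : SemiHom f M N U) : SemiHom f M N U where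
  map W h t := resO Y (preimage_le f h) c • lam.map W h t
  map_add W h t t' := by rw [lam.map_add, smul_add]
  map_smul W h a t := by rw [lam.map_smul, smul_smul, smul_smul, mul_comm]
  map_res W W' h h' t := by rw [lam.map_res W W' h h', resM_smul, resO_resO]

variable (f M) in
/-- the pull-back of sections -/
noncomputable def pull (U : X.Opens) : SemiHom f M ((Scheme.Modules.pullback f).obj M) U where
  map W _ t := pullSec f M W t
  map_add W _ t t' := pullSec_add f M W t t'
  map_smul W _ a t := pullSec_smul f M W a t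
  map_res _ _ _ h' t := pullSec_res f M h' t

theorem presGen_pull (U : X.Opens) : (pull f M U).PresGen :=
  fun W _ s hs => isGen_pullSec f W M s hs

end SemiHom

/-! ### Local morphisms -/

/-- A family of maps `Γ(M, W) → Γ(N, W)`, `W ≤ U`, additive, linear and compatible with
restriction: a morphism `M|_U ⟶ N|_U`. -/
structure LocHom (M N : X.Modules) (U : X.Opens) where
  /-- the maps on sections -/
  map : ∀ W : X.Opens, W ≤ U → Γ(M, W) → Γ(N, W)
  map_add : ∀ (W : X.Opens) (h : W ≤ U) (t t' : Γ(M, W)),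
    map W h (t + t') = map W h t + map W h t'
  map_smul : ∀ (W : X.Opens) (h : W ≤ U) (a : Γ(X, W)) (t : Γ(M, W)),
    map W h (a • t) = a • map W h t
  map_res : ∀ (W W' : X.Opens) (h : W ≤ U) (h' : W' ≤ W) (t : Γ(M, W)),
    map W' (h'.trans h) (resM M h' t) = resM N h' (map W h t)

namespace LocHom

variable {M N P : X.Modules} {U : X.Opens}

/-- a local morphism as a semilinear map along the identity -/
def toSemi (F : LocHom M N U) : SemiHom (𝟙 X) M N U where
  map := F.map
  map_add := F.map_add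
  map_smul := F.map_smul
  map_res := F.map_res

/-- the local morphism of a morphism -/
noncomputable def ofHom (φ : M ⟶ N) (U : X.Opens) : LocHom M N U where
  map W _ t := φ.app W t
  map_add _ _ t t' := _root_.map_add _ t t'
  map_smul _ _ a t := Scheme.Modules.Hom.app_smul φ a t
  map_res _ _ _ h' t := hom_app_resM φ h' t

/-- restriction to a smaller open -/
def restrict (F : LocHom M N U) {U' : X.Opens} (hU : U' ≤ U) : LocHom M N U' where
  map W h := F.map W (h.trans hU)
  map_add W h := F.map_add W (h.trans hU)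
  map_smul W h := F.map_smul W (h.trans hU)
  map_res W W' h h' := F.map_res W W' (h.trans hU) h'

/-- composition -/
def comp (F : LocHom M N U) (G : LocHom N P U) : LocHom M P U where
  map W h t := G.map W h (F.map W h t)
  map_add W h t t' := by rw [F.map_add, G.map_add]
  map_smul W h a t := by rw [F.map_smul, G.map_smul]
  map_res W W' h h' t := by rw [F.map_res W W' h h', G.map_res W W' h h']

/-- multiplication by a function -/
noncomputable def smul (c : Γ(X, U)) (F : LocHom M N U) : LocHom M N U where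
  map W h t := resO X h c • F.map W h t
  map_add W h t t' := by rw [F.map_add, smul_add]
  map_smul W h a t := by rw [F.map_smul, smul_smul, smul_smul, mul_comm]
  map_res W W' h h' t := by rw [F.map_res W W' h h', resM_smul, resO_resO]

/-- `F` maps generating sections to generating sections. -/
def PresGen (F : LocHom M N U) : Prop :=
  ∀ (W : X.Opens) (h : W ≤ U) (s : Γ(M, W)), IsGen M W s → IsGen N W (F.map W h s)

/-- `G` is a two-sided inverse of `F`. -/
def IsInv (F : LocHom M N U) (G : LocHom N M U) : Prop :=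
  (∀ (W : X.Opens) (h : W ≤ U) (t : Γ(M, W)), G.map W h (F.map W h t) = t) ∧
  ∀ (W : X.Opens) (h : W ≤ U) (t : Γ(N, W)), F.map W h (G.map W h t) = t

theorem IsInv.symm {F : LocHom M N U} {G : LocHom N M U} (h : F.IsInv G) : G.IsInv F :=
  ⟨h.2, h.1⟩

theorem IsInv.restrict {F : LocHom M N U} {G : LocHom N M U} (h : F.IsInv G) {U' : X.Opens}
    (hU : U' ≤ U) : (F.restrict hU).IsInv (G.restrict hU) :=
  ⟨fun W hW t => h.1 W (hW.trans hU) t, fun W hW t => h.2 W (hW.trans hU) t⟩

theorem IsInv.presGen {F : LocHom M N U} {G : LocHom N M U} (h : F.IsInv G) : F.PresGen := by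
  intro W hW s hs
  rw [isGen_iff]
  intro W' h'
  have hb : Function.Bijective (F.map W' (h'.trans hW)) :=
    ⟨fun t t' e => by rw [← h.1 W' (h'.trans hW) t, e, h.1],
      fun t => ⟨G.map W' (h'.trans hW) t, h.2 _ _ t⟩⟩
  have := hb.comp (isGen_iff.1 hs W' h')
  convert this using 1
  funext a
  simp only [Function.comp_apply]
  rw [F.map_smul, F.map_res W W' hW h']

theorem IsInv.smul {F : LocHom M N U} {G : LocHom N M U} (h : F.IsInv G) {c d : Γ(X, U)}
    (hcd : c * d = 1) : (F.smul c).IsInv (G.smul d) := by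
  have e : ∀ (W : X.Opens) (hW : W ≤ U), resO X hW c * resO X hW d = 1 := fun W hW => by
    rw [← resO_mul, hcd, resO_one]
  refine ⟨fun W hW t => ?_, fun W hW t => ?_⟩
  · change resO X hW d • G.map W hW (resO X hW c • F.map W hW t) = t
    rw [G.map_smul, smul_smul, mul_comm, e W hW, one_smul, h.1]
  · change resO X hW c • F.map W hW (resO X hW d • G.map W hW t) = t
    rw [F.map_smul, smul_smul, e W hW, one_smul, h.2]

theorem toSemi_presGen {F : LocHom M N U} (h : F.PresGen) : F.toSemi.PresGen := h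

/-- **RATIO** for local morphisms. -/
theorem existsUnique_ratio (F G : LocHom M N U) (hM : LocGen M U) (hG : G.PresGen) :
    ∃! c : Γ(X, U), ∀ (W : X.Opens) (h : W ≤ U) (t : Γ(M, W)),
      F.map W h t = resO X h c • G.map W h t :=
  SemiHom.existsUnique_ratio F.toSemi G.toSemi hM hG

/-- **Gluing of local morphisms**. -/
theorem glue {ι : Type*} (V : ι → X.Opens) (hV : ∀ x : X, ∃ i, x ∈ V i)
    (F : ∀ i, LocHom M N (V i))
    (hF : ∀ (i j : ι) (W : X.Opens) (hi : W ≤ V i) (hj : W ≤ V j) (t : Γ(M, W)),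
      (F i).map W hi t = (F j).map W hj t) :
    ∃! φ : M ⟶ N, ∀ (i : ι) (W : X.Opens) (h : W ≤ V i) (t : Γ(M, W)),
      φ.app W t = (F i).map W h t := by
  classical
  obtain ⟨φ, hφ, hφ'⟩ := glue_hom M N V hV
    (fun W h t => (F h.choose).map W h.choose_spec t)
    (fun W h t t' => (F h.choose).map_add W h.choose_spec t t')
    (fun W h r t => (F h.choose).map_smul W h.choose_spec r t)
    (fun W W' h h' hW t => by
      rw [hF h'.choose h.choose W' h'.choose_spec (hW.trans h.choose_spec)]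
      exact (F h.choose).map_res W W' h.choose_spec hW t)
  refine ⟨φ, fun i W h t => ?_, fun ψ hψ => hφ' ψ fun W h t => ?_⟩
  · rw [hφ W ⟨i, h⟩ t]
    exact hF _ _ W _ h t
  · exact hψ h.choose W h.choose_spec t

section OfRestrict

variable {Y : Scheme.{u}} (j : Y ⟶ X) [IsOpenImmersion j]

theorem image_preimage_eq_of_le {W : X.Opens} (h : W ≤ j.opensRange) : j ''ᵁ j ⁻¹ᵁ W = W := by
  apply le_antisymm
  · rintro _ ⟨y, hy, rfl⟩
    exact hy
  · intro x hx
    obtain ⟨y, rfl⟩ := h hx
    exact ⟨y, hx, rfl⟩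

/-- a section of `M` over `j(V)` as a section of the restriction of `M` along `j` -/
def toRes (M : X.Modules) (V : Y.Opens) (m : Γ(M, j ''ᵁ V)) : Γ(M.restrict j, V) := m

/-- a section of the restriction of `M` along `j` as a section of `M` over `j(V)` -/
def ofRes (M : X.Modules) (V : Y.Opens) (m : Γ(M.restrict j, V)) : Γ(M, j ''ᵁ V) := m

theorem ofRes_toRes (M : X.Modules) (V : Y.Opens) (m : Γ(M, j ''ᵁ V)) :
    ofRes j M V (toRes j M V m) = m := rfl

theorem toRes_ofRes (M : X.Modules) (V : Y.Opens) (m : Γ(M.restrict j, V)) :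
    toRes j M V (ofRes j M V m) = m := rfl

theorem toRes_add (M : X.Modules) (V : Y.Opens) (m m' : Γ(M, j ''ᵁ V)) :
    toRes j M V (m + m') = toRes j M V m + toRes j M V m' := rfl

theorem ofRes_add (M : X.Modules) (V : Y.Opens) (m m' : Γ(M.restrict j, V)) :
    ofRes j M V (m + m') = ofRes j M V m + ofRes j M V m' := rfl

theorem ofRes_smul (M : X.Modules) (V : Y.Opens) (b : Γ(Y, V)) (m : Γ(M.restrict j, V)) :
    ofRes j M V (b • m) = (j.appIso V).inv b • ofRes j M V m := rfl

theorem toRes_smul (M : X.Modules) (V : Y.Opens) (a : Γ(X, j ''ᵁ V)) (m : Γ(M, j ''ᵁ V)) :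
    toRes j M V (a • m) = (j.appIso V).hom a • toRes j M V m := by
  have h := ofRes_smul j M V ((j.appIso V).hom a) (toRes j M V m)
  have e : (j.appIso V).inv ((j.appIso V).hom a) = a := by
    rw [← ConcreteCategory.comp_apply, Iso.hom_inv_id]
    rfl
  rw [e] at h
  exact h.symm

theorem toRes_res (M : X.Modules) {V V' : Y.Opens} (h : V' ≤ V) (m : Γ(M, j ''ᵁ V)) :
    toRes j M V' (resM M (j.image_mono h) m) = resM (M.restrict j) h (toRes j M V m) := rfl

theorem ofRes_res (M : X.Modules) {V V' : Y.Opens} (h : V' ≤ V) (m : Γ(M.restrict j, V)) :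
    ofRes j M V' (resM (M.restrict j) h m) = resM M (j.image_mono h) (ofRes j M V m) := rfl

/-- The local morphism over the range of the open immersion `j` defined by a morphism between the
restrictions along `j`. -/
noncomputable def ofRestrict (ψ : M.restrict j ⟶ N.restrict j) : LocHom M N j.opensRange where
  map W h t := resM N (le_of_eq (image_preimage_eq_of_le j h).symm)
    (ofRes j N (j ⁻¹ᵁ W) (ψ.app (j ⁻¹ᵁ W)
      (toRes j M (j ⁻¹ᵁ W) (resM M (le_of_eq (image_preimage_eq_of_le j h)) t))))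
  map_add W h t t' := by
    rw [resM_add, toRes_add, _root_.map_add, ofRes_add, resM_add]
  map_smul W h a t := by
    rw [resM_smul, toRes_smul, Scheme.Modules.Hom.app_smul, ofRes_smul, resM_smul]
    congr 1
    have e : (j.appIso (j ⁻¹ᵁ W)).inv ((j.appIso (j ⁻¹ᵁ W)).hom
        (resO X (le_of_eq (image_preimage_eq_of_le j h)) a)) =
        resO X (le_of_eq (image_preimage_eq_of_le j h)) a := by
      rw [← ConcreteCategory.comp_apply, Iso.hom_inv_id]
      rfl
    rw [e, resO_resO, resO_id]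
  map_res W W' h h' t := by
    have hV : j ⁻¹ᵁ W' ≤ j ⁻¹ᵁ W := preimage_le j h'
    have e1 : resM M (le_of_eq (image_preimage_eq_of_le j (h'.trans h))) (resM M h' t) =
        resM M (j.image_mono hV) (resM M (le_of_eq (image_preimage_eq_of_le j h)) t) := by
      rw [resM_resM, resM_resM]
    rw [e1, toRes_res j M hV, hom_app_resM, ofRes_res j N hV, resM_resM, resM_resM]

theorem ofRestrict_isInv (e : M.restrict j ≅ N.restrict j) :
    (ofRestrict j e.hom).IsInv (ofRestrict j e.inv) := by
  refine ⟨fun W h t => ?_, fun W h t => ?_⟩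
  · change resM M _ (ofRes j M _ (e.inv.app _ (toRes j N _ (resM N _
      (resM N _ (ofRes j N _ (e.hom.app _ (toRes j M _ (resM M _ t))))))))) = t
    rw [resM_resM, resM_id, toRes_ofRes, iso_inv_hom_app, ofRes_toRes, resM_resM, resM_id]
  · change resM N _ (ofRes j N _ (e.hom.app _ (toRes j M _ (resM M _
      (resM M _ (ofRes j M _ (e.inv.app _ (toRes j N _ (resM N _ t))))))))) = t
    rw [resM_resM, resM_id, toRes_ofRes, iso_hom_inv_app, ofRes_toRes, resM_resM, resM_id]

end OfRestrict

end LocHom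

end Fermat.Agent.S25.Top.H56
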