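import Fermat.Agent.S25.Top.DefsG2
import Fermat.Agent.S25.Top.H56_Ratio

/-!
# S25, package TOP, leaf GLUEPIC-OVERLAP (helper22): `stmt_OVERLAP : G.Stmt_OVERLAP`

`j₁ : X₁ ⟶ X`, `j₂ : X₂ ⟶ X`, `a : Y ⟶ X₁`, `b : Y ⟶ X₂` open immersions with `a ≫ j₁ = b ≫ j₂`.
An isomorphism `a^* L₁ ≅ b^* L₂` gives mutually inverse local morphisms between the push-forwards
`(j₁)_* L₁` and `(j₂)_* L₂` over the range of `a ≫ j₁`.

* `restrictPushIso` : `((j₁)_* L₁).restrict (a ≫ j₁) ≅ a^* L₁`;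
* `stmt_OVERLAP`.

This file contains no unproved statement.
-/

set_option autoImplicit false

open CategoryTheory AlgebraicGeometry TopologicalSpace Opposite

universe u

namespace Fermat.Agent.S25.Top.H22O

open Fermat.Agent.S25.Glue Fermat.Agent.S25.Glue.H56 Fermat.Agent.S25.Top.H56

/-- The restriction of a push-forward along an open immersion `j` to an open part `a` of the
source is the pull-back along `a`. -/
noncomputable def restrictPushIso {X X₁ Y : Scheme.{u}} (j : X₁ ⟶ X) (a : Y ⟶ X₁)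
    [IsOpenImmersion j] [IsOpenImmersion a] (L : X₁.Modules) :
    ((Scheme.Modules.pushforward j).obj L).restrict (a ≫ j) ≅ (Scheme.Modules.pullback a).obj L :=
  (Scheme.Modules.restrictFunctorComp a j).app ((Scheme.Modules.pushforward j).obj L) ≪≫
    (Scheme.Modules.restrictFunctor a).mapIso ((Scheme.Modules.restrictFunctorAdjCounitIso j).app L)
    ≪≫ (Scheme.Modules.restrictFunctorIsoPullback a).app L

theorem stmt_OVERLAP : G.Stmt_OVERLAP.{u} := by
  intro X X₁ X₂ Y j₁ j₂ a b _ _ _ _ hab L₁ L₂ ⟨e⟩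
  let ψ : ((Scheme.Modules.pushforward j₁).obj L₁).restrict (a ≫ j₁) ≅
      ((Scheme.Modules.pushforward j₂).obj L₂).restrict (a ≫ j₁) :=
    restrictPushIso j₁ a L₁ ≪≫ e ≪≫ (restrictPushIso j₂ b L₂).symm ≪≫
      ((Scheme.Modules.restrictFunctorCongr hab).app ((Scheme.Modules.pushforward j₂).obj L₂)).symm
  exact ⟨LocHom.ofRestrict _ ψ.hom, LocHom.ofRestrict _ ψ.inv, LocHom.ofRestrict_isInv _ ψ⟩

end Fermat.Agent.S25.Top.H22O
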