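/-
helper54, S25 package TOP-SURJ, leaf S-GRBC: the graph ideals `gr0 β`, `gr1 β` commute with base change.

Abstract part (Mathlib only): `evA`, `ker_evA` (the graph ideal is generated by `1 ⊗ b - β b ⊗ 1`),
`ker_evA_comp` (own chart), `comap_map_eq_of_unit`, `map_comap_eq_of_unit` (localisation lemmas in the
`surj`/`inj` form of `LB.H60`), `grO` (graph ideal in the other chart), `one_sub_mem_grO`, `grO_comp`.
-/
import Fermat.Agent.S25.Top.DefsS
import Fermat.Agent.S25.LB.H60_Unit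

set_option autoImplicit false

universe u

open TensorProduct

namespace Fermat.Agent.S25.Top.S.H54

open Fermat.Agent.S25 Fermat.Agent.S25.LB

/-! ### Abstract part (Mathlib only) -/

section Abs

variable {k : Type u} [Field k] {B : Type u} [CommRing B] [Algebra k B]
  {R : Type u} [CommRing R] [Algebra k R]

/-- evaluation `R ⊗ B → R` at a point `β : B → R` -/
noncomputable def evA (β : B →ₐ[k] R) : (R ⊗[k] B) →ₐ[R] R :=
  Algebra.TensorProduct.lift (AlgHom.id R R) β (fun _ _ => Commute.all _ _)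

theorem evA_tmul (β : B →ₐ[k] R) (r : R) (b : B) : evA β (r ⊗ₜ[k] b) = r * β b := by
  simp [evA]

/-- the standard generators of the graph ideal -/
def genSet (β : B →ₐ[k] R) : Set (R ⊗[k] B) :=
  Set.range (fun b : B => (1 : R) ⊗ₜ[k] b - β b ⊗ₜ[k] (1 : B))

theorem sub_ev_mem (β : B →ₐ[k] R) (x : R ⊗[k] B) :
    x - evA β x ⊗ₜ[k] (1 : B) ∈ Ideal.span (genSet β) := by
  induction x using TensorProduct.induction_on with
  | zero => simp
  | tmul r b =>
    have h : r ⊗ₜ[k] b - evA β (r ⊗ₜ[k] b) ⊗ₜ[k] (1 : B) =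
        (r ⊗ₜ[k] (1 : B)) * ((1 : R) ⊗ₜ[k] b - β b ⊗ₜ[k] (1 : B)) := by
      rw [evA_tmul, mul_sub, Algebra.TensorProduct.tmul_mul_tmul,
        Algebra.TensorProduct.tmul_mul_tmul, mul_one, one_mul, mul_one]
    rw [h]
    exact Ideal.mul_mem_left _ _ (Ideal.subset_span ⟨b, rfl⟩)
  | add x y hx hy =>
    have h : x + y - evA β (x + y) ⊗ₜ[k] (1 : B) =
        (x - evA β x ⊗ₜ[k] (1 : B)) + (y - evA β y ⊗ₜ[k] (1 : B)) := by
      rw [map_add, TensorProduct.add_tmul]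
      ring
    rw [h]
    exact Ideal.add_mem _ hx hy

theorem ker_evA (β : B →ₐ[k] R) : RingHom.ker (evA β) = Ideal.span (genSet β) := by
  apply le_antisymm
  · intro x hx
    have h := sub_ev_mem β x
    rw [RingHom.mem_ker] at hx
    rw [hx, TensorProduct.zero_tmul, sub_zero] at h
    exact h
  · rw [Ideal.span_le]
    rintro _ ⟨b, rfl⟩
    change _ ∈ RingHom.ker (evA β)
    rw [RingHom.mem_ker, map_sub, evA_tmul, evA_tmul, one_mul, map_one, mul_one, sub_self]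

variable {R' : Type u} [CommRing R'] [Algebra k R']

theorem tmap_genSet (f : R →ₐ[k] R') (β : B →ₐ[k] R) :
    (Chart.tmap f B) '' genSet β = genSet (f.comp β) := by
  ext y
  constructor
  · rintro ⟨_, ⟨b, rfl⟩, rfl⟩
    refine ⟨b, ?_⟩
    simp [Chart.tmap]
  · rintro ⟨b, rfl⟩
    refine ⟨_, ⟨b, rfl⟩, ?_⟩
    simp [Chart.tmap]

/-- the graph ideal in its own chart commutes with base change -/
theorem ker_evA_comp (f : R →ₐ[k] R') (β : B →ₐ[k] R) :
    RingHom.ker (evA (f.comp β)) = (RingHom.ker (evA β)).map (Chart.tmap f B) := by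
  rw [ker_evA, ker_evA, Ideal.map_span, tmap_genSet]

end Abs

/-! ### Localisation lemmas in the form used here -/

section Loc

variable {A Az : Type u} [CommRing A] [CommRing Az] (ι : A →+* Az) (z : A) (ζ : Az)

theorem exists_pow_mul_eq_of_mem_map (hsurj : ∀ m : Az, ∃ (n : ℕ) (p : A), (ι z) ^ n * m = ι p)
    (J : Ideal A) (c : Az) (hc : c ∈ J.map ι) :
    ∃ (n : ℕ) (j : A), j ∈ J ∧ (ι z) ^ n * c = ι j := by
  refine Submodule.span_induction (p := fun c _ => ∃ (n : ℕ) (j : A), j ∈ J ∧ (ι z) ^ n * c = ι j)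
    ?_ ?_ ?_ ?_ hc
  · rintro _ ⟨j, hj, rfl⟩
    exact ⟨0, j, hj, by rw [pow_zero, one_mul]⟩
  · exact ⟨0, 0, J.zero_mem, by rw [mul_zero, map_zero]⟩
  · rintro c d _ _ ⟨n, j, hj, e⟩ ⟨n', j', hj', e'⟩
    refine ⟨n + n', z ^ n' * j + z ^ n * j', J.add_mem (J.mul_mem_left _ hj) (J.mul_mem_left _ hj'),
      ?_⟩
    rw [map_add, map_mul, map_mul, map_pow, map_pow, ← e, ← e', pow_add]
    ring
  · rintro a c _ ⟨n, j, hj, e⟩
    obtain ⟨n', p, hp⟩ := hsurj a
    refine ⟨n' + n, p * j, J.mul_mem_left _ hj, ?_⟩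
    rw [map_mul, ← e, ← hp, pow_add, smul_eq_mul]
    ring

theorem comap_map_eq_of_unit (hinj : Function.Injective ι)
    (hsurj : ∀ m : Az, ∃ (n : ℕ) (p : A), (ι z) ^ n * m = ι p)
    (J : Ideal A) (a : A) (ha : 1 - a * z ∈ J) : (J.map ι).comap ι = J := by
  apply le_antisymm
  · intro y hy
    rw [Ideal.mem_comap] at hy
    obtain ⟨n, j, hj, e⟩ := exists_pow_mul_eq_of_mem_map ι z hsurj J _ hy
    have e' : z ^ n * y = j := by
      apply hinj
      rw [map_mul, map_pow, e]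
    have h1 : (1 : A) - (a * z) ^ n ∈ J := by
      obtain ⟨c, hc⟩ := sub_dvd_pow_sub_pow (1 : A) (a * z) n
      rw [one_pow] at hc
      rw [hc]
      exact J.mul_mem_right _ ha
    have h2 : y = (1 - (a * z) ^ n) * y + a ^ n * j := by
      rw [← e']
      ring
    rw [h2]
    exact J.add_mem (J.mul_mem_right _ h1) (J.mul_mem_left _ hj)
  · exact Ideal.le_comap_map

include ζ in
theorem map_comap_eq_of_unit (hζ : ζ * ι z = 1)
    (hsurj : ∀ m : Az, ∃ (n : ℕ) (p : A), (ι z) ^ n * m = ι p)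
    (K : Ideal Az) : (K.comap ι).map ι = K := by
  apply le_antisymm
  · exact Ideal.map_comap_le
  · intro c hc
    obtain ⟨n, p, hp⟩ := hsurj c
    have hp' : p ∈ K.comap ι := by
      rw [Ideal.mem_comap, ← hp]
      exact K.mul_mem_left _ hc
    have h : c = ζ ^ n * ι p := by
      rw [← hp, ← mul_assoc, ← mul_pow, hζ, one_pow, one_mul]
    rw [h]
    exact Ideal.mul_mem_left _ _ (Ideal.mem_map_of_mem ι hp')

end Loc

/-! ### The graph ideal in the other chart -/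

section Other

variable {k : Type u} [Field k] {B B' B01 : Type u} [CommRing B] [CommRing B'] [CommRing B01]
  [Algebra k B] [Algebra k B'] [Algebra k B01] (i : B →ₐ[k] B01) (i' : B' →ₐ[k] B01)
  (x : B) (z : B')

/-- `R ⊗ B → R ⊗ B01` -/
noncomputable def ιA (R : Type u) [CommRing R] [Algebra k R] : (R ⊗[k] B) →+* (R ⊗[k] B01) :=
  (Algebra.TensorProduct.map (AlgHom.id R R) i).toRingHom

theorem ιA_tmul (R : Type u) [CommRing R] [Algebra k R] (r : R) (b : B) :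
    ιA i R (r ⊗ₜ[k] b) = r ⊗ₜ[k] i b := rfl

/-- the graph ideal of a point of the chart `B` in the chart `B'` -/
noncomputable def grO (R : Type u) [CommRing R] [Algebra k R] (β : B →ₐ[k] R) :
    Ideal (R ⊗[k] B') :=
  Ideal.comap (ιA i' R) (Ideal.map (ιA i R) (RingHom.ker (evA β)))

variable {R R' : Type u} [CommRing R] [Algebra k R] [CommRing R'] [Algebra k R']

theorem ιA_tmap (f : R →ₐ[k] R') :
    (ιA i R').comp (Chart.tmap f B).toRingHom = (Chart.tmap f B01).toRingHom.comp (ιA i R) := by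
  apply RingHom.ext
  intro y
  induction y using TensorProduct.induction_on with
  | zero => simp
  | tmul r b => simp [ιA, Chart.tmap]
  | add y y' hy hy' => rw [map_add, map_add, hy, hy']

include x in
theorem one_sub_mem_grO (hxz : i x * i' z = 1) (β : B →ₐ[k] R) :
    (1 : R ⊗[k] B') - (β x ⊗ₜ[k] (1 : B')) * ((1 : R) ⊗ₜ[k] z) ∈ grO i i' R β := by
  change ιA i' R _ ∈ Ideal.map (ιA i R) (RingHom.ker (evA β))
  have hg : (1 : R) ⊗ₜ[k] x - β x ⊗ₜ[k] (1 : B) ∈ RingHom.ker (evA β) := by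
    rw [ker_evA]
    exact Ideal.subset_span ⟨x, rfl⟩
  have h : ιA i' R ((1 : R ⊗[k] B') - (β x ⊗ₜ[k] (1 : B')) * ((1 : R) ⊗ₜ[k] z)) =
      ((1 : R) ⊗ₜ[k] i' z) * ιA i R ((1 : R) ⊗ₜ[k] x - β x ⊗ₜ[k] (1 : B)) := by
    rw [map_sub, map_sub, map_one, map_mul, ιA_tmul, ιA_tmul, ιA_tmul, ιA_tmul, mul_sub]
    simp only [Algebra.TensorProduct.tmul_mul_tmul, one_mul, mul_one, map_one]
    rw [mul_comm (i' z) (i x), hxz]
    rfl
  rw [h]
  exact Ideal.mul_mem_left _ _ (Ideal.mem_map_of_mem _ hg)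

include x in
/-- the graph ideal in the other chart commutes with base change -/
theorem grO_comp (hxz : i x * i' z = 1)
    (hsurj : ∀ m : R ⊗[k] B01, ∃ (n : ℕ) (p : R ⊗[k] B'),
      (ιA i' R ((1 : R) ⊗ₜ[k] z)) ^ n * m = ιA i' R p)
    (hinj' : Function.Injective (ιA i' R'))
    (hsurj' : ∀ m : R' ⊗[k] B01, ∃ (n : ℕ) (p : R' ⊗[k] B'),
      (ιA i' R' ((1 : R') ⊗ₜ[k] z)) ^ n * m = ιA i' R' p)
    (f : R →ₐ[k] R') (β : B →ₐ[k] R) :
    grO i i' R' (f.comp β) = (grO i i' R β).map (Chart.tmap f B') := by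
  have hζ : ((1 : R) ⊗ₜ[k] i x : R ⊗[k] B01) * ιA i' R ((1 : R) ⊗ₜ[k] z) = 1 := by
    rw [ιA_tmul, Algebra.TensorProduct.tmul_mul_tmul, one_mul, hxz]
    rfl
  have h1 : Ideal.map (ιA i' R) (grO i i' R β) = Ideal.map (ιA i R) (RingHom.ker (evA β)) :=
    map_comap_eq_of_unit (ιA i' R) _ _ hζ hsurj _
  have h2 : Ideal.map (ιA i R') (RingHom.ker (evA (f.comp β))) =
      Ideal.map (ιA i' R') ((grO i i' R β).map (Chart.tmap f B')) := by
    rw [ker_evA_comp]
    change Ideal.map (ιA i R') (Ideal.map (Chart.tmap f B).toRingHom _) =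
      Ideal.map (ιA i' R') (Ideal.map (Chart.tmap f B').toRingHom _)
    rw [Ideal.map_map, Ideal.map_map, ιA_tmap, ιA_tmap, ← Ideal.map_map, ← Ideal.map_map, h1]
  change Ideal.comap (ιA i' R') (Ideal.map (ιA i R') (RingHom.ker (evA (f.comp β)))) = _
  rw [h2]
  refine comap_map_eq_of_unit (ιA i' R') ((1 : R') ⊗ₜ[k] z) hinj' hsurj' _
    (f (β x) ⊗ₜ[k] (1 : B')) ?_
  have h3 := Ideal.mem_map_of_mem (Chart.tmap f B') (one_sub_mem_grO i i' x z hxz β)
  have h4 : Chart.tmap f B' ((1 : R ⊗[k] B') - (β x ⊗ₜ[k] (1 : B')) * ((1 : R) ⊗ₜ[k] z)) =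
      1 - (f (β x) ⊗ₜ[k] (1 : B')) * ((1 : R') ⊗ₜ[k] z) := by
    simp [Chart.tmap]
  rw [h4] at h3
  exact h3

end Other

/-- **S-GRBC**: the graph ideals commute with base change. -/
theorem stmt_GRBC : Stmt_GRBC.{u} := by
  intro k _ 𝒞 h𝒞 R R' _ _ _ _ f β
  rcases β with β | β
  · exact ⟨ker_evA_comp f β,
      grO_comp 𝒞.i0 𝒞.i1 𝒞.x0 𝒞.z1 𝒞.hxz (H60.surj1_unit (R := R) h𝒞) (H60.ι1_injective R' h𝒞)
        (H60.surj1_unit (R := R') h𝒞) f β⟩
  · exact ⟨grO_comp 𝒞.i1 𝒞.i0 𝒞.z1 𝒞.x0 (by rw [mul_comm]; exact 𝒞.hxz)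
        (H60.surj0_unit (R := R) h𝒞) (H60.ι0_injective R' h𝒞) (H60.surj0_unit (R := R') h𝒞) f β,
      ker_evA_comp f β⟩

end Fermat.Agent.S25.Top.S.H54
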