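/-
helper54, S25 package TOP-SURJ, leaf S-GRCHART: for a point of the overlap the graph ideals do not depend
on the chart used to present it; a point of `V1` with `z1 = 0` does not meet `V0` (and symmetrically).
-/
import Fermat.Agent.S25.Top.H54_SGrBC

set_option autoImplicit false

universe u

open TensorProduct

namespace Fermat.Agent.S25.Top.S.H54

open Fermat.Agent.S25 Fermat.Agent.S25.LB

section

variable {k : Type u} [Field k] {B B' B01 : Type u} [CommRing B] [CommRing B'] [CommRing B01]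
  [Algebra k B] [Algebra k B'] [Algebra k B01] (i : B →ₐ[k] B01) (i' : B' →ₐ[k] B01)
  (x : B) (z : B') {R : Type u} [CommRing R] [Algebra k R]

theorem evA_comp_apply (β01 : B01 →ₐ[k] R) (y : R ⊗[k] B) :
    evA (β01.comp i) y = evA β01 (ιA i R y) := by
  induction y using TensorProduct.induction_on with
  | zero => rw [map_zero, map_zero, map_zero]
  | tmul r b => rw [ιA_tmul, evA_tmul, evA_tmul, AlgHom.comp_apply]
  | add y y' hy hy' => rw [map_add, map_add, map_add, hy, hy']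

/-- the graph ideal of a point of the overlap, in a chart -/
theorem ker_evA_overlap (β01 : B01 →ₐ[k] R) :
    RingHom.ker (evA (β01.comp i)) = Ideal.comap (ιA i R) (RingHom.ker (evA β01)) := by
  ext y
  rw [RingHom.mem_ker, Ideal.mem_comap, RingHom.mem_ker, evA_comp_apply]

include x in
/-- the graph ideal in the other chart of a point of the overlap -/
theorem grO_overlap (hxz : i x * i' z = 1)
    (hsurj : ∀ m : R ⊗[k] B01, ∃ (n : ℕ) (p : R ⊗[k] B),
      (ιA i R ((1 : R) ⊗ₜ[k] x)) ^ n * m = ιA i R p)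
    (β01 : B01 →ₐ[k] R) :
    grO i i' R (β01.comp i) = RingHom.ker (evA (β01.comp i')) := by
  have hζ : ((1 : R) ⊗ₜ[k] i' z : R ⊗[k] B01) * ιA i R ((1 : R) ⊗ₜ[k] x) = 1 := by
    rw [ιA_tmul, Algebra.TensorProduct.tmul_mul_tmul, one_mul, mul_comm, hxz]
    rfl
  change Ideal.comap (ιA i' R) (Ideal.map (ιA i R) (RingHom.ker (evA (β01.comp i)))) = _
  rw [ker_evA_overlap, ker_evA_overlap, map_comap_eq_of_unit (ιA i R) _ _ hζ hsurj]

include z in
/-- a point with `β x = 0` does not meet the other chart -/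
theorem grO_eq_top (hxz : i x * i' z = 1) (β : B →ₐ[k] R) (hβ : β x = 0) :
    grO i i' R β = ⊤ := by
  have h := one_sub_mem_grO i i' x z hxz β
  rw [hβ, TensorProduct.zero_tmul, zero_mul, sub_zero] at h
  exact (Ideal.eq_top_iff_one _).mpr h

end

/-- **S-GRCHART**. -/
theorem stmt_GRCHART : Stmt_GRCHART.{u} := by
  intro k _ 𝒞 h𝒞 R _ _
  have hzx : 𝒞.i1 𝒞.z1 * 𝒞.i0 𝒞.x0 = 1 := by rw [mul_comm]; exact 𝒞.hxz
  refine ⟨fun β01 => ⟨?_, ?_⟩, fun β hβ => ?_, fun β hβ => ?_⟩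
  · exact (grO_overlap 𝒞.i1 𝒞.i0 𝒞.z1 𝒞.x0 hzx (H60.surj1_unit (R := R) h𝒞) β01).symm
  · exact grO_overlap 𝒞.i0 𝒞.i1 𝒞.x0 𝒞.z1 𝒞.hxz (H60.surj0_unit (R := R) h𝒞) β01
  · exact grO_eq_top 𝒞.i1 𝒞.i0 𝒞.z1 𝒞.x0 hzx β hβ
  · exact grO_eq_top 𝒞.i0 𝒞.i1 𝒞.x0 𝒞.z1 𝒞.hxz β hβ

end Fermat.Agent.S25.Top.S.H54
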