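import Fermat.Agent.S25.Top.DefsS2
import Fermat.Agent.S25.Top.H54_SGrChart

/-!
# S25, package TOP-SURJ, leaf S-PT (helper22): `stmt_PT : S.Stmt_PT`

Points of the curve in the charts (`ρ : Bridge.Realizes c ε 𝒞`, `ptMor ρ R β : Spec R ⟶ C`).

* `fromSpec_struct` : `hU.fromSpec ≫ c = Spec (k → Γ(C, U))` for an affine open `U`;
* `exists_factor`, `factor_unique` : morphisms `Spec R ⟶ C` with range in an affine open `U` are the
  ring maps `Γ(C, U) → R`;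
* `ptMor_struct` (a), `exists_chart_point` (b), `ptMor_map` (c);
* `inl_injective`, `inr_injective`, `exists_overlap` (a point of both charts is a point of the
  overlap: `β01 : B01 → R` with `β01 ∘ i0 = β₀`, `β01 ∘ i1 = β₁`), `gr_eq_of_ptMor_eq` (d);
* `exists_inl`, `exists_inr` : a morphism over `k` with range in `U_i` is a chart point;
* `stmt_PT_of : Stmt_GRCHART → Stmt_PT`, `stmt_PT : Stmt_PT` (with helper54's `stmt_GRCHART`).

This file contains no unproved statement.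
-/

set_option autoImplicit false

universe u

open CategoryTheory CategoryTheory.Limits AlgebraicGeometry AlgebraicGeometry.RelPicard NeronModelInfra
  GoodReductionJacobian TensorProduct Opposite

namespace Fermat.Agent.S25.Top.S.H22

open Fermat.Agent.S25 Fermat.Agent.S25.LB

variable {k : Type u} [Field k] {C : Scheme.{u}} (c : C ⟶ Spec (CommRingCat.of k))

/-- The structure morphism on an affine open: `fromSpec ≫ c = Spec (k → Γ(C, U))`. -/
theorem fromSpec_struct {U : C.Opens} (hU : IsAffineOpen U) :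
    hU.fromSpec ≫ c = Spec.map (CommRingCat.ofHom (Curve.kSec c U)) := by
  have h := IsAffineOpen.SpecMap_appLE_fromSpec c (isAffineOpen_top (Spec (CommRingCat.of k))) hU
    le_top
  rw [← h, IsAffineOpen.fromSpec_top, Scheme.isoSpec_Spec_inv, ← Spec.map_comp]
  rfl

/-- A morphism from an affine scheme with range in an affine open factors through it. -/
theorem exists_factor {U : C.Opens} (hU : IsAffineOpen U) {R : CommRingCat.{u}}
    (f : Spec R ⟶ C) (hf : Set.range f ⊆ (U : Set C)) :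
    ∃ ψ : Γ(C, U) ⟶ R, f = Spec.map ψ ≫ hU.fromSpec := by
  have hr : Set.range f ⊆ Set.range hU.fromSpec := by
    rw [hU.range_fromSpec]; exact hf
  refine ⟨Spec.preimage (IsOpenImmersion.lift hU.fromSpec f hr), ?_⟩
  rw [Spec.map_preimage, IsOpenImmersion.lift_fac]

theorem factor_unique {U : C.Opens} (hU : IsAffineOpen U) {R : CommRingCat.{u}}
    (ψ ψ' : Γ(C, U) ⟶ R) (h : Spec.map ψ ≫ hU.fromSpec = Spec.map ψ' ≫ hU.fromSpec) : ψ = ψ' :=
  Spec.map_injective ((cancel_mono hU.fromSpec).1 h)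

variable {c} {ε : SchemeHomOver (𝟙 (Spec (CommRingCat.of k))) c} {𝒞 : CurveDatum k}
  (ρ : Bridge.Realizes c ε 𝒞)

/-- the ring map of a point of the chart `V0` -/
noncomputable def ring0 {R : Type u} [CommRing R] [Algebra k R] (β : 𝒞.B0 →ₐ[k] R) :
    Γ(C, ρ.U₀) ⟶ CommRingCat.of R :=
  CommRingCat.ofHom ((β : 𝒞.B0 →+* R).comp (ρ.φ0.symm : Γ(C, ρ.U₀) →+* 𝒞.B0))

/-- the ring map of a point of the chart `V1` -/
noncomputable def ring1 {R : Type u} [CommRing R] [Algebra k R] (β : 𝒞.B1 →ₐ[k] R) :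
    Γ(C, ρ.U₁) ⟶ CommRingCat.of R :=
  CommRingCat.ofHom ((β : 𝒞.B1 →+* R).comp (ρ.φ1.symm : Γ(C, ρ.U₁) →+* 𝒞.B1))

theorem ptMor_inl {R : Type u} [CommRing R] [Algebra k R] (β : 𝒞.B0 →ₐ[k] R) :
    ptMor ρ R (Sum.inl β) = Spec.map (ring0 ρ β) ≫ ρ.aff₀.fromSpec := rfl

theorem ptMor_inr {R : Type u} [CommRing R] [Algebra k R] (β : 𝒞.B1 →ₐ[k] R) :
    ptMor ρ R (Sum.inr β) = Spec.map (ring1 ρ β) ≫ ρ.aff₁.fromSpec := rfl

theorem ring0_apply {R : Type u} [CommRing R] [Algebra k R] (β : 𝒞.B0 →ₐ[k] R) (b : 𝒞.B0) :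
    (ring0 ρ β).hom (ρ.φ0 b) = β b := by
  change β (ρ.φ0.symm (ρ.φ0 b)) = β b
  rw [RingEquiv.symm_apply_apply]

theorem ring1_apply {R : Type u} [CommRing R] [Algebra k R] (β : 𝒞.B1 →ₐ[k] R) (b : 𝒞.B1) :
    (ring1 ρ β).hom (ρ.φ1 b) = β b := by
  change β (ρ.φ1.symm (ρ.φ1 b)) = β b
  rw [RingEquiv.symm_apply_apply]

theorem kSec_ring0 {R : Type u} [CommRing R] [Algebra k R] (β : 𝒞.B0 →ₐ[k] R) :
    CommRingCat.ofHom (Curve.kSec c ρ.U₀) ≫ ring0 ρ β = CommRingCat.ofHom (algebraMap k R) := by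
  ext a
  change (ring0 ρ β).hom (Curve.kSec c ρ.U₀ a) = algebraMap k R a
  rw [← ρ.φ0_alg a, ring0_apply, AlgHom.commutes]

theorem kSec_ring1 {R : Type u} [CommRing R] [Algebra k R] (β : 𝒞.B1 →ₐ[k] R) :
    CommRingCat.ofHom (Curve.kSec c ρ.U₁) ≫ ring1 ρ β = CommRingCat.ofHom (algebraMap k R) := by
  ext a
  change (ring1 ρ β).hom (Curve.kSec c ρ.U₁ a) = algebraMap k R a
  rw [← ρ.φ1_alg a, ring1_apply, AlgHom.commutes]

/-- (a) `ptMor` is a morphism over `k`. -/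
theorem ptMor_struct {R : Type u} [CommRing R] [Algebra k R] (β : CPt 𝒞 R) :
    ptMor ρ R β ≫ c = Bridge.tR k R := by
  rcases β with β | β
  · rw [ptMor_inl, Category.assoc, fromSpec_struct, ← Spec.map_comp, kSec_ring0]
  · rw [ptMor_inr, Category.assoc, fromSpec_struct, ← Spec.map_comp, kSec_ring1]

/-- (c) base change of `ptMor`. -/
theorem ptMor_map {R R' : Type u} [CommRing R] [Algebra k R] [CommRing R'] [Algebra k R']
    [Algebra R R'] [IsScalarTower k R R'] (β : CPt 𝒞 R) :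
    Spec.map (CommRingCat.ofHom (algebraMap R R')) ≫ ptMor ρ R β =
      ptMor ρ R' (β.map (IsScalarTower.toAlgHom k R R')) := by
  rcases β with β | β
  · change _ = ptMor ρ R' (Sum.inl ((IsScalarTower.toAlgHom k R R').comp β))
    rw [ptMor_inl, ptMor_inl, ← Category.assoc, ← Spec.map_comp]
    rfl
  · change _ = ptMor ρ R' (Sum.inr ((IsScalarTower.toAlgHom k R R').comp β))
    rw [ptMor_inr, ptMor_inr, ← Category.assoc, ← Spec.map_comp]
    rfl

theorem range_ptMor_inl {R : Type u} [CommRing R] [Algebra k R] (β : 𝒞.B0 →ₐ[k] R) :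
    Set.range (ptMor ρ R (Sum.inl β)) ⊆ (ρ.U₀ : Set C) := by
  rintro _ ⟨x, rfl⟩
  have : (ptMor ρ R (Sum.inl β)) x = ρ.aff₀.fromSpec ((Spec.map (ring0 ρ β)) x) := rfl
  rw [this, ← ρ.aff₀.range_fromSpec]
  exact ⟨_, rfl⟩

theorem range_ptMor_inr {R : Type u} [CommRing R] [Algebra k R] (β : 𝒞.B1 →ₐ[k] R) :
    Set.range (ptMor ρ R (Sum.inr β)) ⊆ (ρ.U₁ : Set C) := by
  rintro _ ⟨x, rfl⟩
  have : (ptMor ρ R (Sum.inr β)) x = ρ.aff₁.fromSpec ((Spec.map (ring1 ρ β)) x) := rfl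
  rw [this, ← ρ.aff₁.range_fromSpec]
  exact ⟨_, rfl⟩

theorem inl_injective {R : Type u} [CommRing R] [Algebra k R] (β β' : 𝒞.B0 →ₐ[k] R)
    (h : ptMor ρ R (Sum.inl β) = ptMor ρ R (Sum.inl β')) : β = β' := by
  rw [ptMor_inl, ptMor_inl] at h
  have h1 := factor_unique ρ.aff₀ _ _ h
  ext b
  rw [← ring0_apply ρ β b, ← ring0_apply ρ β' b, h1]

theorem inr_injective {R : Type u} [CommRing R] [Algebra k R] (β β' : 𝒞.B1 →ₐ[k] R)
    (h : ptMor ρ R (Sum.inr β) = ptMor ρ R (Sum.inr β')) : β = β' := by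
  rw [ptMor_inr, ptMor_inr] at h
  have h1 := factor_unique ρ.aff₁ _ _ h
  ext b
  rw [← ring1_apply ρ β b, ← ring1_apply ρ β' b, h1]

/-- the overlap is affine -/
theorem isAffineOpen_inf : IsAffineOpen (ρ.U₀ ⊓ ρ.U₁) := by
  rw [← ρ.basic₀]
  exact ρ.aff₀.basicOpen _

/-- A point which lies in both charts comes from a point of the overlap. -/
theorem exists_overlap {R : Type u} [CommRing R] [Algebra k R] (β₀ : 𝒞.B0 →ₐ[k] R)
    (β₁ : 𝒞.B1 →ₐ[k] R) (h : ptMor ρ R (Sum.inl β₀) = ptMor ρ R (Sum.inr β₁)) :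
    ∃ β01 : 𝒞.B01 →ₐ[k] R, β01.comp 𝒞.i0 = β₀ ∧ β01.comp 𝒞.i1 = β₁ := by
  have hr : Set.range (ptMor ρ R (Sum.inl β₀)) ⊆ ((ρ.U₀ ⊓ ρ.U₁ : C.Opens) : Set C) := by
    intro x hx
    exact ⟨range_ptMor_inl ρ β₀ hx, range_ptMor_inr ρ β₁ (h ▸ hx)⟩
  obtain ⟨ψ, hψ⟩ := exists_factor (isAffineOpen_inf ρ) (ptMor ρ R (Sum.inl β₀)) hr
  have e0 : C.presheaf.map (homOfLE (inf_le_left : ρ.U₀ ⊓ ρ.U₁ ≤ ρ.U₀)).op ≫ ψ = ring0 ρ β₀ := by
    apply factor_unique ρ.aff₀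
    rw [Spec.map_comp, Category.assoc, ρ.aff₀.map_fromSpec (isAffineOpen_inf ρ), ← hψ, ptMor_inl]
  have e1 : C.presheaf.map (homOfLE (inf_le_right : ρ.U₀ ⊓ ρ.U₁ ≤ ρ.U₁)).op ≫ ψ = ring1 ρ β₁ := by
    apply factor_unique ρ.aff₁
    rw [Spec.map_comp, Category.assoc, ρ.aff₁.map_fromSpec (isAffineOpen_inf ρ), ← hψ, h,
      ptMor_inr]
  have h0 : ∀ b : 𝒞.B0, ψ.hom (ρ.φ01 (𝒞.i0 b)) = β₀ b := by
    intro b
    rw [ρ.φ_i0, ← ring0_apply ρ β₀ b, ← e0]
    rfl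
  have h1 : ∀ b : 𝒞.B1, ψ.hom (ρ.φ01 (𝒞.i1 b)) = β₁ b := by
    intro b
    rw [ρ.φ_i1, ← ring1_apply ρ β₁ b, ← e1]
    rfl
  refine ⟨{ toRingHom := ψ.hom.comp (ρ.φ01 : 𝒞.B01 →+* Γ(C, ρ.U₀ ⊓ ρ.U₁)), commutes' := ?_ },
    ?_, ?_⟩
  · intro a
    change ψ.hom (ρ.φ01 (algebraMap k 𝒞.B01 a)) = algebraMap k R a
    rw [← AlgHom.commutes 𝒞.i0 a, h0, AlgHom.commutes]
  · ext b
    exact h0 b
  · ext b
    exact h1 b

/-- (d) two presentations of the same point have the same graph ideals. -/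
theorem gr_eq_of_ptMor_eq (h𝒞 : 𝒞.IsGood) (hG : Stmt_GRCHART.{u})
    {R : Type u} [CommRing R] [Algebra k R] (β β' : CPt 𝒞 R)
    (h : ptMor ρ R β = ptMor ρ R β') : gr0 β = gr0 β' ∧ gr1 β = gr1 β' := by
  rcases β with β | β <;> rcases β' with β' | β'
  · rw [inl_injective ρ β β' h]
    exact ⟨rfl, rfl⟩
  · obtain ⟨β01, rfl, rfl⟩ := exists_overlap ρ β β' h
    exact (hG k 𝒞 h𝒞 R).1 β01
  · obtain ⟨β01, rfl, rfl⟩ := exists_overlap ρ β' β h.symm
    exact ⟨((hG k 𝒞 h𝒞 R).1 β01).1.symm, ((hG k 𝒞 h𝒞 R).1 β01).2.symm⟩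
  · rw [inr_injective ρ β β' h]
    exact ⟨rfl, rfl⟩

/-- the image of `Spec R_r ⟶ Spec R` is in `D(r)` -/
theorem specMap_away_mem {R : Type u} [CommRing R] (r : R)
    (y : Spec (CommRingCat.of (Localization.Away r))) :
    r ∉ ((Spec.map (CommRingCat.ofHom (algebraMap R (Localization.Away r)))) y :
      PrimeSpectrum R).asIdeal := by
  intro hr
  have h1 : algebraMap R (Localization.Away r) r ∈ (y : PrimeSpectrum (Localization.Away r)).asIdeal :=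
    hr
  have h2 : IsUnit (algebraMap R (Localization.Away r) r) :=
    IsLocalization.Away.algebraMap_isUnit r
  exact (y : PrimeSpectrum (Localization.Away r)).isPrime.ne_top
    (Ideal.eq_top_of_isUnit_mem _ h1 h2)

/-- a morphism over `k` with range in `U₀` is a point of the chart `V0` -/
theorem exists_inl {R : Type u} [CommRing R] [Algebra k R] (g : Spec (CommRingCat.of R) ⟶ C)
    (hg : g ≫ c = Bridge.tR k R) (hr : Set.range g ⊆ (ρ.U₀ : Set C)) :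
    ∃ β : 𝒞.B0 →ₐ[k] R, g = ptMor ρ R (Sum.inl β) := by
  obtain ⟨ψ, hψ⟩ := exists_factor ρ.aff₀ g hr
  have hk : CommRingCat.ofHom (Curve.kSec c ρ.U₀) ≫ ψ = CommRingCat.ofHom (algebraMap k R) := by
    apply Spec.map_injective
    rw [Spec.map_comp, ← fromSpec_struct c ρ.aff₀, ← Category.assoc, ← hψ, hg]
  refine ⟨{ toRingHom := ψ.hom.comp (ρ.φ0 : 𝒞.B0 →+* Γ(C, ρ.U₀)), commutes' := ?_ }, ?_⟩
  · intro a
    change ψ.hom (ρ.φ0 (algebraMap k 𝒞.B0 a)) = algebraMap k R a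
    rw [ρ.φ0_alg a]
    exact congr($hk a)
  · rw [ptMor_inl, hψ]
    congr 2
    ext y
    change ψ.hom y = ψ.hom (ρ.φ0 (ρ.φ0.symm y))
    rw [RingEquiv.apply_symm_apply]

/-- a morphism over `k` with range in `U₁` is a point of the chart `V1` -/
theorem exists_inr {R : Type u} [CommRing R] [Algebra k R] (g : Spec (CommRingCat.of R) ⟶ C)
    (hg : g ≫ c = Bridge.tR k R) (hr : Set.range g ⊆ (ρ.U₁ : Set C)) :
    ∃ β : 𝒞.B1 →ₐ[k] R, g = ptMor ρ R (Sum.inr β) := by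
  obtain ⟨ψ, hψ⟩ := exists_factor ρ.aff₁ g hr
  have hk : CommRingCat.ofHom (Curve.kSec c ρ.U₁) ≫ ψ = CommRingCat.ofHom (algebraMap k R) := by
    apply Spec.map_injective
    rw [Spec.map_comp, ← fromSpec_struct c ρ.aff₁, ← Category.assoc, ← hψ, hg]
  refine ⟨{ toRingHom := ψ.hom.comp (ρ.φ1 : 𝒞.B1 →+* Γ(C, ρ.U₁)), commutes' := ?_ }, ?_⟩
  · intro a
    change ψ.hom (ρ.φ1 (algebraMap k 𝒞.B1 a)) = algebraMap k R a
    rw [ρ.φ1_alg a]
    exact congr($hk a)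
  · rw [ptMor_inr, hψ]
    congr 2
    ext y
    change ψ.hom y = ψ.hom (ρ.φ1 (ρ.φ1.symm y))
    rw [RingEquiv.apply_symm_apply]

/-- every open neighbourhood of a prime contains a principal open neighbourhood -/
theorem exists_basic {R : Type u} [CommRing R] (W : (Spec (CommRingCat.of R)).Opens)
    (p : PrimeSpectrum R) (hp : (p : Spec (CommRingCat.of R)) ∈ W) :
    ∃ r : R, r ∉ p.asIdeal ∧ ∀ q : PrimeSpectrum R, r ∉ q.asIdeal →
      (q : Spec (CommRingCat.of R)) ∈ W := by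
  have hB : ∀ (U : TopologicalSpace.Opens (PrimeSpectrum R)) (x : PrimeSpectrum R), x ∈ U →
      ∃ U' ∈ Set.range (PrimeSpectrum.basicOpen (R := R)), x ∈ U' ∧ U' ≤ U := fun U x hx =>
    TopologicalSpace.Opens.isBasis_iff_nbhd.1 (PrimeSpectrum.isBasis_basic_opens (R := R)) hx
  obtain ⟨_, ⟨r, rfl⟩, hpr, hrW⟩ := hB W p hp
  exact ⟨r, hpr, fun q hq => hrW hq⟩

/-- (b) every point of the curve is Zariski-locally a chart point. -/
theorem exists_chart_point {R : Type u} [CommRing R] [Algebra k R]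
    (f : Spec (CommRingCat.of R) ⟶ C) (hf : f ≫ c = Bridge.tR k R) (p : PrimeSpectrum R) :
    ∃ r : R, r ∉ p.asIdeal ∧ ∃ β : CPt 𝒞 (Localization.Away r),
      Spec.map (CommRingCat.ofHom (algebraMap R (Localization.Away r))) ≫ f =
        ptMor ρ (Localization.Away r) β := by
  have hx : f.base p ∈ ρ.U₀ ⊔ ρ.U₁ := by rw [ρ.cover]; trivial
  have key : ∀ r : R, Spec.map (CommRingCat.ofHom (algebraMap R (Localization.Away r))) ≫ f ≫ c =
      Bridge.tR k (Localization.Away r) := by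
    intro r
    rw [hf]
    exact (specOver k R (Localization.Away r)).2
  rcases hx with hx | hx
  · obtain ⟨r, hr, hW⟩ := exists_basic (f ⁻¹ᵁ ρ.U₀) p hx
    refine ⟨r, hr, ?_⟩
    obtain ⟨β, hβ⟩ := exists_inl ρ
      (Spec.map (CommRingCat.ofHom (algebraMap R (Localization.Away r))) ≫ f)
      (by rw [Category.assoc]; exact key r) (by
        rintro _ ⟨y, rfl⟩
        exact hW _ (specMap_away_mem r y))
    exact ⟨Sum.inl β, hβ⟩
  · obtain ⟨r, hr, hW⟩ := exists_basic (f ⁻¹ᵁ ρ.U₁) p hx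
    refine ⟨r, hr, ?_⟩
    obtain ⟨β, hβ⟩ := exists_inr ρ
      (Spec.map (CommRingCat.ofHom (algebraMap R (Localization.Away r))) ≫ f)
      (by rw [Category.assoc]; exact key r) (by
        rintro _ ⟨y, rfl⟩
        exact hW _ (specMap_away_mem r y))
    exact ⟨Sum.inr β, hβ⟩

/-- **S-PT** from **S-GRCHART**. -/
theorem stmt_PT_of (hG : Stmt_GRCHART.{u}) : Stmt_PT.{u} := by
  intro k _ C c ε 𝒞 h𝒞 ρ
  exact ⟨fun R _ _ β => ptMor_struct ρ β, fun R _ _ f hf p => exists_chart_point ρ f hf p,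
    fun R R' _ _ _ _ _ _ β => ptMor_map ρ β, fun R _ _ β β' h => gr_eq_of_ptMor_eq ρ h𝒞 hG β β' h⟩

/-- **S-PT**. -/
theorem stmt_PT : Stmt_PT.{u} := stmt_PT_of H54.stmt_GRCHART

end Fermat.Agent.S25.Top.S.H22
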