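import Mathlib
import Fermat.Prelude.Def_AlgebraicGeometry_NeronModelPropertyBundleCarrier
import Fermat.Prelude.Def_JacJ1Iface
import Fermat.Prelude.Def_AlgebraicGeometry_RelativePicardFunctor
import Fermat.Prelude.Def_AlgebraicGeometry_RepresentsRelSubPic
import Fermat.Prelude.Def_AlgebraicGeometry_RelPicardAlgEquivZeroCut

/-!
# S25, package TOP, part REP (helper25): from a representing object to the frozen statement

* `JacData c ε` : a `k`-scheme `J` with a rigidified line bundle `poin` on `C × J`, fibrewise
  algebraically equivalent to `0`, which classifies all such bundles (`∃!` for EVERY `T`), and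
  `J` smooth, proper, geometrically connected.
* `s25_of_jacData` : `JacData c ε` gives the conclusion of the frozen statement S25
  (the zero section is the classifying map of the trivial bundle over `Spec k`).
* The Yoneda bridge (`PicModel`, `PicModel.jacUniv`, `PicModel.represents`) is in
  `H25_RepYoneda.lean`.

Complete proofs, standard axioms only.
-/

set_option autoImplicit false

open CategoryTheory CategoryTheory.Limits AlgebraicGeometry AlgebraicGeometry.RelPicard
  NeronModelInfra GoodReductionJacobian Opposite

universe u

namespace Fermat.Agent.S25.Top.H25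

section JacData

variable {k : Type u} [Field k] {C : Scheme.{u}} (c : C ⟶ Spec (CommRingCat.of k))
  (ε : SchemeHomOver (𝟙 (Spec (CommRingCat.of k))) c)

/-- The data from which the frozen statement S25 follows. -/
structure JacData where
  /-- the Jacobian -/
  J : Scheme.{u}
  /-- its structure map -/
  toBase : J ⟶ Spec (CommRingCat.of k)
  /-- the Poincaré bundle -/
  poin : RigidifiedLineBundle c ε toBase
  mem : FibrewiseAlgEquivZero poin
  univ : ∀ {T : Scheme.{u}} (t : T ⟶ Spec (CommRingCat.of k)) (M : RigidifiedLineBundle c ε t),
    FibrewiseAlgEquivZero M →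
    ∃! g : SchemeHomOver t toBase, Nonempty ((poin.pullbackAlong g).L ≅ M.L)
  smooth : Smooth toBase
  proper : IsProper toBase
  conn : GeometricallyConnected toBase

variable {c ε}

/-- The zero section of a `JacData`: the classifying map of the trivial bundle. -/
noncomputable def JacData.zero (d : JacData c ε) :
    SchemeHomOver (𝟙 (Spec (CommRingCat.of k))) d.toBase :=
  (d.univ (𝟙 _) (RigidifiedLineBundle.unit (c := c) (ε := ε) (𝟙 _))
    (fibrewiseAlgEquivZero_unit _)).choose

theorem JacData.zero_spec (d : JacData c ε) :
    Nonempty ((d.poin.pullbackAlong d.zero).L ≅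
      (RigidifiedLineBundle.unit (c := c) (ε := ε) (𝟙 _)).L) :=
  (d.univ (𝟙 _) (RigidifiedLineBundle.unit (c := c) (ε := ε) (𝟙 _))
    (fibrewiseAlgEquivZero_unit _)).choose_spec.1

/-- The designation of a `JacData`. -/
noncomputable def JacData.designation (d : JacData c ε) : RelativePic0Designation k c where
  P := d.J
  toBase := d.toBase
  zeroSection := d.zero.1
  zeroSection_toBase := d.zero.2

/-- A `JacData` represents the degree-zero part of the relative Picard functor. -/
noncomputable def JacData.represents (d : JacData c ε) :
    RepresentsRelSubPic c ε (algEquivZeroCut c ε) d.designation where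
  poincare := d.poin
  poincare_mem := d.mem
  univ := fun t M hM => d.univ t M hM
  zero := d.zero_spec

/-- **S25 from a `JacData`.** -/
theorem s25_of_jacData (d : JacData c ε) :
    ∃ D : RelativePic0Designation k c,
      Nonempty (RepresentsRelSubPic c ε (algEquivZeroCut c ε) D) ∧
        Smooth D.toBase ∧ IsProper D.toBase ∧ GeometricallyConnected D.toBase :=
  ⟨d.designation, ⟨d.represents⟩, d.smooth, d.proper, d.conn⟩

end JacData

end Fermat.Agent.S25.Top.H25
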