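import Fermat.Agent.S25.Top.H25_RepYoneda
import Fermat.Agent.S25.Top.H61_Aez

/-!
# S25, package TOP, part REP (helper25): from a model of a LARGER condition to S25

`PicModel.s25_of_le` : let `G` be a model of the sub-Picard functor cut out by a condition `P`
which is implied by `FibrewiseAlgEquivZero` (e.g. "fibrewise of degree `0`"), with a universal
element `u : G J`, and `J` geometrically integral, locally of finite type, smooth, proper and
geometrically connected over `k`.  Then the conclusion of the frozen S25 holds.
(The Poincaré bundle is fibrewise algebraically equivalent to `0` by helper61's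
`poincare_fibrewiseAlgEquivZero`.)

Complete proofs, standard axioms only.
-/

set_option autoImplicit false

open CategoryTheory CategoryTheory.Limits AlgebraicGeometry AlgebraicGeometry.RelPicard
  NeronModelInfra GoodReductionJacobian Opposite

universe w u

namespace Fermat.Agent.S25.Top.H25

variable {k : Type u} [Field k] {C : Scheme.{u}} {c : C ⟶ Spec (CommRingCat.of k)}
  {ε : SchemeHomOver (𝟙 (Spec (CommRingCat.of k))) c}
  {P : SubPicCondition c ε} {G : Scheme.{u}ᵒᵖ ⥤ Type w} {J : Scheme.{u}}

/-- A representing object of a model of `P ⊇ algEquivZeroCut` represents `algEquivZeroCut`. -/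
noncomputable def PicModel.representsAez (m : PicModel c ε P G) (u : G.obj (op J))
    (hu : IsUnivElt G u)
    (hP : ∀ {T : Scheme.{u}} (t : T ⟶ Spec (CommRingCat.of k)) (M : RigidifiedLineBundle c ε t),
      FibrewiseAlgEquivZero M → P.P t M)
    (hgi : GeometricallyIntegral (m.jacBase u)) (hlft : LocallyOfFiniteType (m.jacBase u)) :
    RepresentsRelSubPic c ε (algEquivZeroCut c ε) (m.designation u hu) :=
  have : GeometricallyIntegral (m.designation u hu).toBase := hgi
  have : LocallyOfFiniteType (m.designation u hu).toBase := hlft
  H61.representsAlgEquivZeroCut_of (m.represents u hu) hP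

/-- **S25 from a representable model of a condition implied by `FibrewiseAlgEquivZero`.** -/
theorem PicModel.s25_of_le (m : PicModel c ε P G) (u : G.obj (op J))
    (hu : IsUnivElt G u)
    (hP : ∀ {T : Scheme.{u}} (t : T ⟶ Spec (CommRingCat.of k)) (M : RigidifiedLineBundle c ε t),
      FibrewiseAlgEquivZero M → P.P t M)
    (hgi : GeometricallyIntegral (m.jacBase u)) (hlft : LocallyOfFiniteType (m.jacBase u))
    (hs : Smooth (m.jacBase u)) (hp : IsProper (m.jacBase u))
    (hc : GeometricallyConnected (m.jacBase u)) :
    ∃ D : RelativePic0Designation k c,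
      Nonempty (RepresentsRelSubPic c ε (algEquivZeroCut c ε) D) ∧
        Smooth D.toBase ∧ IsProper D.toBase ∧ GeometricallyConnected D.toBase :=
  ⟨m.designation u hu, ⟨m.representsAez u hu hP hgi hlft⟩, hs, hp, hc⟩

end Fermat.Agent.S25.Top.H25
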