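import Mathlib

/-!
# S25, package TOP, part REP (helper25): representability of a big functor from charts

`G : Schemeᵒᵖ ⥤ Type w` (any universe `w`), a Zariski sheaf, with a family of charts
`ξ i : G (X i)` (`ι : Type u`) such that for every `x : G T` the locus where `x` comes from the
chart `i` is an open subscheme (`IsChartLocus`), and these loci cover `T`.  Then `G` has a
universal element `u : G J`, where `J` is glued from the `X i` along open immersions
(`exists_univElt_of_charts`).
No smallness hypothesis: the smallness of `G T` is proved from the charts (`small_of_charts`).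
(Mathlib's `Scheme.LocalRepresentability.representableBy`, applied to `Shrink ∘ G`.)

Mathlib only.  Complete proofs, standard axioms only.
-/

set_option autoImplicit false

open CategoryTheory CategoryTheory.Limits AlgebraicGeometry Opposite

universe w u

namespace Fermat.Agent.S25.Top.H25

section Defs

variable (G : Scheme.{u}ᵒᵖ ⥤ Type w)

/-- The open `U ⊆ T` is the locus where `x : G T` comes from the chart `ξ : G X`: there is
`a : U ⟶ X` with `G(a) ξ = x|_U`, and every `φ : T' ⟶ T` with `G(φ) x = G(b) ξ` for some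
`b : T' ⟶ X` factors through `U`, compatibly with `a` and `b`. -/
def IsChartLocus {X : Scheme.{u}} (ξ : G.obj (op X)) {T : Scheme.{u}} (x : G.obj (op T))
    (U : T.Opens) : Prop :=
  ∃ a : U.toScheme ⟶ X, G.map a.op ξ = G.map U.ι.op x ∧
    ∀ (T' : Scheme.{u}) (φ : T' ⟶ T) (b : T' ⟶ X), G.map b.op ξ = G.map φ.op x →
      ∃ ψ : T' ⟶ U.toScheme, ψ ≫ U.ι = φ ∧ ψ ≫ a = b

variable {G}

/-- A criterion for `IsChartLocus`: the chart is a monomorphism, `x|_U` comes from the chart, and
every `φ` along which `x` comes from the chart lands in `U`. -/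
theorem isChartLocus_of {X : Scheme.{u}} (ξ : G.obj (op X)) {T : Scheme.{u}}
    (x : G.obj (op T)) (U : T.Opens)
    (hmono : ∀ (T' : Scheme.{u}) (b b' : T' ⟶ X), G.map b.op ξ = G.map b'.op ξ → b = b')
    (ha : ∃ a : U.toScheme ⟶ X, G.map a.op ξ = G.map U.ι.op x)
    (hU : ∀ (T' : Scheme.{u}) (φ : T' ⟶ T) (b : T' ⟶ X), G.map b.op ξ = G.map φ.op x →
      Set.range φ ⊆ (U : Set T)) :
    IsChartLocus G ξ x U := by
  obtain ⟨a, ha⟩ := ha
  refine ⟨a, ha, fun T' φ b hb => ?_⟩
  have hr : Set.range φ ⊆ Set.range U.ι := by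
    rw [Scheme.Opens.range_ι]
    exact hU T' φ b hb
  refine ⟨IsOpenImmersion.lift U.ι φ hr, IsOpenImmersion.lift_fac _ _ _, ?_⟩
  apply hmono
  rw [op_comp, G.map_comp, ConcreteCategory.comp_apply, ha, hb,
    ← ConcreteCategory.comp_apply, ← G.map_comp, ← op_comp, IsOpenImmersion.lift_fac]

end Defs

section Cover

variable {G : Scheme.{u}ᵒᵖ ⥤ Type w}

theorem isOpenCover_of_forall {T : Scheme.{u}} {s : Type u} (U : s → T.Opens)
    (hU : ∀ p : T, ∃ j, p ∈ U j) : TopologicalSpace.IsOpenCover U := by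
  refine TopologicalSpace.IsOpenCover.mk (eq_top_iff.2 fun p _ => ?_)
  obtain ⟨j, hj⟩ := hU p
  exact TopologicalSpace.Opens.mem_iSup.2 ⟨j, hj⟩

/-- A family of opens which covers generates a covering sieve. -/
theorem ofArrows_mem_of_forall {T : Scheme.{u}} {s : Type u} (U : s → T.Opens)
    (hU : ∀ p : T, ∃ j, p ∈ U j) :
    Sieve.ofArrows (fun j => (U j).toScheme) (fun j => (U j).ι) ∈ Scheme.zariskiTopology T :=
  (T.openCoverOfIsOpenCover U (isOpenCover_of_forall U hU)).mem_grothendieckTopology

/-- Sections of a Zariski sheaf which agree on an open cover are equal. -/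
theorem ext_of_openCover (hG : Presieve.IsSheaf Scheme.zariskiTopology G)
    {T : Scheme.{u}} {s : Type u} (U : s → T.Opens)
    (hU : ∀ p : T, ∃ j, p ∈ U j) (x y : G.obj (op T))
    (h : ∀ j, G.map (U j).ι.op x = G.map (U j).ι.op y) : x = y := by
  refine (hG _ (ofArrows_mem_of_forall U hU)).isSeparatedFor.ext ?_
  rintro T' f ⟨V, g, _, ⟨j⟩, rfl⟩
  rw [op_comp, G.map_comp, ConcreteCategory.comp_apply, ConcreteCategory.comp_apply, h j]

/-- A Zariski sheaf covered by charts (indexed by a `u`-small type) has `u`-small values. -/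
theorem small_of_charts (hG : Presieve.IsSheaf Scheme.zariskiTopology G)
    {ι : Type u} (X : ι → Scheme.{u}) (ξ : ∀ i, G.obj (op (X i)))
    (hcover : ∀ (T : Scheme.{u}) (x : G.obj (op T)) (p : T), ∃ (i : ι) (U : T.Opens)
      (a : U.toScheme ⟶ X i), G.map a.op (ξ i) = G.map U.ι.op x ∧ p ∈ U)
    (T : Scheme.{u}) : Small.{u} (G.obj (op T)) := by
  classical
  choose i U a ha hp using hcover T
  let D : Type u := Σ (V : T.Opens) (j : ι), (V.toScheme ⟶ X j)
  let Φ : G.obj (op T) → (T → D) := fun x p => ⟨U x p, i x p, a x p⟩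
  let Rel : D → G.obj (op T) → Prop := fun d z => G.map d.2.2.op (ξ d.2.1) = G.map d.1.ι.op z
  have hrel : ∀ x p, Rel (Φ x p) x := fun x p => ha x p
  have hinj : Function.Injective Φ := by
    intro x y hxy
    refine ext_of_openCover hG (fun p : T => (Φ x p).1) (fun p => ⟨p, hp x p⟩) x y fun p => ?_
    have h1 : Rel (Φ x p) x := hrel x p
    have h2 : Rel (Φ x p) y := by
      rw [hxy]
      exact hrel y p
    exact h1.symm.trans h2
  exact small_of_injective hinj

end Cover

section Shrink

variable (G : Scheme.{u}ᵒᵖ ⥤ Type w) [∀ T, Small.{u} (G.obj T)]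

/-- The shrunk functor. -/
noncomputable def shrinkFun : Scheme.{u}ᵒᵖ ⥤ Type u where
  obj T := Shrink.{u} (G.obj T)
  map φ := TypeCat.ofHom (fun x => equivShrink _ (G.map φ ((equivShrink _).symm x)))
  map_id T := TypeCat.homEquiv.injective (funext fun x => by simp)
  map_comp φ ψ := TypeCat.homEquiv.injective (funext fun x => by simp)

/-- The comparison. -/
noncomputable def toShrink (T : Scheme.{u}ᵒᵖ) : G.obj T ≃ (shrinkFun G).obj T :=
  equivShrink _

theorem shrinkFun_map_toShrink {T T' : Scheme.{u}ᵒᵖ} (φ : T ⟶ T') (x : G.obj T) :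
    (shrinkFun G).map φ (toShrink G T x) = toShrink G T' (G.map φ x) := by
  change equivShrink _ (G.map φ ((equivShrink _).symm (equivShrink _ x))) = _
  rw [Equiv.symm_apply_apply]
  rfl

theorem map_toShrink_symm {T T' : Scheme.{u}ᵒᵖ} (φ : T ⟶ T') (y : (shrinkFun G).obj T) :
    G.map φ ((toShrink G T).symm y) = (toShrink G T').symm ((shrinkFun G).map φ y) := by
  obtain ⟨x, rfl⟩ := (toShrink G T).surjective y
  rw [shrinkFun_map_toShrink, Equiv.symm_apply_apply, Equiv.symm_apply_apply]

theorem shrinkFun_isSheaf (hG : Presieve.IsSheaf Scheme.zariskiTopology G) :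
    Presieve.IsSheaf Scheme.zariskiTopology (shrinkFun G) :=
  Presieve.isSheaf_of_nat_equiv (fun T => toShrink G (op T))
    (fun _ _ f x => (shrinkFun_map_toShrink G f.op x).symm) hG

variable {G}

/-- The chart map. -/
noncomputable def chartMap {X : Scheme.{u}} (ξ : G.obj (op X)) : yoneda.obj X ⟶ shrinkFun G :=
  yonedaEquiv.symm (toShrink G _ ξ)

theorem chartMap_app {X : Scheme.{u}} (ξ : G.obj (op X)) {T' : Scheme.{u}} (b : T' ⟶ X) :
    (chartMap ξ).app (op T') b = toShrink G _ (G.map b.op ξ) :=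
  (yonedaEquiv_symm_app_apply (toShrink G _ ξ) (op T') b).trans (shrinkFun_map_toShrink G b.op ξ)

theorem app_eq_toShrink {T : Scheme.{u}} (g : yoneda.obj T ⟶ shrinkFun G) {T' : Scheme.{u}}
    (φ : T' ⟶ T) :
    g.app (op T') φ = toShrink G _ (G.map φ.op ((toShrink G _).symm (yonedaEquiv g))) := by
  rw [map_toShrink_symm, Equiv.apply_symm_apply, map_yonedaEquiv]

/-- A chart whose loci are open is relatively representable by open immersions. -/
theorem chartMap_isOpenImmersion {X : Scheme.{u}} (ξ : G.obj (op X))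
    (hchart : ∀ (T : Scheme.{u}) (x : G.obj (op T)), ∃ U : T.Opens, IsChartLocus G ξ x U) :
    IsOpenImmersion.presheaf (chartMap ξ) := by
  refine MorphismProperty.relative.of_exists fun T g => ?_
  obtain ⟨U, a, ha, huniv⟩ := hchart T ((toShrink G _).symm (yonedaEquiv g))
  refine ⟨U.toScheme, yoneda.map a, U.ι, ?_, inferInstance⟩
  refine IsPullback.of_forall_isPullback_app fun T' => ?_
  obtain ⟨T'⟩ := T'
  rw [Types.isPullback_iff]
  have hcomm : ∀ ψ : T' ⟶ U.toScheme,
      (chartMap ξ).app (op T') (ψ ≫ a) = g.app (op T') (ψ ≫ U.ι) := by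
    intro ψ
    rw [chartMap_app, app_eq_toShrink, op_comp, op_comp, Functor.map_comp_apply,
      Functor.map_comp_apply, ha]
  refine ⟨?_, ?_, ?_⟩
  · ext ψ
    exact hcomm ψ
  · rintro ψ ψ' ⟨-, h2⟩
    exact (cancel_mono U.ι).1 h2
  · intro b φ hbφ
    have h1 : (chartMap ξ).app (op T') b = g.app (op T') φ := hbφ
    rw [chartMap_app, app_eq_toShrink] at h1
    obtain ⟨ψ, h2, h3⟩ := huniv T' φ b ((toShrink G _).injective h1)
    exact ⟨ψ, h3, h2⟩

/-- Charts which cover are jointly locally surjective. -/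
theorem sigmaDesc_isLocallySurjective {ι : Type u} (X : ι → Scheme.{u})
    (ξ : ∀ i, G.obj (op (X i)))
    (hcover : ∀ (T : Scheme.{u}) (x : G.obj (op T)) (p : T), ∃ (i : ι) (U : T.Opens)
      (a : U.toScheme ⟶ X i), G.map a.op (ξ i) = G.map U.ι.op x ∧ p ∈ U) :
    Presheaf.IsLocallySurjective Scheme.zariskiTopology
      (Sigma.desc fun i => chartMap (ξ i)) := by
  constructor
  intro T s
  obtain ⟨x, rfl⟩ := (toShrink G (op T)).surjective s
  choose i U a ha hp using hcover T x
  refine Scheme.zariskiTopology.superset_covering ?_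
    (ofArrows_mem_of_forall U fun p => ⟨p, hp p⟩)
  rw [Sieve.ofArrows, Sieve.generate_le_iff, Presieve.ofArrows_le_iff]
  intro p
  refine ⟨(Sigma.ι (fun i => yoneda.obj (X i)) (i p)).app (op (U p).toScheme) (a p), ?_⟩
  have h1 : (Sigma.desc fun i => chartMap (ξ i)).app (op (U p).toScheme)
      ((Sigma.ι (fun i => yoneda.obj (X i)) (i p)).app (op (U p).toScheme) (a p)) =
      (chartMap (ξ (i p))).app (op (U p).toScheme) (a p) := by
    rw [← ConcreteCategory.comp_apply, ← NatTrans.comp_app, Sigma.ι_desc]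
  rw [h1, chartMap_app, ha, shrinkFun_map_toShrink]

end Shrink

/-- **Representability from charts.**  A Zariski sheaf `G : Schemeᵒᵖ ⥤ Type w` with a covering
family of charts whose loci are open has a universal element `u : G J`; the charts are open
subschemes of `J`, they cover `J`, and `u` restricts to the chart elements. -/
theorem exists_univElt_of_charts (G : Scheme.{u}ᵒᵖ ⥤ Type w)
    (hG : Presieve.IsSheaf Scheme.zariskiTopology G)
    {ι : Type u} (X : ι → Scheme.{u}) (ξ : ∀ i, G.obj (op (X i)))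
    (hchart : ∀ (i : ι) (T : Scheme.{u}) (x : G.obj (op T)),
      ∃ U : T.Opens, IsChartLocus G (ξ i) x U)
    (hcover : ∀ (T : Scheme.{u}) (x : G.obj (op T)) (p : T), ∃ (i : ι) (U : T.Opens)
      (a : U.toScheme ⟶ X i), G.map a.op (ξ i) = G.map U.ι.op x ∧ p ∈ U) :
    ∃ (J : Scheme.{u}) (u : G.obj (op J)) (j : ∀ i, X i ⟶ J),
      (∀ T : Scheme.{u}, Function.Bijective (fun g : T ⟶ J => G.map g.op u)) ∧
      (∀ i, IsOpenImmersion (j i)) ∧ (∀ i, G.map (j i).op u = ξ i) ∧
      (∀ p : J, ∃ i, p ∈ Set.range (j i)) := by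
  have hsmall : ∀ T : Scheme.{u}ᵒᵖ, Small.{u} (G.obj T) :=
    fun T => small_of_charts hG X ξ hcover T.unop
  let Fs : Sheaf Scheme.zariskiTopology (Type u) :=
    ⟨shrinkFun G, (isSheaf_iff_isSheaf_of_type _ _).2 (shrinkFun_isSheaf G hG)⟩
  let f : ∀ i, yoneda.obj (X i) ⟶ Fs.1 := fun i => chartMap (ξ i)
  have hf : ∀ i, IsOpenImmersion.presheaf (f i) :=
    fun i => chartMap_isOpenImmersion (ξ i) (hchart i)
  have hls : Presheaf.IsLocallySurjective Scheme.zariskiTopology (Sigma.desc f) :=
    sigmaDesc_isLocallySurjective X ξ hcover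
  let hrep := Scheme.LocalRepresentability.representableBy hf
  have hmap : ∀ {T : Scheme.{u}} (g : T ⟶ (Scheme.LocalRepresentability.glueData hf).glued),
      G.map g.op ((toShrink G _).symm (hrep.homEquiv (𝟙 _))) =
        (toShrink G _).symm (hrep.homEquiv g) := by
    intro T g
    rw [map_toShrink_symm]
    congr 1
    exact ((hrep.homEquiv_comp g (𝟙 _)).symm.trans (by rw [Category.comp_id]))
  refine ⟨(Scheme.LocalRepresentability.glueData hf).glued,
    (toShrink G _).symm (hrep.homEquiv (𝟙 _)),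
    fun i => Scheme.LocalRepresentability.toGlued hf i, ?_, ?_, ?_, ?_⟩
  · intro T
    have : (fun g : T ⟶ (Scheme.LocalRepresentability.glueData hf).glued =>
        G.map g.op ((toShrink G _).symm (hrep.homEquiv (𝟙 _)))) =
        (toShrink G _).symm ∘ hrep.homEquiv := by
      funext g
      exact hmap g
    rw [this]
    exact (toShrink G _).symm.bijective.comp hrep.homEquiv.bijective
  · intro i
    infer_instance
  · intro i
    rw [hmap]
    apply (toShrink G _).injective
    rw [Equiv.apply_symm_apply]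
    have h1 : hrep.homEquiv (Scheme.LocalRepresentability.toGlued hf i) =
        (Scheme.LocalRepresentability.yonedaGluedToSheaf hf).hom.app _
          (Scheme.LocalRepresentability.toGlued hf i) := rfl
    rw [h1]
    refine (Scheme.LocalRepresentability.yonedaGluedToSheaf_app_toGlued hf).trans ?_
    exact Equiv.apply_symm_apply yonedaEquiv _
  · intro p
    obtain ⟨i, y, hy⟩ := (Scheme.LocalRepresentability.glueData hf).ι_jointly_surjective p
    exact ⟨i, y, hy⟩

end Fermat.Agent.S25.Top.H25
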