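import Fermat.Agent.S25.Top.H25_RepYoneda

/-!
# S25, package TOP, part REP (helper25): the absolute sub-Picard functor

* `PicPt c ε P T` : pairs `(t, ξ)` of a structure map `t : T ⟶ Spec k` and a class
  `ξ : Classes c ε t` satisfying `P`.
* `picFun c ε P : Schemeᵒᵖ ⥤ Type (u + 1)` : the functor `T ↦ PicPt c ε P T`.
* `picModel c ε P : PicModel c ε P (picFun c ε P)`.
* `classesMap` calculus: `classesMap_id`, `classesMap_comp`.

Complete proofs, standard axioms only.
-/

set_option autoImplicit false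

open CategoryTheory CategoryTheory.Limits AlgebraicGeometry AlgebraicGeometry.RelPicard
  NeronModelInfra GoodReductionJacobian Opposite

universe u

namespace Fermat.Agent.S25.Top.H25

section Calculus

variable {k : Type u} [Field k] {C : Scheme.{u}} {c : C ⟶ Spec (CommRingCat.of k)}
  {ε : SchemeHomOver (𝟙 (Spec (CommRingCat.of k))) c}

theorem classesMap_mk {T T' : Scheme.{u}} {t : T ⟶ Spec (CommRingCat.of k)}
    {t' : T' ⟶ Spec (CommRingCat.of k)} (ψ : SchemeHomOver t' t)
    (M : RigidifiedLineBundle c ε t) :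
    RigidifiedLineBundle.classesMap ψ (Quotient.mk _ M) = Quotient.mk _ (M.pullbackAlong ψ) :=
  rfl

theorem classesMap_id {T : Scheme.{u}} {t : T ⟶ Spec (CommRingCat.of k)}
    (ψ : SchemeHomOver t t) (hψ : ψ.1 = 𝟙 T) (ξ : RigidifiedLineBundle.Classes c ε t) :
    RigidifiedLineBundle.classesMap ψ ξ = ξ := by
  obtain ⟨ψ₁, hψ₂⟩ := ψ
  obtain rfl : ψ₁ = 𝟙 T := hψ
  induction ξ using Quotient.ind with
  | _ M => exact Quotient.sound ⟨pullbackAlongIdIso M hψ₂⟩

theorem classesMap_comp {X X' T' : Scheme.{u}}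
    {x : X ⟶ Spec (CommRingCat.of k)} {x' : X' ⟶ Spec (CommRingCat.of k)}
    {t' : T' ⟶ Spec (CommRingCat.of k)}
    (φ : SchemeHomOver x x') (ψ : SchemeHomOver t' x) (χ : SchemeHomOver t' x')
    (h : ψ.1 ≫ φ.1 = χ.1) (ξ : RigidifiedLineBundle.Classes c ε x') :
    RigidifiedLineBundle.classesMap ψ (RigidifiedLineBundle.classesMap φ ξ) =
      RigidifiedLineBundle.classesMap χ ξ := by
  obtain rfl : postComp φ ψ = χ := Subtype.ext h
  induction ξ using Quotient.ind with
  | _ M => exact Quotient.sound ⟨pullbackAlongCompIso M φ ψ⟩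

end Calculus

section PicPt

variable {k : Type u} [Field k] {C : Scheme.{u}} (c : C ⟶ Spec (CommRingCat.of k))
  (ε : SchemeHomOver (𝟙 (Spec (CommRingCat.of k))) c) (P : SubPicCondition c ε)

/-- A class satisfies `P`. -/
def ClassMem {T : Scheme.{u}} {t : T ⟶ Spec (CommRingCat.of k)}
    (ξ : RigidifiedLineBundle.Classes c ε t) : Prop :=
  ∀ M : RigidifiedLineBundle c ε t, Quotient.mk _ M = ξ → P.P t M

variable {c ε}

theorem classMem_mk {T : Scheme.{u}} {t : T ⟶ Spec (CommRingCat.of k)}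
    (M : RigidifiedLineBundle c ε t) : ClassMem c ε P (Quotient.mk _ M) ↔ P.P t M :=
  ⟨fun h => h M rfl, fun h M' hM' => P.congr t M M' (Quotient.exact hM'.symm) h⟩

theorem ClassMem.map {T T' : Scheme.{u}} {t : T ⟶ Spec (CommRingCat.of k)}
    {t' : T' ⟶ Spec (CommRingCat.of k)} (ψ : SchemeHomOver t' t)
    {ξ : RigidifiedLineBundle.Classes c ε t} (h : ClassMem c ε P ξ) :
    ClassMem c ε P (RigidifiedLineBundle.classesMap ψ ξ) := by
  induction ξ using Quotient.ind with
  | _ M =>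
    rw [classesMap_mk, classMem_mk]
    exact P.pullback_mem t t' ψ M ((classMem_mk P M).1 h)

variable (c ε)

/-- A point of the absolute sub-Picard functor. -/
structure PicPt (T : Scheme.{u}) : Type (u + 1) where
  /-- the structure map -/
  str : T ⟶ Spec (CommRingCat.of k)
  /-- the class -/
  cls : RigidifiedLineBundle.Classes c ε str
  mem : ClassMem c ε P cls

variable {c ε P}

namespace PicPt

/-- Pull-back of points. -/
noncomputable def map {T T' : Scheme.{u}} (φ : T' ⟶ T) (x : PicPt c ε P T) : PicPt c ε P T' where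
  str := φ ≫ x.str
  cls := RigidifiedLineBundle.classesMap (⟨φ, rfl⟩ : SchemeHomOver (φ ≫ x.str) x.str) x.cls
  mem := x.mem.map P _

theorem ext_of {T : Scheme.{u}} (x y : PicPt c ε P T) (h : 𝟙 T ≫ x.str = y.str)
    (hc : RigidifiedLineBundle.classesMap (⟨𝟙 T, h⟩ : SchemeHomOver y.str x.str) x.cls = y.cls) :
    x = y := by
  obtain ⟨t, ξ, hξ⟩ := x
  obtain ⟨t', ξ', hξ'⟩ := y
  obtain rfl : t = t' := (Category.id_comp t).symm.trans h
  obtain rfl : ξ = ξ' := (classesMap_id _ rfl ξ).symm.trans hc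
  rfl

theorem ext_iff_of {T : Scheme.{u}} (x y : PicPt c ε P T) :
    x = y ↔ ∃ h : 𝟙 T ≫ x.str = y.str,
      RigidifiedLineBundle.classesMap (⟨𝟙 T, h⟩ : SchemeHomOver y.str x.str) x.cls = y.cls := by
  constructor
  · rintro rfl
    exact ⟨Category.id_comp _, classesMap_id _ rfl _⟩
  · rintro ⟨h, hc⟩
    exact ext_of x y h hc

theorem map_id {T : Scheme.{u}} (x : PicPt c ε P T) : x.map (𝟙 T) = x :=
  (ext_of x (x.map (𝟙 T)) rfl rfl).symm

theorem map_comp {T T' T'' : Scheme.{u}} (φ : T' ⟶ T) (ψ : T'' ⟶ T') (x : PicPt c ε P T) :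
    x.map (ψ ≫ φ) = (x.map φ).map ψ := by
  refine ext_of _ _ (by simp [map]) ?_
  simp only [map]
  rw [classesMap_comp _ _ (⟨ψ ≫ φ, by simp⟩ : SchemeHomOver (ψ ≫ φ ≫ x.str) x.str) (by simp),
    classesMap_comp (⟨φ, rfl⟩ : SchemeHomOver (φ ≫ x.str) x.str) ⟨ψ, rfl⟩
      (⟨ψ ≫ φ, by simp⟩ : SchemeHomOver (ψ ≫ φ ≫ x.str) x.str) rfl]

/-- The point of a rigidified line bundle. -/
noncomputable def mk' {T : Scheme.{u}} (t : T ⟶ Spec (CommRingCat.of k)) (M : RigidifiedLineBundle c ε t)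
    (hM : P.P t M) : PicPt c ε P T :=
  ⟨t, Quotient.mk _ M, (classMem_mk P M).2 hM⟩

end PicPt

variable (c ε P)

/-- The absolute sub-Picard functor. -/
noncomputable def picFun : Scheme.{u}ᵒᵖ ⥤ Type (u + 1) where
  obj T := PicPt c ε P T.unop
  map φ := TypeCat.ofHom (fun x => x.map φ.unop)
  map_id T := TypeCat.homEquiv.injective (funext fun x => PicPt.map_id x)
  map_comp φ ψ := TypeCat.homEquiv.injective (funext fun x => PicPt.map_comp φ.unop ψ.unop x)

variable {c ε P}

theorem picFun_map_apply {T T' : Scheme.{u}} (φ : T' ⟶ T) (x : PicPt c ε P T) :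
    (picFun c ε P).map φ.op x = x.map φ :=
  rfl

variable (c ε P)

/-- The absolute sub-Picard functor is a model of itself. -/
noncomputable def picModel : PicModel c ε P (picFun c ε P) where
  str x := PicPt.str x
  cls x := PicPt.cls x
  str_map _ _ := rfl
  cls_map _ _ := rfl
  mem x := x.mem
  classify t M hM := by
    refine ⟨PicPt.mk' t M hM, ⟨Category.id_comp t, ?_⟩, ?_⟩
    · exact (classesMap_id (⟨𝟙 _, Category.id_comp t⟩ : SchemeHomOver t t) rfl _).symm
    · rintro y ⟨h, hc⟩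
      refine (PicPt.ext_of (PicPt.mk' t M hM) y h ?_).symm
      rw [hc]
      rfl

end PicPt

end Fermat.Agent.S25.Top.H25
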