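import Fermat.Agent.S25.Top.Defs
import Fermat.Agent.S25.Top.H25_RepPic
import Fermat.Agent.S25.Top.H25_RepGlue

/-!
# S25, package TOP, part REP (helper25): `Stmt_REPLOCAL`

* `picFun_isSheaf` : the absolute sub-Picard functor of a Zariski-local condition is a Zariski
  sheaf, from `LocIso` and `Glue`.
* `stmt_REPLOCAL : Stmt_REPLOCAL` (helper32's `Top/Defs.lean`).  The hypothesis `SmallClasses`
  is not used.

Complete proofs, standard axioms only.
-/

set_option autoImplicit false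

open CategoryTheory CategoryTheory.Limits AlgebraicGeometry AlgebraicGeometry.RelPicard
  NeronModelInfra GoodReductionJacobian Opposite

universe u

namespace Fermat.Agent.S25.Top.H25

section Calculus2

variable {k : Type u} [Field k] {C : Scheme.{u}} {c : C ⟶ Spec (CommRingCat.of k)}
  {ε : SchemeHomOver (𝟙 (Spec (CommRingCat.of k))) c}

theorem classesMap_comp_eq {X₁ X₂ X' T' : Scheme.{u}}
    {x₁ : X₁ ⟶ Spec (CommRingCat.of k)} {x₂ : X₂ ⟶ Spec (CommRingCat.of k)}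
    {x' : X' ⟶ Spec (CommRingCat.of k)} {t' : T' ⟶ Spec (CommRingCat.of k)}
    (φ₁ : SchemeHomOver x₁ x') (ψ₁ : SchemeHomOver t' x₁)
    (φ₂ : SchemeHomOver x₂ x') (ψ₂ : SchemeHomOver t' x₂)
    (h : ψ₁.1 ≫ φ₁.1 = ψ₂.1 ≫ φ₂.1) (ξ : RigidifiedLineBundle.Classes c ε x') :
    RigidifiedLineBundle.classesMap ψ₁ (RigidifiedLineBundle.classesMap φ₁ ξ) =
      RigidifiedLineBundle.classesMap ψ₂ (RigidifiedLineBundle.classesMap φ₂ ξ) := by
  rw [classesMap_comp φ₁ ψ₁ (postComp φ₁ ψ₁) rfl, classesMap_comp φ₂ ψ₂ (postComp φ₁ ψ₁) h.symm]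

theorem classesMap_comp_eq' {X₁ X' T' : Scheme.{u}}
    {x₁ : X₁ ⟶ Spec (CommRingCat.of k)}
    {x' : X' ⟶ Spec (CommRingCat.of k)} {t' : T' ⟶ Spec (CommRingCat.of k)}
    (φ₁ : SchemeHomOver x₁ x') (ψ₁ : SchemeHomOver t' x₁)
    (χ : SchemeHomOver t' x')
    (h : ψ₁.1 ≫ φ₁.1 = χ.1) (ξ : RigidifiedLineBundle.Classes c ε x') :
    RigidifiedLineBundle.classesMap ψ₁ (RigidifiedLineBundle.classesMap φ₁ ξ) =
      RigidifiedLineBundle.classesMap χ ξ :=
  classesMap_comp φ₁ ψ₁ χ h ξ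

end Calculus2

section Sheaf

variable {k : Type u} [Field k] {C : Scheme.{u}} {c : C ⟶ Spec (CommRingCat.of k)}
  {ε : SchemeHomOver (𝟙 (Spec (CommRingCat.of k))) c} {P : SubPicCondition c ε}

/-- Equality of points in terms of classes over a common structure map. -/
theorem PicPt.eq_iff_classes {T : Scheme.{u}} (x y : PicPt c ε P T)
    {s : T ⟶ Spec (CommRingCat.of k)} (hx : 𝟙 T ≫ x.str = s) :
    x = y ↔ ∃ hy : 𝟙 T ≫ y.str = s,
      RigidifiedLineBundle.classesMap (⟨𝟙 T, hx⟩ : SchemeHomOver s x.str) x.cls =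
        RigidifiedLineBundle.classesMap (⟨𝟙 T, hy⟩ : SchemeHomOver s y.str) y.cls := by
  constructor
  · rintro rfl
    exact ⟨hx, rfl⟩
  · rintro ⟨hy, h⟩
    have hxy : 𝟙 T ≫ x.str = y.str := by
      rw [Category.id_comp] at hx hy ⊢
      rw [hx, hy]
    refine PicPt.ext_of x y hxy ?_
    have h2 := congrArg (RigidifiedLineBundle.classesMap
      (⟨𝟙 T, by rw [Category.id_comp]; rw [Category.id_comp] at hy; exact hy.symm⟩ :
        SchemeHomOver y.str s)) h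
    rw [classesMap_comp_eq' _ _ (⟨𝟙 T, hxy⟩ : SchemeHomOver y.str x.str) (by simp),
      classesMap_comp_eq' _ _ (⟨𝟙 T, Category.id_comp _⟩ : SchemeHomOver y.str y.str) (by simp),
      classesMap_id _ rfl] at h2
    exact h2


/-- The classes of `x.map φ` and of `x`. -/
theorem PicPt.map_eq_iff {T T' : Scheme.{u}} (φ : T' ⟶ T) (x : PicPt c ε P T)
    (y : PicPt c ε P T') :
    x.map φ = y ↔ ∃ hy : φ ≫ x.str = y.str,
      RigidifiedLineBundle.classesMap (⟨φ, hy⟩ : SchemeHomOver y.str x.str) x.cls = y.cls := by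
  rw [PicPt.ext_iff_of]
  constructor
  · rintro ⟨h, hc⟩
    have hy : φ ≫ x.str = y.str := (Category.id_comp _).symm.trans h
    refine ⟨hy, ?_⟩
    rw [← hc]
    exact (classesMap_comp_eq' (⟨φ, rfl⟩ : SchemeHomOver (φ ≫ x.str) x.str) ⟨𝟙 T', h⟩
      (⟨φ, hy⟩ : SchemeHomOver y.str x.str) (Category.id_comp φ) x.cls).symm
  · rintro ⟨hy, hc⟩
    have h : 𝟙 T' ≫ (x.map φ).str = y.str := (Category.id_comp _).trans hy
    refine ⟨h, ?_⟩
    rw [← hc]
    exact classesMap_comp_eq' (⟨φ, rfl⟩ : SchemeHomOver (φ ≫ x.str) x.str) ⟨𝟙 T', h⟩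
      (⟨φ, hy⟩ : SchemeHomOver y.str x.str) (Category.id_comp φ) x.cls

theorem nonempty_iso_of_mk_eq {T : Scheme.{u}} {t : T ⟶ Spec (CommRingCat.of k)}
    (M M' : RigidifiedLineBundle c ε t)
    (h : (Quotient.mk _ M : RigidifiedLineBundle.Classes c ε t) = Quotient.mk _ M') :
    Nonempty (M.L ≅ M'.L) :=
  Quotient.exact h

/-- Points of the absolute sub-Picard functor glue uniquely along open covers. -/
theorem PicPt.glue (hloc : IsLocalCond c ε P) (hiso : LocIso c ε) (hglue : Glue c ε)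
    {T : Scheme.{u}} (𝒰 : Scheme.OpenCover.{u} T) (x : ∀ i, PicPt c ε P (𝒰.X i))
    (hx' : ∀ i j, (x i).map (pullback.fst (𝒰.f i) (𝒰.f j)) =
      (x j).map (pullback.snd (𝒰.f i) (𝒰.f j))) :
    ∃! X : PicPt c ε P T, ∀ i, X.map (𝒰.f i) = x i := by
  -- the structure map
  obtain ⟨t, ht⟩ : ∃ t : T ⟶ Spec (CommRingCat.of k), ∀ i, 𝒰.f i ≫ t = (x i).str :=
    ⟨𝒰.glueMorphisms (fun i => (x i).str) (fun i j => congrArg PicPt.str (hx' i j)),
      fun i => 𝒰.ι_glueMorphisms _ _ i⟩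
  -- representatives, transported to the structure maps `𝒰.f i ≫ t`
  have e1 : ∀ i, 𝟙 (𝒰.X i) ≫ (x i).str = 𝒰.f i ≫ t :=
    fun i => (Category.id_comp _).trans (ht i).symm
  obtain ⟨M', hM', hPM'⟩ : ∃ M' : ∀ i, RigidifiedLineBundle c ε (𝒰.f i ≫ t),
      (∀ i, (Quotient.mk _ (M' i) : RigidifiedLineBundle.Classes c ε (𝒰.f i ≫ t)) =
        RigidifiedLineBundle.classesMap (⟨𝟙 _, e1 i⟩ : SchemeHomOver (𝒰.f i ≫ t) (x i).str)
          (x i).cls) ∧ ∀ i, P.P _ (M' i) := by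
    choose M hM using fun i => Quotient.exists_rep (x i).cls
    refine ⟨fun i => (M i).pullbackAlong ⟨𝟙 _, e1 i⟩, fun i => ?_, fun i => ?_⟩
    · rw [← hM i]
      rfl
    · exact P.pullback_mem _ _ _ (M i) ((x i).mem (M i) (hM i))
  -- the compatibility on overlaps
  have hcompat : ∀ i j, Nonempty
      (((M' i).pullbackAlong
          (⟨pullback.fst (𝒰.f i) (𝒰.f j), rfl⟩ :
            SchemeHomOver (pullback.fst (𝒰.f i) (𝒰.f j) ≫ 𝒰.f i ≫ t) (𝒰.f i ≫ t))).L ≅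
        ((M' j).pullbackAlong
          (⟨pullback.snd (𝒰.f i) (𝒰.f j), by
              rw [← Category.assoc, ← pullback.condition, Category.assoc]⟩ :
            SchemeHomOver (pullback.fst (𝒰.f i) (𝒰.f j) ≫ 𝒰.f i ≫ t) (𝒰.f j ≫ t))).L) := by
    intro i j
    apply nonempty_iso_of_mk_eq
    refine (classesMap_mk _ (M' i)).symm.trans (Eq.trans ?_ (classesMap_mk _ (M' j)))
    rw [hM' i, hM' j]
    obtain ⟨hy, hc⟩ := (PicPt.map_eq_iff (pullback.fst (𝒰.f i) (𝒰.f j)) (x i)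
      ((x j).map (pullback.snd (𝒰.f i) (𝒰.f j)))).1 (hx' i j)
    have hθ : 𝟙 _ ≫ ((x j).map (pullback.snd (𝒰.f i) (𝒰.f j))).str =
        pullback.fst (𝒰.f i) (𝒰.f j) ≫ 𝒰.f i ≫ t := by
      rw [Category.id_comp, ← hy, ht i]
    have h2 := congrArg (RigidifiedLineBundle.classesMap
      (⟨𝟙 _, hθ⟩ : SchemeHomOver (pullback.fst (𝒰.f i) (𝒰.f j) ≫ 𝒰.f i ≫ t)
        ((x j).map (pullback.snd (𝒰.f i) (𝒰.f j))).str)) hc
    refine (classesMap_comp_eq _ _ _ _ ?_ _).trans (h2.trans (classesMap_comp_eq _ _ _ _ ?_ _))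
    · simp
    · simp
  obtain ⟨N, hN⟩ := hglue t 𝒰 M' hcompat
  have hPN : P.P t N := hloc t N 𝒰 (fun i => P.congr _ (M' i) _ ⟨(hN i).some.symm⟩ (hPM' i))
  have hNcls : ∀ i, RigidifiedLineBundle.classesMap (overOf t (𝒰.f i)) (Quotient.mk _ N) =
      RigidifiedLineBundle.classesMap (⟨𝟙 _, e1 i⟩ : SchemeHomOver (𝒰.f i ≫ t) (x i).str)
        (x i).cls :=
    fun i => (Quotient.sound (hN i)).trans (hM' i)
  refine ⟨⟨t, Quotient.mk _ N, (classMem_mk P N).2 hPN⟩, fun i => ?_, fun Y hY => ?_⟩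
  · rw [PicPt.map_eq_iff]
    refine ⟨ht i, ?_⟩
    have h2 := congrArg (RigidifiedLineBundle.classesMap
      (⟨𝟙 _, (Category.id_comp _).trans (ht i)⟩ : SchemeHomOver (x i).str (𝒰.f i ≫ t)))
      (hNcls i)
    refine Eq.trans ?_ (h2.trans ?_)
    · exact (classesMap_comp_eq' _ _ (⟨𝒰.f i, ht i⟩ : SchemeHomOver (x i).str t)
        (by simp) _).symm
    · rw [classesMap_comp_eq' _ _
        (⟨𝟙 _, Category.id_comp _⟩ : SchemeHomOver (x i).str (x i).str) (by simp),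
        classesMap_id _ rfl]
  · have hYi : ∀ i, ∃ hy : 𝒰.f i ≫ Y.str = (x i).str,
        RigidifiedLineBundle.classesMap (⟨𝒰.f i, hy⟩ : SchemeHomOver (x i).str Y.str) Y.cls =
          (x i).cls := fun i => (PicPt.map_eq_iff _ _ _).1 (hY i)
    have hstr : Y.str = t := 𝒰.hom_ext _ _ (fun i => (hYi i).1.trans (ht i).symm)
    obtain ⟨N', hN'⟩ := Quotient.exists_rep Y.cls
    have hθ : 𝟙 T ≫ Y.str = t := (Category.id_comp _).trans hstr
    have hNN : Nonempty (N.L ≅ (N'.pullbackAlong (⟨𝟙 _, hθ⟩ : SchemeHomOver t Y.str)).L) := by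
      refine hiso t N (N'.pullbackAlong ⟨𝟙 _, hθ⟩) 𝒰 (fun i => nonempty_iso_of_mk_eq _ _ ?_)
      refine (classesMap_mk _ N).symm.trans (Eq.trans ?_ (classesMap_mk _ _))
      refine (hNcls i).trans ?_
      rw [← (hYi i).2]
      refine (classesMap_comp_eq _ _ (⟨𝟙 _, hθ⟩ : SchemeHomOver t Y.str)
        (overOf t (𝒰.f i)) (by simp) _).trans ?_
      rw [← hN']
      rfl
    have h : 𝟙 T ≫ t = Y.str := (Category.id_comp _).trans hstr.symm
    refine (PicPt.ext_of ⟨t, Quotient.mk _ N, (classMem_mk P N).2 hPN⟩ Y h ?_).symm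
    change RigidifiedLineBundle.classesMap (⟨𝟙 T, h⟩ : SchemeHomOver Y.str t)
      (Quotient.mk _ N) = Y.cls
    have h3 : (Quotient.mk _ N : RigidifiedLineBundle.Classes c ε t) =
        RigidifiedLineBundle.classesMap (⟨𝟙 _, hθ⟩ : SchemeHomOver t Y.str) Y.cls := by
      rw [← hN']
      exact Quotient.sound hNN
    rw [h3, classesMap_comp_eq' _ _ (⟨𝟙 _, Category.id_comp _⟩ : SchemeHomOver Y.str Y.str)
        (by simp), classesMap_id _ rfl]

variable (c ε P)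

/-- The absolute sub-Picard functor of a Zariski-local condition is a Zariski sheaf. -/
theorem picFun_isSheaf (hloc : IsLocalCond c ε P) (hiso : LocIso c ε) (hglue : Glue c ε) :
    Presieve.IsSheaf Scheme.zariskiTopology (picFun c ε P) := by
  rw [Precoverage.isSheaf_toGrothendieck_iff_of_isStableUnderBaseChange_of_small.{u}]
  intro T (𝒰 : Scheme.OpenCover.{u} T)
  change Presieve.IsSheafFor _ (Presieve.ofArrows 𝒰.X 𝒰.f)
  rw [Presieve.isSheafFor_arrows_iff_pullbacks]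
  intro x hx
  exact PicPt.glue hloc hiso hglue 𝒰 x (fun i j => hx i j)

end Sheaf

section Charts

variable {k : Type u} [Field k] {C : Scheme.{u}} {c : C ⟶ Spec (CommRingCat.of k)}
  {ε : SchemeHomOver (𝟙 (Spec (CommRingCat.of k))) c} {P : SubPicCondition c ε}

/-- The point of a chart. -/
noncomputable def chartPt (𝒳 : ChartFamily c ε P) (a : 𝒳.ι) : PicPt c ε P (𝒳.X a) :=
  ⟨𝒳.x a, Quotient.mk _ (𝒳.𝓛 a), (classMem_mk P _).2 (𝒳.mem a)⟩

/-- The dictionary between the functor and classifying maps into a chart. -/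
theorem chartPt_map_eq_iff (𝒳 : ChartFamily c ε P) (a : 𝒳.ι) {T T' : Scheme.{u}}
    (x : PicPt c ε P T) (M : RigidifiedLineBundle c ε x.str) (hM : Quotient.mk _ M = x.cls)
    (φ : T' ⟶ T) (b : T' ⟶ 𝒳.X a) :
    (chartPt 𝒳 a).map b = x.map φ ↔
      ∃ g : SchemeHomOver (φ ≫ x.str) (𝒳.x a),
        g.1 = b ∧ Classifies (𝒳.𝓛 a) (M.pullbackAlong (overOf x.str φ)) g := by
  rw [PicPt.map_eq_iff]
  have hcls : (x.map φ).cls = Quotient.mk _ (M.pullbackAlong (overOf x.str φ)) := by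
    change RigidifiedLineBundle.classesMap _ x.cls = _
    rw [← hM]
    rfl
  constructor
  · rintro ⟨hy, hc⟩
    refine ⟨⟨b, hy⟩, rfl, nonempty_iso_of_mk_eq _ _ ?_⟩
    exact (classesMap_mk _ _).symm.trans (hc.trans hcls)
  · rintro ⟨⟨g, hg⟩, rfl, hcl⟩
    refine ⟨hg, ?_⟩
    exact (classesMap_mk _ _).trans ((Quotient.sound hcl).trans hcls.symm)

end Charts

/-- **REPLOCAL**: a Zariski-local sub-Picard condition with a covering family of charts is
representable; the charts are an open cover of the representing scheme and the Poincaré bundle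
restricts to the chart bundles.  (The hypothesis `SmallClasses` is not used.) -/
theorem stmt_REPLOCAL : Stmt_REPLOCAL.{u} := by
  intro k _ C c ε P' 𝒳 hloc hiso hglue _ hmono hopen hcover
  have hG : Presieve.IsSheaf Scheme.zariskiTopology (picFun c ε P') :=
    picFun_isSheaf c ε P' hloc hiso hglue
  -- the charts are monomorphisms
  have hmono' : ∀ (a : 𝒳.ι) (T' : Scheme.{u}) (b b' : T' ⟶ 𝒳.X a),
      (chartPt 𝒳 a).map b = (chartPt 𝒳 a).map b' → b = b' := by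
    intro a T' b b' h
    obtain ⟨g, rfl, hg⟩ := (chartPt_map_eq_iff 𝒳 a (chartPt 𝒳 a) (𝒳.𝓛 a) rfl b' b).1 h
    exact congrArg Subtype.val (hmono a _ g (overOf (𝒳.x a) b') hg)
  -- the chart loci are open
  have hchart : ∀ (a : 𝒳.ι) (T : Scheme.{u}) (x : (picFun c ε P').obj (op T)),
      ∃ U : T.Opens, IsChartLocus (picFun c ε P') (chartPt 𝒳 a) x U := by
    intro a T x
    obtain ⟨M, hM⟩ := Quotient.exists_rep (PicPt.cls x)
    obtain ⟨U, hU⟩ := hopen a (PicPt.str x) M (PicPt.mem x M hM)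
    refine ⟨U, isChartLocus_of _ _ U (hmono' a) ?_ ?_⟩
    · obtain ⟨g, hg⟩ := (hU U.ι).1 (by rw [Scheme.Opens.range_ι])
      exact ⟨g.1, (chartPt_map_eq_iff 𝒳 a x M hM U.ι g.1).2 ⟨g, rfl, hg⟩⟩
    · intro T' φ b hb
      obtain ⟨g, -, hg⟩ := (chartPt_map_eq_iff 𝒳 a x M hM φ b).1 hb
      exact (hU φ).2 ⟨g, hg⟩
  -- the charts cover
  have hcov : ∀ (T : Scheme.{u}) (x : (picFun c ε P').obj (op T)) (p : T),
      ∃ (a : 𝒳.ι) (U : T.Opens) (b : U.toScheme ⟶ 𝒳.X a),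
        (picFun c ε P').map b.op (chartPt 𝒳 a) = (picFun c ε P').map U.ι.op x ∧ p ∈ U := by
    intro T x p
    obtain ⟨M, hM⟩ := Quotient.exists_rep (PicPt.cls x)
    obtain ⟨a, U, hp, g, hg⟩ := hcover (PicPt.str x) M (PicPt.mem x M hM) p
    exact ⟨a, U, g.1, (chartPt_map_eq_iff 𝒳 a x M hM U.ι g.1).2 ⟨g, rfl, hg⟩, hp⟩
  obtain ⟨J, u, j, hu, hj, hju, hJ⟩ :=
    exists_univElt_of_charts (picFun c ε P') hG 𝒳.X (chartPt 𝒳) hchart hcov
  have hju' : ∀ a, ∃ hy : j a ≫ PicPt.str u = 𝒳.x a,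
      RigidifiedLineBundle.classesMap (⟨j a, hy⟩ : SchemeHomOver (𝒳.x a) (PicPt.str u))
        (PicPt.cls u) = Quotient.mk _ (𝒳.𝓛 a) :=
    fun a => (PicPt.map_eq_iff (j a) u (chartPt 𝒳 a)).1 (hju a)
  refine ⟨(picModel c ε P').designation u hu, (picModel c ε P').represents u hu,
    fun a => ⟨j a, (hju' a).1⟩, hj, ?_, fun a => ?_⟩
  · intro p
    obtain ⟨a, y, hy⟩ := hJ p
    exact ⟨a, y, hy⟩
  · obtain ⟨hy, hc⟩ := hju' a
    refine nonempty_iso_of_mk_eq _ _ ?_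
    refine (classesMap_mk _ _).symm.trans (Eq.trans ?_ hc)
    exact congrArg _ ((picModel c ε P').jacPoin_mk u)

end Fermat.Agent.S25.Top.H25
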