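/-
helper72, S25 package TOP-SURJ, leaf S-UNITBC: unit triples exist, are unique up to isomorphism,
closed under isomorphism, and stable under base change.

* `isUnitR_iff`  : `IsUnitR U` iff `U` is isomorphic to `H60.unitTriple`;
* `bcUnit`       : the unit triple over `R'` is the base change of the unit triple over `R`;
* `stmt_UNITBC : Stmt_UNITBC`.
-/
import Fermat.Agent.S25.Top.DefsS
import Fermat.Agent.S25.LB.H60_Tens
import Fermat.Agent.S25.LB.H73_BCUniq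

set_option autoImplicit false
set_option linter.style.haveILetI false
set_option linter.unusedSectionVars false

universe u

open TensorProduct

namespace Fermat.Agent.S25.Top.S.H72

open Fermat.Agent.S25 Fermat.Agent.S25.LB Fermat.Agent.S25.Chart

variable {k : Type u} [Field k] {𝒞 : CurveDatum k} {R : Type u} [CommRing R] [Algebra k R]
  {R' : Type u} [CommRing R'] [Algebra k R']

/-- `IsUnitR U` says that `U` is isomorphic to the unit triple. -/
theorem isUnitR_iff (h : 𝒞.IsGood) (U : Triple 𝒞 R) :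
    IsUnitR U ↔ Nonempty (Triple.Iso U (H60.unitTriple 𝒞 R h)) := by
  constructor
  · rintro ⟨e0, e1, e01, h0, h1⟩
    exact ⟨⟨e0, e1, e01, h0, h1⟩⟩
  · rintro ⟨I⟩
    exact ⟨I.e0, I.e1, I.e01, I.comm0, I.comm1⟩

/-- The unit triple over `R'` is the base change of the unit triple over `R`. -/
noncomputable def bcUnit (h : 𝒞.IsGood) (f : R →ₐ[k] R') :
    BC f (H60.unitTriple 𝒞 R h) (H60.unitTriple 𝒞 R' h) where
  b0 := (tmap f 𝒞.B0).toRingHom.toAddMonoidHom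
  b1 := (tmap f 𝒞.B1).toRingHom.toAddMonoidHom
  b01 := (tmap f 𝒞.B01).toRingHom.toAddMonoidHom
  semi0 := fun c q => map_mul (tmap f 𝒞.B0) c q
  semi1 := fun c q => map_mul (tmap f 𝒞.B1) c q
  semi01 := fun c q => map_mul (tmap f 𝒞.B01) c q
  comm0 := fun q => H73.tmap_ι0 f q
  comm1 := fun q => H73.tmap_ι1 f q
  gen0 := by
    have h1 : (1 : R' ⊗[k] 𝒞.B0) ∈ Submodule.span (R' ⊗[k] 𝒞.B0)
        (Set.range ((tmap f 𝒞.B0).toRingHom.toAddMonoidHom)) :=
      Submodule.subset_span ⟨1, map_one (tmap f 𝒞.B0)⟩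
    exact (Ideal.eq_top_iff_one _).mpr h1
  gen1 := by
    have h1 : (1 : R' ⊗[k] 𝒞.B1) ∈ Submodule.span (R' ⊗[k] 𝒞.B1)
        (Set.range ((tmap f 𝒞.B1).toRingHom.toAddMonoidHom)) :=
      Submodule.subset_span ⟨1, map_one (tmap f 𝒞.B1)⟩
    exact (Ideal.eq_top_iff_one _).mpr h1

/-- **S-UNITBC**. -/
theorem stmt_UNITBC : Stmt_UNITBC.{u} := by
  intro k _ 𝒞 h R _ _
  refine ⟨⟨H60.unitTriple 𝒞 R h, (isUnitR_iff h _).mpr ⟨H60.isoRefl _⟩⟩, ?_, ?_, ?_⟩
  · intro U U' hU hU'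
    obtain ⟨I⟩ := (isUnitR_iff h U).mp hU
    obtain ⟨I'⟩ := (isUnitR_iff h U').mp hU'
    exact ⟨H60.isoTrans I (H60.isoSymm I')⟩
  · rintro U U' hU ⟨J⟩
    obtain ⟨I⟩ := (isUnitR_iff h U).mp hU
    exact (isUnitR_iff h U').mpr ⟨H60.isoTrans (H60.isoSymm J) I⟩
  · rintro R' _ _ f U U' hU ⟨β⟩
    exact (isUnitR_iff h U').mpr
      (H73.stmt_BCUNIQ k 𝒞 h R R' f U (H60.unitTriple 𝒞 R h) U' (H60.unitTriple 𝒞 R' h) β
        (bcUnit h f) ((isUnitR_iff h U).mp hU))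

end Fermat.Agent.S25.Top.S.H72
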