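import Fermat.Agent.S25.Top.H47_SFamEx
import Fermat.Agent.S25.Top.H72_SUnitBC
import Fermat.Agent.S25.LB.H36_BC

/-!
# S25, TOP-SURJ, leaf `S-FAMBC` (wiring)

helper26.  `fambc_of : Stmt_GRINV → Stmt_GRBC → Stmt_TWBC → Stmt_FAMBC`: the family
`O(Σ Γ_(β j) - g ε)` commutes with base change.  Plugged in (all unconditional on main):
`H72.stmt_UNITBC` (S-UNITBC), `H47.stmt_RELDIV` (S-RELDIV, through `H47.isRelDiv_div/pow`),
`LB.H36.stmt_BCEX` (LB-BCEX).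

Proof: `IsFam β N` gives `U` (unit), `N₁`, `U → N₁` (twist by `div β`), `N → N₁` (twist by `g ε`).
Choose base changes `U'`, `N₁'` of `U`, `N₁` (LB-BCEX); `U'` is a unit (S-UNITBC); S-TWBC twice, with
`(div β).map = div (β.map f)` and `(gr ε ^ g).map = gr ε' ^ g` (S-GRBC, `Ideal.map_prod`, `Ideal.map_pow`,
`basePt.map f = basePt`).
-/

set_option autoImplicit false
set_option linter.style.haveILetI false

universe u

open TensorProduct

namespace Fermat.Agent.S25.Top.S.H26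

open Fermat.Agent.S25 Fermat.Agent.S25.LB Fermat.Agent.S25.Top.S

variable {k : Type u} [Field k] {𝒞 : CurveDatum k} {R R' : Type u} [CommRing R] [Algebra k R]
  [CommRing R'] [Algebra k R']

/-- the base point is stable under base change -/
theorem basePt_map (f : R →ₐ[k] R') : (basePt 𝒞 R).map f = basePt 𝒞 R' := by
  unfold basePt CPt.map
  simp only [Sum.map_inr]
  congr 1
  ext b
  simp [Algebra.ofId_apply]

/-- `Ideal.map` commutes with finite products -/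
theorem ideal_map_finprod {A B : Type*} [CommRing A] [CommRing B] {F : Type*} [FunLike F A B]
    [RingHomClass F A B] (φ : F) {ι : Type*} (s : Finset ι) (J : ι → Ideal A) :
    (∏ i ∈ s, J i).map φ = ∏ i ∈ s, (J i).map φ :=
  map_prod (Ideal.mapHom φ) J s

/-- `div0` commutes with base change (from S-GRBC) -/
theorem div0_map (hB : Stmt_GRBC.{u}) (hC : 𝒞.IsGood) (f : R →ₐ[k] R') {g : ℕ}
    (β : Fin g → CPt 𝒞 R) :
    div0 (fun j => (β j).map f) = (div0 β).map (Chart.tmap f 𝒞.B0) := by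
  unfold div0
  rw [ideal_map_finprod]
  exact Finset.prod_congr rfl fun j _ => (hB k 𝒞 hC R R' f (β j)).1

/-- `div1` commutes with base change (from S-GRBC) -/
theorem div1_map (hB : Stmt_GRBC.{u}) (hC : 𝒞.IsGood) (f : R →ₐ[k] R') {g : ℕ}
    (β : Fin g → CPt 𝒞 R) :
    div1 (fun j => (β j).map f) = (div1 β).map (Chart.tmap f 𝒞.B1) := by
  unfold div1
  rw [ideal_map_finprod]
  exact Finset.prod_congr rfl fun j _ => (hB k 𝒞 hC R R' f (β j)).2

/-- the ideal of `g ε` on `V0` commutes with base change (from S-GRBC) -/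
theorem basePow0_map (hB : Stmt_GRBC.{u}) (hC : 𝒞.IsGood) (f : R →ₐ[k] R') (g : ℕ) :
    gr0 (basePt 𝒞 R') ^ g = (gr0 (basePt 𝒞 R) ^ g).map (Chart.tmap f 𝒞.B0) := by
  rw [Ideal.map_pow, ← (hB k 𝒞 hC R R' f (basePt 𝒞 R)).1, basePt_map]

/-- the ideal of `g ε` on `V1` commutes with base change (from S-GRBC) -/
theorem basePow1_map (hB : Stmt_GRBC.{u}) (hC : 𝒞.IsGood) (f : R →ₐ[k] R') (g : ℕ) :
    gr1 (basePt 𝒞 R') ^ g = (gr1 (basePt 𝒞 R) ^ g).map (Chart.tmap f 𝒞.B1) := by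
  rw [Ideal.map_pow, ← (hB k 𝒞 hC R R' f (basePt 𝒞 R)).2, basePt_map]

/-- **S-FAMBC** from S-GRINV, S-GRBC, S-TWBC (S-UNITBC, S-RELDIV, LB-BCEX are plugged in). -/
theorem fambc_of (hG : Stmt_GRINV.{u}) (hB : Stmt_GRBC.{u}) (hT : Stmt_TWBC.{u}) :
    Stmt_FAMBC.{u} := by
  intro k _ _ 𝒞 hC R R' _ _ _ _ f g β N N' hN hNN'
  obtain ⟨U, N₁, hU, hUN₁, hNN₁⟩ := hN
  obtain ⟨U', hUU'⟩ := LB.H36.stmt_BCEX k 𝒞 hC R R' f U
  obtain ⟨N₁', hN₁N₁'⟩ := LB.H36.stmt_BCEX k 𝒞 hC R R' f N₁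
  have hU' : IsUnitR U' := (H72.stmt_UNITBC k 𝒞 hC R).2.2.2 R' f U U' hU hUU'
  -- the divisors
  have hdiv : IsRelDiv (div0 β) (div1 β) := H47.isRelDiv_div hC β fun j => hG k 𝒞 hC R (β j)
  have hdiv' : IsRelDiv (div0 fun j => (β j).map f) (div1 fun j => (β j).map f) :=
    H47.isRelDiv_div hC _ fun j => hG k 𝒞 hC R' ((β j).map f)
  have hbase : IsRelDiv (gr0 (basePt 𝒞 R) ^ g) (gr1 (basePt 𝒞 R) ^ g) :=
    H47.isRelDiv_pow hC (hG k 𝒞 hC R (basePt 𝒞 R)) g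
  have hbase' : IsRelDiv (gr0 (basePt 𝒞 R') ^ g) (gr1 (basePt 𝒞 R') ^ g) :=
    H47.isRelDiv_pow hC (hG k 𝒞 hC R' (basePt 𝒞 R')) g
  rw [div0_map hB hC f β, div1_map hB hC f β] at hdiv'
  rw [basePow0_map hB hC f g, basePow1_map hB hC f g] at hbase'
  refine ⟨U', N₁', hU', ?_, ?_⟩
  · rw [div0_map hB hC f β, div1_map hB hC f β]
    exact hT k 𝒞 hC R R' f _ _ hdiv hdiv' U N₁ U' N₁' hUN₁ hUU' hN₁N₁'
  · rw [basePow0_map hB hC f g, basePow1_map hB hC f g]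
    exact hT k 𝒞 hC R R' f _ _ hbase hbase' N N₁ N' N₁' hNN₁ hNN' hN₁N₁'

end Fermat.Agent.S25.Top.S.H26
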