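/-
S25 (row 24), package TOP, sub-package TOP-SURJ (helper45), leaf S-TWEX (helper29):
twists by relative effective Cartier divisors exist.

`D = (J0, J1)` a relative effective Cartier divisor on `C × Spec R` (`IsRelDiv`), `L` a triple.

* `idealMap`, `isLocMod_idealMap` : the restriction of a localisation `φ : S → S'` to an ideal `J`
  is a localisation `J → J S'`;
* `idealTriple h J0 J1 hJ : Triple 𝒞 R`, the triple `O(-D) = (J0, J1, J0 · (R ⊗ B01))`;
* `mulLin J P : J ⊗ P → P`, `mulLin_injective` (`P` invertible), `range_mulLin`;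
* `mulHom h J0 J1 hJ L : Hom (O(-D) ⊗ L) L`, `twistBy_mulHom` : it is a twist by `D`
  (`L(-D) = O(-D) ⊗ L`);
* `twUp`, `twUpIso`, `twUpHom`, `twistBy_twUpHom` : `L(D) = O(-D)^∨ ⊗ L` with `L → L(D)`;
* `stmt_TWEX : Stmt_TWEX`.
-/
import Fermat.Agent.S25.Top.DefsS
import Fermat.Agent.S25.LB.H60_Dual
import Fermat.Agent.S25.LB.H74_Hom

set_option autoImplicit false
set_option linter.style.haveILetI false
set_option linter.unusedSectionVars false

universe u

open TensorProduct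

noncomputable section

namespace Fermat.Agent.S25.Top.S.H29

open Fermat.Agent.S25 Fermat.Agent.S25.LB Fermat.Agent.S25.LB.H60 Fermat.Agent.S25.LB.H74

/-! ### Ideals and localisation -/

section Abstract

variable {S S' : Type u} [CommRing S] [CommRing S'] {φ : S →+* S'} {x : S}

/-- The restriction of `φ` to an ideal `J`, with values in an ideal containing `φ J`. -/
def idealMap (J : Ideal S) (J' : Ideal S') (hJ : J.map φ ≤ J') : ↥J →ₛₗ[φ] ↥J' where
  toFun j := ⟨φ j, hJ (Ideal.mem_map_of_mem φ j.2)⟩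
  map_add' a b := Subtype.ext (by
    show φ ((a : S) + (b : S)) = φ a + φ b
    rw [map_add])
  map_smul' c j := Subtype.ext (by
    show φ (c * (j : S)) = φ c * φ j
    rw [map_mul])

theorem idealMap_coe (J : Ideal S) (J' : Ideal S') (hJ : J.map φ ≤ J') (j : ↥J) :
    ((idealMap J J' hJ j : ↥J') : S') = φ j := rfl

theorem exists_pow_mul_eq_of_mem_map (hS : IsLocRing φ x) (J : Ideal S) {a : S'}
    (ha : a ∈ J.map φ) : ∃ (n : ℕ) (p : S), p ∈ J ∧ φ x ^ n * a = φ p := by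
  unfold Ideal.map at ha
  induction ha using Submodule.span_induction with
  | mem a ha =>
    obtain ⟨j, hj, rfl⟩ := ha
    exact ⟨0, j, hj, by rw [pow_zero, one_mul]⟩
  | zero => exact ⟨0, 0, J.zero_mem, by rw [mul_zero, map_zero]⟩
  | add a b _ _ ha hb =>
    obtain ⟨n, p, hp, h1⟩ := ha
    obtain ⟨n', p', hp', h2⟩ := hb
    refine ⟨n + n', x ^ n' * p + x ^ n * p',
      J.add_mem (J.mul_mem_left _ hp) (J.mul_mem_left _ hp'), ?_⟩
    rw [map_add, map_mul, map_mul, map_pow, map_pow, ← h1, ← h2, pow_add]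
    ring
  | smul c a _ ha =>
    obtain ⟨n, p, hp, h1⟩ := ha
    obtain ⟨m, s, hs⟩ := hS.surj c
    refine ⟨m + n, s * p, J.mul_mem_left _ hp, ?_⟩
    rw [map_mul, ← h1, ← hs, pow_add, smul_eq_mul]
    ring

/-- The restriction of a localisation to an ideal is a localisation. -/
theorem isLocMod_idealMap (hS : IsLocRing φ x) (J : Ideal S) (J' : Ideal S')
    (hJ : J.map φ = J') : IsLocMod φ x (idealMap J J' hJ.le) where
  surj := fun m => by
    obtain ⟨n, p, hp, h⟩ := exists_pow_mul_eq_of_mem_map hS J (hJ ▸ m.2 : (m : S') ∈ J.map φ)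
    exact ⟨n, ⟨p, hp⟩, Subtype.ext h⟩
  ker := fun p hp => by
    obtain ⟨n, hn⟩ := hS.ker (p : S) (congrArg Subtype.val hp)
    exact ⟨n, Subtype.ext hn⟩

end Abstract

/-! ### Multiplication `J ⊗ P → P` -/

section Mul

variable {A : Type u} [CommRing A] (J : Ideal A) (P : Type u) [AddCommGroup P] [Module A P]

/-- The multiplication `J ⊗ P → P`. -/
def mulLin : ↥J ⊗[A] P →ₗ[A] P :=
  TensorProduct.lift ((LinearMap.lsmul A P).comp J.subtype)

@[simp] theorem mulLin_tmul (j : ↥J) (p : P) : mulLin J P (j ⊗ₜ[A] p) = (j : A) • p := by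
  unfold mulLin
  rw [TensorProduct.lift.tmul]
  rfl

theorem mulLin_eq : mulLin J P =
    (TensorProduct.lid A P).toLinearMap.comp (J.subtype.rTensor P) := by
  apply TensorProduct.ext'
  intro j p
  rw [mulLin_tmul, LinearMap.comp_apply, LinearMap.rTensor_tmul, LinearEquiv.coe_coe,
    TensorProduct.lid_tmul]
  rfl

theorem mulLin_injective [Module.Invertible A P] : Function.Injective (mulLin J P) := by
  rw [mulLin_eq]
  exact (TensorProduct.lid A P).injective.comp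
    ((Module.Invertible.rTensor_injective_iff P).mpr J.subtype_injective)

theorem range_mulLin : LinearMap.range (mulLin J P) = J • (⊤ : Submodule A P) := by
  apply le_antisymm
  · rintro _ ⟨t, rfl⟩
    induction t using TensorProduct.induction_on with
    | zero => rw [map_zero]; exact zero_mem _
    | tmul j p =>
      rw [mulLin_tmul]
      exact Submodule.smul_mem_smul j.2 Submodule.mem_top
    | add a b ha hb => rw [map_add]; exact add_mem ha hb
  · rw [Submodule.smul_le]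
    intro r hr n _
    exact ⟨(⟨r, hr⟩ : ↥J) ⊗ₜ[A] n, mulLin_tmul J P _ _⟩

end Mul

variable {k : Type u} [Field k] {𝒞 : CurveDatum k} {R : Type u} [CommRing R] [Algebra k R]

/-! ### The ideal triple -/

/-- **The triple `O(-D)`** of a relative effective Cartier divisor `D = (J0, J1)`. -/
@[reducible] def idealTriple (h : 𝒞.IsGood) (J0 : Ideal (R ⊗[k] 𝒞.B0)) (J1 : Ideal (R ⊗[k] 𝒞.B1))
    (hJ : IsRelDiv J0 J1) : Triple 𝒞 R :=
  ofLocMod (P0 := ↥J0) (P1 := ↥J1) (P01 := ↥(J0.map (𝒞.ι0 R)))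
    (idealMap J0 (J0.map (𝒞.ι0 R)) le_rfl) (idealMap J1 (J0.map (𝒞.ι0 R)) hJ.2.2.ge)
    hJ.1 hJ.2.1
    (isLocMod_idealMap (isLocRing0 R h) J0 _ rfl)
    (isLocMod_idealMap (isLocRing1 R h) J1 _ hJ.2.2.symm)

/-! ### `L(-D)` -/

/-- **The multiplication `O(-D) ⊗ L → L`.** -/
def mulHom (h : 𝒞.IsGood) (J0 : Ideal (R ⊗[k] 𝒞.B0)) (J1 : Ideal (R ⊗[k] 𝒞.B1))
    (hJ : IsRelDiv J0 J1) (L : Triple 𝒞 R) :
    Triple.Hom (tensor (idealTriple h J0 J1 hJ) L h) L where
  f0 := mulLin J0 L.P0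
  f1 := mulLin J1 L.P1
  f01 := mulLin (J0.map (𝒞.ι0 R)) L.P01
  comm0 := fun t => by
    induction t using TensorProduct.induction_on with
    | zero => rw [map_zero, map_zero, map_zero, map_zero]
    | tmul j p =>
      rw [tensor_r0_tmul, mulLin_tmul, mulLin_tmul, L.r0.map_smulₛₗ]
      rfl
    | add a b ha hb => rw [map_add, map_add, map_add, map_add, ha, hb]
  comm1 := fun t => by
    induction t using TensorProduct.induction_on with
    | zero => rw [map_zero, map_zero, map_zero, map_zero]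
    | tmul j p =>
      rw [tensor_r1_tmul, mulLin_tmul, mulLin_tmul, L.r1.map_smulₛₗ]
      rfl
    | add a b ha hb => rw [map_add, map_add, map_add, map_add, ha, hb]

/-- `O(-D) ⊗ L → L` is a twist by `D`: `L(-D) = O(-D) ⊗ L`. -/
theorem twistBy_mulHom (h : 𝒞.IsGood) (J0 : Ideal (R ⊗[k] 𝒞.B0)) (J1 : Ideal (R ⊗[k] 𝒞.B1))
    (hJ : IsRelDiv J0 J1) (L : Triple 𝒞 R) : TwistBy J0 J1 (mulHom h J0 J1 hJ L) := by
  haveI := L.inv0
  haveI := L.inv1
  exact ⟨mulLin_injective J0 L.P0, mulLin_injective J1 L.P1, range_mulLin J0 L.P0,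
    range_mulLin J1 L.P1⟩

/-! ### `L(D)` -/

/-- **`L(D) = O(-D)^∨ ⊗ L`.** -/
@[reducible] def twUp (h : 𝒞.IsGood) (J0 : Ideal (R ⊗[k] 𝒞.B0)) (J1 : Ideal (R ⊗[k] 𝒞.B1))
    (hJ : IsRelDiv J0 J1) (L : Triple 𝒞 R) : Triple 𝒞 R :=
  tensor (dual (idealTriple h J0 J1 hJ) h) L h

/-- `O(-D) ⊗ L(D) ≅ L`. -/
def twUpIso (h : 𝒞.IsGood) (J0 : Ideal (R ⊗[k] 𝒞.B0)) (J1 : Ideal (R ⊗[k] 𝒞.B1))
    (hJ : IsRelDiv J0 J1) (L : Triple 𝒞 R) :
    Triple.Iso (tensor (idealTriple h J0 J1 hJ) (twUp h J0 J1 hJ L) h) L :=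
  isoTrans (isoSymm (tensorAssoc (idealTriple h J0 J1 hJ) (dual (idealTriple h J0 J1 hJ) h) L h))
    (isoTrans (tensorCongr h (tensorDual (idealTriple h J0 J1 hJ) h) (isoRefl L))
      (tensorUnitLeft L h))

/-- **The morphism `L → L(D)`.** -/
def twUpHom (h : 𝒞.IsGood) (J0 : Ideal (R ⊗[k] 𝒞.B0)) (J1 : Ideal (R ⊗[k] 𝒞.B1))
    (hJ : IsRelDiv J0 J1) (L : Triple 𝒞 R) : Triple.Hom L (twUp h J0 J1 hJ L) :=
  homComp (mulHom h J0 J1 hJ (twUp h J0 J1 hJ L)) (isoHom (isoSymm (twUpIso h J0 J1 hJ L)))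

/-- A twist composed with an isomorphism of the source is a twist. -/
theorem twistBy_homComp_isoHom {J0 : Ideal (R ⊗[k] 𝒞.B0)} {J1 : Ideal (R ⊗[k] 𝒞.B1)}
    {L L' M : Triple 𝒞 R} {φ : Triple.Hom L L'} (hφ : TwistBy J0 J1 φ) (I : Triple.Iso M L) :
    TwistBy J0 J1 (homComp φ (isoHom I)) := by
  obtain ⟨h0, h1, r0, r1⟩ := hφ
  refine ⟨h0.comp I.e0.injective, h1.comp I.e1.injective, ?_, ?_⟩
  · show LinearMap.range (φ.f0.comp I.e0.toLinearMap) = _
    rw [LinearMap.range_comp_of_range_eq_top _ (LinearEquiv.range I.e0), r0]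
  · show LinearMap.range (φ.f1.comp I.e1.toLinearMap) = _
    rw [LinearMap.range_comp_of_range_eq_top _ (LinearEquiv.range I.e1), r1]

/-- `L → L(D)` is a twist by `D`. -/
theorem twistBy_twUpHom (h : 𝒞.IsGood) (J0 : Ideal (R ⊗[k] 𝒞.B0)) (J1 : Ideal (R ⊗[k] 𝒞.B1))
    (hJ : IsRelDiv J0 J1) (L : Triple 𝒞 R) : TwistBy J0 J1 (twUpHom h J0 J1 hJ L) :=
  twistBy_homComp_isoHom (twistBy_mulHom h J0 J1 hJ (twUp h J0 J1 hJ L)) _

end Fermat.Agent.S25.Top.S.H29

namespace Fermat.Agent.S25.Top.S.H29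

open Fermat.Agent.S25 Fermat.Agent.S25.LB Fermat.Agent.S25.LB.H60

/-- **S-TWEX**: twists by relative effective Cartier divisors exist: `L(D)` and `L(-D)`. -/
theorem stmt_TWEX : Stmt_TWEX.{u} := by
  intro k _ 𝒞 h R _ _ J0 J1 hJ L
  exact ⟨⟨twUp h J0 J1 hJ L, twUpHom h J0 J1 hJ L, twistBy_twUpHom h J0 J1 hJ L⟩,
    ⟨tensor (idealTriple h J0 J1 hJ) L h, mulHom h J0 J1 hJ L, twistBy_mulHom h J0 J1 hJ L⟩⟩

end Fermat.Agent.S25.Top.S.H29
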