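/-
helper30, S25 (Jacobian exists), package TOP-SURJ: tools for morphisms of triples.

* `lmap hS h h' f`   : the extension of an `S`-linear map `f : P → Q` to the localisations (abstract charts);
* `Triple level`     : `f01_injective` (a morphism which is injective on the first chart is injective on the
                       overlap), `lin01_ext` (a linear map on the overlap is determined on the first chart),
                       `homOfCharts` (a morphism from its two charts, compatibility tested after an injection);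
* `homTensorRight φ N h` : the morphism `φ ⊗ N`.
-/
import Fermat.Agent.S25.LB.H74_Hom

set_option autoImplicit false
set_option linter.style.haveILetI false
set_option linter.unusedSectionVars false

universe u

open TensorProduct

noncomputable section

namespace Fermat.Agent.S25.Top.S.H30

open Fermat.Agent.S25 Fermat.Agent.S25.LB Fermat.Agent.S25.LB.H60

section Gen

variable {S S' : Type u} [CommRing S] [CommRing S'] {φ : S →+* S'} {x : S}
  {P P' Q Q' : Type u} [AddCommGroup P] [Module S P] [AddCommGroup P'] [Module S' P']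
  [AddCommGroup Q] [Module S Q] [AddCommGroup Q'] [Module S' Q']

/-- The extension of a linear map to the localisations. -/
def lmap (hS : IsLocRing φ x) {r : P →ₛₗ[φ] P'} (h : IsLocMod φ x r) {s : Q →ₛₗ[φ] Q'}
    (h' : IsLocMod φ x s) (f : P →ₗ[S] Q) : P' →ₗ[S'] Q' :=
  letI : Algebra S S' := φ.toAlgebra
  haveI : IsLocalization (Submonoid.powers x) S' := hS.isLocalization
  letI : Module S P' := Module.compHom P' φ
  letI : Module S Q' := Module.compHom Q' φ
  haveI : IsScalarTower S S' P' := ⟨fun s s' p => by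
    show (φ s * s') • p = φ s • (s' • p)
    rw [mul_smul]⟩
  haveI : IsScalarTower S S' Q' := ⟨fun s s' p => by
    show (φ s * s') • p = φ s • (s' • p)
    rw [mul_smul]⟩
  haveI : IsLocalizedModule (Submonoid.powers x) (linOf r) := h.isLocalizedModule hS
  haveI : IsLocalizedModule (Submonoid.powers x) (linOf s) := h'.isLocalizedModule hS
  IsLocalizedModule.mapExtendScalars (Submonoid.powers x) (linOf r) (linOf s) S' f

theorem lmap_apply (hS : IsLocRing φ x) {r : P →ₛₗ[φ] P'} (h : IsLocMod φ x r)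
    {s : Q →ₛₗ[φ] Q'} (h' : IsLocMod φ x s) (f : P →ₗ[S] Q) (p : P) :
    lmap hS h h' f (r p) = s (f p) := by
  letI : Algebra S S' := φ.toAlgebra
  haveI : IsLocalization (Submonoid.powers x) S' := hS.isLocalization
  letI : Module S P' := Module.compHom P' φ
  letI : Module S Q' := Module.compHom Q' φ
  haveI : IsScalarTower S S' P' := ⟨fun s s' p => by
    show (φ s * s') • p = φ s • (s' • p)
    rw [mul_smul]⟩
  haveI : IsScalarTower S S' Q' := ⟨fun s s' p => by
    show (φ s * s') • p = φ s • (s' • p)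
    rw [mul_smul]⟩
  haveI : IsLocalizedModule (Submonoid.powers x) (linOf r) := h.isLocalizedModule hS
  haveI : IsLocalizedModule (Submonoid.powers x) (linOf s) := h'.isLocalizedModule hS
  show IsLocalizedModule.map (Submonoid.powers x) (linOf r) (linOf s) f (linOf r p) = _
  rw [IsLocalizedModule.map_apply]
  rfl

end Gen

variable {k : Type u} [Field k] {𝒞 : CurveDatum k} {R : Type u} [CommRing R] [Algebra k R]

/-- A linear map on the overlap is determined by its values on the first chart. -/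
theorem lin01_ext {L M : Triple 𝒞 R} (F G : L.P01 →ₗ[R ⊗[k] 𝒞.B01] M.P01)
    (hFG : ∀ p : L.P0, F (L.r0 p) = G (L.r0 p)) : F = G := by
  ext m
  obtain ⟨n, p, hp⟩ := L.surj0 m
  apply H74.XX_pow_smul_cancel M n
  rw [← map_smul, ← map_smul, hp, hFG]

/-- A morphism which is injective on the first chart is injective on the overlap. -/
theorem f01_injective {L M : Triple 𝒞 R} (f : Triple.Hom L M) (h0 : Function.Injective f.f0) :
    Function.Injective f.f01 := by
  rw [injective_iff_map_eq_zero]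
  intro m hm
  obtain ⟨n, p, hp⟩ := L.surj0 m
  have h1 : M.r0 (f.f0 p) = 0 := by
    rw [← f.comm0, ← hp, map_smul, hm, smul_zero]
  obtain ⟨n', hn'⟩ := M.ker0 _ h1
  have h2 : ((1 : R) ⊗ₜ[k] 𝒞.x0 : R ⊗[k] 𝒞.B0) ^ n' • p = 0 := by
    apply h0
    rw [map_smul, hn', map_zero]
  have h3 : ((1 : R) ⊗ₜ[k] 𝒞.i0 𝒞.x0 : R ⊗[k] 𝒞.B01) ^ (n' + n) • m = 0 := by
    rw [pow_add, mul_smul, hp]
    have e : 𝒞.ι0 R (((1 : R) ⊗ₜ[k] 𝒞.x0 : R ⊗[k] 𝒞.B0) ^ n') =
        ((1 : R) ⊗ₜ[k] 𝒞.i0 𝒞.x0 : R ⊗[k] 𝒞.B01) ^ n' := by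
      rw [map_pow]
      rfl
    rw [← e, ← L.r0.map_smulₛₗ, h2, map_zero]
  apply H74.XX_pow_smul_cancel L (n' + n)
  rw [h3, smul_zero]

/-- **A morphism from its two charts**: the map on the overlap is the extension of `f0`; the compatibility
with `f1` is tested after composition with a morphism `ψ` which is injective on the first chart. -/
def homOfCharts (h : 𝒞.IsGood) {L M M' : Triple 𝒞 R} (f0 : L.P0 →ₗ[R ⊗[k] 𝒞.B0] M.P0)
    (f1 : L.P1 →ₗ[R ⊗[k] 𝒞.B1] M.P1) (ψ : Triple.Hom M M') (hψ : Function.Injective ψ.f0)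
    (G : L.P01 →ₗ[R ⊗[k] 𝒞.B01] M'.P01)
    (hG0 : ∀ p, G (L.r0 p) = M'.r0 (ψ.f0 (f0 p)))
    (hG1 : ∀ p, G (L.r1 p) = M'.r1 (ψ.f1 (f1 p))) : Triple.Hom L M where
  f0 := f0
  f1 := f1
  f01 := lmap (isLocRing0 R h) (isLocMod0 L) (isLocMod0 M) f0
  comm0 := fun p => lmap_apply (isLocRing0 R h) (isLocMod0 L) (isLocMod0 M) f0 p
  comm1 := fun p => by
    apply f01_injective ψ hψ
    have e : ψ.f01.comp (lmap (isLocRing0 R h) (isLocMod0 L) (isLocMod0 M) f0) = G := by
      apply lin01_ext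
      intro q
      rw [LinearMap.comp_apply, lmap_apply, ψ.comm0, hG0]
    have e' := LinearMap.congr_fun e (L.r1 p)
    rw [LinearMap.comp_apply] at e'
    rw [e', hG1, ψ.comm1]

theorem homOfCharts_f0 (h : 𝒞.IsGood) {L M M' : Triple 𝒞 R} (f0 : L.P0 →ₗ[R ⊗[k] 𝒞.B0] M.P0)
    (f1 : L.P1 →ₗ[R ⊗[k] 𝒞.B1] M.P1) (ψ : Triple.Hom M M') (hψ : Function.Injective ψ.f0)
    (G : L.P01 →ₗ[R ⊗[k] 𝒞.B01] M'.P01)
    (hG0 : ∀ p, G (L.r0 p) = M'.r0 (ψ.f0 (f0 p)))
    (hG1 : ∀ p, G (L.r1 p) = M'.r1 (ψ.f1 (f1 p))) :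
    (homOfCharts h f0 f1 ψ hψ G hG0 hG1).f0 = f0 := rfl

theorem homOfCharts_f1 (h : 𝒞.IsGood) {L M M' : Triple 𝒞 R} (f0 : L.P0 →ₗ[R ⊗[k] 𝒞.B0] M.P0)
    (f1 : L.P1 →ₗ[R ⊗[k] 𝒞.B1] M.P1) (ψ : Triple.Hom M M') (hψ : Function.Injective ψ.f0)
    (G : L.P01 →ₗ[R ⊗[k] 𝒞.B01] M'.P01)
    (hG0 : ∀ p, G (L.r0 p) = M'.r0 (ψ.f0 (f0 p)))
    (hG1 : ∀ p, G (L.r1 p) = M'.r1 (ψ.f1 (f1 p))) :
    (homOfCharts h f0 f1 ψ hψ G hG0 hG1).f1 = f1 := rfl

/-- The morphism `φ ⊗ N`. -/
def homTensorRight {L L' : Triple 𝒞 R} (φ : Triple.Hom L L') (N : Triple 𝒞 R) (h : 𝒞.IsGood) :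
    Triple.Hom (tensor L N h) (tensor L' N h) where
  f0 := TensorProduct.map φ.f0 LinearMap.id
  f1 := TensorProduct.map φ.f1 LinearMap.id
  f01 := TensorProduct.map φ.f01 LinearMap.id
  comm0 := fun t => by
    induction t using TensorProduct.induction_on with
    | zero => rw [map_zero, map_zero, map_zero, map_zero]
    | tmul p q =>
      rw [tensor_r0_tmul, TensorProduct.map_tmul, TensorProduct.map_tmul, tensor_r0_tmul,
        φ.comm0]
      rfl
    | add a b ha hb => rw [map_add, map_add, map_add, map_add, ha, hb]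
  comm1 := fun t => by
    induction t using TensorProduct.induction_on with
    | zero => rw [map_zero, map_zero, map_zero, map_zero]
    | tmul p q =>
      rw [tensor_r1_tmul, TensorProduct.map_tmul, TensorProduct.map_tmul, tensor_r1_tmul,
        φ.comm1]
      rfl
    | add a b ha hb => rw [map_add, map_add, map_add, map_add, ha, hb]

end Fermat.Agent.S25.Top.S.H30
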