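/-
helper30, S25 (Jacobian exists), package TOP-SURJ, leaf S-DEGGLUE: a bundle glued from a family whose
members are fibrewise of degree zero is fibrewise of degree zero (`Top.S.Stmt_DEGGLUE`).

`stmt_DEGGLUE_of : T1 → T4 → LB-VB → BCTRANS → FIELDEXT → TW → Stmt_DEGGLUE`.

Proof (as in helper89's TOP-DEGLOC).  Let `φ : Spec R ⟶ Y`, `L` a triple of `φ^* N`, `p ∈ Spec R`.  By `loc`
there are `r ∉ p` and a rigid member `L_r` of the family over `R_r`; it has degree zero, and by `IsGlued` it is
isomorphic to a triple `L'` of the pull-back of `N` to `R_r`.  That sheaf is the pull-back of `φ^* N`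
(`h7_pullbackAlongCompIso`), so by T4 `L'` is the base change of `L`, and the fibre numbers of a base change
at `p'` are the fibre numbers at `p' ∩ R` (`P1.H89.hAt_baseChange`).
-/
import Fermat.Agent.S25.Top.DefsS2
import Fermat.Agent.S25.Top.H7_Setup
import Fermat.Agent.S25.P1.H89_FibreNum

set_option autoImplicit false
set_option linter.style.haveILetI false

universe u

open CategoryTheory CategoryTheory.Limits AlgebraicGeometry AlgebraicGeometry.RelPicard NeronModelInfra
  GoodReductionJacobian TensorProduct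

namespace Fermat.Agent.S25.Top.S.H30G

open Fermat.Agent.S25

/-- **S-DEGGLUE** from the dictionary and the fibre calculus. -/
theorem stmt_DEGGLUE_of (hT1 : Bridge.Stmt_T1.{u}) (hT4 : Bridge.Stmt_T4.{u})
    (hVB : LB.Stmt_VB.{u}) (hBCT : P1.Stmt_BCTRANS.{u}) (hFE : P1.Stmt_FIELDEXT.{u})
    (hTW : P1.Stmt_TW.{u}) : Stmt_DEGGLUE.{u} := by
  intro k _ _ C c _ _ _ ε 𝒞 hG ρ g Y y ℱ N hglue hdeg R _ _ φ L hL p
  obtain ⟨r, hr, Lr, hrig, hfam⟩ := ℱ.loc R φ p
  -- the localisation
  let σ : SchemeHomOver (Bridge.tR k (Localization.Away r)) (Bridge.tR k R) :=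
    specOver k R (Localization.Away r)
  -- the sheaf on `C × Spec R_r` and its triple
  have hinv' := ((N.pullbackAlong φ).pullbackAlong σ).isInvertible
  obtain ⟨L', hL'⟩ := hT1 k c ε 𝒞 hG ρ (Localization.Away r) _ hinv'
  have hL'' : Bridge.IsTripleOf ρ (Localization.Away r) (N.pullbackAlong (postComp φ σ)).L L' :=
    H7.isTripleOf_of_iso ρ (Localization.Away r) hL' (H7.h7_pullbackAlongCompIso N φ σ)
  obtain ⟨E''⟩ := hglue (Localization.Away r) (postComp φ σ) L' Lr hL'' hfam hrig
  obtain ⟨-, -, -, E, -⟩ := hT4 k c ε 𝒞 hG ρ R (Localization.Away r) (N.pullbackAlong φ).L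
    L L' (N.pullbackAlong φ).isInvertible hL hL'
  -- degree zero of the member of the family
  have hdegr : IsDeg0 g Lr := hdeg (Localization.Away r) (postComp φ σ) Lr hfam
  -- the point above `p`
  have hp : p ∈ Set.range (PrimeSpectrum.comap (algebraMap R (Localization.Away r))) := by
    rw [PrimeSpectrum.localization_away_comap_range (Localization.Away r) r]
    exact hr
  obtain ⟨p', hp'⟩ := hp
  have hpI : p.asIdeal = p'.asIdeal.comap (algebraMap R (Localization.Away r)) := by
    rw [← hp']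
    rfl
  obtain ⟨h0, h1⟩ := P1.H89.hAt_baseChange hBCT hFE hTW L.toData (hVB k 𝒞 hG R L)
    (Localization.Away r) p' p hpI
  have h0' := P1.H89.h0At_iso E p'
  have h1' := P1.H89.h1At_iso E p'
  have h0'' := P1.H89.h0At_iso (P1.H89.dataIsoOfTripleIso E'') p'
  have h1'' := P1.H89.h1At_iso (P1.H89.dataIsoOfTripleIso E'') p'
  have := hdegr p'
  rw [← h0, ← h1, h0', h1', ← h0'', ← h1'']
  exact this

end Fermat.Agent.S25.Top.S.H30G
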