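/-
helper30, S25 package TOP-SURJ, leaf S-DEGGLUE, closed: `stmt_DEGGLUE : Stmt_DEGGLUE` (unconditional), from
`stmt_DEGGLUE_of` and the landed dictionary (T1 helper24, T4 helper34) and fibre calculus
(LB-VB helper7, BCTRANS helper45, FIELDEXT helper92, TW helper36).
-/
import Fermat.Agent.S25.Top.H30_SDegGlue
import Fermat.Agent.S25.Bridge.H24_T1Final
import Fermat.Agent.S25.Bridge.H34_T4Close
import Fermat.Agent.S25.LB.H7_VB
import Fermat.Agent.S25.P1.H45_BCTrans
import Fermat.Agent.S25.P1.H92_FieldExt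
import Fermat.Agent.S25.P1.H36_Tw

set_option autoImplicit false

universe u

namespace Fermat.Agent.S25.Top.S.H30G

open Fermat.Agent.S25

/-- **S-DEGGLUE**, unconditional. -/
theorem stmt_DEGGLUE : Stmt_DEGGLUE.{u} :=
  stmt_DEGGLUE_of Bridge.H24.stmt_T1 Bridge.H34.stmt_T4 LB.H7.stmt_VB P1.H45.stmt_BCTRANS
    P1.H92.stmt_FIELDEXT P1.H36.stmt_TW

end Fermat.Agent.S25.Top.S.H30G
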