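/-
helper30, S25 (Jacobian exists), package TOP-SURJ, leaf S-TWUNIQ: twists by a divisor are unique up to
isomorphism, in both directions (`Top.S.Stmt_TWUNIQ`).  The hypothesis `IsRelDiv` is not used.

* `TwistBy.comp_iso`, `TwistBy.iso_comp` : twists composed with isomorphisms;
* `TwistBy.tensorRight`                  : `φ ⊗ N` is a twist by the same divisor;
* `iso_of_twistBy`  : `L' ≅ M' ⟹ L ≅ M`  (restriction to the sub-triples `J • L'`, `J • M'`);
* `iso_up`          : `L ≅ M ⟹ L' ≅ M'`  (tensor with `N = L'^∨ ⊗ M'` and cancel);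
* `stmt_TWUNIQ`.
-/
import Fermat.Agent.S25.Top.DefsS
import Fermat.Agent.S25.Top.H30_ChartExt
import Fermat.Agent.S25.LB.H60_Dual

set_option autoImplicit false
set_option linter.style.haveILetI false
set_option linter.unusedSectionVars false

universe u

open TensorProduct

noncomputable section

namespace Fermat.Agent.S25.Top.S.H30

open Fermat.Agent.S25 Fermat.Agent.S25.LB Fermat.Agent.S25.LB.H60

section Gen

variable {S : Type u} [CommRing S] {P Q : Type u} [AddCommGroup P] [Module S P]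
  [AddCommGroup Q] [Module S Q]

/-- A linear map sends `J • P` into `J • Q`. -/
theorem map_mem_smul_top (J : Ideal S) (f : P →ₗ[S] Q) {y : P}
    (hy : y ∈ J • (⊤ : Submodule S P)) : f y ∈ J • (⊤ : Submodule S Q) := by
  refine Submodule.smul_induction_on hy ?_ ?_
  · intro r hr n _
    rw [map_smul]
    exact Submodule.smul_mem_smul hr Submodule.mem_top
  · intro a b ha hb
    rw [map_add]
    exact Submodule.add_mem _ ha hb

/-- The range of the composition of a linear equivalence with a map of range `J • ⊤`. -/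
theorem range_equiv_comp {P' : Type u} [AddCommGroup P'] [Module S P'] (J : Ideal S)
    (f : P →ₗ[S] Q) (e : Q ≃ₗ[S] P') (hf : LinearMap.range f = J • (⊤ : Submodule S Q)) :
    LinearMap.range (e.toLinearMap.comp f) = J • (⊤ : Submodule S P') := by
  apply le_antisymm
  · rintro _ ⟨p, rfl⟩
    rw [LinearMap.comp_apply]
    apply map_mem_smul_top J e.toLinearMap
    rw [← hf]
    exact ⟨p, rfl⟩
  · intro y hy
    have h1 : e.symm y ∈ J • (⊤ : Submodule S Q) := map_mem_smul_top J e.symm.toLinearMap hy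
    rw [← hf] at h1
    obtain ⟨p, hp⟩ := h1
    refine ⟨p, ?_⟩
    rw [LinearMap.comp_apply, hp]
    exact e.apply_symm_apply y

/-- The range of `f ⊗ N` for a map `f` of range `J • ⊤`. -/
theorem range_map_id {N : Type u} [AddCommGroup N] [Module S N] (J : Ideal S)
    (f : P →ₗ[S] Q) (hf : LinearMap.range f = J • (⊤ : Submodule S Q)) :
    LinearMap.range (TensorProduct.map f (LinearMap.id : N →ₗ[S] N)) =
      J • (⊤ : Submodule S (Q ⊗[S] N)) := by
  apply le_antisymm
  · rintro _ ⟨t, rfl⟩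
    induction t using TensorProduct.induction_on with
    | zero => rw [map_zero]; exact Submodule.zero_mem _
    | tmul p n =>
      rw [TensorProduct.map_tmul, LinearMap.id_apply]
      have h1 : f p ∈ J • (⊤ : Submodule S Q) := by
        rw [← hf]
        exact ⟨p, rfl⟩
      exact map_mem_smul_top J ((TensorProduct.mk S Q N).flip n) h1
    | add a b ha hb => rw [map_add]; exact Submodule.add_mem _ ha hb
  · intro y hy
    have key : ∀ j : S, j ∈ J → ∀ t : Q ⊗[S] N,
        j • t ∈ LinearMap.range (TensorProduct.map f (LinearMap.id : N →ₗ[S] N)) := by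
      intro j hj t
      induction t using TensorProduct.induction_on with
      | zero => rw [smul_zero]; exact Submodule.zero_mem _
      | tmul q n =>
        have h1 : j • q ∈ LinearMap.range f := by
          rw [hf]
          exact Submodule.smul_mem_smul hj Submodule.mem_top
        obtain ⟨p, hp⟩ := h1
        refine ⟨p ⊗ₜ[S] n, ?_⟩
        rw [TensorProduct.map_tmul, LinearMap.id_apply, hp, TensorProduct.smul_tmul']
      | add a b ha hb => rw [smul_add]; exact Submodule.add_mem _ ha hb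
    refine Submodule.smul_induction_on hy (fun j hj t _ => key j hj t) ?_
    intro a b ha hb
    exact Submodule.add_mem _ ha hb

end Gen

variable {k : Type u} [Field k] {𝒞 : CurveDatum k} {R : Type u} [CommRing R] [Algebra k R]
  {J0 : Ideal (R ⊗[k] 𝒞.B0)} {J1 : Ideal (R ⊗[k] 𝒞.B1)}

/-- A twist composed with an isomorphism of the source. -/
theorem TwistBy.comp_iso {K L L' : Triple 𝒞 R} {φ : Triple.Hom L L'} (hφ : TwistBy J0 J1 φ)
    (I : Triple.Iso K L) : TwistBy J0 J1 (H74.homComp φ (H74.isoHom I)) := by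
  obtain ⟨hi0, hi1, hr0, hr1⟩ := hφ
  refine ⟨hi0.comp I.e0.injective, hi1.comp I.e1.injective, ?_, ?_⟩
  · rw [← hr0]
    exact LinearMap.range_comp_of_range_eq_top φ.f0 (LinearEquiv.range I.e0)
  · rw [← hr1]
    exact LinearMap.range_comp_of_range_eq_top φ.f1 (LinearEquiv.range I.e1)

/-- A twist composed with an isomorphism of the target. -/
theorem TwistBy.iso_comp {L L' L'' : Triple 𝒞 R} {φ : Triple.Hom L L'} (hφ : TwistBy J0 J1 φ)
    (I : Triple.Iso L' L'') : TwistBy J0 J1 (H74.homComp (H74.isoHom I) φ) := by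
  obtain ⟨hi0, hi1, hr0, hr1⟩ := hφ
  exact ⟨I.e0.injective.comp hi0, I.e1.injective.comp hi1, range_equiv_comp J0 φ.f0 I.e0 hr0,
    range_equiv_comp J1 φ.f1 I.e1 hr1⟩

/-- The tensor product of a twist with a triple is a twist by the same divisor. -/
theorem TwistBy.tensorRight (h : 𝒞.IsGood) {L L' : Triple 𝒞 R} {φ : Triple.Hom L L'}
    (hφ : TwistBy J0 J1 φ) (N : Triple 𝒞 R) : TwistBy J0 J1 (homTensorRight φ N h) := by
  obtain ⟨hi0, hi1, hr0, hr1⟩ := hφ
  haveI := N.inv0
  haveI := N.inv1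
  refine ⟨?_, ?_, range_map_id J0 φ.f0 hr0, range_map_id J1 φ.f1 hr1⟩
  · exact Module.Flat.rTensor_preserves_injective_linearMap (M := N.P0) φ.f0 hi0
  · exact Module.Flat.rTensor_preserves_injective_linearMap (M := N.P1) φ.f1 hi1

/-- The chart map of the descended isomorphism. -/
theorem exists_chart_map {S : Type u} [CommRing S] {P P' Q Q' : Type u} [AddCommGroup P]
    [Module S P] [AddCommGroup P'] [Module S P'] [AddCommGroup Q] [Module S Q] [AddCommGroup Q']
    [Module S Q'] (J : Ideal S) (f : P →ₗ[S] P') (g : Q →ₗ[S] Q') (e : P' ≃ₗ[S] Q')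
    (hf : LinearMap.range f = J • (⊤ : Submodule S P'))
    (hg : LinearMap.range g = J • (⊤ : Submodule S Q')) (hgi : Function.Injective g) :
    ∃ θ : P →ₗ[S] Q, (∀ p, g (θ p) = e (f p)) ∧ Function.Surjective θ := by
  have hmem : ∀ p, e.toLinearMap.comp f p ∈ LinearMap.range g := by
    intro p
    rw [hg, ← range_equiv_comp J f e hf]
    exact ⟨p, rfl⟩
  let E := LinearEquiv.ofInjective g hgi
  let θ : P →ₗ[S] Q := E.symm.toLinearMap.comp
    (LinearMap.codRestrict (LinearMap.range g) (e.toLinearMap.comp f) hmem)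
  have hθ : ∀ p, g (θ p) = e (f p) := by
    intro p
    have h1 : E (θ p) = LinearMap.codRestrict (LinearMap.range g) (e.toLinearMap.comp f) hmem p :=
      E.apply_symm_apply _
    have h2 := congrArg Subtype.val h1
    exact h2
  refine ⟨θ, hθ, ?_⟩
  intro q
  have h1 : g q ∈ LinearMap.range (e.toLinearMap.comp f) := by
    rw [range_equiv_comp J f e hf, ← hg]
    exact ⟨q, rfl⟩
  obtain ⟨p, hp⟩ := h1
  refine ⟨p, hgi ?_⟩
  rw [hθ]
  exact hp

/-- **Descent**: twists of isomorphic triples by the same divisor are isomorphic (`L'(-D) ≅ M'(-D)`). -/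
theorem iso_of_twistBy (h : 𝒞.IsGood) {L L' M M' : Triple 𝒞 R} {φ : Triple.Hom L L'}
    {ψ : Triple.Hom M M'} (hφ : TwistBy J0 J1 φ) (hψ : TwistBy J0 J1 ψ) (I' : Triple.Iso L' M') :
    Nonempty (Triple.Iso L M) := by
  obtain ⟨θ0, hθ0, hs0⟩ := exists_chart_map J0 φ.f0 ψ.f0 I'.e0 hφ.2.2.1 hψ.2.2.1 hψ.1
  obtain ⟨θ1, hθ1, hs1⟩ := exists_chart_map J1 φ.f1 ψ.f1 I'.e1 hφ.2.2.2 hψ.2.2.2 hψ.2.1
  have hG0 : ∀ p, (I'.e01.toLinearMap.comp φ.f01) (L.r0 p) = M'.r0 (ψ.f0 (θ0 p)) := by
    intro p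
    rw [hθ0, LinearMap.comp_apply, φ.comm0]
    exact I'.comm0 _
  have hG1 : ∀ p, (I'.e01.toLinearMap.comp φ.f01) (L.r1 p) = M'.r1 (ψ.f1 (θ1 p)) := by
    intro p
    rw [hθ1, LinearMap.comp_apply, φ.comm1]
    exact I'.comm1 _
  exact ⟨H74.isoOfSurjective h (homOfCharts h θ0 θ1 ψ hψ.1 _ hG0 hG1) hs0 hs1⟩

/-- **Ascent**: if `L ≅ M` are twists of `L'`, `M'` by the same divisor, then `L' ≅ M'`. -/
theorem iso_up (h : 𝒞.IsGood) {L L' M M' : Triple 𝒞 R} {φ : Triple.Hom L L'}
    {ψ : Triple.Hom M M'} (hφ : TwistBy J0 J1 φ) (hψ : TwistBy J0 J1 ψ) (I : Triple.Iso L M) :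
    Nonempty (Triple.Iso L' M') := by
  -- `N = L'^∨ ⊗ M'`, `κ : L' ⊗ N ≅ M'`
  let N : Triple 𝒞 R := tensor (dual L' h) M' h
  let κ : Triple.Iso (tensor L' N h) M' :=
    isoTrans (isoSymm (tensorAssoc L' (dual L' h) M' h))
      (isoTrans (tensorCongr h (tensorDual L' h) (isoRefl M')) (tensorUnitLeft M' h))
  have hφ' : TwistBy J0 J1 (H74.homComp (H74.isoHom κ) (homTensorRight φ N h)) :=
    TwistBy.iso_comp (TwistBy.tensorRight h hφ N) κ
  obtain ⟨α⟩ := iso_of_twistBy h hφ' hψ (isoRefl M')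
  -- `β : L ⊗ N ≅ L`
  let β : Triple.Iso (tensor L N h) L := isoTrans α (isoSymm I)
  -- `γ : N ≅ O`
  let γ : Triple.Iso N (unitTriple 𝒞 R h) :=
    isoTrans (isoSymm (tensorUnitLeft N h))
      (isoTrans (tensorCongr h (isoSymm (dualTensor L h)) (isoRefl N))
        (isoTrans (tensorAssoc (dual L h) L N h)
          (isoTrans (tensorCongr h (isoRefl (dual L h)) β) (dualTensor L h))))
  exact ⟨isoSymm (isoTrans (isoSymm κ)
    (isoTrans (tensorCongr h (isoRefl L') γ) (tensorUnitRight L' h)))⟩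

/-- **S-TWUNIQ**. -/
theorem stmt_TWUNIQ : Stmt_TWUNIQ.{u} := by
  intro k _ 𝒞 h R _ _ J0 J1 _ L L' M M' hL hM
  obtain ⟨φ, hφ⟩ := hL
  obtain ⟨ψ, hψ⟩ := hM
  constructor
  · rintro ⟨I⟩
    exact iso_up h hφ hψ I
  · rintro ⟨I'⟩
    exact iso_of_twistBy h hφ hψ I'

end Fermat.Agent.S25.Top.S.H30
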