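/-
helper32 (owner of S25), package TOP: THE ASSEMBLY  `Stmt_CORE ⟸ REPLOCAL + LOCISO + GLUEPIC + SMALL + GI + CHARTS`.
-/
import Fermat.Agent.S25.Top.DefsC
import Fermat.Agent.S25.Top.H25_RepYoneda

set_option autoImplicit false

universe u

open CategoryTheory CategoryTheory.Limits AlgebraicGeometry AlgebraicGeometry.RelPicard NeronModelInfra
  GoodReductionJacobian

namespace Fermat.Agent.S25.Top.H32

section

variable {k : Type u} [Field k] {C : Scheme.{u}} {c : C ⟶ Spec (CommRingCat.of k)}
  {ε : SchemeHomOver (𝟙 (Spec (CommRingCat.of k))) c}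

/-- The open cover of `J` by the charts. -/
noncomputable def chartCover {P' : SubPicCondition c ε} (𝒳 : ChartFamily c ε P')
    (D : RelativePic0Designation k c) (j : ∀ a, SchemeHomOver (𝒳.x a) D.toBase)
    (hjo : ∀ a, IsOpenImmersion (j a).1) (hjc : ∀ p : D.P, ∃ a, p ∈ Set.range (j a).1.base) :
    Scheme.OpenCover.{u} D.P :=
  Scheme.Cover.mkOfCovers 𝒳.ι 𝒳.X (fun a => (j a).1)
    (fun p => by obtain ⟨a, y, hy⟩ := hjc p; exact ⟨a, y, hy⟩) hjo

theorem smooth_of_charts {P' : SubPicCondition c ε} (𝒳 : ChartFamily c ε P')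
    (D : RelativePic0Designation k c) (j : ∀ a, SchemeHomOver (𝒳.x a) D.toBase)
    (hjo : ∀ a, IsOpenImmersion (j a).1) (hjc : ∀ p : D.P, ∃ a, p ∈ Set.range (j a).1.base)
    (hsm : ∀ a, Smooth (𝒳.x a)) : Smooth D.toBase := by
  refine IsZariskiLocalAtSource.of_openCover (P := @Smooth) (chartCover 𝒳 D j hjo hjc) (fun a => ?_)
  have : (chartCover 𝒳 D j hjo hjc).f a ≫ D.toBase = 𝒳.x a := (j a).2
  rw [this]
  exact hsm a

theorem isReduced_of_charts {P' : SubPicCondition c ε} (𝒳 : ChartFamily c ε P')
    (D : RelativePic0Designation k c) (j : ∀ a, SchemeHomOver (𝒳.x a) D.toBase)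
    (hjo : ∀ a, IsOpenImmersion (j a).1) (hjc : ∀ p : D.P, ∃ a, p ∈ Set.range (j a).1.base)
    (hred : ∀ a, IsReduced (𝒳.X a)) : IsReduced D.P := by
  have hst : ∀ x : D.P, _root_.IsReduced (D.P.presheaf.stalk x) := by
    intro x
    obtain ⟨a, y, rfl⟩ := hjc x
    have := hjo a
    have := hred a
    have hiso : IsIso ((j a).1.stalkMap y) := inferInstance
    have hinj : Function.Injective ((j a).1.stalkMap y).hom :=
      ((ConcreteCategory.isIso_iff_bijective ((j a).1.stalkMap y)).mp hiso).1
    exact isReduced_of_injective ((j a).1.stalkMap y).hom hinj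
  exact isReduced_of_isReduced_stalk D.P

/-- Separatedness of `J` from the valuative criterion for the functor. -/
theorem isSeparated_of_valUniq {P' : SubPicCondition c ε} (D : RelativePic0Designation k c)
    (h : RepresentsRelSubPic c ε P' D) [QuasiSeparated D.toBase] (hval : ValUniq c ε P') :
    IsSeparated D.toBase := by
  refine IsSeparated.of_valuativeCriterion D.toBase (fun S => ⟨fun l l' => ?_⟩)
  let t : Spec (CommRingCat.of S.R) ⟶ Spec (CommRingCat.of k) := S.i₂
  let g : SchemeHomOver t D.toBase := ⟨l.l, l.fac_right⟩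
  let g' : SchemeHomOver t D.toBase := ⟨l'.l, l'.fac_right⟩
  let φ : Spec (CommRingCat.of S.K) ⟶ Spec (CommRingCat.of S.R) :=
    Spec.map (CommRingCat.ofHom (algebraMap S.R S.K))
  have hM : P'.P t (h.poincare.pullbackAlong g) := P'.pullback_mem _ _ g _ h.poincare_mem
  have hM' : P'.P t (h.poincare.pullbackAlong g') := P'.pullback_mem _ _ g' _ h.poincare_mem
  have hgg : postComp g (overOf t φ) = postComp g' (overOf t φ) := by
    apply Subtype.ext
    change φ ≫ l.l = φ ≫ l'.l
    rw [l.fac_left, l'.fac_left]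
  have e1 := H25.pullbackAlongCompIso h.poincare g (overOf t φ)
  have e2 := H25.pullbackAlongCompIso h.poincare g' (overOf t φ)
  rw [hgg] at e1
  have hiso : Nonempty ((h.poincare.pullbackAlong g).L ≅ (h.poincare.pullbackAlong g').L) :=
    hval S.R S.K t _ _ hM hM' ⟨e1 ≪≫ e2.symm⟩
  have hgeq : g = g' := h.ext_of_iso t g g' hiso
  have hl : l.l = l'.l := congrArg Subtype.val hgeq
  exact CommSq.LiftStruct.ext hl

/-- The classifying map of the family `N` over `Y` is surjective. -/
theorem surjective_classify {P' : SubPicCondition c ε} [IsAlgClosed k]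
    (D : RelativePic0Designation k c) (h : RepresentsRelSubPic c ε P' D)
    [LocallyOfFiniteType D.toBase] [IsSeparated D.toBase]
    {Y : Scheme.{u}} (y : Y ⟶ Spec (CommRingCat.of k)) [IsProper y]
    (N : RigidifiedLineBundle c ε y) (hN : P'.P y N)
    (hsurj : ∀ M : RigidifiedLineBundle c ε (𝟙 (Spec (CommRingCat.of k))),
      P'.P (𝟙 (Spec (CommRingCat.of k))) M →
      ∃ p : SchemeHomOver (𝟙 (Spec (CommRingCat.of k))) y, Classifies N M p) :
    Function.Surjective (h.classify y N hN).1.base := by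
  set π := h.classify y N hN with hπ
  have hπN : Nonempty ((h.poincare.pullbackAlong π).L ≅ N.L) := h.classify_spec y N hN
  have hprop : IsProper (π.1 ≫ D.toBase) := by rw [π.2]; infer_instance
  have hπp : IsProper π.1 := IsProper.of_comp π.1 D.toBase
  have hcl : IsClosed (Set.range π.1.base) := (π.1.isClosedMap).isClosed_range
  have hJ : JacobsonSpace D.P := LocallyOfFiniteType.jacobsonSpace D.toBase
  have hsub : closedPoints D.P ⊆ Set.range π.1.base := by
    intro x hx
    let q : Spec (CommRingCat.of k) ⟶ D.P := pointOfClosedPoint D.toBase x hx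
    have hq : q ≫ D.toBase = 𝟙 _ := pointOfClosedPoint_comp D.toBase x hx
    let gq : SchemeHomOver (𝟙 (Spec (CommRingCat.of k))) D.toBase := ⟨q, hq⟩
    have hM : P'.P (𝟙 _) (h.poincare.pullbackAlong gq) := P'.pullback_mem _ _ gq _ h.poincare_mem
    obtain ⟨p, ⟨ep⟩⟩ := hsurj _ hM
    obtain ⟨eN⟩ := hπN
    have e1 := H25.pullbackAlongCompIso h.poincare π p
    have e2 : ((h.poincare.pullbackAlong π).pullbackAlong p).L ≅ (N.pullbackAlong p).L :=
      (RigidifiedLineBundle.pullbackAlong_congr p ⟨eN⟩).some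
    have hgeq : postComp π p = gq := h.ext_of_iso _ _ _ ⟨e1.symm ≪≫ e2 ≪≫ ep⟩
    have hq' : p.1 ≫ π.1 = q := congrArg Subtype.val hgeq
    refine ⟨p.1.base (IsLocalRing.closedPoint k), ?_⟩
    have : (p.1 ≫ π.1).base (IsLocalRing.closedPoint k) = x := by
      rw [hq']; exact pointOfClosedPoint_apply D.toBase x hx _
    simpa using this
  intro x
  have hx : x ∈ closure (closedPoints D.P) := by rw [closure_closedPoints]; trivial
  exact (closure_minimal hsub hcl) hx

end

/-- **THE ASSEMBLY**: `Stmt_CORE` from the representability criterion, the sheaf property of the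
rigidified Picard presheaf, geometric integrality over an algebraically closed field, and the charts. -/
theorem stmt_CORE_of (hR : Stmt_REPLOCAL.{u}) (hL : Stmt_LOCISO.{u}) (hG : Stmt_GLUEPIC.{u})
    (hS : Stmt_SMALL.{u}) (hGI : Stmt_GI.{u}) (hC : Stmt_CHARTS.{u}) : Stmt_CORE.{u} := by
  intro k _ _ C c _ _ _ ε
  obtain ⟨P', 𝒳, hloc, hmono, hopen, hcover, haez, hsm, hred, hval, Y, y, hYp, hYi, N, hN, hsurj⟩ :=
    hC k c ε
  obtain ⟨D, h, j, hjo, hjc, -⟩ :=
    hR k c ε P' 𝒳 hloc (hL k c ε) (hG k c ε) (hS k c ε) hmono hopen hcover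
  have hsmooth : Smooth D.toBase := smooth_of_charts 𝒳 D j hjo hjc hsm
  have hlft : LocallyOfFiniteType D.toBase := inferInstance
  have hnoeth : IsLocallyNoetherian D.P := LocallyOfFiniteType.isLocallyNoetherian D.toBase
  have hqs : QuasiSeparated D.toBase := inferInstance
  have hsep : IsSeparated D.toBase := isSeparated_of_valUniq D h hval
  have hπs : Function.Surjective (h.classify y N hN).1.base :=
    surjective_classify D h y N hN hsurj
  have hπS : Surjective (h.classify y N hN).1 := ⟨hπs⟩
  have huc' : UniversallyClosed ((h.classify y N hN).1 ≫ D.toBase) := by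
    rw [(h.classify y N hN).2]; infer_instance
  have huc : UniversallyClosed D.toBase :=
    UniversallyClosed.of_comp_surjective (h.classify y N hN).1 D.toBase
  have hproper : IsProper D.toBase := {}
  have hredJ : IsReduced D.P := isReduced_of_charts 𝒳 D j hjo hjc hred
  have hirr : IrreducibleSpace D.P :=
    hπs.irreducibleSpace (h.classify y N hN).1.continuous
  have hint : IsIntegral D.P := isIntegral_of_irreducibleSpace_of_isReduced D.P
  exact ⟨P', D, ⟨h⟩, haez, hsmooth, hproper, hGI k D.toBase⟩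

end Fermat.Agent.S25.Top.H32
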