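import Mathlib
import Fermat.Agent.S26.C.H13_TensorDomain

/-!
# S25, package TOP, part GI: integral schemes over an algebraically closed field are
geometrically integral

* `geometricallyIntegral_specMap` : for `k` algebraically closed and `K / k` a field extension,
  `Spec K ⟶ Spec k` is geometrically integral (`K ⊗[k] K'` is a domain).
* `geometricallyIntegral_of_isIntegral` : `X` integral, `f : X ⟶ Spec k`, `k` algebraically
  closed: `f` is geometrically integral (no noetherian / finite type hypothesis).
* `geometricallyConnected_of_isIntegral`, `geometricallyIrreducible_of_isIntegral`.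
-/

set_option autoImplicit false
set_option linter.style.haveILetI false

universe u

open CategoryTheory CategoryTheory.Limits AlgebraicGeometry TensorProduct

namespace Fermat.Agent.S25.Top.H61

variable (k : Type u) [Field k] [IsAlgClosed k]

theorem isIntegral_pullback_specMap (K K' : Type u) [Field K] [Algebra k K] [Field K']
    [Algebra k K'] :
    IsIntegral (pullback (Spec.map (CommRingCat.ofHom (algebraMap k K)))
      (Spec.map (CommRingCat.ofHom (algebraMap k K')))) := by
  haveI : IsDomain (K ⊗[k] K') := Fermat.Agent.S26.C.H13.isDomain_tensorProduct (K := k) K K'
  haveI : IsDomain ↑(CommRingCat.of (K ⊗[k] K')) := ‹_›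
  haveI : IsIntegral (Spec (CommRingCat.of (K ⊗[k] K'))) := inferInstance
  exact IsIntegral.of_isIso (pullbackSpecIso k K K').inv

/-- `Spec K ⟶ Spec k` is geometrically integral for `k` algebraically closed. -/
theorem geometricallyIntegral_specMap (K : Type u) [Field K] [Algebra k K] :
    GeometricallyIntegral (Spec.map (CommRingCat.ofHom (algebraMap k K))) := by
  haveI : GeometricallyReduced (Spec.map (CommRingCat.ofHom (algebraMap k K))) :=
    ⟨geometrically_iff_of_commRing_of_isClosedUnderIsomorphisms.2 fun K' _ _ => by
      haveI := isIntegral_pullback_specMap k K K'
      infer_instance⟩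
  haveI : GeometricallyIrreducible (Spec.map (CommRingCat.ofHom (algebraMap k K))) :=
    ⟨geometrically_iff_of_commRing_of_isClosedUnderIsomorphisms.2 fun K' _ _ => by
      haveI := isIntegral_pullback_specMap k K K'
      infer_instance⟩
  exact GeometricallyIntegral.of_geometricallyReduced_of_geometricallyIrreducible _

variable {k}

/-- An integral scheme over an algebraically closed field is geometrically integral. -/
theorem geometricallyIntegral_of_isIntegral {X : Scheme.{u}} [IsIntegral X]
    (f : X ⟶ Spec (CommRingCat.of k)) : GeometricallyIntegral f := by
  haveI hfin : Finite (irreducibleComponents X) := by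
    rw [irreducibleComponents_eq_singleton]
    infer_instance
  haveI : GeometricallyReduced f :=
    ⟨geometrically_iff_of_commRing_of_isClosedUnderIsomorphisms.2 fun K _ _ => by
      haveI := geometricallyIntegral_specMap k K
      exact GeometricallyReduced.isReduced_of_flat_of_finite_irreducibleComponents
        (pullback.fst f (Spec.map (CommRingCat.ofHom (algebraMap k K))))⟩
  haveI : GeometricallyIrreducible f :=
    ⟨geometrically_iff_of_commRing_of_isClosedUnderIsomorphisms.2 fun K _ _ => by
      haveI := geometricallyIntegral_specMap k K
      infer_instance⟩
  exact GeometricallyIntegral.of_geometricallyReduced_of_geometricallyIrreducible _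

theorem geometricallyIrreducible_of_isIntegral {X : Scheme.{u}} [IsIntegral X]
    (f : X ⟶ Spec (CommRingCat.of k)) : GeometricallyIrreducible f :=
  haveI := geometricallyIntegral_of_isIntegral f
  inferInstance

/-- An integral scheme over an algebraically closed field is geometrically connected. -/
theorem geometricallyConnected_of_isIntegral {X : Scheme.{u}} [IsIntegral X]
    (f : X ⟶ Spec (CommRingCat.of k)) : GeometricallyConnected f := by
  haveI := geometricallyIrreducible_of_isIntegral f
  refine ⟨fun K _ y Z fst snd hP => ?_⟩
  haveI : IrreducibleSpace Z :=
    GeometricallyIrreducible.geometrically_irreducibleSpace (f := f) y fst snd hP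
  infer_instance

end Fermat.Agent.S25.Top.H61
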