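/-
helper83, S25 (Jacobian exists), package TOP, leaf **TOP-SMALL**:
the isomorphism classes of rigidified line bundles on `C × T` form a `u`-small type.

Proof: an invertible sheaf `M` on `X` has generating sections `s x ∈ Γ(M, U x)` on a cover
`U : X → X.Opens` indexed by the points (`Glue.stmt_BGEN`), with transition functions
`u x y ∈ Γ(X, U x ⊓ U y)`; the pair `(U, u)` lives in `Type u` and determines `M` up to
isomorphism (`Glue.stmt_BISO`).  So the classes inject into a type of `Type u`.

* `CData X`            : the type of the pairs `(U, u)`;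
* `exists_cdata`       : every invertible sheaf has such data;
* `iso_of_cdata_eq`    : equal data ⟹ isomorphic;
* `small_invertible`   : any setoid on a family of invertible sheaves which is coarser than
                         isomorphism has a `u`-small quotient (general form);
* `stmt_SMALL : Top.Stmt_SMALL` (unconditional).
-/
import Mathlib
import Fermat.Agent.S25.Top.Defs
import Fermat.Agent.S25.Glue.Defs
import Fermat.Agent.S25.Glue.H18_BGen
import Fermat.Agent.S25.Glue.H56_Iso

set_option autoImplicit false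

universe u

open CategoryTheory CategoryTheory.Limits AlgebraicGeometry AlgebraicGeometry.RelPicard
  NeronModelInfra TopologicalSpace

namespace Fermat.Agent.S25.Top.H83

open Fermat.Agent.S25.Glue

/-- Cocycle data on `X`: a family of opens indexed by the points, and functions on the overlaps. -/
def CData (X : Scheme.{u}) : Type u :=
  Σ U : X → X.Opens, ∀ x y : X, Γ(X, U x ⊓ U y)

/-- Every invertible sheaf has cocycle data: generating sections on opens `U x ∋ x` and their
transition functions. -/
theorem exists_cdata {X : Scheme.{u}} (M : X.Modules) (hM : Scheme.Modules.IsInvertible M) :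
    ∃ (d : CData X) (s : ∀ x, Γ(M, d.1 x)),
      (∀ x, x ∈ d.1 x) ∧ (∀ x, IsGen M (d.1 x) (s x)) ∧ IsCocycleOf M d.1 s d.2 := by
  have h := (Glue.stmt_BGEN X M).mp hM
  choose U hU s hs using h
  have hu : ∀ x y : X, ∃ a : Γ(X, U x ⊓ U y),
      M.presheaf.map (homOfLE (inf_le_right : U x ⊓ U y ≤ U y)).op (s y) =
        a • M.presheaf.map (homOfLE (inf_le_left : U x ⊓ U y ≤ U x)).op (s x) := by
    intro x y
    obtain ⟨a, ha⟩ := (hs x (U x ⊓ U y) inf_le_left).2
      (M.presheaf.map (homOfLE (inf_le_right : U x ⊓ U y ≤ U y)).op (s y))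
    exact ⟨a, ha.symm⟩
  choose u hu using hu
  exact ⟨⟨U, u⟩, s, hU, hs, hu⟩

/-- Two sheaves with the same cocycle data are isomorphic. -/
theorem iso_of_cdata_eq {X : Scheme.{u}} (M M' : X.Modules) (d d' : CData X)
    (s : ∀ x, Γ(M, d.1 x)) (s' : ∀ x, Γ(M', d'.1 x)) (hmem : ∀ x, x ∈ d.1 x)
    (hgen : ∀ x, IsGen M (d.1 x) (s x)) (hgen' : ∀ x, IsGen M' (d'.1 x) (s' x))
    (hcoc : IsCocycleOf M d.1 s d.2) (hcoc' : IsCocycleOf M' d'.1 s' d'.2) (h : d = d') :
    Nonempty (M ≅ M') := by
  subst h
  exact H56.stmt_BISO X M M' d.1 (fun x => ⟨x, hmem x⟩) s s' hgen hgen' d.2 hcoc hcoc'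

/-- General form: a quotient of a family of invertible sheaves by a relation coarser than
isomorphism is `u`-small. -/
theorem small_invertible {X : Scheme.{u}} {α : Type (u + 1)} (L : α → X.Modules)
    (hL : ∀ a, Scheme.Modules.IsInvertible (L a)) (r : Setoid α)
    (hr : ∀ a b, Nonempty (L a ≅ L b) → r a b) : Small.{u} (Quotient r) := by
  have key : ∀ a : α, ∃ (d : CData X) (s : ∀ x, Γ(L a, d.1 x)),
      (∀ x, x ∈ d.1 x) ∧ (∀ x, IsGen (L a) (d.1 x) (s x)) ∧ IsCocycleOf (L a) d.1 s d.2 :=
    fun a => exists_cdata (L a) (hL a)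
  choose dat s hmem hgen hcoc using key
  refine small_of_injective (f := fun q : Quotient r => dat q.out) ?_
  intro q q' h
  rw [← Quotient.out_eq q, ← Quotient.out_eq q']
  apply Quotient.sound
  exact hr _ _ (iso_of_cdata_eq (L q.out) (L q'.out) (dat q.out) (dat q'.out) (s q.out)
    (s q'.out) (hmem q.out) (hgen q.out) (hgen q'.out) (hcoc q.out) (hcoc q'.out) h)

/-- **TOP-SMALL**. -/
theorem stmt_SMALL : Stmt_SMALL.{u} := by
  intro k _ C c ε T t
  exact small_invertible (fun M : RigidifiedLineBundle c ε t => M.L) (fun M => M.isInvertible)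
    (RigidifiedLineBundle.setoid (c := c) (ε := ε) t) (fun _ _ h => h)

end Fermat.Agent.S25.Top.H83
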