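/-
helper32 (owner of S25), package TOP: the INTEGRATION file.  `stmt_S25_of_open` = S25 from the statements of the
spine which are still open; the closed ones (SMALL: helper83, GI: helper61, CHRED: helper99) are plugged in.
When an open statement is closed, it is plugged in here (new file `H32_Final2.lean`, …), until no hypothesis is left.
-/
import Fermat.Agent.S25.Top.H32_Core
import Fermat.Agent.S25.Top.DefsP
import Fermat.Agent.S25.Top.H83_Small
import Fermat.Agent.S25.Top.H61_GI
import Fermat.Agent.S25.Top.H99_RedScheme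

set_option autoImplicit false

universe u

open CategoryTheory CategoryTheory.Limits AlgebraicGeometry AlgebraicGeometry.RelPicard NeronModelInfra
  GoodReductionJacobian

namespace Fermat.Agent.S25.Top.H32

theorem stmt_GI : Stmt_GI.{u} := fun _ _ _ _ f _ => H61.geometricallyIntegral_of_isIntegral f

theorem stmt_CHRED : Stmt_CHRED.{u} := fun _ _ _ x _ => H99.stmt_CH_RED x

/-- S25 from the open statements of the spine (10 hypotheses at 09:00Z). -/
theorem stmt_S25_of_open (hR : Stmt_REPLOCAL.{u}) (hL : Stmt_LOCISO.{u}) (hG : Stmt_GLUEPIC.{u})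
    (hSet : Stmt_SETUP.{u}) (hLoc : Stmt_DEGLOC.{u}) (hAez : Stmt_AEZDEG.{u})
    (hVal : Stmt_VALUNIQ.{u}) (hSurj : Stmt_SURJ.{u}) (hFam : Stmt_CHARTFAM.{u})
    (hRed : Stmt_AFFRED.{u}) : Stmt_S25.{u} :=
  stmt_S25_of_CORE (stmt_CORE_of hR hL hG H83.stmt_SMALL stmt_GI
    (stmt_CHARTS_of hSet hLoc hAez hVal hSurj hFam hRed hL stmt_CHRED))

end Fermat.Agent.S25.Top.H32
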