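/-
helper32 (owner of S25), package TOP: the INTEGRATION file, second state (08:30Z).
Plugged in: SMALL (helper83), GI (helper61), CHRED (helper99), REPLOCAL (helper25), LOCISO (helper56).
-/
import Fermat.Agent.S25.Top.H32_Final
import Fermat.Agent.S25.Top.H25_RepLocal
import Fermat.Agent.S25.Top.H56_LocIso

set_option autoImplicit false

universe u

open CategoryTheory CategoryTheory.Limits AlgebraicGeometry AlgebraicGeometry.RelPicard NeronModelInfra
  GoodReductionJacobian

namespace Fermat.Agent.S25.Top.H32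

/-- `Stmt_CORE` from the gluing of bundles and the chart level. -/
theorem stmt_CORE_of_open2 (hG : Stmt_GLUEPIC.{u}) (hC : Stmt_CHARTS.{u}) : Stmt_CORE.{u} :=
  stmt_CORE_of H25.stmt_REPLOCAL H56.stmt_LOCISO hG H83.stmt_SMALL stmt_GI hC

/-- S25 from the gluing of bundles and the chart level. -/
theorem stmt_S25_of_charts (hG : Stmt_GLUEPIC.{u}) (hC : Stmt_CHARTS.{u}) : Stmt_S25.{u} :=
  stmt_S25_of_CORE (stmt_CORE_of_open2 hG hC)

/-- S25 from the open statements of the spine (8 hypotheses at 08:30Z). -/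
theorem stmt_S25_of_open2 (hG : Stmt_GLUEPIC.{u})
    (hSet : Stmt_SETUP.{u}) (hLoc : Stmt_DEGLOC.{u}) (hAez : Stmt_AEZDEG.{u})
    (hVal : Stmt_VALUNIQ.{u}) (hSurj : Stmt_SURJ.{u}) (hFam : Stmt_CHARTFAM.{u})
    (hRed : Stmt_AFFRED.{u}) : Stmt_S25.{u} :=
  stmt_S25_of_open H25.stmt_REPLOCAL H56.stmt_LOCISO hG hSet hLoc hAez hVal hSurj hFam hRed

end Fermat.Agent.S25.Top.H32
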