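import Fermat.Agent.S25.Top.H52_AffCalc

/-!
# S25 TOP-AFFRED, part 3: `Cover` from `CoverAff`

helper52.
-/

set_option autoImplicit false
set_option linter.style.haveILetI false

universe u

open CategoryTheory CategoryTheory.Limits AlgebraicGeometry AlgebraicGeometry.RelPicard NeronModelInfra
  GoodReductionJacobian

namespace Fermat.Agent.S25.Top.H52

open Fermat.Agent.S25

variable {k : Type u} [Field k] {C : Scheme.{u}} {c : C ⟶ Spec (CommRingCat.of k)}
  {ε : SchemeHomOver (𝟙 (Spec (CommRingCat.of k))) c}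
  {P' : SubPicCondition c ε} (𝒳 : ChartFamily c ε P')

theorem cover_of_coverFlex (h : CoverFlex 𝒳) : 𝒳.Cover := by
  intro T t M hM p
  obtain ⟨q, hq⟩ := T.affineOpenCover.covers p
  have hMi : P'.P (T.affineOpenCover.f (T.affineOpenCover.idx p) ≫ t)
      (M.pullbackAlong (overOf t (T.affineOpenCover.f (T.affineOpenCover.idx p)))) :=
    P'.pullback_mem _ _ _ _ hM
  obtain ⟨a, r, hr, τ', hτ', g₀, hg₀⟩ := h _ _ _ hMi q
  let fi := T.affineOpenCover.f (T.affineOpenCover.idx p)
  let loc := Spec.map (CommRingCat.ofHom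
    (algebraMap (T.affineOpenCover.X (T.affineOpenCover.idx p)) (Localization.Away r)))
  let j : Spec (CommRingCat.of (Localization.Away r)) ⟶ T := loc ≫ fi
  haveI : IsOpenImmersion j := inferInstance
  have he : j.isoOpensRange.inv ≫ j = j.opensRange.ι := Scheme.Hom.isoOpensRange_inv_comp j
  refine ⟨a, j.opensRange, ?_, ?_⟩
  · -- the point lies in the range
    have hqr : q ∈ Set.range loc.base := by
      have := Scheme.Hom.opensRange_localizationAway (R := T.affineOpenCover.X
        (T.affineOpenCover.idx p)) r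
      have h2 : q ∈ (loc.opensRange : Set _) := by
        rw [this]
        exact hr
      exact h2
    obtain ⟨s, hs⟩ := hqr
    refine ⟨s, ?_⟩
    have h1 : j s = fi (loc s) := rfl
    rw [h1, hs]
    exact hq
  · have hbase : j.isoOpensRange.inv ≫ τ' = j.opensRange.ι ≫ t := by
      rw [← hτ', ← he]
      simp only [j, Category.assoc]
      rfl
    let ê : SchemeHomOver (j.opensRange.ι ≫ t) τ' := ⟨j.isoOpensRange.inv, hbase⟩
    refine ⟨postComp g₀ ê, ?_⟩
    have e1 := H25.pullbackAlongCompIso (𝒳.𝓛 a) g₀ ê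
    obtain ⟨e2⟩ := RigidifiedLineBundle.pullbackAlong_congr ê hg₀
    obtain ⟨e3⟩ := pullback_pullback
      (M.pullbackAlong (overOf t (T.affineOpenCover.f (T.affineOpenCover.idx p))))
      (⟨loc, hτ'⟩ : SchemeHomOver τ' (fi ≫ t)) ê
      (⟨j.isoOpensRange.inv ≫ loc, by rw [Category.assoc, hτ', hbase]⟩ :
        SchemeHomOver (j.opensRange.ι ≫ t) (fi ≫ t)) rfl
    obtain ⟨e4⟩ := pullback_pullback M (overOf t fi)
      (⟨j.isoOpensRange.inv ≫ loc, by rw [Category.assoc, hτ', hbase]⟩ :
        SchemeHomOver (j.opensRange.ι ≫ t) (fi ≫ t))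
      (overOf t j.opensRange.ι) (by
        show (j.isoOpensRange.inv ≫ loc) ≫ fi = j.opensRange.ι
        rw [Category.assoc]
        exact he)
    exact ⟨e1.symm ≪≫ e2 ≪≫ e3 ≪≫ e4⟩

theorem cover_of_coverAff (h : 𝒳.CoverAff) : 𝒳.Cover :=
  cover_of_coverFlex 𝒳 (coverFlex_of 𝒳 h)

end Fermat.Agent.S25.Top.H52
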