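import Fermat.Agent.S25.Top.H52_AffCalc

/-!
# S25 TOP-AFFRED, part 4: `Open` from `OpenAff`

helper52.  The open set is `⋃ i, f i '' U i` for the affine open cover `f i : Spec R i ⟶ T` and the
opens `U i ⊆ Spec R i` of `OpenAff`.  A classifying morphism on `T'` is glued from the ones on an
affine open cover (uniqueness on the overlaps is `Mono`), and it classifies by `LocIso`.
-/

set_option autoImplicit false
set_option linter.style.haveILetI false

universe u

open CategoryTheory CategoryTheory.Limits AlgebraicGeometry AlgebraicGeometry.RelPicard NeronModelInfra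
  GoodReductionJacobian

namespace Fermat.Agent.S25.Top.H52

open Fermat.Agent.S25

variable {k : Type u} [Field k] {C : Scheme.{u}} {c : C ⟶ Spec (CommRingCat.of k)}
  {ε : SchemeHomOver (𝟙 (Spec (CommRingCat.of k))) c}
  {P' : SubPicCondition c ε} (𝒳 : ChartFamily c ε P')

/-- The property of the open set of `OpenFlex`, for a morphism `f : Spec R ⟶ T`. -/
def IsOpenFor (a : 𝒳.ι) {T : Scheme.{u}} (t : T ⟶ Spec (CommRingCat.of k))
    (M : RigidifiedLineBundle c ε t) {R : CommRingCat.{u}} (f : Spec R ⟶ T)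
    (U : (Spec R).Opens) : Prop :=
  ∀ (R' : CommRingCat.{u}) (ψ : R ⟶ R') (τ' : Spec R' ⟶ Spec (CommRingCat.of k))
    (hτ' : Spec.map ψ ≫ (f ≫ t) = τ'),
    (Set.range (Spec.map ψ).base ⊆ (U : Set (Spec R))) ↔
      ∃ g : SchemeHomOver τ' (𝒳.x a),
        Classifies (𝒳.𝓛 a) ((M.pullbackAlong (overOf t f)).pullbackAlong
          (⟨Spec.map ψ, hτ'⟩ : SchemeHomOver τ' (f ≫ t))) g

/-- The open set of `OpenFlex` tests the classifiability of `M` on every affine scheme over `Spec R`. -/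
theorem loc_iff (a : 𝒳.ι) {T : Scheme.{u}} (t : T ⟶ Spec (CommRingCat.of k))
    (M : RigidifiedLineBundle c ε t) {R : CommRingCat.{u}} (f : Spec R ⟶ T)
    (U : (Spec R).Opens) (hU : IsOpenFor 𝒳 a t M f U)
    {R' : CommRingCat.{u}} (τ' : Spec R' ⟶ Spec (CommRingCat.of k)) (χ : SchemeHomOver τ' t)
    (ℓ : Spec R' ⟶ Spec R) (hℓ : ℓ ≫ f = χ.1) :
    (Set.range ℓ.base ⊆ (U : Set (Spec R))) ↔
      ∃ g : SchemeHomOver τ' (𝒳.x a), Classifies (𝒳.𝓛 a) (M.pullbackAlong χ) g := by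
  obtain ⟨ψ, rfl⟩ : ∃ ψ, Spec.map ψ = ℓ := ⟨Spec.preimage ℓ, Spec.map_preimage ℓ⟩
  have hτ' : Spec.map ψ ≫ (f ≫ t) = τ' := by
    rw [← Category.assoc, hℓ]
    exact χ.2
  rw [hU R' ψ τ' hτ']
  obtain ⟨e⟩ := pullback_pullback M (overOf t f)
    (⟨Spec.map ψ, hτ'⟩ : SchemeHomOver τ' (f ≫ t)) χ hℓ
  constructor
  · rintro ⟨g, ⟨e'⟩⟩
    exact ⟨g, ⟨e' ≪≫ e⟩⟩
  · rintro ⟨g, ⟨e'⟩⟩
    exact ⟨g, ⟨e' ≪≫ e.symm⟩⟩

/-- A classification is stable under base change. -/
theorem classifies_postComp {X T T' : Scheme.{u}} {x : X ⟶ Spec (CommRingCat.of k)}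
    (𝓛 : RigidifiedLineBundle c ε x) {t : T ⟶ Spec (CommRingCat.of k)}
    {t' : T' ⟶ Spec (CommRingCat.of k)} (M : RigidifiedLineBundle c ε t)
    (g : SchemeHomOver t x) (hg : Classifies 𝓛 M g) (ψ : SchemeHomOver t' t) :
    Classifies 𝓛 (M.pullbackAlong ψ) (postComp g ψ) := by
  have e1 := H25.pullbackAlongCompIso 𝓛 g ψ
  obtain ⟨e2⟩ := RigidifiedLineBundle.pullbackAlong_congr ψ hg
  exact ⟨e1.symm ≪≫ e2⟩

/-- `Open` from its affine form, `Mono` and `LocIso`. -/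
theorem open_of_openFlex (hO : OpenFlex 𝒳) (hM : 𝒳.Mono) (hL : LocIso c ε) : 𝒳.Open := by
  intro a T t M hMP
  have hex : ∀ i : T.affineOpenCover.I₀, ∃ U : (Spec (T.affineOpenCover.X i)).Opens,
      IsOpenFor 𝒳 a t M (T.affineOpenCover.f i) U := fun i =>
    hO a (T.affineOpenCover.X i) (T.affineOpenCover.f i ≫ t) _ (P'.pullback_mem _ _ _ _ hMP)
  choose Ui hUi using hex
  refine ⟨⨆ i, (T.affineOpenCover.f i) ''ᵁ (Ui i), fun {T'} h => ⟨fun hsub => ?_, ?_⟩⟩
  · -- a classifying morphism is glued from an affine open cover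
    have hex2 : ∀ p' : T', ∃ (R' : CommRingCat.{u}) (w : Spec R' ⟶ T') (_ : IsOpenImmersion w),
        p' ∈ Set.range w ∧ ∃ g : SchemeHomOver (w ≫ h ≫ t) (𝒳.x a),
          Classifies (𝒳.𝓛 a)
            (M.pullbackAlong (postComp (overOf t h) (overOf (h ≫ t) w))) g := by
      intro p'
      have hp' : h p' ∈ ⨆ i, (T.affineOpenCover.f i) ''ᵁ (Ui i) := hsub ⟨p', rfl⟩
      obtain ⟨i, hi⟩ := TopologicalSpace.Opens.mem_iSup.mp hp'
      have hp'V : p' ∈ h ⁻¹ᵁ ((T.affineOpenCover.f i) ''ᵁ (Ui i)) := hi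
      obtain ⟨R', w, hw, hmem, hsubw⟩ := Scheme.exists_affine_mem_range_and_range_subset hp'V
      have hrange : Set.range (w ≫ h) ⊆ Set.range (T.affineOpenCover.f i) := by
        rintro _ ⟨s', rfl⟩
        obtain ⟨u, _, hu⟩ := hsubw ⟨s', rfl⟩
        exact ⟨u, hu⟩
      have hℓ : IsOpenImmersion.lift (T.affineOpenCover.f i) (w ≫ h) hrange ≫
          T.affineOpenCover.f i = w ≫ h := IsOpenImmersion.lift_fac _ _ _
      refine ⟨R', w, hw, hmem, (loc_iff 𝒳 a t M (T.affineOpenCover.f i) (Ui i) (hUi i)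
        (w ≫ h ≫ t) (postComp (overOf t h) (overOf (h ≫ t) w)) _ hℓ).1 ?_⟩
      rintro _ ⟨s', rfl⟩
      obtain ⟨u, hu, hu'⟩ := hsubw ⟨s', rfl⟩
      have h1 : T.affineOpenCover.f i
          (IsOpenImmersion.lift (T.affineOpenCover.f i) (w ≫ h) hrange s') = h (w s') := by
        have := congrArg (fun φ : Spec R' ⟶ T => φ s') hℓ
        exact this
      have h2 : IsOpenImmersion.lift (T.affineOpenCover.f i) (w ≫ h) hrange s' = u :=
        (T.affineOpenCover.f i).isOpenEmbedding.injective (h1.trans hu'.symm)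
      show IsOpenImmersion.lift (T.affineOpenCover.f i) (w ≫ h) hrange s' ∈ Ui i
      rw [h2]
      exact hu
    choose R' w hw hmem g hg using hex2
    let 𝒱 : T'.OpenCover := Scheme.Cover.mkOfCovers T' (fun p' => Spec (R' p')) w
      (fun p' => ⟨p', hmem p'⟩) hw
    have compat : ∀ x y, pullback.fst (𝒱.f x) (𝒱.f y) ≫ (g x).1 =
        pullback.snd (𝒱.f x) (𝒱.f y) ≫ (g y).1 := by
      intro x y
      have hcond : pullback.snd (w x) (w y) ≫ (w y ≫ h ≫ t) =
          pullback.fst (w x) (w y) ≫ (w x ≫ h ≫ t) := by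
        rw [← Category.assoc, ← pullback.condition, Category.assoc]
      have key := hM a (pullback.fst (w x) (w y) ≫ (w x ≫ h ≫ t))
        (postComp (g x) (overOf (w x ≫ h ≫ t) (pullback.fst (w x) (w y))))
        (postComp (g y) (⟨pullback.snd (w x) (w y), hcond⟩ :
          SchemeHomOver (pullback.fst (w x) (w y) ≫ (w x ≫ h ≫ t)) (w y ≫ h ≫ t))) (by
        obtain ⟨e1⟩ := classifies_postComp (𝒳.𝓛 a) _ (g x) (hg x)
          (overOf (w x ≫ h ≫ t) (pullback.fst (w x) (w y)))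
        obtain ⟨e2⟩ := classifies_postComp (𝒳.𝓛 a) _ (g y) (hg y)
          (⟨pullback.snd (w x) (w y), hcond⟩ :
            SchemeHomOver (pullback.fst (w x) (w y) ≫ (w x ≫ h ≫ t)) (w y ≫ h ≫ t))
        obtain ⟨e3⟩ := pullback_pullback M (postComp (overOf t h) (overOf (h ≫ t) (w x)))
          (overOf (w x ≫ h ≫ t) (pullback.fst (w x) (w y)))
          (postComp (postComp (overOf t h) (overOf (h ≫ t) (w x)))
            (overOf (w x ≫ h ≫ t) (pullback.fst (w x) (w y)))) rfl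
        obtain ⟨e4⟩ := pullback_pullback M (postComp (overOf t h) (overOf (h ≫ t) (w y)))
          (⟨pullback.snd (w x) (w y), hcond⟩ :
            SchemeHomOver (pullback.fst (w x) (w y) ≫ (w x ≫ h ≫ t)) (w y ≫ h ≫ t))
          (postComp (postComp (overOf t h) (overOf (h ≫ t) (w x)))
            (overOf (w x ≫ h ≫ t) (pullback.fst (w x) (w y)))) (by
            show pullback.snd (w x) (w y) ≫ (w y ≫ h) = pullback.fst (w x) (w y) ≫ (w x ≫ h)
            rw [← Category.assoc, ← pullback.condition, Category.assoc])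
        exact ⟨e1 ≪≫ e3 ≪≫ e4.symm ≪≫ e2.symm⟩)
      exact congrArg Subtype.val key
    have hG₀ : ∀ p', w p' ≫ 𝒱.glueMorphisms (fun p' => (g p').1) compat = (g p').1 :=
      fun p' => 𝒱.ι_glueMorphisms _ compat p'
    have hover : 𝒱.glueMorphisms (fun p' => (g p').1) compat ≫ 𝒳.x a = h ≫ t := by
      refine Scheme.Cover.hom_ext 𝒱 _ _ (fun p' => ?_)
      show w p' ≫ 𝒱.glueMorphisms (fun p' => (g p').1) compat ≫ 𝒳.x a = w p' ≫ h ≫ t
      rw [← Category.assoc]
      exact (congrArg (fun φ => φ ≫ 𝒳.x a) (hG₀ p')).trans (g p').2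
    refine ⟨⟨𝒱.glueMorphisms (fun p' => (g p').1) compat, hover⟩,
      hL (h ≫ t) _ _ 𝒱 (fun p' => ?_)⟩
    show Nonempty ((((𝒳.𝓛 a).pullbackAlong
      (⟨𝒱.glueMorphisms (fun p' => (g p').1) compat, hover⟩ :
        SchemeHomOver (h ≫ t) (𝒳.x a))).pullbackAlong (overOf (h ≫ t) (w p'))).L ≅
      ((M.pullbackAlong (overOf t h)).pullbackAlong (overOf (h ≫ t) (w p'))).L)
    obtain ⟨e1⟩ := pullback_pullback (𝒳.𝓛 a)
      (⟨𝒱.glueMorphisms (fun p' => (g p').1) compat, hover⟩ : SchemeHomOver (h ≫ t) (𝒳.x a))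
      (overOf (h ≫ t) (w p')) (g p') (hG₀ p')
    obtain ⟨e2⟩ := hg p'
    have e3 := H25.pullbackAlongCompIso M (overOf t h) (overOf (h ≫ t) (w p'))
    exact ⟨e1 ≪≫ e2 ≪≫ e3.symm⟩
  · -- a classified bundle lands in the open set
    rintro ⟨g, hg⟩ _ ⟨p', rfl⟩
    have hp'V : p' ∈ h ⁻¹ᵁ (T.affineOpenCover.f (T.affineOpenCover.idx (h p'))).opensRange :=
      T.affineOpenCover.covers (h p')
    obtain ⟨R', w, hw, ⟨s, rfl⟩, hsubw⟩ := Scheme.exists_affine_mem_range_and_range_subset hp'V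
    have hrange : Set.range (w ≫ h) ⊆
        Set.range (T.affineOpenCover.f (T.affineOpenCover.idx (h (w s)))) := by
      rintro _ ⟨s', rfl⟩
      exact hsubw ⟨s', rfl⟩
    have hℓ : IsOpenImmersion.lift (T.affineOpenCover.f (T.affineOpenCover.idx (h (w s))))
        (w ≫ h) hrange ≫ T.affineOpenCover.f (T.affineOpenCover.idx (h (w s))) = w ≫ h :=
      IsOpenImmersion.lift_fac _ _ _
    have key := (loc_iff 𝒳 a t M (T.affineOpenCover.f (T.affineOpenCover.idx (h (w s))))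
      (Ui _) (hUi _) (w ≫ h ≫ t) (postComp (overOf t h) (overOf (h ≫ t) w)) _ hℓ).2
      ⟨postComp g (overOf (h ≫ t) w), by
        obtain ⟨e1⟩ := classifies_postComp (𝒳.𝓛 a) _ g hg (overOf (h ≫ t) w)
        exact ⟨e1 ≪≫ H25.pullbackAlongCompIso M (overOf t h) (overOf (h ≫ t) w)⟩⟩
    have h1 : T.affineOpenCover.f (T.affineOpenCover.idx (h (w s)))
        (IsOpenImmersion.lift (T.affineOpenCover.f (T.affineOpenCover.idx (h (w s))))
          (w ≫ h) hrange s) = h (w s) := by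
      have := congrArg (fun φ : Spec R' ⟶ T => φ s) hℓ
      exact this
    refine TopologicalSpace.Opens.mem_iSup.mpr ⟨T.affineOpenCover.idx (h (w s)), ?_⟩
    exact ⟨_, key ⟨s, rfl⟩, h1⟩

end Fermat.Agent.S25.Top.H52
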