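import Fermat.Agent.S25.Top.H52_AffMono
import Fermat.Agent.S25.Top.H52_AffCover
import Fermat.Agent.S25.Top.H52_AffOpen

/-!
# S25 TOP-AFFRED: affine test schemes are enough

helper52.  `stmt_AFFRED : Top.Stmt_AFFRED` (unconditional): for a chart family, `MonoAff`, `OpenAff`
and `CoverAff` imply `Mono`, `Open` and `Cover`, given `LocIso`.
-/

set_option autoImplicit false

universe u

open CategoryTheory CategoryTheory.Limits AlgebraicGeometry AlgebraicGeometry.RelPicard NeronModelInfra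
  GoodReductionJacobian

namespace Fermat.Agent.S25.Top.H52

open Fermat.Agent.S25

/-- **TOP-AFFRED**. -/
theorem stmt_AFFRED : Top.Stmt_AFFRED.{u} := fun _ _ _ _ _ _ 𝒳 hL _ hm ho hc =>
  ⟨mono_of_monoAff 𝒳 hm, open_of_openFlex 𝒳 (openFlex_of 𝒳 ho) (mono_of_monoAff 𝒳 hm) hL,
    cover_of_coverAff 𝒳 hc⟩

end Fermat.Agent.S25.Top.H52
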