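/-
helper89, S25 package TOP, leaf TOP-DEGLOC: "fibrewise of degree zero" is Zariski local on the base.

`stmt_DEGLOC_of : T1 → T2 → T4 → LB-VB → BCTRANS → FIELDEXT → TW → Stmt_DEGLOC`.

Proof.  Let `𝒰` be an open cover of `T` with `M|𝒰ᵢ` of degree zero, `φ : Spec R ⟶ T`, `L` a triple of
`φ^* M`, `p ∈ Spec R`.  Choose `i` and `r ∉ p` such that `Spec R_r ⟶ Spec R ⟶ T` factors through `𝒰ᵢ`
(`exists_local_factor`).  The pull-back of `φ^* M` to `R_r` is isomorphic to the pull-back of `M|𝒰ᵢ`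
along the factorisation (`pullbackIso`), so (T1, T2) its triple `L'` is isomorphic to a triple `L''`
of degree zero; by T4, `L'` is the base change of `L`, and the fibre numbers of a base change at
`p'` are the fibre numbers at `p' ∩ R` (`P1.H89.hAt_baseChange`).
-/
import Fermat.Agent.S25.Top.DefsP
import Fermat.Agent.S25.P1.H89_FibreNum

set_option autoImplicit false
set_option linter.style.haveILetI false

universe u

open CategoryTheory CategoryTheory.Limits AlgebraicGeometry AlgebraicGeometry.RelPicard NeronModelInfra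
  GoodReductionJacobian TensorProduct

namespace Fermat.Agent.S25.Top.H89

open Fermat.Agent.S25

/-- A morphism `Spec R ⟶ T` factors, on a principal open neighbourhood of any given point, through a
member of any open cover of `T`. -/
theorem exists_local_factor {T : Scheme.{u}} (𝒰 : Scheme.OpenCover.{u} T) {R : Type u} [CommRing R]
    (φ : Spec (CommRingCat.of R) ⟶ T) (p : PrimeSpectrum R) :
    ∃ (i : 𝒰.I₀) (r : R), r ∉ p.asIdeal ∧
      ∃ ψ : Spec (CommRingCat.of (Localization.Away r)) ⟶ 𝒰.X i,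
        ψ ≫ 𝒰.f i = Spec.map (CommRingCat.ofHom (algebraMap R (Localization.Away r))) ≫ φ := by
  obtain ⟨i, y, hy⟩ := 𝒰.exists_eq (φ p)
  have hp : p ∈ (φ ⁻¹ᵁ (𝒰.f i).opensRange : (Spec (CommRingCat.of R)).Opens) := ⟨y, hy⟩
  obtain ⟨_, ⟨r, rfl⟩, hpr, hrU⟩ :=
    PrimeSpectrum.isTopologicalBasis_basic_opens.exists_subset_of_mem_open hp
      (φ ⁻¹ᵁ (𝒰.f i).opensRange).isOpen
  refine ⟨i, r, hpr, ?_⟩
  have hrange : Set.range (Spec.map (CommRingCat.ofHom (algebraMap R (Localization.Away r))) ≫ φ) ⊆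
      Set.range (𝒰.f i) := by
    rintro _ ⟨q, rfl⟩
    have hq : (Spec.map (CommRingCat.ofHom (algebraMap R (Localization.Away r)))) q ∈
        (PrimeSpectrum.basicOpen r : Set (PrimeSpectrum R)) := by
      rw [← PrimeSpectrum.localization_away_comap_range (Localization.Away r) r]
      exact ⟨q, rfl⟩
    exact hrU hq
  exact ⟨IsOpenImmersion.lift (𝒰.f i) _ hrange, IsOpenImmersion.lift_fac _ _ hrange⟩

section

variable {k : Type u} [Field k] {C : Scheme.{u}} {c : C ⟶ Spec (CommRingCat.of k)}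
  {ε : SchemeHomOver (𝟙 (Spec (CommRingCat.of k))) c}

/-- Two factorisations of the same morphism give isomorphic pull-backs. -/
noncomputable def pullbackIso {X X' T T' : Scheme.{u}} {x : X ⟶ Spec (CommRingCat.of k)}
    {x' : X' ⟶ Spec (CommRingCat.of k)} {t : T ⟶ Spec (CommRingCat.of k)}
    {t' : T' ⟶ Spec (CommRingCat.of k)} (M : RigidifiedLineBundle c ε t)
    (a : SchemeHomOver x t) (b : SchemeHomOver t' x) (a' : SchemeHomOver x' t)
    (b' : SchemeHomOver t' x') (h : b.1 ≫ a.1 = b'.1 ≫ a'.1) :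
    ((M.pullbackAlong a).pullbackAlong b).L ≅ ((M.pullbackAlong a').pullbackAlong b').L :=
  have heq : baseChangeSnd c b ≫ baseChangeSnd c a = baseChangeSnd c b' ≫ baseChangeSnd c a' := by
    rw [baseChangeSnd_comp, baseChangeSnd_comp]
    congr 1
    exact Subtype.ext h
  (Scheme.Modules.pullbackComp _ _).app M.L ≪≫ (Scheme.Modules.pullbackCongr heq).app M.L ≪≫
    ((Scheme.Modules.pullbackComp _ _).app M.L).symm

end

/-- **TOP-DEGLOC** from the dictionary and the fibre calculus. -/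
theorem stmt_DEGLOC_of (hT1 : Bridge.Stmt_T1.{u}) (hT2 : Bridge.Stmt_T2.{u})
    (hT4 : Bridge.Stmt_T4.{u}) (hVB : LB.Stmt_VB.{u}) (hBCT : P1.Stmt_BCTRANS.{u})
    (hFE : P1.Stmt_FIELDEXT.{u}) (hTW : P1.Stmt_TW.{u}) : Stmt_DEGLOC.{u} := by
  intro k _ _ C c _ _ _ ε S T t M 𝒰 h
  rw [S.hP']
  intro R _ _ φ L hL p
  obtain ⟨i, r, hr, ψ, hψ⟩ := exists_local_factor 𝒰 φ.1 p
  -- the localisation
  let σ : SchemeHomOver (Bridge.tR k (Localization.Away r)) (Bridge.tR k R) :=
    specOver k R (Localization.Away r)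
  have hψ' : ψ ≫ 𝒰.f i ≫ t = Bridge.tR k (Localization.Away r) := by
    rw [← Category.assoc, hψ, Category.assoc, φ.2]
    exact σ.2
  let ψ' : SchemeHomOver (Bridge.tR k (Localization.Away r)) (𝒰.f i ≫ t) := ⟨ψ, hψ'⟩
  -- the two sheaves on `C × Spec R_r`
  have e : ((M.pullbackAlong (overOf t (𝒰.f i))).pullbackAlong ψ').L ≅
      ((M.pullbackAlong φ).pullbackAlong σ).L :=
    pullbackIso M (overOf t (𝒰.f i)) ψ' φ σ hψ
  have hinv'' := ((M.pullbackAlong (overOf t (𝒰.f i))).pullbackAlong ψ').isInvertible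
  have hinv' := ((M.pullbackAlong φ).pullbackAlong σ).isInvertible
  obtain ⟨L'', hL''⟩ := hT1 k c ε S.𝒞 S.good S.ρ (Localization.Away r) _ hinv''
  obtain ⟨L', hL'⟩ := hT1 k c ε S.𝒞 S.good S.ρ (Localization.Away r) _ hinv'
  obtain ⟨E''⟩ := (hT2 k c ε S.𝒞 S.good S.ρ (Localization.Away r) _ _ L'' L' hinv'' hinv'
    hL'' hL').mp ⟨e⟩
  obtain ⟨-, -, -, E, -⟩ := hT4 k c ε S.𝒞 S.good S.ρ R (Localization.Away r) (M.pullbackAlong φ).L
    L L' (M.pullbackAlong φ).isInvertible hL hL'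
  -- degree zero over the member of the cover
  have hdeg : IsDeg0 S.g L'' :=
    (S.hP' (𝒰.f i ≫ t) (M.pullbackAlong (overOf t (𝒰.f i)))).mp (h i) (Localization.Away r) ψ' L'' hL''
  -- the point above `p`
  have hp : p ∈ Set.range (PrimeSpectrum.comap (algebraMap R (Localization.Away r))) := by
    rw [PrimeSpectrum.localization_away_comap_range (Localization.Away r) r]
    exact hr
  obtain ⟨p', hp'⟩ := hp
  have hpI : p.asIdeal = p'.asIdeal.comap (algebraMap R (Localization.Away r)) := by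
    rw [← hp']
    rfl
  obtain ⟨h0, h1⟩ := P1.H89.hAt_baseChange hBCT hFE hTW L.toData (hVB k S.𝒞 S.good R L)
    (Localization.Away r) p' p hpI
  have h0' := P1.H89.h0At_iso E p'
  have h1' := P1.H89.h1At_iso E p'
  have h0'' := P1.H89.h0At_iso (P1.H89.dataIsoOfTripleIso E'') p'
  have h1'' := P1.H89.h1At_iso (P1.H89.dataIsoOfTripleIso E'') p'
  have := hdeg p'
  rw [← h0, ← h1, h0', h1', ← h0'', ← h1'']
  exact this

end Fermat.Agent.S25.Top.H89
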