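/-
helper32 (owner of S25), package TOP: the INTEGRATION file, third state (08:30Z).
Plugged in: SMALL (helper83), GI (helper61), CHRED (helper99), REPLOCAL (helper25), LOCISO (helper56),
AFFRED (helper52), DEGLOC (helper89, with the closed BRIDGE / P1 / LB leaves).
The chart level is used in helper19's form with the étale element (`Top/DefsF.lean`).
OPEN: GLUEPIC, SETUPE, AEZDEG, VALUNIQ, SURJ, CHARTFAME.
-/
import Fermat.Agent.S25.Top.H32_Final2
import Fermat.Agent.S25.Top.DefsF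
import Fermat.Agent.S25.Top.H52_AffRed
import Fermat.Agent.S25.Top.H89_DegLoc
import Fermat.Agent.S25.Bridge.H24_Closed
import Fermat.Agent.S25.LB.H7_VB
import Fermat.Agent.S25.P1.H36_Tw
import Fermat.Agent.S25.P1.H45_BCTrans
import Fermat.Agent.S25.P1.H92_FieldExt

set_option autoImplicit false

universe u

open CategoryTheory CategoryTheory.Limits AlgebraicGeometry AlgebraicGeometry.RelPicard NeronModelInfra
  GoodReductionJacobian

namespace Fermat.Agent.S25.Top.H32

/-- TOP-DEGLOC, unconditional. -/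
theorem stmt_DEGLOC : Stmt_DEGLOC.{u} :=
  H89.stmt_DEGLOC_of Bridge.H24.stmt_T1 Bridge.H24.closed_T2 Bridge.H24.closed_T4 LB.H7.stmt_VB
    P1.H45.stmt_BCTRANS P1.H92.stmt_FIELDEXT P1.H36.stmt_TW

/-- The chart level from its open leaves (5 hypotheses at 08:30Z). -/
theorem stmt_CHARTS_of_open3 (hSet : F.Stmt_SETUPE.{u}) (hAez : Stmt_AEZDEG.{u})
    (hVal : Stmt_VALUNIQ.{u}) (hSurj : Stmt_SURJ.{u}) (hFam : F.Stmt_CHARTFAME.{u}) :
    Stmt_CHARTS.{u} :=
  F.stmt_CHARTS_of_e hSet stmt_DEGLOC hAez hVal hSurj hFam H52.stmt_AFFRED H56.stmt_LOCISO stmt_CHRED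

/-- S25 from the open statements of the spine (6 hypotheses at 08:30Z). -/
theorem stmt_S25_of_open3 (hG : Stmt_GLUEPIC.{u}) (hSet : F.Stmt_SETUPE.{u})
    (hAez : Stmt_AEZDEG.{u}) (hVal : Stmt_VALUNIQ.{u}) (hSurj : Stmt_SURJ.{u})
    (hFam : F.Stmt_CHARTFAME.{u}) : Stmt_S25.{u} :=
  stmt_S25_of_charts hG (stmt_CHARTS_of_open3 hSet hAez hVal hSurj hFam)

end Fermat.Agent.S25.Top.H32
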