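/-
helper7, S25 (Jacobian exists), package TOP:

* `stmt_FAMISOTR : F.Stmt_FAMISOTR`  (leaf FAM-ISOTR of helper19's `Top/DefsF.lean`);
* `Stmt_ISET`      : the étale translation (helper34's LINK-ET: the étale element of `BCOVER_SEP` is an
                     étale element of `Curve.H7.datumOf`), as a statement;
* `stmt_SETUPE_of : Curve.Stmt_BCOVER_SEP → Stmt_ISET → F.Stmt_SETUPE`.
-/
import Fermat.Agent.S25.Top.H7_Setup
import Fermat.Agent.S25.Top.DefsF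
import Fermat.Agent.S25.Bridge.H7_Link

set_option autoImplicit false

universe u

open CategoryTheory CategoryTheory.Limits AlgebraicGeometry AlgebraicGeometry.RelPicard NeronModelInfra

namespace Fermat.Agent.S25.Top.H7

open Fermat.Agent.S25

/-- **FAM-ISOTR**. -/
theorem stmt_FAMISOTR : F.Stmt_FAMISOTR.{u} := by
  intro k _ C c ε 𝒞 ρ R _ _ L L' T he hT
  obtain ⟨e⟩ := he
  exact isTripleOf_of_iso ρ R hT e

/-- **LINK-ET** (the étale translation), as a statement: the étale element of `Curve.Stmt_BCOVER_SEP`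
is an étale element of the curve datum `Curve.H7.datumOf`. -/
def Stmt_ISET : Prop :=
  ∀ (k : Type u) [Field k] {C : Scheme.{u}} (c : C ⟶ Spec (CommRingCat.of k)) (U₀ U₁ : C.Opens)
    (x : Γ(C, U₀)) (y : Γ(C, U₁)) (h : Curve.IsTwoChart U₀ U₁ x y)
    (e : Spec (CommRingCat.of k) ⟶ C) (he : e ≫ c = 𝟙 _) (heU : ∀ z, e z ∈ U₁ ∧ e z ∉ U₀),
    IsAffineOpen U₀ → ∀ g : Γ(C, U₀), g ≠ 0 →
    ((Curve.res (C.basicOpen_le g)).comp (Curve.polyTo c U₀ x)).Etale →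
    Chart.IsEtAt (Curve.H7.datumOf c U₀ U₁ x y h e he heU) g

/-- **TOP-SETUPE** from the two-chart cover with a separating variable. -/
theorem stmt_SETUPE_of (hB : Curve.Stmt_BCOVER_SEP.{u}) (hE : Stmt_ISET.{u}) :
    F.Stmt_SETUPE.{u} := by
  intro k _ _ C c _ _ _ ε
  obtain ⟨U₀, U₁, x, y, h, hA0, hA1, heU, hf0, hf1, hi0, hi1, g, hg, hét⟩ := hB k c ε.1 ε.2
  exact ⟨degSetupOf (Bridge.H7.realizes_datumOf c ε U₀ U₁ x y h heU hA0 hA1)
      (Curve.H7.datumOf_isGood c U₀ U₁ x y h ε.1 ε.2 heU hA0 hA1 hf0 hf1 hi0 hi1),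
    ⟨g, hE k c U₀ U₁ x y h ε.1 ε.2 heU hA0 g hg hét⟩, rfl⟩

end Fermat.Agent.S25.Top.H7
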