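/-
helper7, S25 (Jacobian exists), package TOP, leaf **TOP-SETUPE**, unconditional:

* `stmt_ISET   : Stmt_ISET`      (helper34's `Bridge.H34.isEtAt_datumOf`);
* `stmt_SETUPE : F.Stmt_SETUPE`  (with helper66's `Curve.H66.stmt_BCOVER_SEP`).
-/
import Fermat.Agent.S25.Top.H7_SetupE
import Fermat.Agent.S25.Bridge.H34_LinkEt
import Fermat.Agent.S25.Curve.H66_BCoverFinal

set_option autoImplicit false

universe u

namespace Fermat.Agent.S25.Top.H7

open Fermat.Agent.S25

/-- **LINK-ET** (helper34). -/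
theorem stmt_ISET : Stmt_ISET.{u} := by
  intro k _ C c U₀ U₁ x y h e he heU hA₀ g hg hét
  exact Bridge.H34.isEtAt_datumOf c U₀ U₁ x y h e he heU hA₀ g hg hét

/-- **TOP-SETUPE**, unconditional. -/
theorem stmt_SETUPE : F.Stmt_SETUPE.{u} :=
  stmt_SETUPE_of Curve.H66.stmt_BCOVER_SEP stmt_ISET

end Fermat.Agent.S25.Top.H7
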