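import Fermat.Agent.S25.Top.H56_GStmts
import Fermat.Agent.S25.Top.DefsG2

/-!
# S25, package TOP, leaf GLUEPIC-EVLOC (helper56): `stmt_EVLOC : G.Stmt_EVLOC`

`σ : T ⟶ X`, open immersions `j : X' ⟶ X`, `f : U ⟶ T`, and `ε' : U ⟶ X'` with `ε' ≫ j = f ≫ σ`,
`σ⁻¹(range j) ⊆ range f`.  A trivialisation `ρ` of `ε'^* L` gives the local evaluation
`Γ(j_* L, W) = Γ(L, j⁻¹W) → Γ(ε'^* L, ε'⁻¹j⁻¹W) → Γ(U, f⁻¹σ⁻¹W) ≃ Γ(T, σ⁻¹W)` (`W ⊆ range j`),
which preserves generating sections.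

* `ofPush`, `isGen_ofPush` : sections and generating sections of a push-forward along an open immersion;
* `evLoc` : the local evaluation, `evLoc_presGen`;
* `stmt_EVLOC`.

This file contains no unproved statement.
-/

set_option autoImplicit false

open CategoryTheory AlgebraicGeometry TopologicalSpace Opposite

universe u

namespace Fermat.Agent.S25.Top.H56

open Fermat.Agent.S25.Glue Fermat.Agent.S25.Glue.H56

section Push

variable {X X' : Scheme.{u}} (j : X' ⟶ X) (L : X'.Modules)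

/-- a section of the push-forward as a section of `L` -/
def ofPush (W : X.Opens) (t : Γ((Scheme.Modules.pushforward j).obj L, W)) : Γ(L, j ⁻¹ᵁ W) := t

/-- a section of `L` as a section of the push-forward -/
def toPush (W : X.Opens) (t : Γ(L, j ⁻¹ᵁ W)) : Γ((Scheme.Modules.pushforward j).obj L, W) := t

theorem ofPush_add (W : X.Opens) (t t' : Γ((Scheme.Modules.pushforward j).obj L, W)) :
    ofPush j L W (t + t') = ofPush j L W t + ofPush j L W t' := rfl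

theorem ofPush_smul (W : X.Opens) (a : Γ(X, W)) (t : Γ((Scheme.Modules.pushforward j).obj L, W)) :
    ofPush j L W (a • t) = j.app W a • ofPush j L W t := rfl

theorem ofPush_res {W W' : X.Opens} (h : W' ≤ W)
    (t : Γ((Scheme.Modules.pushforward j).obj L, W)) :
    ofPush j L W' (resM ((Scheme.Modules.pushforward j).obj L) h t) =
      resM L (preimage_le j h) (ofPush j L W t) := rfl

theorem resM_bijective_of_eq (L : X'.Modules) {A B : X'.Opens} (e : A = B) (h : A ≤ B) :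
    Function.Bijective (resM L h) := by
  subst e
  have : resM L h = id := funext fun t => resM_id L t
  rw [this]
  exact Function.bijective_id

theorem resO_app_appIso_inv [IsOpenImmersion j] (V' : X'.Opens) (b : Γ(X', V'))
    (h : V' ≤ j ⁻¹ᵁ (j ''ᵁ V')) :
    resO X' h (j.app (j ''ᵁ V') ((j.appIso V').inv b)) = b := by
  have h1 := j.appIso_inv_app V'
  have h2 : j.app (j ''ᵁ V') ((j.appIso V').inv b) =
      X'.presheaf.map (eqToHom (j.preimage_image_eq V')).op b := by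
    rw [← h1]
    rfl
  rw [h2]
  unfold resO
  rw [← ConcreteCategory.comp_apply, ← Functor.map_comp]
  have : (eqToHom (j.preimage_image_eq V')).op ≫ (homOfLE h).op = 𝟙 (op V') :=
    Subsingleton.elim _ _
  rw [this, X'.presheaf.map_id]
  rfl

/-- A generating section of the push-forward along an open immersion over an open in the range is
a generating section upstairs. -/
theorem isGen_ofPush [IsOpenImmersion j] {W : X.Opens}
    {s : Γ((Scheme.Modules.pushforward j).obj L, W)}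
    (hs : IsGen ((Scheme.Modules.pushforward j).obj L) W s) :
    IsGen L (j ⁻¹ᵁ W) (ofPush j L W s) := by
  rw [isGen_iff]
  intro V' hV'
  have hW' : j ''ᵁ V' ≤ W := by
    rintro _ ⟨y, hy, rfl⟩
    exact hV' hy
  have e : j ⁻¹ᵁ (j ''ᵁ V') = V' := j.preimage_image_eq V'
  have h1 := (isGen_iff.1 hs) (j ''ᵁ V') hW'
  have h2 : Function.Bijective (j.appIso V').inv :=
    (ConcreteCategory.isIso_iff_bijective _).1 inferInstance
  have h3 : Function.Bijective (resM L (le_of_eq e.symm)) :=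
    resM_bijective_of_eq L e.symm _
  have := h3.comp (h1.comp h2)
  convert this using 1
  funext b
  change _ = resM L _ (ofPush j L _ ((j.appIso V').inv b •
    resM ((Scheme.Modules.pushforward j).obj L) hW' s))
  rw [ofPush_smul, ofPush_res, resM_smul, resM_resM, resO_app_appIso_inv]

end Push

section Ev

variable {X T X' U : Scheme.{u}} (σ : T ⟶ X) (j : X' ⟶ X) (f : U ⟶ T) (ε' : U ⟶ X')
  [IsOpenImmersion j] [IsOpenImmersion f] (hsq : ε' ≫ j = f ≫ σ)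
  (hr : σ ⁻¹ᵁ j.opensRange ≤ f.opensRange)
  (L : X'.Modules) (ρ : (Scheme.Modules.pullback ε').obj L ≅ unitM U)

omit [IsOpenImmersion j] [IsOpenImmersion f] in
include hsq in
theorem evLoc_le₁ (W : X.Opens) : f ⁻¹ᵁ (σ ⁻¹ᵁ W) ≤ ε' ⁻¹ᵁ (j ⁻¹ᵁ W) := by
  intro y hy
  have h1 : (f ≫ σ).base y ∈ W := hy
  rw [← hsq] at h1
  exact h1

include hr in
theorem evLoc_le₂ {W : X.Opens} (hW : W ≤ j.opensRange) :
    σ ⁻¹ᵁ W ≤ f ''ᵁ (f ⁻¹ᵁ (σ ⁻¹ᵁ W)) := by
  intro z hz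
  obtain ⟨y, rfl⟩ := hr (show z ∈ σ ⁻¹ᵁ j.opensRange from hW hz)
  exact ⟨y, hz, rfl⟩

theorem resO_app_congr {A B : Scheme.{u}} {g g' : A ⟶ B} (e : g = g') (W : B.Opens)
    (a : Γ(B, W)) {Z : A.Opens} (h : Z ≤ g ⁻¹ᵁ W) (h' : Z ≤ g' ⁻¹ᵁ W) :
    resO A h (g.app W a) = resO A h' (g'.app W a) := by
  subst e
  rfl

omit [IsOpenImmersion j] in
include hsq in
/-- the key identity for the semilinearity of the local evaluation -/
theorem evLoc_key {W : X.Opens} (a : Γ(X, W))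
    (h2 : σ ⁻¹ᵁ W ≤ f ''ᵁ (f ⁻¹ᵁ (σ ⁻¹ᵁ W))) :
    resO T h2 ((f.appIso (f ⁻¹ᵁ (σ ⁻¹ᵁ W))).inv
      (resO U (evLoc_le₁ σ j f ε' hsq W) (ε'.app (j ⁻¹ᵁ W) (j.app W a)))) = σ.app W a := by
  have e1 : ε'.app (j ⁻¹ᵁ W) (j.app W a) = (ε' ≫ j).app W a := by
    rw [Scheme.Hom.comp_app]
    rfl
  have e2 : resO U (evLoc_le₁ σ j f ε' hsq W) ((ε' ≫ j).app W a) =
      resO U (le_refl _) ((f ≫ σ).app W a) :=
    resO_app_congr hsq W a _ _
  have e3 : (f ≫ σ).app W a = f.app (σ ⁻¹ᵁ W) (σ.app W a) := by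
    rw [Scheme.Hom.comp_app]
    rfl
  rw [e1, e2, resO_id, e3]
  have e4 := f.app_appIso_inv (σ ⁻¹ᵁ W)
  have hle : f ''ᵁ (f ⁻¹ᵁ (σ ⁻¹ᵁ W)) ≤ σ ⁻¹ᵁ W := by
    rintro _ ⟨y, hy, rfl⟩
    exact hy
  have e5 : (f.appIso (f ⁻¹ᵁ (σ ⁻¹ᵁ W))).inv (f.app (σ ⁻¹ᵁ W) (σ.app W a)) =
      resO T hle (σ.app W a) := congr($e4 (σ.app W a))
  rw [e5, resO_resO, resO_id]

/-- the trivialisation of the restriction of the structure sheaf along an open immersion -/
noncomputable def unitRes : unitM U ≅ (unitM T).restrict f :=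
  (Scheme.Modules.restrictUnitIso f).symm

include hsq hr in
/-- **The local evaluation** of the push-forward of `L` along the section `σ`. -/
noncomputable def evLoc :
    SemiHom σ ((Scheme.Modules.pushforward j).obj L) (unitM T) j.opensRange where
  map W hW t := resM (unitM T) (evLoc_le₂ σ j f hr hW)
    (LocHom.ofRes f (unitM T) (f ⁻¹ᵁ (σ ⁻¹ᵁ W)) ((unitRes f).hom.app (f ⁻¹ᵁ (σ ⁻¹ᵁ W))
      (resM (unitM U) (evLoc_le₁ σ j f ε' hsq W)
        (ρ.hom.app (ε' ⁻¹ᵁ (j ⁻¹ᵁ W)) (pullSec ε' L (j ⁻¹ᵁ W) (ofPush j L W t))))))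
  map_add W hW t t' := by
    rw [ofPush_add, pullSec_add, map_add, resM_add, map_add, LocHom.ofRes_add, resM_add]
  map_smul W hW a t := by
    rw [ofPush_smul, pullSec_smul, Scheme.Modules.Hom.app_smul, resM_smul,
      Scheme.Modules.Hom.app_smul, LocHom.ofRes_smul, resM_smul,
      evLoc_key σ j f ε' hsq a (evLoc_le₂ σ j f hr hW)]
  map_res W W' hW h' t := by
    have hV : f ⁻¹ᵁ (σ ⁻¹ᵁ W') ≤ f ⁻¹ᵁ (σ ⁻¹ᵁ W) := preimage_le f (preimage_le σ h')
    have hE : ε' ⁻¹ᵁ (j ⁻¹ᵁ W') ≤ ε' ⁻¹ᵁ (j ⁻¹ᵁ W) := preimage_le ε' (preimage_le j h')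
    have e1 : pullSec ε' L (j ⁻¹ᵁ W') (resM L (preimage_le j h') (ofPush j L W t)) =
        resM ((Scheme.Modules.pullback ε').obj L) hE
          (pullSec ε' L (j ⁻¹ᵁ W) (ofPush j L W t)) := by
      unfold resM
      exact pullSec_res ε' L (preimage_le j h') _
    have e2 : resM (unitM U) (evLoc_le₁ σ j f ε' hsq W')
        (resM (unitM U) hE (ρ.hom.app (ε' ⁻¹ᵁ (j ⁻¹ᵁ W))
          (pullSec ε' L (j ⁻¹ᵁ W) (ofPush j L W t)))) =
        resM (unitM U) hV (resM (unitM U) (evLoc_le₁ σ j f ε' hsq W)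
          (ρ.hom.app (ε' ⁻¹ᵁ (j ⁻¹ᵁ W)) (pullSec ε' L (j ⁻¹ᵁ W) (ofPush j L W t)))) := by
      rw [resM_resM, resM_resM]
    rw [ofPush_res, e1, hom_app_resM ρ.hom hE, e2, hom_app_resM (unitRes f).hom hV,
      LocHom.ofRes_res f (unitM T) hV, resM_resM, resM_resM]

include hsq hr in
theorem evLoc_presGen : (evLoc σ j f ε' hsq hr L ρ).PresGen := by
  intro W hW s hs
  have h1 : IsGen L (j ⁻¹ᵁ W) (ofPush j L W s) := isGen_ofPush j L hs
  have h2 := isGen_pullSec ε' (j ⁻¹ᵁ W) L _ h1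
  have h3 := h2.of_iso ρ
  have h4 := h3.mono (evLoc_le₁ σ j f ε' hsq W)
  have h5 := h4.of_iso (unitRes f)
  have h6 := isGen_of_restrict f (unitM T) (f ⁻¹ᵁ (σ ⁻¹ᵁ W)) _ h5
  exact h6.mono (evLoc_le₂ σ j f hr hW)

end Ev

/-- **EVLOC** in the form of the interface. -/
theorem stmt_EVLOC : G.Stmt_EVLOC.{u} := by
  intro X T X' U σ j f ε' _ _ hsq hr L _ hρ
  obtain ⟨ρ⟩ := hρ
  exact ⟨evLoc σ j f ε' hsq hr L ρ, evLoc_presGen σ j f ε' hsq hr L ρ⟩

end Fermat.Agent.S25.Top.H56
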