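import Fermat.Agent.S25.Top.Defs
import Fermat.Agent.S25.Top.DefsG2
import Fermat.Agent.S25.Top.H22_GCore
import Fermat.Agent.S25.Top.H22_Overlap
import Fermat.Agent.S25.Top.H56_EvLoc
import Fermat.Agent.S25.Top.H22_LocGenPush
import Fermat.Agent.S25.Top.H91_Gamma

/-!
# S25, package TOP, leaf TOP-GLUEPIC (helper91): the prelude-facing part and the wiring

`X = C ×ₖ T`, `p = pullback.snd c t`, `σ = rigSection c t ε`; for an open cover `𝒰` of `T`:
`R i = range (𝒰.f i)`, `X i = C ×ₖ U i`, `j i = baseChangeSnd c (overOf t (𝒰.f i)) : X i ⟶ X`.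

* `isOpenImmersion_baseChangeSnd`, `opensRange_baseChangeSnd` : `j i` is an open immersion with
  range `p⁻¹(R i)`;
* `stmt_GLUEPIC : Top.Stmt_GLUEPIC` (assembly of helper22's `glue_core_imm`, `stmt_OVERLAP`,
  `stmt_LOCGENPUSH`, helper56's `stmt_EVLOC` and of `H91.bijective_app_snd`).

This file contains no unproved statement.
-/

set_option autoImplicit false

open CategoryTheory CategoryTheory.Limits AlgebraicGeometry AlgebraicGeometry.RelPicard
  NeronModelInfra GoodReductionJacobian TopologicalSpace Opposite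

universe u

namespace Fermat.Agent.S25.Top.H91g

open Fermat.Agent.S25.Glue Fermat.Agent.S25.Glue.H56 Fermat.Agent.S25.Top.H56

variable {k : Type u} [CommRing k] {C : Scheme.{u}} (c : C ⟶ Spec (CommRingCat.of k))

/-- The base change of an open immersion is an open immersion. -/
theorem isOpenImmersion_baseChangeSnd {T T' : Scheme.{u}} {t : T ⟶ Spec (CommRingCat.of k)}
    {t' : T' ⟶ Spec (CommRingCat.of k)} (s : SchemeHomOver t' t) [IsOpenImmersion s.1] :
    IsOpenImmersion (baseChangeSnd c s) := by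
  unfold baseChangeSnd
  infer_instance

/-- The range of the base change of a morphism `s` is the preimage of the range of `s`. -/
theorem range_baseChangeSnd {T T' : Scheme.{u}} {t : T ⟶ Spec (CommRingCat.of k)}
    {t' : T' ⟶ Spec (CommRingCat.of k)} (s : SchemeHomOver t' t) :
    Set.range (baseChangeSnd c s).base = (pullback.snd c t).base ⁻¹' Set.range s.1.base := by
  unfold baseChangeSnd
  rw [Scheme.Pullback.range_map]
  simp

/-- The range of the base change of an open immersion `s`, as an open set. -/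
theorem opensRange_baseChangeSnd {T T' : Scheme.{u}} {t : T ⟶ Spec (CommRingCat.of k)}
    {t' : T' ⟶ Spec (CommRingCat.of k)} (s : SchemeHomOver t' t) [IsOpenImmersion s.1]
    [IsOpenImmersion (baseChangeSnd c s)] :
    (baseChangeSnd c s).opensRange = pullback.snd c t ⁻¹ᵁ s.1.opensRange := by
  apply Opens.ext
  exact range_baseChangeSnd c s

/-- **GLUEPIC**: rigidified line bundles on the `C × U i` whose classes agree on the overlaps
glue to a rigidified line bundle on `C × T`. -/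
theorem stmt_GLUEPIC : Stmt_GLUEPIC.{u} := by
  intro k _ _ C c _ _ _ ε T t 𝒰 M hM
  -- the setting
  have hσ : rigSection c t ε ≫ pullback.snd c t = 𝟙 T := by
    unfold rigSection
    exact pullback.lift_snd _ _ _
  have hΓ : ∀ V : T.Opens, Function.Surjective ((pullback.snd c t).app V) :=
    fun V => (H91.bijective_app_snd c t V).2
  have hR : ∀ y : T, ∃ i, y ∈ (𝒰.f i).opensRange := fun y => ⟨𝒰.idx y, 𝒰.covers y⟩
  have hjo : ∀ i, IsOpenImmersion (baseChangeSnd c (overOf t (𝒰.f i))) := fun i =>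
    isOpenImmersion_baseChangeSnd c (overOf t (𝒰.f i))
  have hj : ∀ i, (baseChangeSnd c (overOf t (𝒰.f i))).opensRange =
      pullback.snd c t ⁻¹ᵁ (𝒰.f i).opensRange := fun i =>
    opensRange_baseChangeSnd c (overOf t (𝒰.f i))
  -- the push-forwards are locally generated by one section
  have hP : ∀ i, LocGen ((Scheme.Modules.pushforward (baseChangeSnd c (overOf t (𝒰.f i)))).obj
      (M i).L) (pullback.snd c t ⁻¹ᵁ (𝒰.f i).opensRange) := fun i => by
    rw [← hj i]
    exact H22L.stmt_LOCGENPUSH (baseChangeSnd c (overOf t (𝒰.f i))) (M i).L (M i).isInvertible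
  -- the local evaluations
  have hev₀ : ∀ i, ∃ ev : SemiHom (rigSection c t ε)
      ((Scheme.Modules.pushforward (baseChangeSnd c (overOf t (𝒰.f i)))).obj (M i).L) (unitM T)
      (pullback.snd c t ⁻¹ᵁ (𝒰.f i).opensRange), ev.PresGen := fun i => by
    have hsub : rigSection c t ε ⁻¹ᵁ (baseChangeSnd c (overOf t (𝒰.f i))).opensRange ≤
        (𝒰.f i).opensRange :=
      preimage_section_le (pullback.snd c t) (rigSection c t ε) hσ (hj i).le
    obtain ⟨ev, hev⟩ := H56.stmt_EVLOC (rigSection c t ε) (baseChangeSnd c (overOf t (𝒰.f i)))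
      (𝒰.f i) (rigSection c (𝒰.f i ≫ t) ε) (rigSection_baseChangeSnd c ε (overOf t (𝒰.f i)))
      hsub (M i).L (M i).isInvertible (M i).rigidified
    exact ⟨ev.restrict (hj i).ge, hev.restrict (hj i).ge⟩
  choose ev hev using hev₀
  -- the overlaps
  have hF : ∀ i i', ∃ (F : LocHom
        ((Scheme.Modules.pushforward (baseChangeSnd c (overOf t (𝒰.f i)))).obj (M i).L)
        ((Scheme.Modules.pushforward (baseChangeSnd c (overOf t (𝒰.f i')))).obj (M i').L)
        (pullback.snd c t ⁻¹ᵁ (𝒰.f i).opensRange ⊓ pullback.snd c t ⁻¹ᵁ (𝒰.f i').opensRange))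
      (G : LocHom
        ((Scheme.Modules.pushforward (baseChangeSnd c (overOf t (𝒰.f i')))).obj (M i').L)
        ((Scheme.Modules.pushforward (baseChangeSnd c (overOf t (𝒰.f i)))).obj (M i).L)
        (pullback.snd c t ⁻¹ᵁ (𝒰.f i).opensRange ⊓ pullback.snd c t ⁻¹ᵁ (𝒰.f i').opensRange)),
      F.IsInv G := fun i i' => by
    have hao : IsOpenImmersion (baseChangeSnd c
        (⟨pullback.fst (𝒰.f i) (𝒰.f i'), rfl⟩ :
          SchemeHomOver (pullback.fst (𝒰.f i) (𝒰.f i') ≫ 𝒰.f i ≫ t) (𝒰.f i ≫ t))) :=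
      @isOpenImmersion_baseChangeSnd _ _ _ c _ _ _ _ _
        (inferInstanceAs (IsOpenImmersion (pullback.fst (𝒰.f i) (𝒰.f i'))))
    have hbo : IsOpenImmersion (baseChangeSnd c
        (⟨pullback.snd (𝒰.f i) (𝒰.f i'), by
            rw [← Category.assoc, ← pullback.condition, Category.assoc]⟩ :
          SchemeHomOver (pullback.fst (𝒰.f i) (𝒰.f i') ≫ 𝒰.f i ≫ t) (𝒰.f i' ≫ t))) :=
      @isOpenImmersion_baseChangeSnd _ _ _ c _ _ _ _ _
        (inferInstanceAs (IsOpenImmersion (pullback.snd (𝒰.f i) (𝒰.f i'))))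
    have hab : baseChangeSnd c
        (⟨pullback.fst (𝒰.f i) (𝒰.f i'), rfl⟩ :
          SchemeHomOver (pullback.fst (𝒰.f i) (𝒰.f i') ≫ 𝒰.f i ≫ t) (𝒰.f i ≫ t)) ≫
          baseChangeSnd c (overOf t (𝒰.f i)) =
        baseChangeSnd c
        (⟨pullback.snd (𝒰.f i) (𝒰.f i'), by
            rw [← Category.assoc, ← pullback.condition, Category.assoc]⟩ :
          SchemeHomOver (pullback.fst (𝒰.f i) (𝒰.f i') ≫ 𝒰.f i ≫ t) (𝒰.f i' ≫ t)) ≫
          baseChangeSnd c (overOf t (𝒰.f i')) := by
      rw [baseChangeSnd_comp, baseChangeSnd_comp]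
      congr 1
      exact Subtype.ext pullback.condition
    obtain ⟨F, G, hFG⟩ := H22O.stmt_OVERLAP _ _ _ _ hab (M i).L (M i').L (hM i i')
    have hrange : Set.range (baseChangeSnd c
        (⟨pullback.fst (𝒰.f i) (𝒰.f i'), rfl⟩ :
          SchemeHomOver (pullback.fst (𝒰.f i) (𝒰.f i') ≫ 𝒰.f i ≫ t) (𝒰.f i ≫ t)) ≫
          baseChangeSnd c (overOf t (𝒰.f i))).base =
        (pullback.snd c t).base ⁻¹' (Set.range (𝒰.f i).base ∩ Set.range (𝒰.f i').base) := by
      rw [baseChangeSnd_comp, range_baseChangeSnd]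
      congr 1
      exact Scheme.Pullback.range_fst_comp (𝒰.f i) (𝒰.f i')
    have hle : pullback.snd c t ⁻¹ᵁ (𝒰.f i).opensRange ⊓
        pullback.snd c t ⁻¹ᵁ (𝒰.f i').opensRange ≤
        (baseChangeSnd c
        (⟨pullback.fst (𝒰.f i) (𝒰.f i'), rfl⟩ :
          SchemeHomOver (pullback.fst (𝒰.f i) (𝒰.f i') ≫ 𝒰.f i ≫ t) (𝒰.f i ≫ t)) ≫
          baseChangeSnd c (overOf t (𝒰.f i))).opensRange := by
      intro x hx
      change x ∈ Set.range _
      rw [hrange]
      exact hx
    exact ⟨F.restrict hle, G.restrict hle, hFG.restrict hle⟩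
  obtain ⟨N, hN, hρ, hNi⟩ := H22C.glue_core_imm (pullback.snd c t) (rigSection c t ε) hσ hΓ
    (fun i => (𝒰.f i).opensRange) hR (fun i => baseChangeSnd c (overOf t (𝒰.f i)))
    (fun i => (hj i).le) (fun i => (M i).L) hP ev hev hF
  exact ⟨⟨N, hN, hρ⟩, hNi⟩

end Fermat.Agent.S25.Top.H91g
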