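/-
helper32 (owner of S25), package TOP: the INTEGRATION file, fourth state (08:50Z).
Plugged in: SMALL (helper83), GI (helper61), CHRED (helper99), REPLOCAL (helper25), LOCISO (helper56),
AFFRED (helper52), DEGLOC (helper89), GLUEPIC (helper91, helper22, helper56), SETUPE (helper7, helper66, helper34).
OPEN: AEZDEG (helper61), VALUNIQ (helper20), SURJ (helper45), CHARTFAME (helper19).
-/
import Fermat.Agent.S25.Top.H32_Final3
import Fermat.Agent.S25.Top.H91_GluePic
import Fermat.Agent.S25.Top.H7_SetupEFinal

set_option autoImplicit false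

universe u

open CategoryTheory CategoryTheory.Limits AlgebraicGeometry AlgebraicGeometry.RelPicard NeronModelInfra
  GoodReductionJacobian

namespace Fermat.Agent.S25.Top.H32

/-- S25 from the open statements of the spine (4 hypotheses at 08:50Z). -/
theorem stmt_S25_of_open4 (hAez : Stmt_AEZDEG.{u}) (hVal : Stmt_VALUNIQ.{u})
    (hSurj : Stmt_SURJ.{u}) (hFam : F.Stmt_CHARTFAME.{u}) : Stmt_S25.{u} :=
  stmt_S25_of_open3 H91g.stmt_GLUEPIC H7.stmt_SETUPE hAez hVal hSurj hFam

end Fermat.Agent.S25.Top.H32
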