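import Fermat.Agent.S25.Top.DefsF
import Fermat.Agent.S25.Bridge.H34_T4
import Fermat.Agent.S25.Bridge.H7_Ring

/-!
# S25, package TOP, part F (CHARTFAM), leaf FAM-PULL, unconditional (helper34)

`stmt_FAMPULL : F.Stmt_FAMPULL`, directly from the sheaf side of BRIDGE-T4
(`Bridge.H34.nonempty_BC`, which produces the `Chart.BC` itself: FAM-T4BC is not needed).
-/

set_option autoImplicit false
set_option linter.style.haveILetI false

universe u

open CategoryTheory CategoryTheory.Limits AlgebraicGeometry AlgebraicGeometry.RelPicard NeronModelInfra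
  GoodReductionJacobian TensorProduct

namespace Fermat.Agent.S25.Top.F.H34

open Fermat.Agent.S25

/-- **FAM-PULL**, unconditional. -/
theorem stmt_FAMPULL : F.Stmt_FAMPULL.{u} := by
  intro k _ C c ε 𝒞 h𝒞 ρ R R' _ _ _ _ φ L T T' hL hT hT'
  letI : Algebra R R' := φ.toRingHom.toAlgebra
  haveI : IsScalarTower k R R' := IsScalarTower.of_algebraMap_eq (fun a => (φ.commutes a).symm)
  have hT'' : Bridge.IsTripleOf ρ R' ((Scheme.Modules.pullback (Bridge.bcMap c R R')).obj L) T' := hT'
  obtain ⟨β⟩ := Bridge.H34.nonempty_BC Bridge.H7.stmt_RING ρ R R' L T T' hL hT hT''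
  have hφ : IsScalarTower.toAlgHom k R R' = φ := AlgHom.ext fun _ => rfl
  rw [hφ] at β
  exact ⟨β⟩

end Fermat.Agent.S25.Top.F.H34
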