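import Fermat.Agent.S25.Top.DefsF
import Fermat.Agent.S25.Glue.H18_Pull

/-!
# S25, package TOP, leaf FAM-ISOTR (helper56): `stmt_FAMISOTR : F.Stmt_FAMISOTR`

A triple of a sheaf on `C × Spec R` is a triple of every isomorphic sheaf: compose the three
identifications with the isomorphism on sections.

* `secEquiv e W` : the additive equivalence `Γ(L, W) ≃+ Γ(L', W)` of an isomorphism `e : L ≅ L'`;
* `isTripleOf_of_iso`, `stmt_FAMISOTR`.

This file contains no unproved statement.
-/

set_option autoImplicit false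

universe u

open CategoryTheory CategoryTheory.Limits AlgebraicGeometry AlgebraicGeometry.RelPicard NeronModelInfra
  TopologicalSpace TensorProduct

namespace Fermat.Agent.S25.Top.H56

open Fermat.Agent.S25 Fermat.Agent.S25.Glue

/-- the additive equivalence on sections of an isomorphism of sheaves of modules -/
noncomputable def secEquiv {X : Scheme.{u}} {L L' : X.Modules} (e : L ≅ L') (W : X.Opens) :
    Γ(L, W) ≃+ Γ(L', W) where
  toFun := e.hom.app W
  invFun := e.inv.app W
  left_inv x := iso_inv_hom_app e W x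
  right_inv x := iso_hom_inv_app e W x
  map_add' x y := map_add _ x y

theorem secEquiv_apply {X : Scheme.{u}} {L L' : X.Modules} (e : L ≅ L') (W : X.Opens)
    (x : Γ(L, W)) : secEquiv e W x = e.hom.app W x := rfl

theorem secEquiv_smul {X : Scheme.{u}} {L L' : X.Modules} (e : L ≅ L') (W : X.Opens)
    (a : Γ(X, W)) (x : Γ(L, W)) : secEquiv e W (a • x) = a • secEquiv e W x :=
  Scheme.Modules.Hom.app_smul e.hom a x

theorem secEquiv_res {X : Scheme.{u}} {L L' : X.Modules} (e : L ≅ L') {W W' : X.Opens}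
    (h : W' ≤ W) (x : Γ(L, W)) :
    secEquiv e W' (Bridge.res L h x) = Bridge.res L' h (secEquiv e W x) :=
  app_map e.hom h x

section

variable {k : Type u} [Field k] {C : Scheme.{u}} {c : C ⟶ Spec (CommRingCat.of k)}
  {ε : SchemeHomOver (𝟙 (Spec (CommRingCat.of k))) c}

/-- A triple of a sheaf is a triple of every isomorphic sheaf. -/
theorem isTripleOf_of_iso {𝒞 : LB.CurveDatum k} (ρ : Bridge.Realizes c ε 𝒞) (R : Type u)
    [CommRing R] [Algebra k R] {L L' : (Bridge.XR c R).Modules} (T : LB.Triple 𝒞 R)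
    (e : L ≅ L') (h : Bridge.IsTripleOf ρ R L T) : Bridge.IsTripleOf ρ R L' T := by
  obtain ⟨f0, f1, f01, h0, h1, h01, hr0, hr1⟩ := h.ex
  refine ⟨⟨f0.trans (secEquiv e _), f1.trans (secEquiv e _), f01.trans (secEquiv e _),
    fun r b p => ?_, fun r b p => ?_, fun r b p => ?_, fun p => ?_, fun p => ?_⟩⟩
  · rw [AddEquiv.trans_apply, AddEquiv.trans_apply, h0, secEquiv_smul]
  · rw [AddEquiv.trans_apply, AddEquiv.trans_apply, h1, secEquiv_smul]
  · rw [AddEquiv.trans_apply, AddEquiv.trans_apply, h01, secEquiv_smul]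
  · rw [AddEquiv.trans_apply, AddEquiv.trans_apply, hr0, secEquiv_res]
  · rw [AddEquiv.trans_apply, AddEquiv.trans_apply, hr1, secEquiv_res]

end

/-- **FAM-ISOTR** in the form of the interface. -/
theorem stmt_FAMISOTR : F.Stmt_FAMISOTR.{u} := by
  intro k _ C c ε 𝒞 ρ R _ _ L L' T hLL' hT
  obtain ⟨e⟩ := hLL'
  exact isTripleOf_of_iso ρ R T e hT

end Fermat.Agent.S25.Top.H56
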