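import Fermat.Agent.S25.Top.H34_FamObj
import Fermat.Agent.S25.Top.H34_FamDeg
import Fermat.Agent.S25.Top.H34_FamPull
import Fermat.Agent.S25.Top.H79_FamHom
import Fermat.Agent.S25.Top.H56_FamIsoTr
import Fermat.Agent.S25.Trip.H36_DegBC
import Fermat.Agent.S25.Bridge.H18_T3Closed
import Fermat.Agent.S25.Bridge.H41_Rig

/-!
# S25, package TOP, part F (CHARTFAM): FAM-OBJ and FAM-DEG, unconditional (helper34)

`stmt_FAMOBJ : F.Stmt_FAMOBJ` (T3: helper18, RIG: helper41) and `stmt_FAMDEG : F.Stmt_FAMDEG`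
(FAM-HOM: helper79, FAM-PULL: `H34.stmt_FAMPULL`, FAM-ISOTR: helper56, DEGBC: helper36).
-/

set_option autoImplicit false

universe u

namespace Fermat.Agent.S25.Top.F.H34

open Fermat.Agent.S25

/-- **FAM-OBJ**, unconditional. -/
theorem stmt_FAMOBJ : F.Stmt_FAMOBJ.{u} :=
  stmt_FAMOBJ_of Bridge.H18.stmt_T3 Bridge.H41.stmt_RIG

/-- **FAM-DEG**, unconditional. -/
theorem stmt_FAMDEG : F.Stmt_FAMDEG.{u} :=
  stmt_FAMDEG_of F.H79.stmt_FAMHOM stmt_FAMPULL Top.H56.stmt_FAMISOTR Trip.H36.stmt_DEGBC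

end Fermat.Agent.S25.Top.F.H34
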