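/-
helper38, S25 (Jacobian exists), package TOP, sub-package SURJ (sub-planner helper45),
leaf **S-RELDIV**: `stmt_RELDIV : Top.S.Stmt_RELDIV`.

Relative effective Cartier divisors `(J0, J1)` (invertible ideals on the two charts with the same
extension to the overlap) contain the unit divisor and are closed under products, powers and
finite products.  (`𝒞.IsGood` is not used.)

Reusable: `invertible_top`, `invertible_mul`, `invertible_pow`, `invertible_prod` (ideals which are
invertible modules, over ANY commutative ring), `isRelDiv_top`, `isRelDiv_mul`, `isRelDiv_pow`,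
`isRelDiv_prod`, `isRelDiv_div` (for `div0 β`, `div1 β`).
-/
import Mathlib
import Fermat.Agent.S25.Top.DefsS

set_option autoImplicit false

universe u

open TensorProduct

namespace Fermat.Agent.S25.Top.S.H38

open Fermat.Agent.S25 Fermat.Agent.S25.LB

section Ideals

variable {A : Type*} [CommRing A]

/-- The unit ideal is an invertible module. -/
theorem invertible_top : Module.Invertible A (⊤ : Ideal A) :=
  Module.Invertible.congr (Submodule.topEquiv (R := A) (M := A)).symm

/-- The product of two ideals which are invertible modules is an invertible module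
(`I ⊗ J ≃ I J` because `I` is flat). -/
theorem invertible_mul (I J : Ideal A) (hI : Module.Invertible A I)
    (hJ : Module.Invertible A J) : Module.Invertible A ↥(I * J) := by
  have h1 : (J : Submodule A A) ≤ 1 := by
    rw [Submodule.one_eq_range]
    intro x _
    exact ⟨x, rfl⟩
  have H : Submodule.LinearDisjoint (I : Submodule A A) (J : Submodule A A) :=
    Submodule.LinearDisjoint.of_right_le_one_of_flat (I : Submodule A A) (J : Submodule A A) h1
  exact Module.Invertible.congr H.mulMap

theorem invertible_pow (I : Ideal A) (hI : Module.Invertible A I) (n : ℕ) :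
    Module.Invertible A ↥(I ^ n) := by
  induction n with
  | zero =>
    rw [pow_zero, Ideal.one_eq_top]
    exact invertible_top
  | succ n ih =>
    rw [pow_succ]
    exact invertible_mul _ _ ih hI

theorem invertible_prod {ι : Type*} (s : Finset ι) (f : ι → Ideal A)
    (h : ∀ i ∈ s, Module.Invertible A (f i)) : Module.Invertible A ↥(∏ i ∈ s, f i) := by
  classical
  induction s using Finset.induction_on with
  | empty =>
    rw [Finset.prod_empty, Ideal.one_eq_top]
    exact invertible_top
  | insert a s ha ih =>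
    rw [Finset.prod_insert ha]
    exact invertible_mul _ _ (h a (Finset.mem_insert_self a s))
      (ih fun i hi => h i (Finset.mem_insert_of_mem hi))

end Ideals

section RelDiv

variable {k : Type u} [Field k] {𝒞 : CurveDatum k} {R : Type u} [CommRing R] [Algebra k R]

theorem isRelDiv_top : IsRelDiv (𝒞 := 𝒞) (R := R) ⊤ ⊤ :=
  ⟨invertible_top, invertible_top, by rw [Ideal.map_top, Ideal.map_top]⟩

theorem isRelDiv_mul {J0 I0 : Ideal (R ⊗[k] 𝒞.B0)} {J1 I1 : Ideal (R ⊗[k] 𝒞.B1)}
    (hJ : IsRelDiv J0 J1) (hI : IsRelDiv I0 I1) : IsRelDiv (J0 * I0) (J1 * I1) :=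
  ⟨invertible_mul _ _ hJ.1 hI.1, invertible_mul _ _ hJ.2.1 hI.2.1, by
    rw [Ideal.map_mul, Ideal.map_mul, hJ.2.2, hI.2.2]⟩

theorem isRelDiv_pow {J0 : Ideal (R ⊗[k] 𝒞.B0)} {J1 : Ideal (R ⊗[k] 𝒞.B1)}
    (hJ : IsRelDiv J0 J1) (n : ℕ) : IsRelDiv (J0 ^ n) (J1 ^ n) := by
  induction n with
  | zero =>
    rw [pow_zero, pow_zero, Ideal.one_eq_top, Ideal.one_eq_top]
    exact isRelDiv_top
  | succ n ih =>
    rw [pow_succ, pow_succ]
    exact isRelDiv_mul ih hJ

theorem isRelDiv_prod {ι : Type*} (s : Finset ι) (f0 : ι → Ideal (R ⊗[k] 𝒞.B0))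
    (f1 : ι → Ideal (R ⊗[k] 𝒞.B1)) (h : ∀ i ∈ s, IsRelDiv (f0 i) (f1 i)) :
    IsRelDiv (∏ i ∈ s, f0 i) (∏ i ∈ s, f1 i) := by
  classical
  induction s using Finset.induction_on with
  | empty =>
    rw [Finset.prod_empty, Finset.prod_empty, Ideal.one_eq_top, Ideal.one_eq_top]
    exact isRelDiv_top
  | insert a s ha ih =>
    rw [Finset.prod_insert ha, Finset.prod_insert ha]
    exact isRelDiv_mul (h a (Finset.mem_insert_self a s))
      (ih fun i hi => h i (Finset.mem_insert_of_mem hi))

/-- The divisor `Γ_(β 1) + … + Γ_(β g)` is a relative effective Cartier divisor as soon as the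
graphs are. -/
theorem isRelDiv_div {g : ℕ} (β : Fin g → CPt 𝒞 R)
    (h : ∀ j, IsRelDiv (gr0 (β j)) (gr1 (β j))) : IsRelDiv (div0 β) (div1 β) :=
  isRelDiv_prod Finset.univ _ _ fun j _ => h j

end RelDiv

/-- **S-RELDIV**. -/
theorem stmt_RELDIV : Stmt_RELDIV.{u} := by
  intro k _ 𝒞 _ R _ _
  exact ⟨isRelDiv_top, fun J0 I0 J1 I1 hJ hI => isRelDiv_mul hJ hI⟩

end Fermat.Agent.S25.Top.S.H38
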