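/-
helper38, S25 (Jacobian exists), package TOP, sub-package SURJ (sub-planner helper45),
leaf **S-FAMEX** (wiring): `famex_of : Stmt_UNITBC → Stmt_GRINV → Stmt_TWEX → Stmt_FAMEX`.

The family `N = O(Γ_(β 1) + … + Γ_(β g) - g ε)` exists over every `R`:
`U` a unit triple (S-UNITBC), `N₁ = U(Σ Γ)` (S-TWEX, `L(D)`), `N = N₁(-g ε)` (S-TWEX, `L(-D)`);
the divisors are relative effective Cartier divisors by S-GRINV and `H38.isRelDiv_div / _pow`.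
-/
import Mathlib
import Fermat.Agent.S25.Top.DefsS
import Fermat.Agent.S25.Top.H38_SRelDiv

set_option autoImplicit false

universe u

open TensorProduct

namespace Fermat.Agent.S25.Top.S.H38

open Fermat.Agent.S25 Fermat.Agent.S25.LB

/-- **S-FAMEX** from S-UNITBC, S-GRINV, S-TWEX (S-RELDIV is `H38.stmt_RELDIV`). -/
theorem famex_of (hU : Stmt_UNITBC.{u}) (hG : Stmt_GRINV.{u}) (hT : Stmt_TWEX.{u}) :
    Stmt_FAMEX.{u} := by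
  intro k _ _ 𝒞 h𝒞 R _ _ g β
  obtain ⟨U, hUu⟩ := (hU k 𝒞 h𝒞 R).1
  have hdiv : IsRelDiv (div0 β) (div1 β) := isRelDiv_div β fun j => hG k 𝒞 h𝒞 R (β j)
  have hbase : IsRelDiv (gr0 (basePt 𝒞 R) ^ g) (gr1 (basePt 𝒞 R) ^ g) :=
    isRelDiv_pow (hG k 𝒞 h𝒞 R (basePt 𝒞 R)) g
  obtain ⟨N₁, hN₁⟩ := (hT k 𝒞 h𝒞 R _ _ hdiv U).1
  obtain ⟨N, hN⟩ := (hT k 𝒞 h𝒞 R _ _ hbase N₁).2
  exact ⟨N, U, N₁, hUu, hN₁, hN⟩

end Fermat.Agent.S25.Top.S.H38
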