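/-
helper38, S25 (Jacobian exists), package TOP, sub-package SURJ (sub-planner helper45),
leaf **S-FAMUNIQ** (wiring): `famuniq_of : Stmt_UNITBC → Stmt_GRINV → Stmt_TWUNIQ → Stmt_FAMUNIQ`.

The family `O(Σ Γ_(β j) - g ε)` is unique up to isomorphism, closed under isomorphism, and
depends only on the divisor `(div0 β, div1 β)`.

Reusable: `isTw_of_iso_left` (`IsTw J0 J1 L L'`, `L ≅ M` ⟹ `IsTw J0 J1 M L'`),
`isFam_of_iso`, `isFam_congr_div`.
-/
import Mathlib
import Fermat.Agent.S25.Top.DefsS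
import Fermat.Agent.S25.Top.H38_SRelDiv

set_option autoImplicit false

universe u

open TensorProduct

namespace Fermat.Agent.S25.Top.S.H38

open Fermat.Agent.S25 Fermat.Agent.S25.LB

section Transport

variable {k : Type u} [Field k] {𝒞 : CurveDatum k} {R : Type u} [CommRing R] [Algebra k R]

/-- Composition of a morphism of triples with the inverse of an isomorphism of the source. -/
noncomputable def homOfIsoLeft {L M L' : Triple 𝒞 R} (e : Triple.Iso L M) (φ : Triple.Hom L L') :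
    Triple.Hom M L' where
  f0 := φ.f0.comp e.e0.symm.toLinearMap
  f1 := φ.f1.comp e.e1.symm.toLinearMap
  f01 := φ.f01.comp e.e01.symm.toLinearMap
  comm0 p := by
    have h1 : e.e01.symm (M.r0 p) = L.r0 (e.e0.symm p) := by
      rw [LinearEquiv.symm_apply_eq, e.comm0, LinearEquiv.apply_symm_apply]
    simp only [LinearMap.comp_apply, LinearEquiv.coe_coe, h1, φ.comm0]
  comm1 p := by
    have h1 : e.e01.symm (M.r1 p) = L.r1 (e.e1.symm p) := by
      rw [LinearEquiv.symm_apply_eq, e.comm1, LinearEquiv.apply_symm_apply]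
    simp only [LinearMap.comp_apply, LinearEquiv.coe_coe, h1, φ.comm1]

/-- Twists are invariant under isomorphisms of the source. -/
theorem isTw_of_iso_left {J0 : Ideal (R ⊗[k] 𝒞.B0)} {J1 : Ideal (R ⊗[k] 𝒞.B1)}
    {L M L' : Triple 𝒞 R} (e : Triple.Iso L M) (h : IsTw J0 J1 L L') : IsTw J0 J1 M L' := by
  obtain ⟨φ, h0, h1, hr0, hr1⟩ := h
  refine ⟨homOfIsoLeft e φ, ?_, ?_, ?_, ?_⟩
  · exact h0.comp e.e0.symm.injective
  · exact h1.comp e.e1.symm.injective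
  · rw [← hr0]
    exact LinearMap.range_comp_of_range_eq_top _ (LinearEquiv.range e.e0.symm)
  · rw [← hr1]
    exact LinearMap.range_comp_of_range_eq_top _ (LinearEquiv.range e.e1.symm)

/-- The family is closed under isomorphism. -/
theorem isFam_of_iso {g : ℕ} {β : Fin g → CPt 𝒞 R} {N N' : Triple 𝒞 R}
    (e : Triple.Iso N N') (h : IsFam β N) : IsFam β N' := by
  obtain ⟨U, N₁, hU, h1, h2⟩ := h
  exact ⟨U, N₁, hU, h1, isTw_of_iso_left e h2⟩

/-- The family depends only on the divisor. -/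
theorem isFam_congr_div {g : ℕ} {β β' : Fin g → CPt 𝒞 R} {N : Triple 𝒞 R}
    (h0 : div0 β = div0 β') (h1 : div1 β = div1 β') (h : IsFam β N) : IsFam β' N := by
  obtain ⟨U, N₁, hU, ht, h2⟩ := h
  exact ⟨U, N₁, hU, h0 ▸ h1 ▸ ht, h2⟩

end Transport

/-- **S-FAMUNIQ** from S-UNITBC, S-GRINV, S-TWUNIQ. -/
theorem famuniq_of (hU : Stmt_UNITBC.{u}) (hG : Stmt_GRINV.{u}) (hT : Stmt_TWUNIQ.{u}) :
    Stmt_FAMUNIQ.{u} := by
  intro k _ _ 𝒞 h𝒞 R _ _ g β β' N N' h0 h1 hN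
  constructor
  · intro hN'
    have hN'' : IsFam β N' := isFam_congr_div h0.symm h1.symm hN'
    obtain ⟨U, N₁, hUu, ht, hb⟩ := hN
    obtain ⟨U', N₁', hUu', ht', hb'⟩ := hN''
    have hdiv : IsRelDiv (div0 β) (div1 β) := isRelDiv_div β fun j => hG k 𝒞 h𝒞 R (β j)
    have hbase : IsRelDiv (gr0 (basePt 𝒞 R) ^ g) (gr1 (basePt 𝒞 R) ^ g) :=
      isRelDiv_pow (hG k 𝒞 h𝒞 R (basePt 𝒞 R)) g
    have hUU' : Nonempty (Triple.Iso U U') := (hU k 𝒞 h𝒞 R).2.1 U U' hUu hUu'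
    have hN₁ : Nonempty (Triple.Iso N₁ N₁') :=
      (hT k 𝒞 h𝒞 R _ _ hdiv U N₁ U' N₁' ht ht').1 hUU'
    exact (hT k 𝒞 h𝒞 R _ _ hbase N N₁ N' N₁' hb hb').2 hN₁
  · rintro ⟨e⟩
    exact isFam_congr_div h0 h1 (isFam_of_iso e hN)

end Fermat.Agent.S25.Top.S.H38
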