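/-
helper3, S25 (Jacobian exists), package TOP, sub-package CHARTFAM (helper19), leaf FAM-T4BC.

`stmt_FAMT4BC : F.Stmt_FAMT4BC` : the relation `H20.T4Rel` which `Bridge.Stmt_T4` delivers is a base change
in the sense of `Chart.BC`.  This is helper30's `Top.H30.t4rel_bc`.
-/
import Fermat.Agent.S25.Top.DefsF
import Fermat.Agent.S25.Top.H30_ValUniq

set_option autoImplicit false

universe u

namespace Fermat.Agent.S25.Top.F.H3

open Fermat.Agent.S25

/-- **FAM-T4BC**, unconditional. -/
theorem stmt_FAMT4BC : Fermat.Agent.S25.Top.F.Stmt_FAMT4BC.{u} := by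
  intro k _ 𝒞 h R R' _ _ _ _ _ _ T T' hrel
  exact Fermat.Agent.S25.Top.H30.t4rel_bc h hrel

end Fermat.Agent.S25.Top.F.H3
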