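/-
helper3, S25 (Jacobian exists), package TOP, sub-package SURJ (helper45), leaf S-TWBC:
twists by relative effective Cartier divisors commute with base change (`Top.S.Stmt_TWBC`).

* `exists_lift_hom`  : a linear map `e : P → Q` induces a linear map `e' : P' → Q'` of the base changes
                       (`P`, `P'` invertible, the image of `P → P'` generates);
* `range_lift`       : if the range of `e` is `J • ⊤`, the range of `e'` is `(J.map τ) • ⊤`;
* `injective_of_range` : a linear map of invertible modules with range `J • ⊤`, `J` an invertible ideal, is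
                       injective (a surjection of invertible modules is bijective);
* `bc_hom`           : a morphism of triples induces a morphism of their base changes;
* `stmt_TWBC : Stmt_TWBC`, unconditional.
-/
import Fermat.Agent.S25.Top.DefsS
import Fermat.Agent.S25.LB.H73_BCUniq

set_option autoImplicit false
set_option linter.style.haveILetI false
set_option linter.unusedSectionVars false

universe u

open TensorProduct

noncomputable section

namespace Fermat.Agent.S25.Top.S.H3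

open Fermat.Agent.S25 Fermat.Agent.S25.LB Fermat.Agent.S25.Chart

/-! ### Abstract part -/

section Abstract

variable {A A' : Type u} [CommRing A] [CommRing A'] (τ : A →+* A')
  {P Q P' Q' : Type u} [AddCommGroup P] [Module A P] [AddCommGroup Q] [Module A Q]
  [AddCommGroup P'] [Module A' P'] [AddCommGroup Q'] [Module A' Q']

/-- **Lifting linear maps to base changes.** -/
theorem exists_lift_hom [Module.Invertible A P] [Module.Invertible A' P']
    (bP : P →+ P') (sP : ∀ (c : A) (p : P), bP (c • p) = τ c • bP p)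
    (gP : Submodule.span A' (Set.range bP) = ⊤)
    (bQ : Q →+ Q') (sQ : ∀ (c : A) (q : Q), bQ (c • q) = τ c • bQ q)
    (e : P →ₗ[A] Q) :
    ∃ e' : P' →ₗ[A'] Q', ∀ p, e' (bP p) = bQ (e p) := by
  letI : Algebra A A' := τ.toAlgebra
  let EP : A' ⊗[A] P ≃ₗ[A'] P' :=
    LinearEquiv.ofBijective (H73.cmp τ bP sP) (H73.cmp_bijective τ bP sP gP)
  have sC : ∀ (c : A) (p : P), (bQ.comp e.toAddMonoidHom) (c • p) =
      τ c • (bQ.comp e.toAddMonoidHom) p := by
    intro c p
    show bQ (e (c • p)) = τ c • bQ (e p)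
    rw [map_smul, sQ]
  let C : A' ⊗[A] P →ₗ[A'] Q' := H73.cmp τ (bQ.comp e.toAddMonoidHom) sC
  refine ⟨C ∘ₗ EP.symm.toLinearMap, fun p => ?_⟩
  have h1 : EP.symm (bP p) = (1 : A') ⊗ₜ[A] p := by
    rw [LinearEquiv.symm_apply_eq]
    show bP p = H73.cmp τ bP sP ((1 : A') ⊗ₜ[A] p)
    rw [H73.cmp_tmul, one_smul]
  show C (EP.symm (bP p)) = bQ (e p)
  rw [h1]
  show H73.cmp τ (bQ.comp e.toAddMonoidHom) sC ((1 : A') ⊗ₜ[A] p) = bQ (e p)
  rw [H73.cmp_tmul, one_smul]
  rfl

/-- The range of the lift of a map with range `J • ⊤` is `(J.map τ) • ⊤`. -/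
theorem range_lift (J : Ideal A)
    (bP : P →+ P') (gP : Submodule.span A' (Set.range bP) = ⊤)
    (bQ : Q →+ Q') (sQ : ∀ (c : A) (q : Q), bQ (c • q) = τ c • bQ q)
    (gQ : Submodule.span A' (Set.range bQ) = ⊤)
    (e : P →ₗ[A] Q) (he : LinearMap.range e = J • (⊤ : Submodule A Q))
    (e' : P' →ₗ[A'] Q') (he' : ∀ p, e' (bP p) = bQ (e p)) :
    LinearMap.range e' = (J.map τ) • (⊤ : Submodule A' Q') := by
  apply le_antisymm
  · -- `range e' ≤ J' • ⊤`
    have key : ∀ y ∈ J • (⊤ : Submodule A Q), bQ y ∈ (J.map τ) • (⊤ : Submodule A' Q') := by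
      intro y hy
      refine Submodule.smul_induction_on hy ?_ ?_
      · intro j hj q _
        rw [sQ]
        exact Submodule.smul_mem_smul (Ideal.mem_map_of_mem τ hj) Submodule.mem_top
      · intro x y hx hy
        rw [map_add]
        exact Submodule.add_mem _ hx hy
    rintro _ ⟨x, rfl⟩
    have hx : x ∈ Submodule.span A' (Set.range bP) := by rw [gP]; trivial
    induction hx using Submodule.span_induction with
    | mem x hx =>
      obtain ⟨p, rfl⟩ := hx
      rw [he']
      apply key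
      rw [← he]
      exact ⟨p, rfl⟩
    | zero => rw [map_zero]; exact Submodule.zero_mem _
    | add x y _ _ hx hy => rw [map_add]; exact Submodule.add_mem _ hx hy
    | smul c x _ hx => rw [map_smul]; exact Submodule.smul_mem _ _ hx
  · -- `J' • ⊤ ≤ range e'`
    rw [Submodule.smul_le]
    intro r hr n _
    have base : ∀ j ∈ J, ∀ n : Q', τ j • n ∈ LinearMap.range e' := by
      intro j hj n
      have hn : n ∈ Submodule.span A' (Set.range bQ) := by rw [gQ]; trivial
      induction hn using Submodule.span_induction with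
      | mem n hn =>
        obtain ⟨q, rfl⟩ := hn
        rw [← sQ]
        have hjq : j • q ∈ LinearMap.range e := by
          rw [he]
          exact Submodule.smul_mem_smul hj Submodule.mem_top
        obtain ⟨p, hp⟩ := hjq
        rw [← hp, ← he']
        exact ⟨_, rfl⟩
      | zero => rw [smul_zero]; exact Submodule.zero_mem _
      | add x y _ _ hx hy => rw [smul_add]; exact Submodule.add_mem _ hx hy
      | smul c x _ hx => rw [smul_comm]; exact Submodule.smul_mem _ _ hx
    have hr' : r ∈ Submodule.span A' (τ '' (J : Set A)) := hr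
    revert n
    refine Submodule.span_induction (p := fun r _ => ∀ n : Q', n ∈ (⊤ : Submodule A' Q') →
      r • n ∈ LinearMap.range e') ?_ ?_ ?_ ?_ hr'
    · rintro _ ⟨j, hj, rfl⟩ n _
      exact base j hj n
    · intro n _
      rw [zero_smul]
      exact Submodule.zero_mem _
    · intro x y _ _ hx hy n hn
      rw [add_smul]
      exact Submodule.add_mem _ (hx n hn) (hy n hn)
    · intro c x _ hx n hn
      rw [smul_eq_mul, mul_smul]
      exact Submodule.smul_mem _ _ (hx n hn)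

end Abstract

section Inj

variable {S : Type u} [CommRing S] {P Q : Type u} [AddCommGroup P] [Module S P]
  [AddCommGroup Q] [Module S Q]

/-- The multiplication map `J ⊗ Q → Q`. -/
def mulMap (J : Ideal S) (Q : Type u) [AddCommGroup Q] [Module S Q] : (J ⊗[S] Q) →ₗ[S] Q :=
  (TensorProduct.lid S Q).toLinearMap ∘ₗ LinearMap.rTensor Q (Submodule.subtype J)

theorem mulMap_tmul (J : Ideal S) (j : J) (q : Q) : mulMap J Q (j ⊗ₜ[S] q) = (j : S) • q := by
  show (TensorProduct.lid S Q) ((LinearMap.rTensor Q (Submodule.subtype J)) (j ⊗ₜ[S] q)) = _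
  rw [LinearMap.rTensor_tmul, TensorProduct.lid_tmul]
  rfl

theorem mulMap_injective [Module.Flat S Q] (J : Ideal S) : Function.Injective (mulMap J Q) := by
  unfold mulMap
  rw [LinearMap.coe_comp]
  exact (TensorProduct.lid S Q).injective.comp
    (Module.Flat.rTensor_preserves_injective_linearMap _ (Submodule.subtype_injective J))

theorem range_mulMap (J : Ideal S) :
    LinearMap.range (mulMap J Q) = J • (⊤ : Submodule S Q) := by
  apply le_antisymm
  · rintro _ ⟨x, rfl⟩
    induction x using TensorProduct.induction_on with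
    | zero => rw [map_zero]; exact Submodule.zero_mem _
    | tmul j q =>
      rw [mulMap_tmul]
      exact Submodule.smul_mem_smul j.2 Submodule.mem_top
    | add x y hx hy => rw [map_add]; exact Submodule.add_mem _ hx hy
  · rw [Submodule.smul_le]
    intro r hr n _
    exact ⟨(⟨r, hr⟩ : J) ⊗ₜ[S] n, mulMap_tmul J ⟨r, hr⟩ n⟩

/-- **A linear map of invertible modules with range `J • ⊤`, `J` an invertible ideal, is injective.** -/
theorem injective_of_range [Module.Invertible S P] [Module.Invertible S Q] (J : Ideal S)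
    [Module.Invertible S J] (f : P →ₗ[S] Q) (hf : LinearMap.range f = J • (⊤ : Submodule S Q)) :
    Function.Injective f := by
  have hg := mulMap_injective (Q := Q) J
  let E : (J ⊗[S] Q) ≃ₗ[S] LinearMap.range (mulMap J Q) := LinearEquiv.ofInjective (mulMap J Q) hg
  have hmem : ∀ p, f p ∈ LinearMap.range (mulMap J Q) := by
    intro p
    rw [range_mulMap, ← hf]
    exact ⟨p, rfl⟩
  let F : P →ₗ[S] (J ⊗[S] Q) := E.symm.toLinearMap ∘ₗ f.codRestrict _ hmem
  have hFf : ∀ p, mulMap J Q (F p) = f p := by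
    intro p
    have h1 : (E (F p) : Q) = mulMap J Q (F p) := rfl
    rw [← h1]
    show ((E (E.symm (f.codRestrict _ hmem p)) : LinearMap.range (mulMap J Q)) : Q) = f p
    rw [LinearEquiv.apply_symm_apply]
    rfl
  have hFs : Function.Surjective F := by
    intro w
    have hw : mulMap J Q w ∈ LinearMap.range f := by
      rw [hf, ← range_mulMap]
      exact ⟨w, rfl⟩
    obtain ⟨p, hp⟩ := hw
    refine ⟨p, hg ?_⟩
    rw [hFf, hp]
  have hFb : Function.Bijective F := Module.Invertible.bijective_of_surjective hFs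
  intro p p' hpp
  apply hFb.1
  apply hg
  rw [hFf, hFf, hpp]

end Inj

/-! ### Triples -/

variable {k : Type u} [Field k] {𝒞 : CurveDatum k} {R : Type u} [CommRing R] [Algebra k R]
  {R' : Type u} [CommRing R'] [Algebra k R']

/-- **A morphism of triples induces a morphism of their base changes.** -/
theorem bc_hom (h : 𝒞.IsGood) {φ : R →ₐ[k] R'} {L M : Triple 𝒞 R} {L' M' : Triple 𝒞 R'}
    (β : BC φ L L') (γ : BC φ M M') (I : Triple.Hom L M) :
    ∃ I' : Triple.Hom L' M', (∀ p, I'.f0 (β.b0 p) = γ.b0 (I.f0 p)) ∧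
      (∀ p, I'.f1 (β.b1 p) = γ.b1 (I.f1 p)) ∧ (∀ p, I'.f01 (β.b01 p) = γ.b01 (I.f01 p)) := by
  haveI := L.inv0
  haveI := L.inv1
  haveI := L'.inv0
  haveI := L'.inv1
  haveI := H60.inv01 L h
  haveI := H60.inv01 L' h
  obtain ⟨e0, he0⟩ := exists_lift_hom (tmap φ 𝒞.B0).toRingHom β.b0 β.semi0 β.gen0 γ.b0 γ.semi0 I.f0
  obtain ⟨e1, he1⟩ := exists_lift_hom (tmap φ 𝒞.B1).toRingHom β.b1 β.semi1 β.gen1 γ.b1 γ.semi1 I.f1
  obtain ⟨e01, he01⟩ := exists_lift_hom (tmap φ 𝒞.B01).toRingHom β.b01 β.semi01 (H73.gen01 β)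
    γ.b01 γ.semi01 I.f01
  have c0 : ∀ p, e01 (L'.r0 p) = M'.r0 (e0 p) := by
    intro p
    have hp : p ∈ Submodule.span (R' ⊗[k] 𝒞.B0) (Set.range β.b0) := by
      rw [β.gen0]; trivial
    induction hp using Submodule.span_induction with
    | mem x hx =>
      obtain ⟨y, rfl⟩ := hx
      rw [← β.comm0, he01, I.comm0, γ.comm0, he0]
    | zero => simp only [map_zero]
    | add x y _ _ hx hy => simp only [map_add, hx, hy]
    | smul c x _ hx =>
      rw [L'.r0.map_smulₛₗ, map_smul, hx, map_smul, M'.r0.map_smulₛₗ]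
  have c1 : ∀ p, e01 (L'.r1 p) = M'.r1 (e1 p) := by
    intro p
    have hp : p ∈ Submodule.span (R' ⊗[k] 𝒞.B1) (Set.range β.b1) := by
      rw [β.gen1]; trivial
    induction hp using Submodule.span_induction with
    | mem x hx =>
      obtain ⟨y, rfl⟩ := hx
      rw [← β.comm1, he01, I.comm1, γ.comm1, he1]
    | zero => simp only [map_zero]
    | add x y _ _ hx hy => simp only [map_add, hx, hy]
    | smul c x _ hx =>
      rw [L'.r1.map_smulₛₗ, map_smul, hx, map_smul, M'.r1.map_smulₛₗ]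
  exact ⟨⟨e0, e1, e01, c0, c1⟩, he0, he1, he01⟩

/-- **S-TWBC**, with the compatibility of the morphisms. -/
theorem twistBy_bc (h : 𝒞.IsGood) {f : R →ₐ[k] R'} {J0 : Ideal (R ⊗[k] 𝒞.B0)}
    {J1 : Ideal (R ⊗[k] 𝒞.B1)}
    (hJ' : IsRelDiv (J0.map (Chart.tmap f 𝒞.B0)) (J1.map (Chart.tmap f 𝒞.B1)))
    {L L₁ : Triple 𝒞 R} {M M₁ : Triple 𝒞 R'} {φ : Triple.Hom L L₁} (hφ : TwistBy J0 J1 φ)
    (β : BC f L M) (β₁ : BC f L₁ M₁) :
    ∃ ψ : Triple.Hom M M₁, TwistBy (J0.map (Chart.tmap f 𝒞.B0)) (J1.map (Chart.tmap f 𝒞.B1)) ψ ∧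
      (∀ p, ψ.f0 (β.b0 p) = β₁.b0 (φ.f0 p)) ∧ (∀ p, ψ.f1 (β.b1 p) = β₁.b1 (φ.f1 p)) := by
  obtain ⟨ψ, h0, h1, -⟩ := bc_hom h β β₁ φ
  obtain ⟨-, -, r0, r1⟩ := hφ
  haveI := M.inv0
  haveI := M.inv1
  haveI := M₁.inv0
  haveI := M₁.inv1
  haveI := hJ'.1
  haveI := hJ'.2.1
  have R0 : LinearMap.range ψ.f0 =
      (J0.map (Chart.tmap f 𝒞.B0)) • (⊤ : Submodule (R' ⊗[k] 𝒞.B0) M₁.P0) :=
    range_lift (tmap f 𝒞.B0).toRingHom J0 β.b0 β.gen0 β₁.b0 β₁.semi0 β₁.gen0 φ.f0 r0 ψ.f0 h0
  have R1 : LinearMap.range ψ.f1 =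
      (J1.map (Chart.tmap f 𝒞.B1)) • (⊤ : Submodule (R' ⊗[k] 𝒞.B1) M₁.P1) :=
    range_lift (tmap f 𝒞.B1).toRingHom J1 β.b1 β.gen1 β₁.b1 β₁.semi1 β₁.gen1 φ.f1 r1 ψ.f1 h1
  exact ⟨ψ, ⟨injective_of_range _ ψ.f0 R0, injective_of_range _ ψ.f1 R1, R0, R1⟩, h0, h1⟩

/-- **S-TWBC**: twists commute with base change. -/
theorem stmt_TWBC : Stmt_TWBC.{u} := by
  intro k _ 𝒞 h R R' _ _ _ _ f J0 J1 _ hJ' L L₁ M M₁ ⟨φ, hφ⟩ ⟨β⟩ ⟨β₁⟩
  obtain ⟨ψ, hψ, -⟩ := twistBy_bc h hJ' hφ β β₁
  exact ⟨ψ, hψ⟩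

end Fermat.Agent.S25.Top.S.H3
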