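import Mathlib
import Fermat.Agent.S25.Top.H61_GI

/-!
# S25, package TOP, part CG: products of integral schemes over an algebraically closed field, `C^g`

* `isIntegral_pullback_of_isAlgClosed` : `X`, `Y` integral over `k` algebraically closed:
  `X ×_k Y` is integral (no noetherian hypothesis).
* `exists_power` : for `c : C ⟶ Spec k` proper with `C` integral and every `g`, there is a proper
  integral `k`-scheme `Y` with projections `pr i : Y ⟶ C` (`i : Fin g`) which has the universal
  property of the `g`-fold fibre power of `C` over `k`.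
-/

set_option autoImplicit false
set_option linter.style.haveILetI false

universe u

open CategoryTheory CategoryTheory.Limits AlgebraicGeometry

namespace Fermat.Agent.S25.Top.H61

variable {k : Type u} [Field k] [IsAlgClosed k]

/-- The product of two integral schemes over an algebraically closed field is integral. -/
theorem isIntegral_pullback_of_isAlgClosed {X Y : Scheme.{u}} [IsIntegral X] [IsIntegral Y]
    (f : X ⟶ Spec (CommRingCat.of k)) (g : Y ⟶ Spec (CommRingCat.of k)) :
    IsIntegral (pullback f g) := by
  haveI := geometricallyIntegral_of_isIntegral f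
  haveI hfin : Finite (irreducibleComponents Y) := by
    rw [irreducibleComponents_eq_singleton]
    infer_instance
  haveI : IrreducibleSpace ↥(pullback f g) := inferInstance
  haveI : IsReduced (pullback f g) :=
    GeometricallyReduced.isReduced_of_flat_of_finite_irreducibleComponents (pullback.snd f g)
  exact isIntegral_of_irreducibleSpace_of_isReduced _

/-- The `g`-fold power of a proper integral scheme over an algebraically closed field: a proper
integral `k`-scheme with the universal property of the product. -/
theorem exists_power {C : Scheme.{u}} (c : C ⟶ Spec (CommRingCat.of k)) [IsProper c]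
    [IsIntegral C] (g : ℕ) :
    ∃ (Y : Scheme.{u}) (y : Y ⟶ Spec (CommRingCat.of k)) (pr : Fin g → (Y ⟶ C)),
      IsProper y ∧ IsIntegral Y ∧ (∀ i, pr i ≫ c = y) ∧
      ∀ {T : Scheme.{u}} (t : T ⟶ Spec (CommRingCat.of k)) (φ : Fin g → (T ⟶ C)),
        (∀ i, φ i ≫ c = t) → ∃! ψ : T ⟶ Y, ψ ≫ y = t ∧ ∀ i, ψ ≫ pr i = φ i := by
  induction g with
  | zero =>
    refine ⟨Spec (CommRingCat.of k), 𝟙 _, fun i => i.elim0, inferInstance, inferInstance,
      fun i => i.elim0, fun {T} t φ _ => ⟨t, ⟨Category.comp_id _, fun i => i.elim0⟩, ?_⟩⟩
    rintro ψ ⟨h1, -⟩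
    rw [← h1, Category.comp_id]
  | succ g ih =>
    obtain ⟨Y, y, pr, hprop, hint, hpr, huniv⟩ := ih
    haveI := hprop
    haveI := hint
    haveI : IsIntegral (pullback c y) := isIntegral_pullback_of_isAlgClosed c y
    haveI : IsProper (pullback.snd c y ≫ y) := inferInstance
    refine ⟨pullback c y, pullback.snd c y ≫ y,
      Fin.cons (pullback.fst c y) (fun i => pullback.snd c y ≫ pr i), inferInstance, inferInstance,
      ?_, ?_⟩
    · intro i
      refine Fin.cases ?_ (fun j => ?_) i
      · simp only [Fin.cons_zero]
        exact pullback.condition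
      · simp only [Fin.cons_succ, Category.assoc, hpr]
    · intro T t φ hφ
      obtain ⟨ψ₀, ⟨hψ₀y, hψ₀pr⟩, hψ₀u⟩ := huniv t (fun i => φ i.succ) (fun i => hφ i.succ)
      have hcond : φ 0 ≫ c = ψ₀ ≫ y := by rw [hφ 0, hψ₀y]
      refine ⟨pullback.lift (φ 0) ψ₀ hcond, ⟨?_, ?_⟩, ?_⟩
      · rw [pullback.lift_snd_assoc, hψ₀y]
      · intro i
        refine Fin.cases ?_ (fun j => ?_) i
        · simp only [Fin.cons_zero, pullback.lift_fst]
        · simp only [Fin.cons_succ, pullback.lift_snd_assoc, hψ₀pr]
      · rintro ψ ⟨h1, h2⟩
        have hs : ψ ≫ pullback.snd c y = ψ₀ := by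
          apply hψ₀u
          refine ⟨by rw [Category.assoc, h1], fun i => ?_⟩
          have := h2 i.succ
          simpa only [Fin.cons_succ, Category.assoc] using this
        have hf : ψ ≫ pullback.fst c y = φ 0 := by
          have := h2 0
          simpa only [Fin.cons_zero] using this
        apply pullback.hom_ext
        · rw [hf, pullback.lift_fst]
        · rw [hs, pullback.lift_snd]

end Fermat.Agent.S25.Top.H61
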