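import Fermat.Agent.S25.Top.DefsS2
import Fermat.Agent.S25.Top.H61_CG
import Fermat.Agent.S25.Num.H45_Iso

/-!
# S25, package TOP, leaf TOP-SURJ: the assembly S-ASM (helper45)

`stmt_SURJ_of : Stmt_LOCFAM → Stmt_FAMGLUE → Stmt_DEGALL → Stmt_DEGGLUE → Stmt_ONTO → Top.Stmt_SURJ`
with `Y = C^g` (`H61.exists_power`).

* `g_eq_genus` : for a `DegSetup`, `S.g = Num.genus S.𝒞`.
-/

set_option autoImplicit false

universe u

open CategoryTheory CategoryTheory.Limits AlgebraicGeometry AlgebraicGeometry.RelPicard NeronModelInfra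
  GoodReductionJacobian TensorProduct

namespace Fermat.Agent.S25.Top.S.H45

open Fermat.Agent.S25 Fermat.Agent.S25.LB

/-- The genus of a degree set-up is the genus of its curve datum. -/
theorem g_eq_genus {k : Type u} [Field k] {C : Scheme.{u}} {c : C ⟶ Spec (CommRingCat.of k)}
    {ε : SchemeHomOver (𝟙 (Spec (CommRingCat.of k))) c} (S : DegSetup c ε) :
    S.g = Num.genus S.𝒞 := by
  have h1 := S.genus (H60.unitTriple S.𝒞 k S.good) (LinearEquiv.refl _ _) (LinearEquiv.refl _ _)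
    (LinearEquiv.refl _ _) (fun _ => rfl) (fun _ => rfl)
  have h2 : Num.IsUnitTriple (H60.unitTriple S.𝒞 k S.good) :=
    ⟨LinearEquiv.refl _ _, LinearEquiv.refl _ _, LinearEquiv.refl _ _, fun _ => rfl, fun _ => rfl⟩
  have h3 := Num.H45.h1_unit S.good h2
  rw [← h1, ← h3]
  rfl

/-- **S-ASM**: the assembly of `Top.Stmt_SURJ`. -/
theorem stmt_SURJ_of (hLF : Stmt_LOCFAM.{u}) (hFG : Stmt_FAMGLUE.{u}) (hDA : Stmt_DEGALL.{u})
    (hDG : Stmt_DEGGLUE.{u}) (hON : Stmt_ONTO.{u}) : Top.Stmt_SURJ.{u} := by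
  intro k _ _ C c _ _ _ ε S
  have hg : S.g = Num.genus S.𝒞 := g_eq_genus S
  obtain ⟨Y, y, pr, hprop, hint, hpr, huniv⟩ := H61.exists_power c S.g
  obtain ⟨ℱ, hℱ⟩ := hLF k c ε S.𝒞 S.good S.ρ y S.g pr hpr
  obtain ⟨N, hN⟩ := hFG k c ε S.𝒞 S.good S.ρ y ℱ
  have hdeg : DegZero S.ρ S.g y N := by
    refine hDG k c ε S.𝒞 S.good S.ρ S.g y ℱ N hN ?_
    intro R _ _ φ L hL
    obtain ⟨β, -, hfam⟩ := (hℱ R φ L).1 hL
    have h := hDA k S.𝒞 S.good R S.g β L hfam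
    rw [← hg] at h
    exact h
  exact ⟨Y, y, hprop, hint, N, (S.hP' y N).2 hdeg,
    fun M hM => hON k c ε S hg y pr hpr (fun t φ hφ => huniv t φ hφ) ℱ hℱ N hN M hM⟩

end Fermat.Agent.S25.Top.S.H45
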