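import Fermat.Agent.S25.Top.DefsS2
import Fermat.Agent.S25.Top.H25_RepYoneda
import Fermat.Agent.S25.Trip.Defs
import Fermat.Agent.S25.Num.H45_Iso

/-!
# S25, package TOP, leaf TOP-SURJ: S-ONTO (helper45)

`stmt_ONTO_of : Bridge.Stmt_T1 → Bridge.Stmt_T2 → Bridge.Stmt_RIG → Trip.Stmt_DEGK → Stmt_SURJK → Stmt_PT →
  Stmt_ONTO`:
the bundle glued from the family over `Y = C^g` hits every degree zero bundle over `k`.
-/

set_option autoImplicit false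

universe u

open CategoryTheory CategoryTheory.Limits AlgebraicGeometry AlgebraicGeometry.RelPicard NeronModelInfra
  GoodReductionJacobian TensorProduct

namespace Fermat.Agent.S25.Top.S.H45

open Fermat.Agent.S25 Fermat.Agent.S25.LB

/-- The structure map of `Spec k` over `k` is the identity. -/
theorem tR_self (k : Type u) [Field k] : Bridge.tR k k = 𝟙 (Spec (CommRingCat.of k)) := by
  unfold Bridge.tR
  rw [Algebra.algebraMap_self]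
  exact Spec.map_id _

/-- **S-ONTO**. -/
theorem stmt_ONTO_of (hT1 : Bridge.Stmt_T1.{u}) (hT2 : Bridge.Stmt_T2.{u})
    (hRIG : Bridge.Stmt_RIG.{u}) (hDK : Trip.Stmt_DEGK.{u}) (hSK : Stmt_SURJK.{u})
    (hPT : Stmt_PT.{u}) : Stmt_ONTO.{u} := by
  intro k _ _ C c _ _ _ ε S hg Y y pr hpr huniv ℱ hℱ N hN M hM
  -- the bundle `M` over the structure map `tR k k`
  have h : 𝟙 (Spec (CommRingCat.of k)) ≫ 𝟙 (Spec (CommRingCat.of k)) = Bridge.tR k k := by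
    rw [Category.comp_id, tR_self]
  have hdeg := (S.hP' _ M).1 hM
  obtain ⟨L, hL⟩ := hT1 k c ε S.𝒞 S.good S.ρ k (M.pullbackAlong ⟨𝟙 _, h⟩).L
    (M.pullbackAlong ⟨𝟙 _, h⟩).isInvertible
  have hL0 : IsDeg0 S.g L := hdeg k ⟨𝟙 _, h⟩ L hL
  -- `chi L = 1 - genus`
  have hchi : Num.chi L = 1 - (Num.genus S.𝒞 : ℤ) := by
    have h1 := (hDK k S.𝒞 S.good).1 L ⟨⊥, Ideal.isPrime_bot⟩
    have h2 := hL0 ⟨⊥, Ideal.isPrime_bot⟩
    rw [← h1, ← hg]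
    exact h2
  -- the points
  obtain ⟨β, hβ⟩ : ∃ β : Fin S.g → CPt S.𝒞 k, IsFam β L := by
    rw [hg]
    exact hSK k S.𝒞 S.good L hchi
  obtain ⟨hPTa, -, -, -⟩ := hPT k c ε S.𝒞 S.good S.ρ
  obtain ⟨ψ, ⟨hψy, hψpr⟩, -⟩ := huniv (Bridge.tR k k) (fun j => ptMor S.ρ k (β j))
    (fun j => hPTa k (β j))
  -- the family at the point
  have hFam : ℱ.Fam k ⟨ψ, hψy⟩ L := (hℱ k ⟨ψ, hψy⟩ L).2 ⟨β, hψpr, hβ⟩
  have hrig : L.IsRigid :=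
    (hRIG k c ε S.𝒞 S.good S.ρ k _ L (M.pullbackAlong ⟨𝟙 _, h⟩).isInvertible hL).1
      (M.pullbackAlong ⟨𝟙 _, h⟩).rigidified
  obtain ⟨LN, hLN⟩ := hT1 k c ε S.𝒞 S.good S.ρ k (N.pullbackAlong ⟨ψ, hψy⟩).L
    (N.pullbackAlong ⟨ψ, hψy⟩).isInvertible
  obtain ⟨E⟩ := hN k ⟨ψ, hψy⟩ LN L hLN hFam hrig
  have hiso : Nonempty ((N.pullbackAlong ⟨ψ, hψy⟩).L ≅ (M.pullbackAlong ⟨𝟙 _, h⟩).L) :=
    (hT2 k c ε S.𝒞 S.good S.ρ k _ _ LN L (N.pullbackAlong ⟨ψ, hψy⟩).isInvertible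
      (M.pullbackAlong ⟨𝟙 _, h⟩).isInvertible hLN hL).2 ⟨Num.H45.tripleIsoSymm E⟩
  exact ⟨_, (H25.iso_pullbackAlong_id_iff N M ⟨ψ, hψy⟩ h).1 hiso⟩

end Fermat.Agent.S25.Top.S.H45
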