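import Fermat.Agent.S25.Top.H47_SRelDiv

/-!
# S25, TOP-SURJ, leaf `S-FAMEX` (wiring)

helper47.  `famex_of : Stmt_UNITBC → Stmt_GRINV → Stmt_TWEX → Stmt_FAMEX` (S-RELDIV is proved in
`H47_SRelDiv.lean`): the family `O(Σ Γ_(β j) - g ε)` exists over every `k`-algebra `R`.
Also: `isRelDiv_div`, `isRelDiv_pow` (the divisors `div β` and `g ε` are relative effective Cartier divisors).
-/

set_option autoImplicit false
set_option linter.style.haveILetI false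

universe u

open TensorProduct

namespace Fermat.Agent.S25.Top.S.H47

open Fermat.Agent.S25 Fermat.Agent.S25.LB Fermat.Agent.S25.Top.S

variable {k : Type u} [Field k] {𝒞 : CurveDatum k} {R : Type u} [CommRing R] [Algebra k R]

/-- a finite product of relative effective Cartier divisors is one -/
theorem isRelDiv_prod (hC : 𝒞.IsGood) {ι : Type*} (s : Finset ι)
    (J0 : ι → Ideal (R ⊗[k] 𝒞.B0)) (J1 : ι → Ideal (R ⊗[k] 𝒞.B1))
    (h : ∀ i ∈ s, IsRelDiv (J0 i) (J1 i)) : IsRelDiv (∏ i ∈ s, J0 i) (∏ i ∈ s, J1 i) := by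
  classical
  obtain ⟨htop, hmul⟩ := stmt_RELDIV k 𝒞 hC R
  induction s using Finset.induction_on with
  | empty =>
    rw [Finset.prod_empty, Finset.prod_empty, Ideal.one_eq_top, Ideal.one_eq_top]
    exact htop
  | insert a s ha ih =>
    rw [Finset.prod_insert ha, Finset.prod_insert ha]
    exact hmul _ _ _ _ (h a (Finset.mem_insert_self a s))
      (ih fun i hi => h i (Finset.mem_insert_of_mem hi))

/-- `div β` is a relative effective Cartier divisor -/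
theorem isRelDiv_div (hC : 𝒞.IsGood) {g : ℕ} (β : Fin g → CPt 𝒞 R)
    (h : ∀ j, IsRelDiv (gr0 (β j)) (gr1 (β j))) : IsRelDiv (div0 β) (div1 β) :=
  isRelDiv_prod hC Finset.univ _ _ fun j _ => h j

/-- powers of a relative effective Cartier divisor -/
theorem isRelDiv_pow (hC : 𝒞.IsGood) {J0 : Ideal (R ⊗[k] 𝒞.B0)} {J1 : Ideal (R ⊗[k] 𝒞.B1)}
    (h : IsRelDiv J0 J1) (g : ℕ) : IsRelDiv (J0 ^ g) (J1 ^ g) := by
  have := isRelDiv_prod hC (Finset.range g) (fun _ => J0) (fun _ => J1) fun _ _ => h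
  rwa [Finset.prod_const, Finset.prod_const, Finset.card_range] at this

/-- **S-FAMEX** from S-UNITBC, S-GRINV, S-TWEX (and S-RELDIV). -/
theorem famex_of (hU : Stmt_UNITBC.{u}) (hG : Stmt_GRINV.{u}) (hT : Stmt_TWEX.{u}) :
    Stmt_FAMEX.{u} := by
  intro k _ _ 𝒞 hC R _ _ g β
  obtain ⟨⟨U, hUU⟩, -⟩ := hU k 𝒞 hC R
  have hdiv : IsRelDiv (div0 β) (div1 β) := isRelDiv_div hC β fun j => hG k 𝒞 hC R (β j)
  have hbase : IsRelDiv (gr0 (basePt 𝒞 R) ^ g) (gr1 (basePt 𝒞 R) ^ g) :=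
    isRelDiv_pow hC (hG k 𝒞 hC R (basePt 𝒞 R)) g
  obtain ⟨⟨N₁, hN₁⟩, -⟩ := hT k 𝒞 hC R _ _ hdiv U
  obtain ⟨-, ⟨N, hN⟩⟩ := hT k 𝒞 hC R _ _ hbase N₁
  exact ⟨N, U, N₁, hUU, hN₁, hN⟩

end Fermat.Agent.S25.Top.S.H47
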