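import Fermat.Agent.S25.Top.DefsS

/-!
# S25, TOP-SURJ, leaf `S-RELDIV`

helper47.  `stmt_RELDIV : Stmt_RELDIV`: the unit ideal is a relative effective Cartier divisor, and so is the
product of two of them.  The point: for invertible (hence flat) ideals `J`, `I` of a ring `A` the multiplication
`J ⊗ I → J * I` is bijective.
-/

set_option autoImplicit false
set_option linter.style.haveILetI false

universe u

open TensorProduct

namespace Fermat.Agent.S25.Top.S.H47

open Fermat.Agent.S25 Fermat.Agent.S25.LB Fermat.Agent.S25.Top.S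

/-- the multiplication `J ⊗ I → A` is injective when `J` is flat and `I` is flat -/
theorem mulMap_injective_of_flat {A : Type u} [CommRing A] (J I : Ideal A)
    [Module.Flat A J] : Function.Injective (Submodule.mulMap J I) := by
  have h1 : Function.Injective (I.subtype.lTensor J) :=
    Module.Flat.lTensor_preserves_injective_linearMap I.subtype I.injective_subtype
  have h2 : Function.Injective ((TensorProduct.rid A J).toLinearMap) :=
    (TensorProduct.rid A J).injective
  have h3 : Submodule.mulMap J I =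
      J.subtype ∘ₗ (TensorProduct.rid A J).toLinearMap ∘ₗ (I.subtype.lTensor J) := by
    refine TensorProduct.ext' fun a b => ?_
    simp only [Submodule.mulMap_tmul, LinearMap.comp_apply, LinearMap.lTensor_tmul,
      LinearEquiv.coe_coe, TensorProduct.rid_tmul, Submodule.subtype_apply]
    change (a : A) * (b : A) = ((b : A) • a : J)
    rw [Submodule.coe_smul, smul_eq_mul, mul_comm]
  rw [h3]
  exact J.injective_subtype.comp (h2.comp h1)

/-- the product of two invertible ideals is an invertible ideal -/
theorem invertible_mul {A : Type u} [CommRing A] (J I : Ideal A)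
    (hJ : Module.Invertible A J) (hI : Module.Invertible A I) :
    Module.Invertible A ↥(J * I) := by
  haveI := hJ
  haveI := hI
  have hinj : Function.Injective (Submodule.mulMap' J I) := by
    intro x y hxy
    apply mulMap_injective_of_flat J I
    have := congrArg (Subtype.val) hxy
    exact this
  exact Module.Invertible.congr
    (LinearEquiv.ofBijective (Submodule.mulMap' J I) ⟨hinj, Submodule.mulMap'_surjective J I⟩)

/-- the unit ideal is invertible -/
theorem invertible_top (A : Type u) [CommRing A] : Module.Invertible A ↥(⊤ : Ideal A) :=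
  Module.Invertible.congr (Submodule.topEquiv (R := A) (M := A)).symm

/-- **S-RELDIV**. -/
theorem stmt_RELDIV : Stmt_RELDIV.{u} := by
  intro k _ 𝒞 _ R _ _
  refine ⟨⟨invertible_top _, invertible_top _, ?_⟩, ?_⟩
  · have h0 : (⊤ : Ideal (R ⊗[k] 𝒞.B0)).map (𝒞.ι0 R) = ⊤ := by
      rw [Ideal.eq_top_iff_one]
      have : (𝒞.ι0 R) 1 ∈ (⊤ : Ideal (R ⊗[k] 𝒞.B0)).map (𝒞.ι0 R) :=
        Ideal.mem_map_of_mem _ Submodule.mem_top
      rwa [map_one] at this
    have h1 : (⊤ : Ideal (R ⊗[k] 𝒞.B1)).map (𝒞.ι1 R) = ⊤ := by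
      rw [Ideal.eq_top_iff_one]
      have : (𝒞.ι1 R) 1 ∈ (⊤ : Ideal (R ⊗[k] 𝒞.B1)).map (𝒞.ι1 R) :=
        Ideal.mem_map_of_mem _ Submodule.mem_top
      rwa [map_one] at this
    rw [h0, h1]
  · rintro J0 I0 J1 I1 ⟨hJ0, hJ1, hJ⟩ ⟨hI0, hI1, hI⟩
    refine ⟨invertible_mul J0 I0 hJ0 hI0, invertible_mul J1 I1 hJ1 hI1, ?_⟩
    rw [Ideal.map_mul, Ideal.map_mul, hJ, hI]

end Fermat.Agent.S25.Top.S.H47
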