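/-
helper72, S25 package TOP-SURJ, leaf S-FAMUNIQ (wiring): the family `O(Σ Γ_(β j) - g ε)` is unique
up to isomorphism, closed under isomorphism, and depends only on the divisor.

* `isRelDiv_prod`, `isRelDiv_div`, `isRelDiv_pow` : products of relative Cartier divisors;
* `isTw_of_iso_left`  : `IsTw J L L'` and `L ≅ M` give `IsTw J M L'`;
* `famuniq_of : Stmt_GRINV → Stmt_RELDIV → Stmt_TWUNIQ → Stmt_FAMUNIQ`.
-/
import Fermat.Agent.S25.Top.DefsS
import Fermat.Agent.S25.Top.H72_SUnitBC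

set_option autoImplicit false
set_option linter.style.haveILetI false
set_option linter.unusedSectionVars false

universe u

open TensorProduct

namespace Fermat.Agent.S25.Top.S.H72

open Fermat.Agent.S25 Fermat.Agent.S25.LB Fermat.Agent.S25.Chart

variable {k : Type u} [Field k] {𝒞 : CurveDatum k} {R : Type u} [CommRing R] [Algebra k R]

/-- Finite products of relative effective Cartier divisors. -/
theorem isRelDiv_prod (hRD : Stmt_RELDIV.{u}) (h : 𝒞.IsGood) {ι : Type} (s : Finset ι)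
    (J0 : ι → Ideal (R ⊗[k] 𝒞.B0)) (J1 : ι → Ideal (R ⊗[k] 𝒞.B1))
    (hJ : ∀ j, IsRelDiv (J0 j) (J1 j)) : IsRelDiv (∏ j ∈ s, J0 j) (∏ j ∈ s, J1 j) := by
  classical
  induction s using Finset.induction_on with
  | empty =>
    rw [Finset.prod_empty, Finset.prod_empty, Ideal.one_eq_top, Ideal.one_eq_top]
    exact (hRD k 𝒞 h R).1
  | insert a s ha ih =>
    rw [Finset.prod_insert ha, Finset.prod_insert ha]
    exact (hRD k 𝒞 h R).2 _ _ _ _ (hJ a) ih

/-- The divisor `Γ_(β 1) + … + Γ_(β g)` is a relative effective Cartier divisor. -/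
theorem isRelDiv_div [IsAlgClosed k] (hGR : Stmt_GRINV.{u}) (hRD : Stmt_RELDIV.{u})
    (h : 𝒞.IsGood) {g : ℕ} (β : Fin g → CPt 𝒞 R) : IsRelDiv (div0 β) (div1 β) :=
  isRelDiv_prod hRD h Finset.univ (fun j => gr0 (β j)) (fun j => gr1 (β j))
    (fun j => hGR k 𝒞 h R (β j))

/-- Powers of a relative effective Cartier divisor. -/
theorem isRelDiv_pow (hRD : Stmt_RELDIV.{u}) (h : 𝒞.IsGood)
    (J0 : Ideal (R ⊗[k] 𝒞.B0)) (J1 : Ideal (R ⊗[k] 𝒞.B1)) (hJ : IsRelDiv J0 J1) (g : ℕ) :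
    IsRelDiv (J0 ^ g) (J1 ^ g) := by
  induction g with
  | zero =>
    rw [pow_zero, pow_zero, Ideal.one_eq_top, Ideal.one_eq_top]
    exact (hRD k 𝒞 h R).1
  | succ n ih =>
    rw [pow_succ, pow_succ]
    exact (hRD k 𝒞 h R).2 _ _ _ _ ih hJ

/-- Composition of a morphism of triples with an isomorphism on the source. -/
def homOfIsoComp {L M L' : Triple 𝒞 R} (I : Triple.Iso M L) (φ : Triple.Hom L L') :
    Triple.Hom M L' where
  f0 := φ.f0.comp I.e0.toLinearMap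
  f1 := φ.f1.comp I.e1.toLinearMap
  f01 := φ.f01.comp I.e01.toLinearMap
  comm0 := fun p => by
    change φ.f01 (I.e01 (M.r0 p)) = L'.r0 (φ.f0 (I.e0 p))
    rw [I.comm0, φ.comm0]
  comm1 := fun p => by
    change φ.f01 (I.e01 (M.r1 p)) = L'.r1 (φ.f1 (I.e1 p))
    rw [I.comm1, φ.comm1]

/-- Twists are closed under isomorphism of the source. -/
theorem isTw_of_iso_left {J0 : Ideal (R ⊗[k] 𝒞.B0)} {J1 : Ideal (R ⊗[k] 𝒞.B1)}
    {L M L' : Triple 𝒞 R} (hT : IsTw J0 J1 L L') (I : Triple.Iso M L) : IsTw J0 J1 M L' := by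
  obtain ⟨φ, hi0, hi1, hr0, hr1⟩ := hT
  refine ⟨homOfIsoComp I φ, ?_, ?_, ?_, ?_⟩
  · exact hi0.comp I.e0.injective
  · exact hi1.comp I.e1.injective
  · rw [← hr0]
    change LinearMap.range (φ.f0.comp I.e0.toLinearMap) = _
    rw [LinearMap.range_comp, LinearEquiv.range, Submodule.map_top]
  · rw [← hr1]
    change LinearMap.range (φ.f1.comp I.e1.toLinearMap) = _
    rw [LinearMap.range_comp, LinearEquiv.range, Submodule.map_top]

/-- **S-FAMUNIQ** from its leaves. -/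
theorem famuniq_of (hGR : Stmt_GRINV.{u}) (hRD : Stmt_RELDIV.{u}) (hTU : Stmt_TWUNIQ.{u}) :
    Stmt_FAMUNIQ.{u} := by
  intro k _ _ 𝒞 h R _ _ g β β' N N' hd0 hd1 hN
  obtain ⟨U, N₁, hU, hT1, hT2⟩ := hN
  have hdiv : IsRelDiv (div0 β) (div1 β) := isRelDiv_div hGR hRD h β
  have hpow : IsRelDiv (gr0 (basePt 𝒞 R) ^ g) (gr1 (basePt 𝒞 R) ^ g) :=
    isRelDiv_pow hRD h _ _ (hGR k 𝒞 h R (basePt 𝒞 R)) g
  constructor
  · rintro ⟨U', N₁', hU', hT1', hT2'⟩
    rw [← hd0, ← hd1] at hT1'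
    have hUU : Nonempty (Triple.Iso U U') := (stmt_UNITBC k 𝒞 h R).2.1 U U' hU hU'
    have h1 : Nonempty (Triple.Iso N₁ N₁') :=
      (hTU k 𝒞 h R _ _ hdiv U N₁ U' N₁' hT1 hT1').mp hUU
    exact (hTU k 𝒞 h R _ _ hpow N N₁ N' N₁' hT2 hT2').mpr h1
  · rintro ⟨I⟩
    refine ⟨U, N₁, hU, ?_, isTw_of_iso_left hT2 (H60.isoSymm I)⟩
    rw [← hd0, ← hd1]
    exact hT1

end Fermat.Agent.S25.Top.S.H72
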