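/-
helper72, S25 package TOP-SURJ, leaf S-FAMUNIQ, closing step: with S-RELDIV (helper47) and
S-TWUNIQ (helper30) plugged, `Stmt_FAMUNIQ` follows from `Stmt_GRINV` alone.
-/
import Fermat.Agent.S25.Top.H72_SFamUniq
import Fermat.Agent.S25.Top.H47_SRelDiv
import Fermat.Agent.S25.Top.H30_STwUniq

set_option autoImplicit false

universe u

namespace Fermat.Agent.S25.Top.S.H72

/-- **S-FAMUNIQ** from **S-GRINV**. -/
theorem famuniq_of_grinv (hGR : Stmt_GRINV.{u}) : Stmt_FAMUNIQ.{u} :=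
  famuniq_of hGR H47.stmt_RELDIV H30.stmt_TWUNIQ

end Fermat.Agent.S25.Top.S.H72
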