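import Fermat.Agent.S25.Top.H77_SDict

/-!
# S25 TOP-SURJ (helper77): the leaves S-DEGK and S-SURJK

* `stmt_DEGK_of : Num.Stmt_CHI → Num.Stmt_PTS → Num.Stmt_ISO → S.Stmt_DEGK` :
  over the base field the family `O(Γ_1 + … + Γ_g - g ε)` has `chi = 1 - genus`;
* `stmt_SURJK_of : Num.Stmt_TWEX → Num.Stmt_CHI → Num.Stmt_PTS → Num.Stmt_EFF → S.Stmt_SURJK` :
  over the base field every triple with `chi = 1 - genus` is a member of the family with `genus` points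
  (`L(g ε)` has `chi = 1`, hence a section, hence is `O(q_1 + … + q_g)`).

Both are the NUM theorems read through the dictionary `H77_SDict.lean`.
-/

set_option autoImplicit false

universe u

open TensorProduct

namespace Fermat.Agent.S25.Top.S.H77

open Fermat.Agent.S25 Fermat.Agent.S25.LB Fermat.Agent.S25.Num Fermat.Agent.S25.Top.S

/-- **S-DEGK** from NUM-CHI, NUM-PTS, NUM-ISO. -/
theorem stmt_DEGK_of (hCHI : Fermat.Agent.S25.Num.Stmt_CHI.{u})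
    (hPTS : Fermat.Agent.S25.Num.Stmt_PTS.{u}) (hISO : Fermat.Agent.S25.Num.Stmt_ISO.{u}) :
    Stmt_DEGK.{u} := by
  intro k _ _ 𝒞 hC g β N hN
  obtain ⟨U, N₁, hU, hTw1, hTw2⟩ := hN
  rw [div0_eq, div1_eq] at hTw1
  have hT1 : IsTwist (divD0 β) (divD1 β) U N₁ := hTw1
  rw [gr0_eq, gr1_eq, ← ext0_pow, ← ext1_pow] at hTw2
  have hT2 : IsTwist (ptD0 (basePt 𝒞 k) ^ g) (ptD1 (basePt 𝒞 k) ^ g) N N₁ := hTw2
  obtain ⟨-, hchi1, -⟩ := hCHI k 𝒞 hC _ _ U N₁ hT1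
  obtain ⟨-, hchi2, -⟩ := hCHI k 𝒞 hC _ _ N N₁ hT2
  have hd1 := (isEffDiv_divD hPTS hC β).2
  have hd2 := (isEffDiv_pow hPTS hC (basePt 𝒞 k) g).2
  obtain ⟨-, -, -, -, hunit⟩ := hISO k 𝒞 hC
  obtain ⟨h0U, h1U⟩ := hunit U hU
  have hchiU : chi U = 1 - (genus 𝒞 : ℤ) := by
    unfold chi
    rw [h0U, h1U]
    simp
  rw [hd1] at hchi1
  rw [hd2] at hchi2
  linarith

section Surj

variable {k : Type u} [Field k] [IsAlgClosed k] {𝒞 : CurveDatum k}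

/-- The family of points `q_1, …, q_n` of `V0` and `q'_1, …, q'_m` at infinity. -/
def ptsFam {n m : ℕ} (q : Fin n → (𝒞.B0 →ₐ[k] k)) (q' : Fin m → (𝒞.B1 →ₐ[k] k)) :
    Fin (n + m) → CPt 𝒞 k :=
  Fin.append (fun i => (Sum.inl (q i) : CPt 𝒞 k)) (fun j => (Sum.inr (q' j) : CPt 𝒞 k))

theorem divD0_ptsFam (hPTS : Fermat.Agent.S25.Num.Stmt_PTS.{u}) (hC : 𝒞.IsGood) {n m : ℕ}
    (q : Fin n → (𝒞.B0 →ₐ[k] k)) (q' : Fin m → (𝒞.B1 →ₐ[k] k)) (hq' : ∀ j, q' j 𝒞.z1 = 0) :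
    divD0 (ptsFam q q') = ptsI0 q := by
  obtain ⟨-, h1, -⟩ := hPTS k 𝒞 hC
  unfold divD0 ptsFam ptsI0
  rw [Fin.prod_univ_add]
  simp only [Fin.append_left, Fin.append_right]
  have h2 : ∏ j : Fin m, ptD0 (Sum.inr (q' j) : CPt 𝒞 k) = 1 := by
    refine Finset.prod_eq_one (fun j _ => ?_)
    show tr10 (RingHom.ker (q' j)) = 1
    rw [Ideal.one_eq_top]
    exact (h1 (q' j)).2.2.1 (hq' j)
  rw [h2, mul_one]
  rfl

omit [IsAlgClosed k] in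
theorem divD1_ptsFam {n m : ℕ}
    (q : Fin n → (𝒞.B0 →ₐ[k] k)) (q' : Fin m → (𝒞.B1 →ₐ[k] k)) :
    divD1 (ptsFam q q') = ptsI1 q * infI1 q' := by
  unfold divD1 ptsFam ptsI1 infI1
  rw [Fin.prod_univ_add]
  simp only [Fin.append_left, Fin.append_right]
  rfl

/-- The member of the family with the points `q`, `q'`. -/
theorem isFam_of_twists (hPTS : Fermat.Agent.S25.Num.Stmt_PTS.{u}) (hC : 𝒞.IsGood) (g : ℕ)
    (L N₁ U : Triple 𝒞 k)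
    (hT2 : IsTwist (ptD0 (basePt 𝒞 k) ^ g) (ptD1 (basePt 𝒞 k) ^ g) L N₁)
    {n m : ℕ} (hnm : n + m = g)
    (q : Fin n → (𝒞.B0 →ₐ[k] k)) (q' : Fin m → (𝒞.B1 →ₐ[k] k)) (hq' : ∀ j, q' j 𝒞.z1 = 0)
    (hU : IsUnitTriple U) (hT1 : IsTwist (ptsI0 q) (ptsI1 q * infI1 q') U N₁) :
    ∃ β : Fin g → CPt 𝒞 k, IsFam β L := by
  subst hnm
  refine ⟨ptsFam q q', U, N₁, hU, ?_, ?_⟩
  · rw [div0_eq, div1_eq, divD0_ptsFam hPTS hC q q' hq', divD1_ptsFam q q']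
    exact hT1
  · rw [gr0_eq, gr1_eq, ← ext0_pow, ← ext1_pow]
    exact hT2

end Surj

/-- **S-SURJK** from NUM-TWEX, NUM-CHI, NUM-PTS, NUM-EFF. -/
theorem stmt_SURJK_of (hTWEX : Fermat.Agent.S25.Num.Stmt_TWEX.{u})
    (hCHI : Fermat.Agent.S25.Num.Stmt_CHI.{u}) (hPTS : Fermat.Agent.S25.Num.Stmt_PTS.{u})
    (hEFF : Fermat.Agent.S25.Num.Stmt_EFF.{u}) : Stmt_SURJK.{u} := by
  intro k _ _ 𝒞 hC L hL
  obtain ⟨hEb, hdb⟩ := isEffDiv_pow hPTS hC (basePt 𝒞 k) (genus 𝒞)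
  obtain ⟨hex, -⟩ := hTWEX k 𝒞 hC _ _ hEb
  obtain ⟨N₁, hT2⟩ := hex L
  obtain ⟨-, hchi2, -⟩ := hCHI k 𝒞 hC _ _ L N₁ hT2
  have hchiN : chi N₁ = 1 := by
    rw [hchi2, hL, hdb]
    ring
  have hh0 : 1 ≤ h0 N₁ := by
    unfold chi at hchiN
    omega
  obtain ⟨n, m, q, q', U, hq', hU, hT1, hnm⟩ := hEFF k 𝒞 hC N₁ hh0
  have hdeg : deg N₁ = (genus 𝒞 : ℤ) := by
    unfold deg
    rw [hchiN]
    ring
  have hnmg : n + m = genus 𝒞 := by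
    exact_mod_cast hnm.trans hdeg
  exact isFam_of_twists hPTS hC (genus 𝒞) L N₁ U hT2 hnmg q q' hq' hU hT1

end Fermat.Agent.S25.Top.S.H77
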