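import Fermat.Agent.S25.Top.H45_SAsm
import Fermat.Agent.S25.Top.H45_SOnto
import Fermat.Agent.S25.Top.H22_SPt
import Fermat.Agent.S25.Top.H26_SFamBC
import Fermat.Agent.S25.Top.H29_STwEx
import Fermat.Agent.S25.Top.H30_SDegGlueFinal
import Fermat.Agent.S25.Top.H47_SFamEx
import Fermat.Agent.S25.Top.H54_SGrBC
import Fermat.Agent.S25.Top.H72_SFamUniq2
import Fermat.Agent.S25.Top.H72_SUnitBC
import Fermat.Agent.S25.Top.H77_SDegK
import Fermat.Agent.S25.Top.H81_SDegAll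
import Fermat.Agent.S25.Bridge.H24_T1Final
import Fermat.Agent.S25.Bridge.H99_T2Closed
import Fermat.Agent.S25.Bridge.H54_AffHom
import Fermat.Agent.S25.Bridge.H41_Rig
import Fermat.Agent.S25.Trip.H36_DegBC
import Fermat.Agent.S25.Trip.H96_DegLC
import Fermat.Agent.S25.Num.H50_ChiStmt
import Fermat.Agent.S25.Num.H38_Pts
import Fermat.Agent.S25.Num.H9_Twex
import Fermat.Agent.S25.Num.H47_Eff
import Fermat.Agent.S25.Num.H97_MonoSec

/-!
# S25 / TOP-SURJ : the closing chain (helper45)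

Everything that is landed is plugged in; what remains are the leaves of `Top/DefsS.lean`
and `Top/DefsS2.lean` that are still open:

* `stmt_FAMEX_of`, `stmt_FAMUNIQ_of`, `stmt_FAMBC_of`, `stmt_DEGALL_of` : the family leaves
  from `Stmt_GRINV` (and `Stmt_TWBC`);
* `stmt_DEGK`, `stmt_SURJK`, `stmt_ONTO` : unconditional;
* `stmt_SURJ_of_open : Stmt_GRINV → Stmt_TWBC → Stmt_LOCFAM → Stmt_FAMGLUE → Top.Stmt_SURJ`.
-/

universe u

namespace Fermat.Agent.S25.Top.S.H45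

open Fermat.Agent.S25 Fermat.Agent.S25.Top.S

/-- NUM-MONO, unconditional. -/
theorem num_MONO : Num.Stmt_MONO.{u} := Num.H97.mono_of Num.H50.stmt_CHI Num.H38.stmt_PTS

/-- NUM-EFF, unconditional. -/
theorem num_EFF : Num.Stmt_EFF.{u} :=
  Num.H47.eff_of Num.H45.stmt_ISO Num.H97.stmt_SEC num_MONO Num.H50.stmt_CHI Num.H38.stmt_PTS

/-- **S-DEGK**, unconditional. -/
theorem stmt_DEGK : Stmt_DEGK.{u} :=
  H77.stmt_DEGK_of Num.H50.stmt_CHI Num.H38.stmt_PTS Num.H45.stmt_ISO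

/-- **S-SURJK**, unconditional. -/
theorem stmt_SURJK : Stmt_SURJK.{u} :=
  H77.stmt_SURJK_of Num.H9.stmt_TWEX Num.H50.stmt_CHI Num.H38.stmt_PTS num_EFF

/-- **S-ONTO**, unconditional. -/
theorem stmt_ONTO : Stmt_ONTO.{u} :=
  stmt_ONTO_of Bridge.H24.stmt_T1 (Bridge.H99.stmt_T2_of_AFFHOM Bridge.H54.stmt_AFFHOM)
    Bridge.H41.stmt_RIG Trip.H36.stmt_DEGK stmt_SURJK H22.stmt_PT

/-- **S-FAMEX** from S-GRINV. -/
theorem stmt_FAMEX_of (hG : Stmt_GRINV.{u}) : Stmt_FAMEX.{u} :=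
  H47.famex_of H72.stmt_UNITBC hG H29.stmt_TWEX

/-- **S-FAMUNIQ** from S-GRINV. -/
theorem stmt_FAMUNIQ_of (hG : Stmt_GRINV.{u}) : Stmt_FAMUNIQ.{u} :=
  H72.famuniq_of_grinv hG

/-- **S-FAMBC** from S-GRINV and S-TWBC. -/
theorem stmt_FAMBC_of (hG : Stmt_GRINV.{u}) (hT : Stmt_TWBC.{u}) : Stmt_FAMBC.{u} :=
  H26.fambc_of hG H54.stmt_GRBC hT

/-- **S-DEGALL** from S-GRINV and S-TWBC. -/
theorem stmt_DEGALL_of (hG : Stmt_GRINV.{u}) (hT : Stmt_TWBC.{u}) : Stmt_DEGALL.{u} :=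
  H81L.degall_of' Trip.H96.stmt_DEGLC (stmt_FAMEX_of hG) (stmt_FAMBC_of hG hT)
    (stmt_FAMUNIQ_of hG) stmt_DEGK

/-- **TOP-SURJ** from the four leaves that were open at 08:30Z. -/
theorem stmt_SURJ_of_open (hG : Stmt_GRINV.{u}) (hT : Stmt_TWBC.{u}) (hLF : Stmt_LOCFAM.{u})
    (hFG : Stmt_FAMGLUE.{u}) : Top.Stmt_SURJ.{u} :=
  stmt_SURJ_of hLF hFG (stmt_DEGALL_of hG hT) H30G.stmt_DEGGLUE stmt_ONTO

end Fermat.Agent.S25.Top.S.H45
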