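/-
helper72, S25 package TOP-SURJ, leaf S-RIGBC: rigidity of a triple is invariant under isomorphism
and stable under base change.

* `tmap_id`, `bcOfIso` : an isomorphism of triples is a base change along the identity;
* `isRigid_of_iso`     : rigidity is invariant under isomorphism;
* `stmt_RIGBC : Stmt_RIGBC` (base change: `Trip.H72.isRigid_of_bc`).
-/
import Fermat.Agent.S25.Top.DefsS
import Fermat.Agent.S25.Trip.H72_Restr

set_option autoImplicit false
set_option linter.style.haveILetI false
set_option linter.unusedSectionVars false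

universe u

open TensorProduct

namespace Fermat.Agent.S25.Top.S.H72

open Fermat.Agent.S25 Fermat.Agent.S25.LB Fermat.Agent.S25.Chart

variable {k : Type u} [Field k] {𝒞 : CurveDatum k} {R : Type u} [CommRing R] [Algebra k R]

theorem tmap_id (B : Type u) [CommRing B] [Algebra k B] (c : R ⊗[k] B) :
    tmap (AlgHom.id k R) B c = c := by
  induction c using TensorProduct.induction_on with
  | zero => simp
  | tmul r b => rfl
  | add x y hx hy => rw [map_add, hx, hy]

/-- An isomorphism of triples is a base change along the identity. -/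
def bcOfIso {L L' : Triple 𝒞 R} (I : Triple.Iso L L') : BC (AlgHom.id k R) L L' where
  b0 := I.e0.toLinearMap.toAddMonoidHom
  b1 := I.e1.toLinearMap.toAddMonoidHom
  b01 := I.e01.toLinearMap.toAddMonoidHom
  semi0 := fun c q => by
    rw [tmap_id]
    exact I.e0.map_smul c q
  semi1 := fun c q => by
    rw [tmap_id]
    exact I.e1.map_smul c q
  semi01 := fun c q => by
    rw [tmap_id]
    exact I.e01.map_smul c q
  comm0 := I.comm0
  comm1 := I.comm1
  gen0 := by
    rw [eq_top_iff]
    intro q _
    exact Submodule.subset_span ⟨I.e0.symm q, I.e0.apply_symm_apply q⟩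
  gen1 := by
    rw [eq_top_iff]
    intro q _
    exact Submodule.subset_span ⟨I.e1.symm q, I.e1.apply_symm_apply q⟩

/-- Rigidity is invariant under isomorphism. -/
theorem isRigid_of_iso {L L' : Triple 𝒞 R} (I : Triple.Iso L L') (h : L.IsRigid) : L'.IsRigid :=
  Trip.H72.isRigid_of_bc (bcOfIso I) h

/-- **S-RIGBC**. -/
theorem stmt_RIGBC : Stmt_RIGBC.{u} := by
  intro k _ 𝒞 _ R _ _ L hL
  refine ⟨?_, ?_⟩
  · rintro L' ⟨I⟩
    exact isRigid_of_iso I hL
  · rintro R' _ _ f L' ⟨β⟩
    exact Trip.H72.isRigid_of_bc β hL

end Fermat.Agent.S25.Top.S.H72
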