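/-
helper83, S25 package TOP-SURJ (sub-planner helper45), leaf S-RIGLOC.

* `exists_local_gen` : for a triple `L` over `R` and a prime `p` of `R` there are `r ∉ p` and `x : L.P1` such that
  for every `q : L.P1` some `(r ⊗ 1) ^ n • q` is a multiple of `x` modulo `I_e • P1`
  (`P1` is an invertible module over `R ⊗ B1`, hence free of rank one on a principal open `D(t)` with
  `t ∉ eR⁻¹ p`; `r := eR t`, and `t ≡ r ⊗ 1` modulo `I_e`).
* `isRigid_of_local_gen` : then EVERY base change of `L` along `R → R[1/r]` is rigid.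
* `stmt_RIGLOC : Stmt_RIGLOC`.
-/
import Fermat.Agent.S25.Top.DefsS

set_option autoImplicit false

universe u

open TensorProduct

namespace Fermat.Agent.S25.Top.S.H83

open Fermat.Agent.S25 Fermat.Agent.S25.LB Fermat.Agent.S25.Chart

variable {k : Type u} [Field k] {𝒞 : CurveDatum k}

section Core

variable {R : Type u} [CommRing R] [Algebra k R]

/-- In an invertible module, on a suitable principal open avoiding a given proper ideal, one element generates. -/
theorem exists_gen_of_invertible {A : Type u} [CommRing A] (P : Type u) [AddCommGroup P] [Module A P]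
    [Module.Invertible A P] (𝔮 : Ideal A) (h𝔮 : 𝔮 ≠ ⊤) :
    ∃ (t : A) (x : P), t ∉ 𝔮 ∧ ∀ q : P, ∃ (n : ℕ) (a : A), t ^ n • q = a • x := by
  classical
  obtain ⟨s, hs, hfree⟩ := Module.Invertible.exists_finset_free_localization A P
  obtain ⟨t, hts, ht⟩ : ∃ t ∈ s, t ∉ 𝔮 := by
    by_contra hcon
    apply h𝔮
    rw [eq_top_iff, ← hs]
    exact Ideal.span_le.mpr (fun t ht => by_contra fun h => hcon ⟨t, ht, h⟩)
  obtain ⟨e⟩ := Module.Invertible.free_iff_linearEquiv.mp (hfree t hts)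
  set f := LocalizedModule.mkLinearMap (Submonoid.powers t) P with hf
  set g : LocalizedModule.Away t P := e.symm 1 with hg
  have hgen : ∀ y : LocalizedModule.Away t P, y = e y • g := by
    intro y
    rw [hg, ← map_smul, smul_eq_mul, mul_one, LinearEquiv.symm_apply_apply]
  obtain ⟨⟨x, u⟩, hxu⟩ := IsLocalizedModule.surj (Submonoid.powers t) f g
  refine ⟨t, x, ht, fun q => ?_⟩
  obtain ⟨⟨a, v⟩, hav⟩ := IsLocalization.surj (Submonoid.powers t) (e (f q))
  have h1 : f ((u * v : Submonoid.powers t) • q) = f (a • x) := by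
    have e1 : f ((u * v : Submonoid.powers t) • q) =
        algebraMap A (Localization.Away t) ((u : A) * (v : A)) • f q := by
      rw [Submonoid.smul_def, map_smul, algebraMap_smul]
      rfl
    have e2 : f (a • x) = algebraMap A (Localization.Away t) a • f x := by
      rw [map_smul, algebraMap_smul]
    have e3 : f x = algebraMap A (Localization.Away t) (u : A) • g := by
      rw [← hxu, algebraMap_smul]
      rfl
    rw [e1, e2, e3, smul_smul]
    conv_lhs => rw [hgen (f q)]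
    rw [smul_smul]
    congr 1
    simp only at hav
    rw [← hav, map_mul]
    ring
  obtain ⟨w, hw⟩ := (IsLocalizedModule.eq_iff_exists (Submonoid.powers t) f).mp h1
  obtain ⟨n, hn⟩ : ∃ n : ℕ, t ^ n = ((w * (u * v) : Submonoid.powers t) : A) :=
    (w * (u * v)).2
  refine ⟨n, (w : A) * a, ?_⟩
  rw [hn, mul_smul]
  have : (w : A) • ((u * v : Submonoid.powers t) : A) • q = (w : A) • a • x := by
    simpa [Submonoid.smul_def] using hw
  rw [Submonoid.coe_mul, mul_smul, this]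

/-- **Core of S-RIGLOC**: a generator of `P1 / I_e P1` on a principal open neighbourhood of `p`. -/
theorem exists_local_gen (L : Triple 𝒞 R) (p : PrimeSpectrum R) :
    ∃ (r : R) (x : L.P1), r ∉ p.asIdeal ∧ ∀ q : L.P1, ∃ (n : ℕ) (a : R ⊗[k] 𝒞.B1),
      (algebraMap R (R ⊗[k] 𝒞.B1) r) ^ n • q - a • x ∈
        (RingHom.ker (𝒞.eR R).toRingHom • (⊤ : Submodule (R ⊗[k] 𝒞.B1) L.P1)) := by
  have : Module.Invertible (R ⊗[k] 𝒞.B1) L.P1 := L.inv1
  have hp : p.asIdeal.IsPrime := p.isPrime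
  have h𝔮 : Ideal.comap (𝒞.eR R).toRingHom p.asIdeal ≠ ⊤ :=
    (Ideal.comap_isPrime (𝒞.eR R).toRingHom p.asIdeal).ne_top
  obtain ⟨t, x, ht, hx⟩ := exists_gen_of_invertible L.P1 _ h𝔮
  refine ⟨𝒞.eR R t, x, fun h => ht (Ideal.mem_comap.mpr h), fun q => ?_⟩
  obtain ⟨n, a, hna⟩ := hx q
  refine ⟨n, a, ?_⟩
  have hker : algebraMap R (R ⊗[k] 𝒞.B1) (𝒞.eR R t) - t ∈ RingHom.ker (𝒞.eR R).toRingHom := by
    rw [RingHom.mem_ker]
    change 𝒞.eR R (algebraMap R (R ⊗[k] 𝒞.B1) (𝒞.eR R t) - t) = 0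
    rw [map_sub, AlgHom.commutes]
    exact sub_self _
  have hpow : (algebraMap R (R ⊗[k] 𝒞.B1) (𝒞.eR R t)) ^ n - t ^ n ∈
      RingHom.ker (𝒞.eR R).toRingHom :=
    Ideal.mem_of_dvd _ (sub_dvd_pow_sub_pow _ _ n) hker
  have : (algebraMap R (R ⊗[k] 𝒞.B1) (𝒞.eR R t)) ^ n • q - a • x =
      ((algebraMap R (R ⊗[k] 𝒞.B1) (𝒞.eR R t)) ^ n - t ^ n) • q := by
    rw [sub_smul, hna]
  rw [this]
  exact Submodule.smul_mem_smul hpow trivial

end Core

section BC

variable {R : Type u} [CommRing R] [Algebra k R] {R' : Type u} [CommRing R'] [Algebra k R']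

theorem eR_tmap' (φ : R →ₐ[k] R') (c : R ⊗[k] 𝒞.B1) :
    𝒞.eR R' (tmap φ 𝒞.B1 c) = φ (𝒞.eR R c) := by
  induction c using TensorProduct.induction_on with
  | zero => simp
  | tmul r b => simp [CurveDatum.eR, tmap]
  | add x y hx hy => rw [map_add, map_add, map_add, map_add, hx, hy]

theorem tmap_algebraMap (φ : R →ₐ[k] R') (B : Type u) [CommRing B] [Algebra k B] (r : R) :
    tmap φ B (algebraMap R (R ⊗[k] B) r) = algebraMap R' (R' ⊗[k] B) (φ r) := by
  rw [Algebra.TensorProduct.algebraMap_apply, Algebra.TensorProduct.algebraMap_apply]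
  simp [tmap]

/-- A base change maps `I_e • P1` into `I_e' • P1'`. -/
theorem bc_mem_ker_smul {φ : R →ₐ[k] R'} {L : Triple 𝒞 R} {L' : Triple 𝒞 R'} (β : BC φ L L')
    (x : L.P1) (hx : x ∈ (RingHom.ker (𝒞.eR R).toRingHom • (⊤ : Submodule (R ⊗[k] 𝒞.B1) L.P1))) :
    β.b1 x ∈ (RingHom.ker (𝒞.eR R').toRingHom • (⊤ : Submodule (R' ⊗[k] 𝒞.B1) L'.P1)) := by
  induction hx using Submodule.smul_induction_on' with
  | smul i hi m hm =>
    rw [β.semi1]
    refine Submodule.smul_mem_smul ?_ trivial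
    rw [RingHom.mem_ker] at hi ⊢
    change 𝒞.eR R' (tmap φ 𝒞.B1 i) = 0
    rw [eR_tmap']
    have hi' : 𝒞.eR R i = 0 := hi
    rw [hi', map_zero]
  | add x hx y hy ihx ihy => rw [map_add]; exact Submodule.add_mem _ ihx ihy

/-- If `φ r` is a unit and `x` generates `P1 / I_e P1` up to powers of `r`, every base change along `φ` is rigid. -/
theorem isRigid_of_local_gen {φ : R →ₐ[k] R'} {L : Triple 𝒞 R} {L' : Triple 𝒞 R'} (β : BC φ L L')
    (r : R) (hr : IsUnit (φ r)) (x : L.P1)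
    (hx : ∀ q : L.P1, ∃ (n : ℕ) (a : R ⊗[k] 𝒞.B1),
      (algebraMap R (R ⊗[k] 𝒞.B1) r) ^ n • q - a • x ∈
        (RingHom.ker (𝒞.eR R).toRingHom • (⊤ : Submodule (R ⊗[k] 𝒞.B1) L.P1))) :
    L'.IsRigid := by
  refine ⟨β.b1 x, fun q' => ?_⟩
  have hq' : q' ∈ Submodule.span (R' ⊗[k] 𝒞.B1) (Set.range β.b1) := by rw [β.gen1]; trivial
  induction hq' using Submodule.span_induction with
  | mem y hy =>
    obtain ⟨q, rfl⟩ := hy
    obtain ⟨n, a, ha⟩ := hx q
    have h1 := bc_mem_ker_smul β _ ha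
    rw [map_sub, β.semi1, β.semi1, map_pow, tmap_algebraMap] at h1
    have hu : IsUnit ((algebraMap R' (R' ⊗[k] 𝒞.B1) (φ r)) ^ n) := (hr.map _).pow n
    obtain ⟨v, hv⟩ := hu
    refine ⟨(↑v⁻¹ : R' ⊗[k] 𝒞.B1) * tmap φ 𝒞.B1 a, ?_⟩
    have h2 := Submodule.smul_mem _ (↑v⁻¹ : R' ⊗[k] 𝒞.B1) h1
    rw [smul_sub, smul_smul, smul_smul, ← hv, Units.inv_mul, one_smul] at h2
    exact h2
  | zero => exact ⟨0, by simp⟩
  | add y z _ _ hy hz =>
    obtain ⟨a, ha⟩ := hy
    obtain ⟨b, hb⟩ := hz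
    refine ⟨a + b, ?_⟩
    have := Submodule.add_mem _ ha hb
    convert this using 1
    rw [add_smul]; abel
  | smul c y _ hy =>
    obtain ⟨a, ha⟩ := hy
    refine ⟨c * a, ?_⟩
    have := Submodule.smul_mem _ c ha
    rwa [smul_sub, smul_smul] at this

end BC

/-- **S-RIGLOC**: every triple is rigid Zariski locally on `Spec R`, in the strong form: there is `r ∉ p` such
that EVERY base change of `L` along `R → R[1/r]` is rigid. -/
theorem stmt_RIGLOC : Stmt_RIGLOC.{u} := by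
  intro k _ 𝒞 _ R _ _ L p
  obtain ⟨r, x, hr, hx⟩ := exists_local_gen L p
  refine ⟨r, hr, fun L' hβ => ?_⟩
  obtain ⟨β⟩ := hβ
  exact isRigid_of_local_gen β r (IsLocalization.Away.algebraMap_isUnit r) x hx

end Fermat.Agent.S25.Top.S.H83
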