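/-
helper88, S25 package TOP, TOP-SURJ leaf S-FAMGLUE, part A: triples of pull-backs of a bundle whose triple
is a member of a `LocFam`.

* `fam_pullback`   : `P` on `C × Spec R` with triple `L` in the family at `φ`, `R → R'`: the pull-back of `P` to
                     `C × Spec R'` has a rigid triple in the family at `φ ∘ Spec (R → R')` (T1, T4, RIG, `bc`);
* `fam_pullback'`  : the same for an arbitrary morphism `b : Spec S ⟶ Spec R` over `k`;
* `iso_of_fam`     : two bundles on `C × Spec S` with rigid triples in the family at the same `ψ` are isomorphic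
                     (`uniq`, T2);
* `iso_of_fam_flex`: two bundles `P₁`, `P₂` on `C × Spec R₁`, `C × Spec R₂` with triples in the family at `φ₁`, `φ₂`
                     have isomorphic pull-backs to any affine scheme over `Spec R₁ ×_Y Spec R₂`.
-/
import Fermat.Agent.S25.Top.DefsS2
import Fermat.Agent.S25.Top.H89_DegLoc
import Fermat.Agent.S25.Top.H52_AffCalc
import Fermat.Agent.S25.Top.H30_ValUniq

set_option autoImplicit false
set_option linter.style.haveILetI false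
set_option linter.unusedSectionVars false

universe u

open CategoryTheory CategoryTheory.Limits AlgebraicGeometry AlgebraicGeometry.RelPicard NeronModelInfra
  GoodReductionJacobian TensorProduct

namespace Fermat.Agent.S25.Top.S.H88

open Fermat.Agent.S25 Fermat.Agent.S25.LB

variable {k : Type u} [Field k] {C : Scheme.{u}} {c : C ⟶ Spec (CommRingCat.of k)}
  {ε : SchemeHomOver (𝟙 (Spec (CommRingCat.of k))) c} {𝒞 : CurveDatum k}

/-- The pull-back along `R → R'` of a bundle whose triple is in the family has a rigid triple in the family. -/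
theorem fam_pullback (hT1 : Bridge.Stmt_T1.{u}) (hT4 : Bridge.Stmt_T4.{u}) (hRIG : Bridge.Stmt_RIG.{u})
    (hG : 𝒞.IsGood) (ρ : Bridge.Realizes c ε 𝒞) {Y : Scheme.{u}} {y : Y ⟶ Spec (CommRingCat.of k)}
    (ℱ : LocFam ρ y) (R R' : Type u) [CommRing R] [Algebra k R] [CommRing R'] [Algebra k R']
    [Algebra R R'] [IsScalarTower k R R'] (φ : SchemeHomOver (Bridge.tR k R) y)
    (P : RigidifiedLineBundle c ε (Bridge.tR k R)) (L : Triple 𝒞 R)
    (hL : Bridge.IsTripleOf ρ R P.L L) (hF : ℱ.Fam R φ L) :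
    ∃ T : Triple 𝒞 R', Bridge.IsTripleOf ρ R' (P.pullbackAlong (specOver k R R')).L T ∧ T.IsRigid ∧
      ℱ.Fam R' (postComp φ (specOver k R R')) T := by
  have hinv := (P.pullbackAlong (specOver k R R')).isInvertible
  obtain ⟨T, hT⟩ := hT1 k c ε 𝒞 hG ρ R' _ hinv
  have hrel : H20.T4Rel R R' L T := hT4 k c ε 𝒞 hG ρ R R' P.L L T P.isInvertible hL hT
  have hbc := H30.t4rel_bc hG hrel
  refine ⟨T, hT, ?_, ℱ.bc R R' φ L T hF hbc⟩
  exact (hRIG k c ε 𝒞 hG ρ R' _ T hinv hT).mp (P.pullbackAlong (specOver k R R')).rigidified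

/-- The pull-back along any `b : Spec S ⟶ Spec R` over `k` of a bundle whose triple is in the family has a
rigid triple in the family. -/
theorem fam_pullback' (hT1 : Bridge.Stmt_T1.{u}) (hT4 : Bridge.Stmt_T4.{u}) (hRIG : Bridge.Stmt_RIG.{u})
    (hG : 𝒞.IsGood) (ρ : Bridge.Realizes c ε 𝒞) {Y : Scheme.{u}} {y : Y ⟶ Spec (CommRingCat.of k)}
    (ℱ : LocFam ρ y) (R S : Type u) [CommRing R] [Algebra k R] [CommRing S] [Algebra k S]
    (φ : SchemeHomOver (Bridge.tR k R) y)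
    (P : RigidifiedLineBundle c ε (Bridge.tR k R)) (L : Triple 𝒞 R)
    (hL : Bridge.IsTripleOf ρ R P.L L) (hF : ℱ.Fam R φ L)
    (b : SchemeHomOver (Bridge.tR k S) (Bridge.tR k R)) :
    ∃ T : Triple 𝒞 S, Bridge.IsTripleOf ρ S (P.pullbackAlong b).L T ∧ T.IsRigid ∧
      ℱ.Fam S (postComp φ b) T := by
  let α : CommRingCat.of R ⟶ CommRingCat.of S := Spec.preimage b.1
  have hα : Spec.map α = b.1 := Spec.map_preimage b.1
  letI : Algebra R S := α.hom.toAlgebra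
  have hcomp : CommRingCat.ofHom (algebraMap k R) ≫ α = CommRingCat.ofHom (algebraMap k S) := by
    apply Spec.map_injective
    rw [Spec.map_comp, hα]
    exact b.2
  haveI : IsScalarTower k R S := IsScalarTower.of_algebraMap_eq fun a => by
    have := congrArg (fun f => f.hom a) hcomp
    exact this.symm
  have hb : specOver k R S = b := Subtype.ext hα
  rw [← hb]
  exact fam_pullback hT1 hT4 hRIG hG ρ ℱ R S φ P L hL hF

/-- Two bundles with rigid triples in the family at the same point are isomorphic. -/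
theorem iso_of_fam (hT2 : Bridge.Stmt_T2.{u}) (hG : 𝒞.IsGood) (ρ : Bridge.Realizes c ε 𝒞)
    {Y : Scheme.{u}} {y : Y ⟶ Spec (CommRingCat.of k)} (ℱ : LocFam ρ y)
    (S : Type u) [CommRing S] [Algebra k S] (ψ : SchemeHomOver (Bridge.tR k S) y)
    (L L' : (Bridge.XR c S).Modules) (hL : Scheme.Modules.IsInvertible L)
    (hL' : Scheme.Modules.IsInvertible L') (T T' : Triple 𝒞 S)
    (hT : Bridge.IsTripleOf ρ S L T) (hT' : Bridge.IsTripleOf ρ S L' T')
    (hr : T.IsRigid) (hr' : T'.IsRigid) (hF : ℱ.Fam S ψ T) (hF' : ℱ.Fam S ψ T') :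
    Nonempty (L ≅ L') :=
  (hT2 k c ε 𝒞 hG ρ S L L' T T' hL hL' hT hT').mpr (ℱ.uniq S ψ T T' hF hF' hr hr')

/-- Two bundles `P₁`, `P₂` with triples in the family at `φ₁`, `φ₂` have isomorphic pull-backs to any affine
scheme `Spec S` with maps `a₁`, `a₂` to `Spec R₁`, `Spec R₂` which agree in `Y`. -/
theorem iso_of_fam_flex (hT1 : Bridge.Stmt_T1.{u}) (hT2 : Bridge.Stmt_T2.{u}) (hT4 : Bridge.Stmt_T4.{u})
    (hRIG : Bridge.Stmt_RIG.{u}) (hG : 𝒞.IsGood) (ρ : Bridge.Realizes c ε 𝒞)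
    {Y : Scheme.{u}} {y : Y ⟶ Spec (CommRingCat.of k)} (ℱ : LocFam ρ y)
    (R₁ R₂ : Type u) [CommRing R₁] [Algebra k R₁] [CommRing R₂] [Algebra k R₂]
    (φ₁ : SchemeHomOver (Bridge.tR k R₁) y) (φ₂ : SchemeHomOver (Bridge.tR k R₂) y)
    (P₁ : RigidifiedLineBundle c ε (Bridge.tR k R₁)) (P₂ : RigidifiedLineBundle c ε (Bridge.tR k R₂))
    (L₁ : Triple 𝒞 R₁) (L₂ : Triple 𝒞 R₂)
    (hL₁ : Bridge.IsTripleOf ρ R₁ P₁.L L₁) (hL₂ : Bridge.IsTripleOf ρ R₂ P₂.L L₂)
    (hF₁ : ℱ.Fam R₁ φ₁ L₁) (hF₂ : ℱ.Fam R₂ φ₂ L₂)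
    (S : CommRingCat.{u}) (τ : Spec S ⟶ Spec (CommRingCat.of k))
    (a₁ : SchemeHomOver τ (Bridge.tR k R₁)) (a₂ : SchemeHomOver τ (Bridge.tR k R₂))
    (h : a₁.1 ≫ φ₁.1 = a₂.1 ≫ φ₂.1) :
    Nonempty ((P₁.pullbackAlong a₁).L ≅ (P₂.pullbackAlong a₂).L) := by
  obtain ⟨inst, rfl⟩ := H52.exists_algebra S τ
  obtain ⟨T₁, hT₁, hr₁, hf₁⟩ := fam_pullback' hT1 hT4 hRIG hG ρ ℱ R₁ S φ₁ P₁ L₁ hL₁ hF₁ a₁
  obtain ⟨T₂, hT₂, hr₂, hf₂⟩ := fam_pullback' hT1 hT4 hRIG hG ρ ℱ R₂ S φ₂ P₂ L₂ hL₂ hF₂ a₂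
  have he : postComp φ₂ a₂ = postComp φ₁ a₁ := Subtype.ext h.symm
  rw [he] at hf₂
  exact iso_of_fam hT2 hG ρ ℱ S (postComp φ₁ a₁) _ _ (P₁.pullbackAlong a₁).isInvertible
    (P₂.pullbackAlong a₂).isInvertible T₁ T₂ hT₁ hT₂ hr₁ hr₂ hf₁ hf₂

end Fermat.Agent.S25.Top.S.H88
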