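/-
helper88, S25 package TOP, TOP-SURJ leaf S-FAMGLUE (`Top.S.Stmt_FAMGLUE` of `Top/DefsS2.lean`):
every `LocFam` on `Y` glues to a rigidified line bundle `N` on `C × Y` with `IsGlued ℱ N`.

`famglue_of : T1 → T2 → T3 → T4 → RIG → LOCISO → GLUEPIC → Stmt_FAMGLUE`.

Proof.  For every point `x` of `Y` choose (`exists_locDatum`) an affine open neighbourhood `Spec R_x ⟶ Y`
with a rigid member `L_x` of the family (`LocFam.loc` on a member of the affine cover), and the rigidified
bundle `P_x` on `C × Spec R_x` with triple `L_x` (T3, RIG).  On the overlaps the classes agree: by `LocIso`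
it is enough to compare on an affine cover of the overlap, where both pull-backs have rigid triples in the
family at the same point (`iso_of_fam_flex`).  `Glue` gives `N`.  `IsGlued`: for `φ : Spec R ⟶ Y` and a
rigid member `L'` at `φ`, the bundle of `L'` (T3, RIG) and `φ^* N` are isomorphic locally on `Spec R`
(again `iso_of_fam_flex`), hence isomorphic (`LocIso`), hence their triples are (T2).
-/
import Fermat.Agent.S25.Top.H88_SFamGlueA

set_option autoImplicit false
set_option linter.style.haveILetI false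
set_option linter.unusedSectionVars false
set_option maxHeartbeats 1000000
set_option synthInstance.maxHeartbeats 400000

universe u

open CategoryTheory CategoryTheory.Limits AlgebraicGeometry AlgebraicGeometry.RelPicard NeronModelInfra
  GoodReductionJacobian TensorProduct

namespace Fermat.Agent.S25.Top.S.H88

open Fermat.Agent.S25 Fermat.Agent.S25.LB

section

variable {k : Type u} [Field k] {C : Scheme.{u}} {c : C ⟶ Spec (CommRingCat.of k)}
  {ε : SchemeHomOver (𝟙 (Spec (CommRingCat.of k))) c} {𝒞 : CurveDatum k}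

/-- A local datum of a family: an affine open piece `Spec R ⟶ Y` with a rigidified bundle on
`C × Spec R` whose triple is a member of the family. -/
structure LocDatum {ρ : Bridge.Realizes c ε 𝒞} {Y : Scheme.{u}} {y : Y ⟶ Spec (CommRingCat.of k)}
    (ℱ : LocFam ρ y) where
  R : Type u
  [cr : CommRing R]
  [alg : Algebra k R]
  φ : SchemeHomOver (Bridge.tR k R) y
  P : RigidifiedLineBundle c ε (Bridge.tR k R)
  L : Triple 𝒞 R
  isOpen : IsOpenImmersion φ.1
  tri : Bridge.IsTripleOf ρ R P.L L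
  fam : ℱ.Fam R φ L

attribute [instance] LocDatum.cr LocDatum.alg

/-- Every point of `Y` lies in a local datum. -/
theorem exists_locDatum (hT3 : Bridge.Stmt_T3.{u}) (hRIG : Bridge.Stmt_RIG.{u}) (hG : 𝒞.IsGood)
    (ρ : Bridge.Realizes c ε 𝒞) {Y : Scheme.{u}} {y : Y ⟶ Spec (CommRingCat.of k)} (ℱ : LocFam ρ y)
    (x : Y) : ∃ d : LocDatum ℱ, x ∈ Set.range d.φ.1 := by
  obtain ⟨q, hq⟩ := Y.affineOpenCover.covers x
  let fi := Y.affineOpenCover.f (Y.affineOpenCover.idx x)
  obtain ⟨inst, hinst⟩ := H52.exists_algebra (Y.affineOpenCover.X (Y.affineOpenCover.idx x)) (fi ≫ y)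
  let φA : SchemeHomOver (Bridge.tR k (Y.affineOpenCover.X (Y.affineOpenCover.idx x))) y :=
    ⟨fi, hinst.symm⟩
  obtain ⟨r, hr, L, hLrig, hLfam⟩ := ℱ.loc _ φA q
  obtain ⟨𝓛, hinv, htri⟩ := hT3 k c ε 𝒞 hG ρ (Localization.Away r) L
  have hrig := (hRIG k c ε 𝒞 hG ρ (Localization.Away r) 𝓛 L hinv htri).mpr hLrig
  let loc := Spec.map (CommRingCat.ofHom
    (algebraMap (Y.affineOpenCover.X (Y.affineOpenCover.idx x)) (Localization.Away r)))
  have hopen : IsOpenImmersion (postComp φA
      (specOver k (Y.affineOpenCover.X (Y.affineOpenCover.idx x)) (Localization.Away r))).1 := by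
    show IsOpenImmersion (loc ≫ fi)
    infer_instance
  refine ⟨⟨Localization.Away r, postComp φA (specOver k _ (Localization.Away r)), ⟨𝓛, hinv, hrig⟩, L,
    hopen, htri, hLfam⟩, ?_⟩
  have hqr : q ∈ Set.range loc := by
    have := Scheme.Hom.opensRange_localizationAway
      (R := Y.affineOpenCover.X (Y.affineOpenCover.idx x)) r
    have h2 : q ∈ (loc.opensRange : Set _) := by
      rw [this]
      exact hr
    exact h2
  obtain ⟨s, hs⟩ := hqr
  refine ⟨s, ?_⟩
  show fi (loc s) = x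
  rw [hs]
  exact hq

/-- Three successive pull-backs, the first along an identity, are one pull-back. -/
theorem pull_id_comp {R : Type u} [CommRing R] [Algebra k R]
    (P : RigidifiedLineBundle c ε (Bridge.tR k R))
    {t₁ : Spec (CommRingCat.of R) ⟶ Spec (CommRingCat.of k)} (h₁ : 𝟙 _ ≫ Bridge.tR k R = t₁)
    {T₂ T₃ : Scheme.{u}} {t₂ : T₂ ⟶ Spec (CommRingCat.of k)} {t₃ : T₃ ⟶ Spec (CommRingCat.of k)}
    (f : SchemeHomOver t₂ t₁) (g : SchemeHomOver t₃ t₂) (a : SchemeHomOver t₃ (Bridge.tR k R))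
    (ha : g.1 ≫ f.1 = a.1) :
    Nonempty ((((P.pullbackAlong (⟨𝟙 _, h₁⟩ : SchemeHomOver t₁ (Bridge.tR k R))).pullbackAlong
      f).pullbackAlong g).L ≅ (P.pullbackAlong a).L) := by
  obtain ⟨e₁⟩ := H52.pullback_pullback
    (P.pullbackAlong (⟨𝟙 _, h₁⟩ : SchemeHomOver t₁ (Bridge.tR k R))) f g
    (⟨g.1 ≫ f.1, by rw [Category.assoc, f.2, g.2]⟩ : SchemeHomOver t₃ t₁) rfl
  obtain ⟨e₂⟩ := H52.pullback_pullback P (⟨𝟙 _, h₁⟩ : SchemeHomOver t₁ (Bridge.tR k R))
    (⟨g.1 ≫ f.1, by rw [Category.assoc, f.2, g.2]⟩ : SchemeHomOver t₃ t₁) a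
    (by rw [Category.comp_id]; exact ha)
  exact ⟨e₁ ≪≫ e₂⟩

/-- Two successive pull-backs, the first along an identity, are one pull-back. -/
theorem pull_id {R : Type u} [CommRing R] [Algebra k R]
    (P : RigidifiedLineBundle c ε (Bridge.tR k R))
    {t₁ : Spec (CommRingCat.of R) ⟶ Spec (CommRingCat.of k)} (h₁ : 𝟙 _ ≫ Bridge.tR k R = t₁)
    {T₂ : Scheme.{u}} {t₂ : T₂ ⟶ Spec (CommRingCat.of k)}
    (f : SchemeHomOver t₂ t₁) (a : SchemeHomOver t₂ (Bridge.tR k R)) (ha : f.1 = a.1) :
    Nonempty (((P.pullbackAlong (⟨𝟙 _, h₁⟩ : SchemeHomOver t₁ (Bridge.tR k R))).pullbackAlong f).L ≅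
      (P.pullbackAlong a).L) :=
  H52.pullback_pullback P (⟨𝟙 _, h₁⟩ : SchemeHomOver t₁ (Bridge.tR k R)) f a
    (by rw [Category.comp_id]; exact ha)

/-- The open cover of `Y` by local data. -/
noncomputable def locCover {ρ : Bridge.Realizes c ε 𝒞} {Y : Scheme.{u}}
    {y : Y ⟶ Spec (CommRingCat.of k)} {ℱ : LocFam ρ y} (d : Y → LocDatum ℱ)
    (hd : ∀ x, x ∈ Set.range (d x).φ.1) : Scheme.OpenCover.{u} Y :=
  Scheme.Cover.mkOfCovers Y (fun x => Spec (CommRingCat.of (d x).R)) (fun x => (d x).φ.1)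
    (fun x => ⟨x, hd x⟩) (fun x => (d x).isOpen)

/-- The affine open cover of a scheme, as an open cover with `X l = Spec _` definitionally. -/
noncomputable def affCover (V : Scheme.{u}) : Scheme.OpenCover.{u} V :=
  Scheme.Cover.mkOfCovers V.affineOpenCover.I₀ (fun l => Spec (V.affineOpenCover.X l))
    (fun l => V.affineOpenCover.f l)
    (fun x => ⟨V.affineOpenCover.idx x, V.affineOpenCover.covers x⟩) (fun l => inferInstance)

/-- The cover of `Spec R` by principal opens `D(r p)`, `r p ∉ p`. -/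
noncomputable def awayCover (R : Type u) [CommRing R] (r : PrimeSpectrum R → R)
    (hr : ∀ p : PrimeSpectrum R, r p ∉ p.asIdeal) : Scheme.OpenCover.{u} (Spec (CommRingCat.of R)) :=
  Scheme.Cover.mkOfCovers (PrimeSpectrum R)
    (fun p => Spec (CommRingCat.of (Localization.Away (r p))))
    (fun p => Spec.map (CommRingCat.ofHom (algebraMap R (Localization.Away (r p)))))
    (fun p => ⟨p, by
      have := Scheme.Hom.opensRange_localizationAway (R := CommRingCat.of R) (r p)
      have h2 : p ∈ ((Spec.map (CommRingCat.ofHom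
          (algebraMap R (Localization.Away (r p))))).opensRange : Set _) := by
        rw [this]
        exact hr p
      exact h2⟩)
    (fun p => inferInstance)

end

/-- **S-FAMGLUE** from the dictionary and the sheaf properties of the rigidified Picard presheaf. -/
theorem famglue_of (hT1 : Bridge.Stmt_T1.{u}) (hT2 : Bridge.Stmt_T2.{u}) (hT3 : Bridge.Stmt_T3.{u})
    (hT4 : Bridge.Stmt_T4.{u}) (hRIG : Bridge.Stmt_RIG.{u}) (hLoc : Stmt_LOCISO.{u})
    (hGl : Stmt_GLUEPIC.{u}) : Stmt_FAMGLUE.{u} := by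
  intro k _ _ C c _ _ _ ε 𝒞 hG ρ Y y ℱ
  choose d hd using exists_locDatum hT3 hRIG hG ρ ℱ
  have hstr : ∀ x : Y, 𝟙 _ ≫ Bridge.tR k (d x).R = (locCover d hd).f x ≫ y := fun x => by
    rw [Category.id_comp]
    exact (d x).φ.2.symm
  let M : ∀ x : Y, RigidifiedLineBundle c ε ((locCover d hd).f x ≫ y) := fun x =>
    (d x).P.pullbackAlong
      (⟨𝟙 _, hstr x⟩ : SchemeHomOver ((locCover d hd).f x ≫ y) (Bridge.tR k (d x).R))
  -- the classes agree on the overlaps
  have hov : ∀ i j : Y, Nonempty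
      (((M i).pullbackAlong
          (⟨pullback.fst ((locCover d hd).f i) ((locCover d hd).f j), rfl⟩ :
            SchemeHomOver (pullback.fst ((locCover d hd).f i) ((locCover d hd).f j) ≫ (locCover d hd).f i ≫ y) ((locCover d hd).f i ≫ y))).L ≅
        ((M j).pullbackAlong
          (⟨pullback.snd ((locCover d hd).f i) ((locCover d hd).f j), by
              rw [← Category.assoc, ← pullback.condition, Category.assoc]⟩ :
            SchemeHomOver (pullback.fst ((locCover d hd).f i) ((locCover d hd).f j) ≫ (locCover d hd).f i ≫ y) ((locCover d hd).f j ≫ y))).L) := by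
    intro i j
    refine hLoc k c ε _ _ _ (affCover (pullback ((locCover d hd).f i) ((locCover d hd).f j)))
      fun (l : (pullback ((locCover d hd).f i) ((locCover d hd).f j)).affineOpenCover.I₀) => ?_
    let V := pullback ((locCover d hd).f i) ((locCover d hd).f j)
    let t : V ⟶ Spec (CommRingCat.of k) := pullback.fst ((locCover d hd).f i) ((locCover d hd).f j) ≫ (locCover d hd).f i ≫ y
    let σ : SchemeHomOver ((affCover V).f l ≫ t) t := overOf t ((affCover V).f l)
    have hcond : pullback.fst ((locCover d hd).f i) ((locCover d hd).f j) ≫ (locCover d hd).f i = pullback.snd ((locCover d hd).f i) ((locCover d hd).f j) ≫ (locCover d hd).f j :=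
      pullback.condition
    have h₁ : ((affCover V).f l ≫ pullback.fst ((locCover d hd).f i) ((locCover d hd).f j)) ≫
        Bridge.tR k (d i).R = (affCover V).f l ≫ t :=
      (Category.assoc _ _ _).trans (congrArg (fun z => (affCover V).f l ≫
        pullback.fst ((locCover d hd).f i) ((locCover d hd).f j) ≫ z) (d i).φ.2.symm)
    have h₂ : ((affCover V).f l ≫ pullback.snd ((locCover d hd).f i) ((locCover d hd).f j)) ≫
        Bridge.tR k (d j).R = (affCover V).f l ≫ t := by
      have h3 : pullback.snd ((locCover d hd).f i) ((locCover d hd).f j) ≫ (locCover d hd).f j ≫ y =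
          t := by
        rw [← Category.assoc, ← hcond, Category.assoc]
      exact ((Category.assoc _ _ _).trans (congrArg (fun z => (affCover V).f l ≫
        pullback.snd ((locCover d hd).f i) ((locCover d hd).f j) ≫ z) (d j).φ.2.symm)).trans
          (congrArg (fun z => (affCover V).f l ≫ z) h3)
    let a₁ : SchemeHomOver ((affCover V).f l ≫ t) (Bridge.tR k (d i).R) :=
      ⟨(affCover V).f l ≫ pullback.fst ((locCover d hd).f i) ((locCover d hd).f j), h₁⟩
    let a₂ : SchemeHomOver ((affCover V).f l ≫ t) (Bridge.tR k (d j).R) :=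
      ⟨(affCover V).f l ≫ pullback.snd ((locCover d hd).f i) ((locCover d hd).f j), h₂⟩
    obtain ⟨e₁⟩ := pull_id_comp (d i).P (hstr i)
      (⟨pullback.fst ((locCover d hd).f i) ((locCover d hd).f j), rfl⟩ : SchemeHomOver t ((locCover d hd).f i ≫ y)) σ a₁ rfl
    obtain ⟨e₂⟩ := pull_id_comp (d j).P (hstr j)
      (⟨pullback.snd ((locCover d hd).f i) ((locCover d hd).f j), by
          rw [← Category.assoc, ← pullback.condition, Category.assoc]⟩ :
        SchemeHomOver t ((locCover d hd).f j ≫ y)) σ a₂ rfl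
    obtain ⟨e⟩ := iso_of_fam_flex hT1 hT2 hT4 hRIG hG ρ ℱ (d i).R (d j).R (d i).φ (d j).φ
      (d i).P (d j).P (d i).L (d j).L (d i).tri (d j).tri (d i).fam (d j).fam
      (V.affineOpenCover.X l) ((affCover V).f l ≫ t) a₁ a₂ (by
        show ((affCover V).f l ≫ pullback.fst ((locCover d hd).f i) ((locCover d hd).f j)) ≫ (locCover d hd).f i =
          ((affCover V).f l ≫ pullback.snd ((locCover d hd).f i) ((locCover d hd).f j)) ≫ (locCover d hd).f j
        rw [Category.assoc, Category.assoc, hcond])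
    exact ⟨e₁ ≪≫ e ≪≫ e₂.symm⟩
  obtain ⟨N, hN⟩ := hGl k c ε y (locCover d hd) M hov
  refine ⟨N, ?_⟩
  -- `IsGlued`
  intro R _ _ φ L L' hL hF' hr'
  obtain ⟨𝓛', hinv', htri'⟩ := hT3 k c ε 𝒞 hG ρ R L'
  have hrig' := (hRIG k c ε 𝒞 hG ρ R 𝓛' L' hinv' htri').mpr hr'
  let P' : RigidifiedLineBundle c ε (Bridge.tR k R) := ⟨𝓛', hinv', hrig'⟩
  suffices hiso : Nonempty (P'.L ≅ (N.pullbackAlong φ).L) from
    (hT2 k c ε 𝒞 hG ρ R 𝓛' (N.pullbackAlong φ).L L' L hinv' (N.pullbackAlong φ).isInvertible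
      htri' hL).mp hiso
  choose i r hr ψ hψ using H89.exists_local_factor (locCover d hd) φ.1
  refine hLoc k c ε (Bridge.tR k R) P' (N.pullbackAlong φ) (awayCover R r hr)
    fun (p : PrimeSpectrum R) => ?_
  let ip : Y := i p
  let σ : SchemeHomOver ((awayCover R r hr).f p ≫ Bridge.tR k R) (Bridge.tR k R) := overOf (Bridge.tR k R) ((awayCover R r hr).f p)
  have hψ' : ψ p ≫ (locCover d hd).f ip ≫ y = (awayCover R r hr).f p ≫ Bridge.tR k R :=
    ((Category.assoc _ _ _).symm.trans (congrArg (fun z => z ≫ y) (hψ p))).trans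
      ((Category.assoc _ _ _).trans (congrArg (fun z => (awayCover R r hr).f p ≫ z) φ.2))
  let ψ' : SchemeHomOver ((awayCover R r hr).f p ≫ Bridge.tR k R) ((locCover d hd).f ip ≫ y) := ⟨ψ p, hψ'⟩
  let a₂ : SchemeHomOver ((awayCover R r hr).f p ≫ Bridge.tR k R) (Bridge.tR k (d ip).R) :=
    ⟨ψ p, (congrArg (fun z => ψ p ≫ z) (d ip).φ.2.symm).trans hψ'⟩
  have e₁ : ((N.pullbackAlong φ).pullbackAlong σ).L ≅
      ((N.pullbackAlong (overOf y ((locCover d hd).f ip))).pullbackAlong ψ').L :=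
    H89.pullbackIso N φ σ (overOf y ((locCover d hd).f ip)) ψ' (hψ p).symm
  obtain ⟨e₂⟩ := RigidifiedLineBundle.pullbackAlong_congr ψ' (hN ip)
  obtain ⟨e₃⟩ := pull_id (d ip).P (hstr ip) ψ' a₂ rfl
  obtain ⟨e⟩ := iso_of_fam_flex hT1 hT2 hT4 hRIG hG ρ ℱ R (d ip).R φ (d ip).φ
    P' (d ip).P L' (d ip).L htri' (d ip).tri hF' (d ip).fam
    (CommRingCat.of (Localization.Away (r p))) ((awayCover R r hr).f p ≫ Bridge.tR k R) σ a₂ (hψ p).symm
  exact ⟨e ≪≫ e₃.symm ≪≫ e₂.symm ≪≫ e₁.symm⟩

end Fermat.Agent.S25.Top.S.H88
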