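import Fermat.Agent.S25.Top.H45_SClose
import Fermat.Agent.S25.Top.H17_SLocFam
import Fermat.Agent.S25.Top.H3_STwBC
import Fermat.Agent.S25.Top.H83_SRigLoc
import Fermat.Agent.S25.Top.H72_SRigBC
import Fermat.Agent.S25.Top.H88_SFamGlue
import Fermat.Agent.S25.Top.H91_GluePic
import Fermat.Agent.S25.Top.H56_LocIso
import Fermat.Agent.S25.Bridge.H18_T3Closed
import Fermat.Agent.S25.Bridge.H34_T4Close

/-!
# S25 / TOP-SURJ : the closing chain, second step (helper45)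

With `S.H3.stmt_TWBC` and `S.H17.locfam_of` plugged in, `Top.Stmt_SURJ` follows from the two
leaves `Stmt_GRINV` and `Stmt_FAMGLUE`:

* `stmt_FAMBC_of'`, `stmt_DEGALL_of'`, `stmt_LOCFAM_of` : from `Stmt_GRINV`;
* `stmt_SURJ_of_two : Stmt_GRINV → Stmt_FAMGLUE → Top.Stmt_SURJ`;
* `stmt_FAMGLUE : Stmt_FAMGLUE` (unconditional, helper88's `famglue_of` with GLUEPIC plugged in);
* `stmt_SURJ_of_grinv : Stmt_GRINV → Top.Stmt_SURJ`.
-/

universe u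

namespace Fermat.Agent.S25.Top.S.H45

open Fermat.Agent.S25 Fermat.Agent.S25.Top.S

/-- **S-FAMBC** from S-GRINV. -/
theorem stmt_FAMBC_of' (hG : Stmt_GRINV.{u}) : Stmt_FAMBC.{u} :=
  stmt_FAMBC_of hG H3.stmt_TWBC

/-- **S-DEGALL** from S-GRINV. -/
theorem stmt_DEGALL_of' (hG : Stmt_GRINV.{u}) : Stmt_DEGALL.{u} :=
  stmt_DEGALL_of hG H3.stmt_TWBC

/-- **S-LOCFAM** from S-GRINV. -/
theorem stmt_LOCFAM_of (hG : Stmt_GRINV.{u}) : Stmt_LOCFAM.{u} :=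
  H17.locfam_of H22.stmt_PT (stmt_FAMUNIQ_of hG) (stmt_FAMBC_of' hG) (stmt_FAMEX_of hG)
    H83.stmt_RIGLOC H72.stmt_RIGBC LB.H36.stmt_BCEX

/-- **TOP-SURJ** from the two leaves that were open at 08:40Z. -/
theorem stmt_SURJ_of_two (hG : Stmt_GRINV.{u}) (hFG : Stmt_FAMGLUE.{u}) : Top.Stmt_SURJ.{u} :=
  stmt_SURJ_of_open hG H3.stmt_TWBC (stmt_LOCFAM_of hG) hFG

/-- **S-FAMGLUE**, unconditional. -/
theorem stmt_FAMGLUE : Stmt_FAMGLUE.{u} :=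
  H88.famglue_of Bridge.H24.stmt_T1 (Bridge.H99.stmt_T2_of_AFFHOM Bridge.H54.stmt_AFFHOM)
    Bridge.H18.stmt_T3 Bridge.H34.stmt_T4 Bridge.H41.stmt_RIG Top.H56.stmt_LOCISO
    Top.H91g.stmt_GLUEPIC

/-- **TOP-SURJ** from the single leaf S-GRINV. -/
theorem stmt_SURJ_of_grinv (hG : Stmt_GRINV.{u}) : Top.Stmt_SURJ.{u} :=
  stmt_SURJ_of_two hG stmt_FAMGLUE

end Fermat.Agent.S25.Top.S.H45
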