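import Fermat.Agent.S25.Top.DefsS2
import Fermat.Agent.S25.Trip.H36_DegBC

/-!
# S25, TOP-SURJ, leaf `S-ONTO`

helper47.  `onto_of : Bridge.Stmt_T1 → Bridge.Stmt_T2 → Bridge.Stmt_RIG → Stmt_PT → Stmt_SURJK → Stmt_ONTO`
(`Trip.H36.stmt_DEGK` is plugged): the bundle glued from the family over `Y = C^g` hits every bundle of
degree zero over `k`.

The triple `L` of `M` over `R = k` has `chi L = 1 - genus`; `Stmt_SURJK` gives `k`-points `β j` with
`IsFam β L`; the universal property of `Y` gives the `k`-point of `Y`; `L` is rigid; `IsGlued` and `T2`.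
The only care: the prelude's `C × Spec k` is `pullback c (𝟙 _)` for `M` and `pullback c (tR k k)` for triples;
`tR k k = 𝟙 _` (`tR_self`) and the two transfers `φ₀`, `φ₁` take care of it.
-/

set_option autoImplicit false
set_option linter.style.haveILetI false

universe u

open CategoryTheory CategoryTheory.Limits AlgebraicGeometry AlgebraicGeometry.RelPicard NeronModelInfra
  GoodReductionJacobian TensorProduct

namespace Fermat.Agent.S25.Top.S.H47o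

open Fermat.Agent.S25 Fermat.Agent.S25.LB Fermat.Agent.S25.Top Fermat.Agent.S25.Top.S

section General

variable {k : Type u} [Field k] {C : Scheme.{u}} {c : C ⟶ Spec (CommRingCat.of k)}
  {ε : SchemeHomOver (𝟙 (Spec (CommRingCat.of k))) c}

/-- the structure map of `Spec k` over `k` is the identity -/
theorem tR_self (k : Type u) [Field k] : Bridge.tR k k = 𝟙 (Spec (CommRingCat.of k)) := by
  show Spec.map (CommRingCat.ofHom (algebraMap k k)) = 𝟙 _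
  rw [show algebraMap k k = RingHom.id k from rfl, CommRingCat.ofHom_id, Spec.map_id]

/-- pulling back twice is pulling back along the composite -/
theorem pullbackAlong_pullbackAlong {T T' T'' : Scheme.{u}} {t : T ⟶ Spec (CommRingCat.of k)}
    {t' : T' ⟶ Spec (CommRingCat.of k)} {t'' : T'' ⟶ Spec (CommRingCat.of k)}
    (X : RigidifiedLineBundle c ε t) (φ : SchemeHomOver t' t) (χ : SchemeHomOver t'' t') :
    Nonempty (((X.pullbackAlong φ).pullbackAlong χ).L ≅ (X.pullbackAlong (postComp φ χ)).L) :=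
  ⟨(Scheme.Modules.pullbackComp _ _).app X.L ≪≫
    (Scheme.Modules.pullbackCongr (baseChangeSnd_comp c φ χ)).app X.L⟩

/-- pulling back along the identity -/
theorem pullbackAlong_of_eq_id {T : Scheme.{u}} {t : T ⟶ Spec (CommRingCat.of k)}
    (X : RigidifiedLineBundle c ε t) (φ : SchemeHomOver t t) (h : φ.1 = 𝟙 T) :
    Nonempty ((X.pullbackAlong φ).L ≅ X.L) := by
  have h1 : φ = ⟨𝟙 T, Category.id_comp t⟩ := Subtype.ext h
  subst h1
  exact ⟨(Scheme.Modules.pullbackCongr (baseChangeSnd_id c t)).app X.L ≪≫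
    (Scheme.Modules.pullbackId (pullback c t)).app X.L⟩

end General

/-- the core of S-ONTO, for a realisation `ρ` of a good curve datum and `g = genus` -/
theorem onto_core (hT1 : Bridge.Stmt_T1.{u}) (hT2 : Bridge.Stmt_T2.{u}) (hRIG : Bridge.Stmt_RIG.{u})
    (hPT : Stmt_PT.{u}) (hSK : Stmt_SURJK.{u})
    (k : Type u) [Field k] [IsAlgClosed k] {C : Scheme.{u}} (c : C ⟶ Spec (CommRingCat.of k))
    (ε : SchemeHomOver (𝟙 (Spec (CommRingCat.of k))) c) (𝒞 : CurveDatum k) (hC : 𝒞.IsGood)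
    (ρ : Bridge.Realizes c ε 𝒞) (g : ℕ) (hg : g = Num.genus 𝒞)
    {Y : Scheme.{u}} (y : Y ⟶ Spec (CommRingCat.of k)) (pr : Fin g → (Y ⟶ C))
    (huniv : ∀ {T : Scheme.{u}} (t : T ⟶ Spec (CommRingCat.of k)) (φ : Fin g → (T ⟶ C)),
      (∀ i, φ i ≫ c = t) → ∃! ψ : T ⟶ Y, ψ ≫ y = t ∧ ∀ i, ψ ≫ pr i = φ i)
    (ℱ : LocFam ρ y)
    (hℱ : ∀ (R : Type u) [CommRing R] [Algebra k R] (φ : SchemeHomOver (Bridge.tR k R) y)
      (L : Triple 𝒞 R), ℱ.Fam R φ L ↔ FamOf ρ y pr R φ L)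
    (N : RigidifiedLineBundle c ε y) (hN : IsGlued ℱ N)
    (M : RigidifiedLineBundle c ε (𝟙 (Spec (CommRingCat.of k))))
    (hM : DegZero ρ g (𝟙 (Spec (CommRingCat.of k))) M) :
    ∃ p : SchemeHomOver (𝟙 (Spec (CommRingCat.of k))) y, Classifies N M p := by
  subst hg
  -- the transfers between `pullback c (𝟙 _)` and `pullback c (tR k k)`
  let φ₀ : SchemeHomOver (Bridge.tR k k) (𝟙 (Spec (CommRingCat.of k))) :=
    ⟨Bridge.tR k k, Category.comp_id _⟩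
  let φ₁ : SchemeHomOver (𝟙 (Spec (CommRingCat.of k))) (Bridge.tR k k) :=
    ⟨𝟙 _, by rw [Category.id_comp]; exact tR_self k⟩
  -- the triple of `M`
  obtain ⟨L, hL⟩ := hT1 k c ε 𝒞 hC ρ k (M.pullbackAlong φ₀).L (M.pullbackAlong φ₀).isInvertible
  have hdeg : IsDeg0 (Num.genus 𝒞) L := hM k φ₀ L hL
  have hchi : Num.chi L = 1 - (Num.genus 𝒞 : ℤ) := by
    have h1 := (Trip.H36.stmt_DEGK k 𝒞 hC).1 L ⟨⊥, Ideal.isPrime_bot⟩
    rw [← h1]
    exact hdeg ⟨⊥, Ideal.isPrime_bot⟩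
  obtain ⟨β, hβ⟩ := hSK k 𝒞 hC L hchi
  -- the `k`-point of `Y`
  obtain ⟨hpt, -, -, -⟩ := hPT k c ε 𝒞 hC ρ
  obtain ⟨ψ, ⟨hψy, hψpr⟩, -⟩ := huniv (Bridge.tR k k) (fun j => ptMor ρ k (β j))
    (fun j => hpt k (β j))
  let φY : SchemeHomOver (Bridge.tR k k) y := ⟨ψ, hψy⟩
  have hFam : ℱ.Fam k φY L := (hℱ k φY L).2 ⟨β, fun j => hψpr j, hβ⟩
  -- `L` is rigid
  have hrig : L.IsRigid :=
    (hRIG k c ε 𝒞 hC ρ k (M.pullbackAlong φ₀).L L (M.pullbackAlong φ₀).isInvertible hL).1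
      (M.pullbackAlong φ₀).rigidified
  -- the triple of the pull-back of `N`
  obtain ⟨LN, hLN⟩ := hT1 k c ε 𝒞 hC ρ k (N.pullbackAlong φY).L (N.pullbackAlong φY).isInvertible
  have hiso : Nonempty (Triple.Iso L LN) := hN k φY LN L hLN hFam hrig
  have hsh : Nonempty ((M.pullbackAlong φ₀).L ≅ (N.pullbackAlong φY).L) :=
    (hT2 k c ε 𝒞 hC ρ k (M.pullbackAlong φ₀).L (N.pullbackAlong φY).L L LN
      (M.pullbackAlong φ₀).isInvertible (N.pullbackAlong φY).isInvertible hL hLN).2 hiso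
  -- back to `pullback c (𝟙 _)`
  refine ⟨postComp φY φ₁, ?_⟩
  obtain ⟨e1⟩ := pullbackAlong_pullbackAlong N φY φ₁
  obtain ⟨e2⟩ := RigidifiedLineBundle.pullbackAlong_congr φ₁ hsh
  obtain ⟨e3⟩ := pullbackAlong_pullbackAlong M φ₀ φ₁
  obtain ⟨e4⟩ := pullbackAlong_of_eq_id M (postComp φ₀ φ₁)
    (by show 𝟙 _ ≫ Bridge.tR k k = 𝟙 _; rw [Category.id_comp]; exact tR_self k)
  exact ⟨e1.symm ≪≫ e2.symm ≪≫ e3 ≪≫ e4⟩

/-- **S-ONTO** from the dictionary T1, T2, RIG, S-PT and S-SURJK. -/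
theorem onto_of (hT1 : Bridge.Stmt_T1.{u}) (hT2 : Bridge.Stmt_T2.{u}) (hRIG : Bridge.Stmt_RIG.{u})
    (hPT : Stmt_PT.{u}) (hSK : Stmt_SURJK.{u}) : Stmt_ONTO.{u} := by
  intro k _ _ C c _ _ _ ε S hg Y y pr _ huniv ℱ hℱ N hN M hM
  exact onto_core hT1 hT2 hRIG hPT hSK k c ε S.𝒞 S.good S.ρ S.g hg y pr
    (fun t φ hφ => huniv t φ hφ) ℱ hℱ N hN M ((S.hP' _ M).1 hM)

end Fermat.Agent.S25.Top.S.H47o
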