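import Mathlib

/-!
# S25 TOP-AEZDEG, step CONST: a locally constant, base change compatible rule is constant
on a connected scheme

helper52 (for helper61's TOP-AEZDEG).  Mathlib only.

`χ` assigns to every morphism `v : Spec R ⟶ T'` a function `PrimeSpectrum R → ℤ` (in the application:
the Euler characteristic of the fibres of the triple of the pull-back of a line bundle on `C × T'`).
If every `χ R v` is locally constant, and `χ` is compatible with `Spec.map ψ`, then on a preconnected
`T'` the value of `χ` at any two points is the same.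
-/

set_option autoImplicit false

universe u

open CategoryTheory AlgebraicGeometry

namespace Fermat.Agent.S25.Top.H52

section Const

variable {Z : Type*} {T' : Scheme.{u}}
  (χ : ∀ (R : CommRingCat.{u}), (Spec R ⟶ T') → PrimeSpectrum R → Z)

/-- The function on the points of `T'` defined by the rule `χ`: its value at the point `x` is the value of
`χ` on `Spec κ(x) ⟶ T'`. -/
noncomputable def ptFun (x : T') : Z :=
  χ (T'.residueField x) (T'.fromSpecResidueField x) (IsLocalRing.closedPoint (T'.residueField x))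

variable {χ}

/-- Base change compatibility, in the form with the map of the underlying spaces. -/
def IsBCCompat (χ : ∀ (R : CommRingCat.{u}), (Spec R ⟶ T') → PrimeSpectrum R → Z) : Prop :=
  ∀ (R R' : CommRingCat.{u}) (v : Spec R ⟶ T') (ψ : R ⟶ R') (p' : PrimeSpectrum R'),
    χ R' (Spec.map ψ ≫ v) p' = χ R v (PrimeSpectrum.comap ψ.hom p')

theorem chi_eq_ptFun (hbc : IsBCCompat χ) (R : CommRingCat.{u}) (v : Spec R ⟶ T')
    (p : Spec R) : χ R v p = ptFun χ (v p) := by
  -- the point `Spec κ(p) ⟶ Spec R`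
  obtain ⟨ψ, hψ⟩ : ∃ ψ : R ⟶ (Spec R).residueField p,
      Spec.map ψ = (Spec R).fromSpecResidueField p :=
    ⟨Spec.preimage _, Spec.map_preimage _⟩
  have h1 := hbc R ((Spec R).residueField p) v ψ
    (IsLocalRing.closedPoint ((Spec R).residueField p))
  have hpt : PrimeSpectrum.comap ψ.hom (IsLocalRing.closedPoint ((Spec R).residueField p)) = p := by
    have := Scheme.fromSpecResidueField_apply (X := Spec R) p
      (IsLocalRing.closedPoint ((Spec R).residueField p))
    rw [← hψ] at this
    exact this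
  rw [hpt] at h1
  rw [← h1]
  have h2 := hbc (T'.residueField (v p)) ((Spec R).residueField p)
    (T'.fromSpecResidueField (v p)) (v.residueFieldMap p)
    (IsLocalRing.closedPoint ((Spec R).residueField p))
  have h3 : Spec.map (v.residueFieldMap p) ≫ T'.fromSpecResidueField (v p) = Spec.map ψ ≫ v := by
    rw [Scheme.Hom.SpecMap_residueFieldMap_fromSpecResidueField, hψ]
  rw [h3] at h2
  rw [h2]
  unfold ptFun
  congr 1
  exact Subsingleton.elim _ _

theorem isLocallyConstant_ptFun (hbc : IsBCCompat χ)
    (hlc : ∀ (R : CommRingCat.{u}) (v : Spec R ⟶ T'), IsLocallyConstant (χ R v)) :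
    IsLocallyConstant (ptFun χ) := by
  rw [IsLocallyConstant.iff_exists_open]
  intro x
  obtain ⟨i, q, hq⟩ : ∃ i, ∃ q : Spec (T'.affineOpenCover.X i), T'.affineOpenCover.f i q = x :=
    ⟨_, T'.affineOpenCover.covers x⟩
  subst hq
  obtain ⟨U, hU, hqU, hconst⟩ := (IsLocallyConstant.iff_exists_open _).1
    (hlc _ (T'.affineOpenCover.f i)) q
  refine ⟨(T'.affineOpenCover.f i) '' U,
    (T'.affineOpenCover.f i).isOpenEmbedding.isOpenMap U hU, ⟨q, hqU, rfl⟩, ?_⟩
  rintro _ ⟨q', hq'U, rfl⟩
  rw [← chi_eq_ptFun hbc, ← chi_eq_ptFun hbc]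
  exact hconst q' hq'U

/-- **CONST**: on a preconnected scheme, a locally constant base change compatible rule has the same value
at any two points. -/
theorem chi_const [PreconnectedSpace T'] (hbc : IsBCCompat χ)
    (hlc : ∀ (R : CommRingCat.{u}) (v : Spec R ⟶ T'), IsLocallyConstant (χ R v))
    (R₀ R₁ : CommRingCat.{u}) (v₀ : Spec R₀ ⟶ T') (v₁ : Spec R₁ ⟶ T')
    (p₀ : PrimeSpectrum R₀) (p₁ : PrimeSpectrum R₁) : χ R₀ v₀ p₀ = χ R₁ v₁ p₁ := by
  have e₀ := chi_eq_ptFun hbc R₀ v₀ p₀
  have e₁ := chi_eq_ptFun hbc R₁ v₁ p₁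
  rw [e₀, e₁]
  exact (isLocallyConstant_ptFun hbc hlc).apply_eq_of_preconnectedSpace _ _

end Const

end Fermat.Agent.S25.Top.H52
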