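import Fermat.Agent.S25.Top.H52_AffCalc

/-!
# S25 TOP-AFFRED, part 2: `Mono` from `MonoAff`

helper52.
-/

set_option autoImplicit false
set_option linter.style.haveILetI false

universe u

open CategoryTheory CategoryTheory.Limits AlgebraicGeometry AlgebraicGeometry.RelPicard NeronModelInfra
  GoodReductionJacobian

namespace Fermat.Agent.S25.Top.H52

open Fermat.Agent.S25

variable {k : Type u} [Field k] {C : Scheme.{u}} {c : C ⟶ Spec (CommRingCat.of k)}
  {ε : SchemeHomOver (𝟙 (Spec (CommRingCat.of k))) c}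
  {P' : SubPicCondition c ε} (𝒳 : ChartFamily c ε P')

theorem mono_of_monoFlex (h : MonoFlex 𝒳) : 𝒳.Mono := by
  intro a T t g g' hiso
  apply Subtype.ext
  refine Scheme.Cover.hom_ext T.affineOpenCover.openCover _ _ (fun i => ?_)
  show T.affineOpenCover.f i ≫ g.1 = T.affineOpenCover.f i ≫ g'.1
  have key := h a (T.affineOpenCover.X i) (T.affineOpenCover.f i ≫ t)
    (postComp g (overOf t (T.affineOpenCover.f i)))
    (postComp g' (overOf t (T.affineOpenCover.f i))) (by
      have e1 := H25.pullbackAlongCompIso (𝒳.𝓛 a) g (overOf t (T.affineOpenCover.f i))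
      have e2 := H25.pullbackAlongCompIso (𝒳.𝓛 a) g' (overOf t (T.affineOpenCover.f i))
      obtain ⟨e3⟩ := RigidifiedLineBundle.pullbackAlong_congr
        (overOf t (T.affineOpenCover.f i)) hiso
      exact ⟨e1.symm ≪≫ e3 ≪≫ e2⟩)
  exact congrArg Subtype.val key

theorem mono_of_monoAff (h : 𝒳.MonoAff) : 𝒳.Mono := mono_of_monoFlex 𝒳 (monoFlex_of 𝒳 h)

end Fermat.Agent.S25.Top.H52
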