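import Fermat.Agent.S25.Top.H52_AffOpen
import Fermat.Agent.S25.Top.H52_AffMono

/-!
# S25: classifying morphisms glue

helper52.  For a chart family with `Mono`, and with `LocIso`: a rigidified line bundle which is
classified by the chart `a` over every member of an open cover is classified by the chart `a`.
-/

set_option autoImplicit false
set_option linter.style.haveILetI false

universe u

open CategoryTheory CategoryTheory.Limits AlgebraicGeometry AlgebraicGeometry.RelPicard NeronModelInfra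
  GoodReductionJacobian

namespace Fermat.Agent.S25.Top.H52

open Fermat.Agent.S25

variable {k : Type u} [Field k] {C : Scheme.{u}} {c : C ⟶ Spec (CommRingCat.of k)}
  {ε : SchemeHomOver (𝟙 (Spec (CommRingCat.of k))) c}
  {P' : SubPicCondition c ε} (𝒳 : ChartFamily c ε P')

/-- Classifying morphisms glue along an open cover. -/
theorem classifies_glue (hM : 𝒳.Mono) (hL : LocIso c ε) (a : 𝒳.ι) {T : Scheme.{u}}
    (t : T ⟶ Spec (CommRingCat.of k)) (M : RigidifiedLineBundle c ε t)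
    (𝒱 : Scheme.OpenCover.{u} T)
    (hloc : ∀ i, ∃ g : SchemeHomOver (𝒱.f i ≫ t) (𝒳.x a),
      Classifies (𝒳.𝓛 a) (M.pullbackAlong (overOf t (𝒱.f i))) g) :
    ∃ g : SchemeHomOver t (𝒳.x a), Classifies (𝒳.𝓛 a) M g := by
  choose g hg using hloc
  have compat : ∀ x y, pullback.fst (𝒱.f x) (𝒱.f y) ≫ (g x).1 =
      pullback.snd (𝒱.f x) (𝒱.f y) ≫ (g y).1 := by
    intro x y
    have hcond : pullback.snd (𝒱.f x) (𝒱.f y) ≫ (𝒱.f y ≫ t) =
        pullback.fst (𝒱.f x) (𝒱.f y) ≫ (𝒱.f x ≫ t) := by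
      rw [← Category.assoc, ← pullback.condition, Category.assoc]
    have key := hM a (pullback.fst (𝒱.f x) (𝒱.f y) ≫ (𝒱.f x ≫ t))
      (postComp (g x) (overOf (𝒱.f x ≫ t) (pullback.fst (𝒱.f x) (𝒱.f y))))
      (postComp (g y) (⟨pullback.snd (𝒱.f x) (𝒱.f y), hcond⟩ :
        SchemeHomOver (pullback.fst (𝒱.f x) (𝒱.f y) ≫ (𝒱.f x ≫ t)) (𝒱.f y ≫ t))) (by
      obtain ⟨e1⟩ := classifies_postComp (𝒳.𝓛 a) _ (g x) (hg x)
        (overOf (𝒱.f x ≫ t) (pullback.fst (𝒱.f x) (𝒱.f y)))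
      obtain ⟨e2⟩ := classifies_postComp (𝒳.𝓛 a) _ (g y) (hg y)
        (⟨pullback.snd (𝒱.f x) (𝒱.f y), hcond⟩ :
          SchemeHomOver (pullback.fst (𝒱.f x) (𝒱.f y) ≫ (𝒱.f x ≫ t)) (𝒱.f y ≫ t))
      obtain ⟨e3⟩ := pullback_pullback M (overOf t (𝒱.f x))
        (overOf (𝒱.f x ≫ t) (pullback.fst (𝒱.f x) (𝒱.f y)))
        (postComp (overOf t (𝒱.f x))
          (overOf (𝒱.f x ≫ t) (pullback.fst (𝒱.f x) (𝒱.f y)))) rfl
      obtain ⟨e4⟩ := pullback_pullback M (overOf t (𝒱.f y))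
        (⟨pullback.snd (𝒱.f x) (𝒱.f y), hcond⟩ :
          SchemeHomOver (pullback.fst (𝒱.f x) (𝒱.f y) ≫ (𝒱.f x ≫ t)) (𝒱.f y ≫ t))
        (postComp (overOf t (𝒱.f x))
          (overOf (𝒱.f x ≫ t) (pullback.fst (𝒱.f x) (𝒱.f y)))) (by
          show pullback.snd (𝒱.f x) (𝒱.f y) ≫ 𝒱.f y = pullback.fst (𝒱.f x) (𝒱.f y) ≫ 𝒱.f x
          exact pullback.condition.symm)
      exact ⟨e1 ≪≫ e3 ≪≫ e4.symm ≪≫ e2.symm⟩)
    exact congrArg Subtype.val key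
  have hG₀ : ∀ i, 𝒱.f i ≫ 𝒱.glueMorphisms (fun i => (g i).1) compat = (g i).1 :=
    fun i => 𝒱.ι_glueMorphisms _ compat i
  have hover : 𝒱.glueMorphisms (fun i => (g i).1) compat ≫ 𝒳.x a = t := by
    refine Scheme.Cover.hom_ext 𝒱 _ _ (fun i => ?_)
    rw [← Category.assoc]
    exact (congrArg (fun φ => φ ≫ 𝒳.x a) (hG₀ i)).trans (g i).2
  refine ⟨⟨𝒱.glueMorphisms (fun i => (g i).1) compat, hover⟩, hL t _ _ 𝒱 (fun i => ?_)⟩
  obtain ⟨e1⟩ := pullback_pullback (𝒳.𝓛 a)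
    (⟨𝒱.glueMorphisms (fun i => (g i).1) compat, hover⟩ : SchemeHomOver t (𝒳.x a))
    (overOf t (𝒱.f i)) (g i) (hG₀ i)
  obtain ⟨e2⟩ := hg i
  exact ⟨e1 ≪≫ e2⟩

end Fermat.Agent.S25.Top.H52
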