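/-
helper54, S25 package TOP, leaf CONST of TOP-AEZDEG (Mathlib only).

`chi_const` / `stmt_CONST`: let `T'` be a (pre)connected scheme and `χ` a rule which attaches to every
affine test scheme `u : Spec R ⟶ T'` a function `χ R u : Spec R → ℤ` such that
* `χ R u` is locally constant for every `u`,
* `χ` is compatible with base change: `χ R' (Spec.map φ ≫ u) p' = χ R u (Spec.map φ p')`.
Then `χ` takes the same value at any two field-valued points of `T'`.
(`chiAt χ x` = the value at the residue field of `x`; `chiAt_fromSpec`; `isLocallyConstant_chiAt`.)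
-/
import Mathlib

set_option autoImplicit false

universe u

open CategoryTheory AlgebraicGeometry TopologicalSpace IsLocalRing

namespace Fermat.Agent.S25.Top.H54

section Const

variable {T' : Scheme.{u}}
  (χ : ∀ (R : CommRingCat.{u}) (_ : Spec R ⟶ T'), Spec R → ℤ)

/-- the value of `χ` at a point of `T'`, computed on its residue field -/
noncomputable def chiAt (x : T') : ℤ :=
  χ (T'.residueField x) (T'.fromSpecResidueField x) (closedPoint (T'.residueField x))

variable {χ}
variable (hbc : ∀ (R R' : CommRingCat.{u}) (φ : R ⟶ R') (u : Spec R ⟶ T') (p' : Spec R'),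
    χ R' (Spec.map φ ≫ u) p' = χ R u (Spec.map φ p'))

theorem spec_field_subsingleton (K : Type u) [Field K] (p q : Spec (CommRingCat.of K)) : p = q :=
  Subsingleton.elim (α := PrimeSpectrum K) p q

include hbc in
/-- the value at a field-valued point is the value at its image -/
theorem chi_field (K : Type u) [Field K] (s : Spec (CommRingCat.of K) ⟶ T')
    (p : Spec (CommRingCat.of K)) : χ (CommRingCat.of K) s p = chiAt χ (s p) := by
  have hp : p = closedPoint K := spec_field_subsingleton K _ _
  subst hp
  have h := Scheme.descResidueField_stalkClosedPointTo_fromSpecResidueField K T' s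
  have h2 := hbc _ _ (Scheme.descResidueField (Scheme.stalkClosedPointTo s))
    (T'.fromSpecResidueField (s (closedPoint K))) (closedPoint K)
  rw [h] at h2
  rw [h2]
  unfold chiAt
  congr 1
  exact spec_field_subsingleton _ _ _

include hbc in
/-- on an affine open, `chiAt` is the function `χ` of the chart -/
theorem chiAt_fromSpec {U : T'.Opens} (hU : IsAffineOpen U) (q : Spec Γ(T', U)) :
    chiAt χ (hU.fromSpec q) = χ Γ(T', U) hU.fromSpec q := by
  let K := q.asIdeal.ResidueField
  let ψ : Γ(T', U) ⟶ CommRingCat.of K := CommRingCat.ofHom (algebraMap Γ(T', U) K)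
  have hq : Spec.map ψ (closedPoint K) = q := by
    have h := PrimeSpectrum.residueField_comap q
    have hmem : Spec.map ψ (closedPoint K) ∈ Set.range
        (PrimeSpectrum.comap (algebraMap Γ(T', U) q.asIdeal.ResidueField)) :=
      ⟨closedPoint K, rfl⟩
    rw [h] at hmem
    exact hmem
  have h1 := chi_field hbc K (Spec.map ψ ≫ hU.fromSpec) (closedPoint K)
  have h2 := hbc _ _ ψ hU.fromSpec (closedPoint K)
  rw [hq] at h2
  rw [← h2, h1]
  congr 1
  change hU.fromSpec q = hU.fromSpec (Spec.map ψ (closedPoint K))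
  rw [hq]

variable (hlc : ∀ (R : CommRingCat.{u}) (u : Spec R ⟶ T'), IsLocallyConstant (χ R u))

include hbc hlc in
theorem isLocallyConstant_chiAt : IsLocallyConstant (chiAt χ) := by
  rw [IsLocallyConstant.iff_exists_open]
  intro x
  obtain ⟨U, hU, hxU, -⟩ := exists_isAffineOpen_mem_and_subset (x := x) (U := ⊤) trivial
  have hq := hU.fromSpec_primeIdealOf ⟨x, hxU⟩
  set q := hU.primeIdealOf ⟨x, hxU⟩ with hqdef
  obtain ⟨V, hV, hqV, hVc⟩ := (IsLocallyConstant.iff_exists_open _).mp (hlc Γ(T', U) hU.fromSpec) q
  refine ⟨hU.fromSpec '' V, hU.fromSpec.isOpenEmbedding.isOpenMap V hV, ⟨q, hqV, hq⟩, ?_⟩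
  rintro _ ⟨q', hq', rfl⟩
  have hx : x = hU.fromSpec q := hq.symm
  rw [hx, chiAt_fromSpec hbc hU q', chiAt_fromSpec hbc hU q]
  exact hVc q' hq'

include hbc hlc in
/-- **CONST**: a rule `χ` which is locally constant on every affine test scheme and compatible with
base change takes the same value at any two field-valued points of a connected scheme. -/
theorem chi_const [PreconnectedSpace T'] (K K' : Type u) [Field K] [Field K']
    (s : Spec (CommRingCat.of K) ⟶ T') (s' : Spec (CommRingCat.of K') ⟶ T')
    (p : Spec (CommRingCat.of K)) (p' : Spec (CommRingCat.of K')) :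
    χ (CommRingCat.of K) s p = χ (CommRingCat.of K') s' p' := by
  rw [chi_field hbc K s p, chi_field hbc K' s' p']
  exact (isLocallyConstant_chiAt hbc hlc).apply_eq_of_preconnectedSpace _ _

end Const

/-- **CONST**, as a statement. -/
def Stmt_CONST : Prop :=
  ∀ (T' : Scheme.{u}) [PreconnectedSpace T']
    (χ : ∀ (R : CommRingCat.{u}) (_ : Spec R ⟶ T'), Spec R → ℤ),
    (∀ (R R' : CommRingCat.{u}) (φ : R ⟶ R') (u : Spec R ⟶ T') (p' : Spec R'),
      χ R' (Spec.map φ ≫ u) p' = χ R u (Spec.map φ p')) →
    (∀ (R : CommRingCat.{u}) (u : Spec R ⟶ T'), IsLocallyConstant (χ R u)) →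
    ∀ (K K' : Type u) [Field K] [Field K'] (s : Spec (CommRingCat.of K) ⟶ T')
      (s' : Spec (CommRingCat.of K') ⟶ T') (p : Spec (CommRingCat.of K))
      (p' : Spec (CommRingCat.of K')),
      χ (CommRingCat.of K) s p = χ (CommRingCat.of K') s' p'

theorem stmt_CONST : Stmt_CONST.{u} := by
  intro T' _ χ hbc hlc K K' _ _ s s' p p'
  exact chi_const hbc hlc K K' s s' p p'

end Fermat.Agent.S25.Top.H54
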