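/-
S25 (row 24), package TOP, part S (sub-planner helper45), leaves S-TWEX and S-RELDIV (helper55).

* `mulHom`        : the multiplication `I ⊗ M → M`, `I = (J0, J1, J0 (R ⊗ B01))` the triple of ideals
                    (`Trip.H55.idealTriple`), is a morphism of triples and a twist by `D = (J0, J1)`;
* `stmt_TWEX`     : `L(-D) = I ⊗ L`, `L(D) = I^∨ ⊗ L`;
* `stmt_RELDIV`   : the unit ideal is a relative effective Cartier divisor, and products of such are such.
-/
import Fermat.Agent.S25.Top.DefsS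
import Fermat.Agent.S25.Trip.H55_SjIdeal

set_option autoImplicit false
set_option linter.style.haveILetI false
set_option linter.unusedSectionVars false

universe u

open TensorProduct

noncomputable section

namespace Fermat.Agent.S25.Top.S.H55

open Fermat.Agent.S25 Fermat.Agent.S25.LB Fermat.Agent.S25.LB.H60

/-! ## Multiplication by an ideal -/

section Gen

variable {A : Type u} [CommRing A] (J : Ideal A) (P : Type u) [AddCommGroup P] [Module A P]

/-- The multiplication `J ⊗ P → P`. -/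
def mulMap : (J ⊗[A] P) →ₗ[A] P :=
  TensorProduct.lift ((LinearMap.lsmul A P).comp J.subtype)

theorem mulMap_tmul (y : J) (p : P) : mulMap J P (y ⊗ₜ[A] p) = (y : A) • p := by
  simp [mulMap]

theorem mulMap_eq :
    mulMap J P = (TensorProduct.lid A P).toLinearMap ∘ₗ (J.subtype.rTensor P) := by
  apply TensorProduct.ext'
  intro y p
  simp [mulMap]

theorem mulMap_injective [Module.Flat A P] : Function.Injective (mulMap J P) := by
  rw [mulMap_eq]
  exact (TensorProduct.lid A P).injective.comp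
    (Module.Flat.rTensor_preserves_injective_linearMap J.subtype Subtype.val_injective)

theorem range_mulMap : LinearMap.range (mulMap J P) = J • (⊤ : Submodule A P) := by
  apply le_antisymm
  · rintro _ ⟨t, rfl⟩
    induction t using TensorProduct.induction_on with
    | zero =>
      rw [map_zero]
      exact Submodule.zero_mem _
    | tmul y p =>
      rw [mulMap_tmul]
      exact Submodule.smul_mem_smul y.2 Submodule.mem_top
    | add a b ha hb =>
      rw [map_add]
      exact Submodule.add_mem _ ha hb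
  · rw [Submodule.smul_le]
    intro y hy p _
    exact ⟨(⟨y, hy⟩ : J) ⊗ₜ[A] p, mulMap_tmul J P ⟨y, hy⟩ p⟩

/-- `J ⊗ I ≃ J I` for a flat ideal `I`. -/
def tensorEquivMul (I : Ideal A) [Module.Flat A I] : (J ⊗[A] I) ≃ₗ[A] ↥(J * I) := by
  let g : (J ⊗[A] I) →ₗ[A] A := I.subtype ∘ₗ mulMap J I
  have hg : ∀ t, g t ∈ J * I := by
    intro t
    induction t using TensorProduct.induction_on with
    | zero =>
      rw [map_zero]
      exact Submodule.zero_mem _
    | tmul y i =>
      show ((mulMap J I (y ⊗ₜ[A] i) : I) : A) ∈ J * I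
      rw [mulMap_tmul]
      exact Ideal.mul_mem_mul y.2 i.2
    | add a b ha hb =>
      rw [map_add]
      exact Submodule.add_mem _ ha hb
  refine LinearEquiv.ofBijective (g.codRestrict (J * I) hg) ⟨?_, ?_⟩
  · intro a b hab
    have h1 : ((mulMap J I a : I) : A) = ((mulMap J I b : I) : A) :=
      congrArg (fun z : ↥(J * I) => (z : A)) hab
    exact mulMap_injective J I (Subtype.ext h1)
  · rintro ⟨c, hc⟩
    have key : ∃ t, g t = c := by
      induction hc using Submodule.mul_induction_on' with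
      | mem_mul_mem y hy i hi =>
        refine ⟨(⟨y, hy⟩ : J) ⊗ₜ[A] (⟨i, hi⟩ : I), ?_⟩
        show ((mulMap J I ((⟨y, hy⟩ : J) ⊗ₜ[A] (⟨i, hi⟩ : I)) : I) : A) = y * i
        rw [mulMap_tmul]
        rfl
      | add a _ b _ ha hb =>
        obtain ⟨s, hs⟩ := ha
        obtain ⟨t, ht⟩ := hb
        exact ⟨s + t, by rw [map_add, hs, ht]⟩
    obtain ⟨t, ht⟩ := key
    exact ⟨t, Subtype.ext ht⟩

theorem invertible_mul (I : Ideal A) [Module.Invertible A J] [Module.Invertible A I] :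
    Module.Invertible A ↥(J * I) :=
  Module.Invertible.congr (tensorEquivMul J I)

theorem invertible_top : Module.Invertible A (⊤ : Ideal A) :=
  Module.Invertible.congr (Submodule.topEquiv (R := A) (M := A)).symm

end Gen

/-! ## The twist of a triple -/

section Trip

variable {k : Type u} [Field k] {𝒞 : CurveDatum k} {R : Type u} [CommRing R] [Algebra k R]

/-- The composition of an isomorphism and a morphism of triples. -/
def isoCompHom {L N L' : Triple 𝒞 R} (ψ : Triple.Iso L N) (μ : Triple.Hom N L') :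
    Triple.Hom L L' where
  f0 := μ.f0 ∘ₗ ψ.e0.toLinearMap
  f1 := μ.f1 ∘ₗ ψ.e1.toLinearMap
  f01 := μ.f01 ∘ₗ ψ.e01.toLinearMap
  comm0 := fun p => by
    show μ.f01 (ψ.e01 (L.r0 p)) = L'.r0 (μ.f0 (ψ.e0 p))
    rw [ψ.comm0, μ.comm0]
  comm1 := fun p => by
    show μ.f01 (ψ.e01 (L.r1 p)) = L'.r1 (μ.f1 (ψ.e1 p))
    rw [ψ.comm1, μ.comm1]

theorem twistBy_isoCompHom {J0 : Ideal (R ⊗[k] 𝒞.B0)} {J1 : Ideal (R ⊗[k] 𝒞.B1)}
    {L N L' : Triple 𝒞 R} (ψ : Triple.Iso L N) (μ : Triple.Hom N L') (hμ : TwistBy J0 J1 μ) :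
    TwistBy J0 J1 (isoCompHom ψ μ) := by
  obtain ⟨h0, h1, r0, r1⟩ := hμ
  refine ⟨h0.comp ψ.e0.injective, h1.comp ψ.e1.injective, ?_, ?_⟩
  · rw [← r0]
    exact LinearMap.range_comp_of_range_eq_top _ (LinearEquiv.range ψ.e0)
  · rw [← r1]
    exact LinearMap.range_comp_of_range_eq_top _ (LinearEquiv.range ψ.e1)

variable (h : 𝒞.IsGood) (J0 : Ideal (R ⊗[k] 𝒞.B0)) (J1 : Ideal (R ⊗[k] 𝒞.B1))
  (i0 : Module.Invertible (R ⊗[k] 𝒞.B0) J0) (i1 : Module.Invertible (R ⊗[k] 𝒞.B1) J1)
  (hJ : Ideal.map (𝒞.ι0 R) J0 = Ideal.map (𝒞.ι1 R) J1)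

/-- The multiplication `I ⊗ M → M`. -/
def mulHom (M : Triple 𝒞 R) :
    Triple.Hom (tensor (Trip.H55.idealTriple h J0 J1 i0 i1 hJ) M h) M where
  f0 := mulMap J0 M.P0
  f1 := mulMap J1 M.P1
  f01 := mulMap (Ideal.map (𝒞.ι0 R) J0) M.P01
  comm0 := fun t => by
    induction t using TensorProduct.induction_on with
    | zero => rw [map_zero, map_zero, map_zero, map_zero]
    | tmul y p =>
      rw [tensor_r0_tmul, mulMap_tmul, mulMap_tmul, M.r0.map_smulₛₗ]
      rfl
    | add a b ha hb => rw [map_add, map_add, map_add, map_add, ha, hb]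
  comm1 := fun t => by
    induction t using TensorProduct.induction_on with
    | zero => rw [map_zero, map_zero, map_zero, map_zero]
    | tmul y p =>
      rw [tensor_r1_tmul, mulMap_tmul, mulMap_tmul, M.r1.map_smulₛₗ]
      rfl
    | add a b ha hb => rw [map_add, map_add, map_add, map_add, ha, hb]

theorem twistBy_mulHom (M : Triple 𝒞 R) : TwistBy J0 J1 (mulHom h J0 J1 i0 i1 hJ M) := by
  haveI := M.inv0
  haveI := M.inv1
  exact ⟨mulMap_injective J0 M.P0, mulMap_injective J1 M.P1, range_mulMap J0 M.P0,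
    range_mulMap J1 M.P1⟩

/-- `I ⊗ (I^∨ ⊗ L) ≅ L`. -/
def cancelIso (L : Triple 𝒞 R) :
    Triple.Iso (tensor (Trip.H55.idealTriple h J0 J1 i0 i1 hJ)
      (tensor (dual (Trip.H55.idealTriple h J0 J1 i0 i1 hJ) h) L h) h) L :=
  isoTrans (isoSymm (tensorAssoc _ _ L h))
    (isoTrans (tensorCongr h (tensorDual _ h) (isoRefl L)) (tensorUnitLeft L h))

end Trip

/-- **S-TWEX**. -/
theorem stmt_TWEX : Stmt_TWEX.{u} := by
  intro k _ 𝒞 h R _ _ J0 J1 hD L
  obtain ⟨i0, i1, hJ⟩ := hD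
  refine ⟨⟨tensor (dual (Trip.H55.idealTriple h J0 J1 i0 i1 hJ) h) L h,
    isoCompHom (isoSymm (cancelIso h J0 J1 i0 i1 hJ L)) (mulHom h J0 J1 i0 i1 hJ _),
    twistBy_isoCompHom _ _ (twistBy_mulHom h J0 J1 i0 i1 hJ _)⟩,
    ⟨tensor (Trip.H55.idealTriple h J0 J1 i0 i1 hJ) L h, mulHom h J0 J1 i0 i1 hJ L,
      twistBy_mulHom h J0 J1 i0 i1 hJ L⟩⟩

/-- **S-RELDIV**. -/
theorem stmt_RELDIV : Stmt_RELDIV.{u} := by
  intro k _ 𝒞 _ R _ _
  refine ⟨⟨invertible_top, invertible_top, ?_⟩, ?_⟩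
  · rw [Ideal.map_top, Ideal.map_top]
  · rintro J0 I0 J1 I1 ⟨j0, j1, hJ⟩ ⟨l0, l1, hI⟩
    haveI := j0
    haveI := j1
    haveI := l0
    haveI := l1
    refine ⟨invertible_mul J0 I0, invertible_mul J1 I1, ?_⟩
    rw [Ideal.map_mul, Ideal.map_mul, hJ, hI]

end Fermat.Agent.S25.Top.S.H55
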