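import Fermat.Agent.S25.Top.H56_Rig

/-!
# S25, package TOP, leaf GLUEPIC-GNORM (helper56): the normalised cocycle

`p : X ⟶ T` with a section `σ`, every function on `p⁻¹V` comes from `V`.  `R i` opens of `T`,
`D i = p⁻¹(R i)`, sheaves of modules `P i` on `X`, locally generated by one section on `D i`, with
evaluations `ev i : SemiHom σ (P i) 𝒪_T (D i)` preserving generating sections, and local
isomorphisms `F i j : P i ≅ P j` over `D i ⊓ D j`.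

`gnorm` : there are local isomorphisms `Φ i j : P i ≅ P j` over `D i ⊓ D j` which are normalised
(`ev j ∘ Φ i j = ev i`), with `Φ i i = id` and `Φ j k ∘ Φ i j = Φ i k` on triple overlaps.

This file contains no unproved statement.
-/

set_option autoImplicit false

open CategoryTheory AlgebraicGeometry TopologicalSpace Opposite

universe u

namespace Fermat.Agent.S25.Top.H56

open Fermat.Agent.S25.Glue Fermat.Agent.S25.Glue.H56

variable {X T : Scheme.{u}}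

theorem LocHom.PresGen.restrict {M N : X.Modules} {U U' : X.Opens} {F : LocHom M N U}
    (hF : F.PresGen) (hU : U' ≤ U) : (F.restrict hU).PresGen :=
  fun W h s hs => hF W (h.trans hU) s hs

section

variable (p : X ⟶ T) (σ : T ⟶ X) (hσ : σ ≫ p = 𝟙 T)

include hσ in
/-- **GNORM**: the normalised cocycle of a family of local isomorphisms. -/
theorem gnorm (hΓ : ∀ V : T.Opens, Function.Surjective (p.app V))
    {ι : Type*} (R : ι → T.Opens) (P : ι → X.Modules)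
    (hP : ∀ i, LocGen (P i) (p ⁻¹ᵁ R i))
    (ev : ∀ i, SemiHom σ (P i) (unitM T) (p ⁻¹ᵁ R i)) (hev : ∀ i, (ev i).PresGen)
    (hF : ∀ i j, ∃ (F : LocHom (P i) (P j) (p ⁻¹ᵁ R i ⊓ p ⁻¹ᵁ R j))
      (G : LocHom (P j) (P i) (p ⁻¹ᵁ R i ⊓ p ⁻¹ᵁ R j)), F.IsInv G) :
    ∃ (Φ : ∀ i j, LocHom (P i) (P j) (p ⁻¹ᵁ R i ⊓ p ⁻¹ᵁ R j))
      (Ψ : ∀ i j, LocHom (P j) (P i) (p ⁻¹ᵁ R i ⊓ p ⁻¹ᵁ R j)),
      (∀ i j, (Φ i j).IsInv (Ψ i j)) ∧
      (∀ (i j : ι) (W : X.Opens) (h : W ≤ p ⁻¹ᵁ R i ⊓ p ⁻¹ᵁ R j) (t : Γ(P i, W)),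
        (ev j).map W (h.trans inf_le_right) ((Φ i j).map W h t) =
          (ev i).map W (h.trans inf_le_left) t) ∧
      (∀ (i : ι) (W : X.Opens) (h : W ≤ p ⁻¹ᵁ R i ⊓ p ⁻¹ᵁ R i) (t : Γ(P i, W)),
        (Φ i i).map W h t = t) ∧
      (∀ (i j k : ι) (W : X.Opens) (hij : W ≤ p ⁻¹ᵁ R i ⊓ p ⁻¹ᵁ R j)
        (hjk : W ≤ p ⁻¹ᵁ R j ⊓ p ⁻¹ᵁ R k) (hik : W ≤ p ⁻¹ᵁ R i ⊓ p ⁻¹ᵁ R k) (t : Γ(P i, W)),
        (Φ j k).map W hjk ((Φ i j).map W hij t) = (Φ i k).map W hik t) := by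
  classical
  -- the two descriptions of the overlaps
  have hle : ∀ i j, p ⁻¹ᵁ (R i ⊓ R j) ≤ p ⁻¹ᵁ R i ⊓ p ⁻¹ᵁ R j := fun i j x hx => ⟨hx.1, hx.2⟩
  have hge : ∀ i j, p ⁻¹ᵁ R i ⊓ p ⁻¹ᵁ R j ≤ p ⁻¹ᵁ (R i ⊓ R j) := fun i j x hx => ⟨hx.1, hx.2⟩
  have hl : ∀ i j, p ⁻¹ᵁ (R i ⊓ R j) ≤ p ⁻¹ᵁ R i := fun i j => preimage_le p inf_le_left
  have hr : ∀ i j, p ⁻¹ᵁ (R i ⊓ R j) ≤ p ⁻¹ᵁ R j := fun i j => preimage_le p inf_le_right
  -- normalise on each overlap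
  have hnorm : ∀ i j, ∃ (Φ : LocHom (P i) (P j) (p ⁻¹ᵁ (R i ⊓ R j)))
      (Ψ : LocHom (P j) (P i) (p ⁻¹ᵁ (R i ⊓ R j))),
      Φ.IsInv Ψ ∧ IsNormalFor σ ((ev i).restrict (hl i j)) ((ev j).restrict (hr i j)) Φ := by
    intro i j
    obtain ⟨F, G, hFG⟩ := hF i j
    exact exists_normalFor p σ hσ ((hP i).mono (hl i j)) _ ((hev i).restrict (hl i j)) _
      ((hev j).restrict (hr i j)) (F.restrict (hle i j)) (G.restrict (hle i j))
      (hFG.restrict (hle i j))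
  choose Φ Ψ hinv hΦ using hnorm
  refine ⟨fun i j => (Φ i j).restrict (hge i j), fun i j => (Ψ i j).restrict (hge i j),
    fun i j => (hinv i j).restrict (hge i j), fun i j W h t => hΦ i j W (h.trans (hge i j)) t,
    fun i W h t => ?_, fun i j k W hij hjk hik t => ?_⟩
  · exact normalFor_self p σ hσ (hΓ _) ((hP i).mono (hl i i)) _ ((hev i).restrict (hl i i))
      (Φ i i) (hΦ i i) W (h.trans (hge i i)) t
  · -- the triple overlap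
    have h3 : W ≤ p ⁻¹ᵁ (R i ⊓ R j ⊓ R k) := fun x hx => ⟨⟨(hij hx).1, (hij hx).2⟩, (hjk hx).2⟩
    have hi : p ⁻¹ᵁ (R i ⊓ R j ⊓ R k) ≤ p ⁻¹ᵁ R i := preimage_le p (inf_le_left.trans inf_le_left)
    have hj : p ⁻¹ᵁ (R i ⊓ R j ⊓ R k) ≤ p ⁻¹ᵁ R j :=
      preimage_le p (inf_le_left.trans inf_le_right)
    have hk : p ⁻¹ᵁ (R i ⊓ R j ⊓ R k) ≤ p ⁻¹ᵁ R k := preimage_le p inf_le_right
    have hij' : p ⁻¹ᵁ (R i ⊓ R j ⊓ R k) ≤ p ⁻¹ᵁ (R i ⊓ R j) := preimage_le p inf_le_left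
    have hjk' : p ⁻¹ᵁ (R i ⊓ R j ⊓ R k) ≤ p ⁻¹ᵁ (R j ⊓ R k) :=
      preimage_le p (le_inf (inf_le_left.trans inf_le_right) inf_le_right)
    have hik' : p ⁻¹ᵁ (R i ⊓ R j ⊓ R k) ≤ p ⁻¹ᵁ (R i ⊓ R k) :=
      preimage_le p (le_inf (inf_le_left.trans inf_le_left) inf_le_right)
    exact normalFor_cocycle p σ hσ (hΓ _) ((hP i).mono hi) ((ev i).restrict hi)
      ((hev i).restrict hi) ((ev j).restrict hj) ((ev k).restrict hk)
      ((Φ i j).restrict hij') ((Φ j k).restrict hjk') ((Φ i k).restrict hik')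
      (fun W' h' t' => hΦ i j W' (h'.trans hij') t')
      (fun W' h' t' => hΦ j k W' (h'.trans hjk') t')
      (fun W' h' t' => hΦ i k W' (h'.trans hik') t')
      ((hinv i k).restrict hik').presGen W h3 t

end

end Fermat.Agent.S25.Top.H56
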