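import Fermat.Agent.S25.Top.H56_GNorm
import Fermat.Agent.S25.Top.DefsG

/-!
# S25, package TOP, leaf GLUEPIC (helper56): `stmt_GNORM : G.Stmt_GNORM`, `stmt_GRIG : G.Stmt_GRIG`

The two statements of helper91's interface `Top/DefsG.lean`, from `gnorm` (`Top/H56_GNorm.lean`) and
`nonempty_rigidification` (`Top/H56_Rig.lean`).

This file contains no unproved statement.
-/

set_option autoImplicit false

open CategoryTheory AlgebraicGeometry TopologicalSpace Opposite

universe u

namespace Fermat.Agent.S25.Top.H56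

open Fermat.Agent.S25.Glue Fermat.Agent.S25.Glue.H56

/-- **GNORM** in the form of the interface. -/
theorem stmt_GNORM : G.Stmt_GNORM.{u} := by
  intro X T p σ hσ hΓ ι R P hP ev hev F G hFG
  obtain ⟨Φ, Ψ, hinv, hnorm, hid, hcoc⟩ := gnorm p σ hσ (fun V => (hΓ V).2) R P hP ev hev
    (fun i j => ⟨F i j, G i j, hFG i j⟩)
  exact ⟨Φ, fun i j => (hinv i j).presGen, hnorm, hid, hcoc⟩

/-- **GRIG** in the form of the interface. -/
theorem stmt_GRIG : G.Stmt_GRIG.{u} := by
  intro X T σ N hN ι D hD lam hlam hcompat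
  exact nonempty_rigidification σ N D hD (fun _ => hN.mono le_top) lam hlam hcompat

end Fermat.Agent.S25.Top.H56
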