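import Fermat.Agent.S25.Top.H56_EvLoc

/-!
# S25, package TOP, leaf GLUEPIC-LOCGENPUSH (helper56): `stmt_LOCGENPUSH : G.Stmt_LOCGENPUSH`

`j : X' ⟶ X` an open immersion, `L` an invertible sheaf on `X'`: the push-forward `j_* L` is locally
generated by one section on the range of `j`.

* `isGen_toPush` : a generating section of `L` over `V'` is a generating section of `j_* L` over
  `j(V')`;
* `stmt_LOCGENPUSH`.

This file contains no unproved statement.
-/

set_option autoImplicit false

open CategoryTheory AlgebraicGeometry TopologicalSpace Opposite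

universe u

namespace Fermat.Agent.S25.Top.H56

open Fermat.Agent.S25.Glue Fermat.Agent.S25.Glue.H56

section

variable {X X' : Scheme.{u}} (j : X' ⟶ X) [IsOpenImmersion j] (L : X'.Modules)

/-- A generating section of `L` over `V'` is a generating section of `j_* L` over `j(V')`. -/
theorem isGen_toPush {V' : X'.Opens} {s' : Γ(L, V')} (hs' : IsGen L V' s') :
    IsGen ((Scheme.Modules.pushforward j).obj L) (j ''ᵁ V')
      (toPush j L (j ''ᵁ V') (resM L (le_of_eq (j.preimage_image_eq V')) s')) := by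
  rw [isGen_iff]
  intro W' hW'
  have hr : W' ≤ j.opensRange := by
    intro x hx
    obtain ⟨y, -, rfl⟩ := hW' hx
    exact ⟨y, rfl⟩
  have hV : j ⁻¹ᵁ W' ≤ V' := by
    intro y hy
    obtain ⟨y', hy', e⟩ := hW' hy
    exact (j.isOpenEmbedding.injective e) ▸ hy'
  have h1 : Function.Bijective (j.app W') := by
    have := j.isIso_app W' hr
    exact ConcreteCategory.bijective_of_isIso _
  have h2 := (isGen_iff.1 hs') (j ⁻¹ᵁ W') hV
  have key : ∀ a : Γ(X, W'),
      ofPush j L W' (a • resM ((Scheme.Modules.pushforward j).obj L) hW'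
        (toPush j L (j ''ᵁ V') (resM L (le_of_eq (j.preimage_image_eq V')) s'))) =
      j.app W' a • resM L hV s' := by
    intro a
    rw [ofPush_smul, ofPush_res]
    change j.app W' a • resM L _ (resM L _ s') = _
    rw [resM_resM]
  refine ⟨fun a b hab => ?_, fun t => ?_⟩
  · have h3 := congrArg (ofPush j L W') hab
    rw [key a, key b] at h3
    exact h1.1 (h2.1 h3)
  · obtain ⟨b, hb⟩ := h2.2 (ofPush j L W' t)
    obtain ⟨a, rfl⟩ := h1.2 b
    exact ⟨a, (key a).trans hb⟩

end

/-- **LOCGENPUSH** in the form of the interface. -/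
theorem stmt_LOCGENPUSH : G.Stmt_LOCGENPUSH.{u} := by
  intro X X' j _ L hL x hx
  obtain ⟨y, rfl⟩ := hx
  obtain ⟨V', hy, s', hs'⟩ := (stmt_BGEN X' L).1 hL y
  refine ⟨j ''ᵁ V', ?_, ⟨y, hy, rfl⟩, _, isGen_toPush j L hs'⟩
  rintro _ ⟨z, -, rfl⟩
  exact ⟨z, rfl⟩

end Fermat.Agent.S25.Top.H56
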