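import Fermat.Agent.S25.Top.H56_LocIsoCore

/-!
# S25, package TOP (helper56): normalised local isomorphisms for abstract evaluations

`p : X ⟶ T` with a section `σ`, `V ⊆ T` open, `U = p⁻¹V`.  `M`, `M'`, `M''` sheaves of modules on `X`
with *evaluations* `e : SemiHom σ M 𝒪_T U` (semilinear families `Γ(M, W) → Γ(T, σ⁻¹W)`, `W ≤ U`)
which preserve generating sections.  (Example: `ev σ M ρ U` of a rigidification `ρ`; for GLUEPIC:
the evaluation of the push-forward of a rigidified bundle on `C × U_i`.)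

* `IsNormalFor σ e e' Φ` : `e' ∘ Φ = e`;
* `exists_normalFor` : every local isomorphism over `p⁻¹V` can be normalised;
* `normalFor_unique` : normalised local isomorphisms over `p⁻¹V` are unique if every function on
  `p⁻¹V` comes from `V`;
* `IsNormalFor.comp`, `IsNormalFor.id`, `IsNormalFor.inv`, `IsNormalFor.restrict`;
* `normalFor_cocycle`, `normalFor_self` : the cocycle identities for normalised isomorphisms.

This file contains no unproved statement.
-/

set_option autoImplicit false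

open CategoryTheory AlgebraicGeometry TopologicalSpace Opposite

universe u

namespace Fermat.Agent.S25.Top.H56

open Fermat.Agent.S25.Glue Fermat.Agent.S25.Glue.H56

variable {X T : Scheme.{u}}

/-- the identity local morphism -/
def LocHom.id (M : X.Modules) (U : X.Opens) : LocHom M M U where
  map _ _ t := t
  map_add _ _ _ _ := rfl
  map_smul _ _ _ _ := rfl
  map_res _ _ _ _ _ := rfl

theorem LocHom.id_isInv (M : X.Modules) (U : X.Opens) : (LocHom.id M U).IsInv (LocHom.id M U) :=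
  ⟨fun _ _ _ => rfl, fun _ _ _ => rfl⟩

theorem LocHom.IsInv.comp {M M' M'' : X.Modules} {U : X.Opens} {F : LocHom M M' U}
    {G : LocHom M' M U} (h : F.IsInv G) {F' : LocHom M' M'' U} {G' : LocHom M'' M' U}
    (h' : F'.IsInv G') : (F.comp F').IsInv (G'.comp G) := by
  refine ⟨fun W hW t => ?_, fun W hW t => ?_⟩
  · change G.map W hW (G'.map W hW (F'.map W hW (F.map W hW t))) = t
    rw [h'.1, h.1]
  · change F'.map W hW (F.map W hW (G.map W hW (G'.map W hW t))) = t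
    rw [h.2, h'.2]

section

variable (p : X ⟶ T) (σ : T ⟶ X) (hσ : σ ≫ p = 𝟙 T)
variable {M M' M'' : X.Modules}

/-- `Φ` is normalised for the evaluations `e`, `e'`: `e' ∘ Φ = e`. -/
def IsNormalFor {U : X.Opens} (e : SemiHom σ M (unitM T) U) (e' : SemiHom σ M' (unitM T) U)
    (Φ : LocHom M M' U) : Prop :=
  ∀ (W : X.Opens) (h : W ≤ U) (t : Γ(M, W)), e'.map W h (Φ.map W h t) = e.map W h t

theorem IsNormalFor.restrict {U U' : X.Opens} {e : SemiHom σ M (unitM T) U}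
    {e' : SemiHom σ M' (unitM T) U} {Φ : LocHom M M' U} (hΦ : IsNormalFor σ e e' Φ)
    (hU : U' ≤ U) : IsNormalFor σ (e.restrict hU) (e'.restrict hU) (Φ.restrict hU) :=
  fun W h t => hΦ W (h.trans hU) t

theorem IsNormalFor.id {U : X.Opens} (e : SemiHom σ M (unitM T) U) :
    IsNormalFor σ e e (LocHom.id M U) :=
  fun _ _ _ => rfl

theorem IsNormalFor.comp {U : X.Opens} {e : SemiHom σ M (unitM T) U}
    {e' : SemiHom σ M' (unitM T) U} {e'' : SemiHom σ M'' (unitM T) U} {Φ : LocHom M M' U}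
    {Φ' : LocHom M' M'' U} (hΦ : IsNormalFor σ e e' Φ) (hΦ' : IsNormalFor σ e' e'' Φ') :
    IsNormalFor σ e e'' (Φ.comp Φ') := by
  intro W h t
  change e''.map W h (Φ'.map W h (Φ.map W h t)) = _
  rw [hΦ' W h, hΦ W h]

theorem IsNormalFor.inv {U : X.Opens} {e : SemiHom σ M (unitM T) U}
    {e' : SemiHom σ M' (unitM T) U} {Φ : LocHom M M' U} {Ψ : LocHom M' M U}
    (hΦ : IsNormalFor σ e e' Φ) (hinv : Φ.IsInv Ψ) : IsNormalFor σ e' e Ψ := by
  intro W h t
  rw [← hΦ W h, hinv.2]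

include hσ in
/-- **Normalisation**: a local isomorphism over `p⁻¹V` can be normalised. -/
theorem exists_normalFor {V : T.Opens} (hM : LocGen M (p ⁻¹ᵁ V))
    (e : SemiHom σ M (unitM T) (p ⁻¹ᵁ V)) (he : e.PresGen)
    (e' : SemiHom σ M' (unitM T) (p ⁻¹ᵁ V)) (he' : e'.PresGen)
    (F : LocHom M M' (p ⁻¹ᵁ V)) (G : LocHom M' M (p ⁻¹ᵁ V)) (hFG : F.IsInv G) :
    ∃ (Φ : LocHom M M' (p ⁻¹ᵁ V)) (Ψ : LocHom M' M (p ⁻¹ᵁ V)),
      Φ.IsInv Ψ ∧ IsNormalFor σ e e' Φ := by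
  let lam : SemiHom σ M (unitM T) (p ⁻¹ᵁ V) := e'.precomp F
  have hlam : lam.PresGen := he'.precomp hFG.presGen
  obtain ⟨a, ha, -⟩ := SemiHom.existsUnique_ratio lam e hM he
  have hu : IsUnit a := SemiHom.isUnit_ratio lam e hM hlam ha
  obtain ⟨a', ha'⟩ := hu.exists_left_inv
  have hle := preimage_le_preimage_section p σ hσ V
  let b : Γ(X, p ⁻¹ᵁ V) := resO X hle (p.app _ a')
  let b' : Γ(X, p ⁻¹ᵁ V) := resO X hle (p.app _ a)
  have hbb : b * b' = 1 := by
    change resO X hle (p.app _ a') * resO X hle (p.app _ a) = 1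
    rw [← resO_mul, ← map_mul, ha', map_one, resO_one]
  refine ⟨F.smul b, G.smul b', hFG.smul hbb, fun W h t => ?_⟩
  change e'.map W h (resO X h b • F.map W h t) = _
  rw [e'.map_smul]
  have h1 : e'.map W h (F.map W h t) = resO T (preimage_le σ h) a • e.map W h t := ha W h t
  rw [h1, smul_smul]
  have h2 : σ.app W (resO X h b) = resO T (preimage_le σ h) a' := by
    change σ.app W (resO X h (resO X hle (p.app _ a'))) = _
    rw [resO_resO, section_app_app p σ hσ]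
  rw [h2, ← resO_mul, ha', resO_one, one_smul]

include hσ in
/-- **Uniqueness**: two normalised local isomorphisms over `p⁻¹V` are equal, if every function
on `p⁻¹V` comes from `V`. -/
theorem normalFor_unique {V : T.Opens} (hΓ : Function.Surjective (p.app V))
    (hM : LocGen M (p ⁻¹ᵁ V))
    (e : SemiHom σ M (unitM T) (p ⁻¹ᵁ V)) (he : e.PresGen)
    (e' : SemiHom σ M' (unitM T) (p ⁻¹ᵁ V))
    (Φ₁ Φ₂ : LocHom M M' (p ⁻¹ᵁ V))
    (h₁ : IsNormalFor σ e e' Φ₁) (h₂ : IsNormalFor σ e e' Φ₂) (hg : Φ₂.PresGen)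
    (W : X.Opens) (h : W ≤ p ⁻¹ᵁ V) (t : Γ(M, W)) : Φ₁.map W h t = Φ₂.map W h t := by
  obtain ⟨c, hc, -⟩ := LocHom.existsUnique_ratio Φ₁ Φ₂ hM hg
  obtain ⟨d, rfl⟩ := hΓ c
  have hd : d = 1 := by
    let κ : Type u := {q : Σ W : X.Opens, Γ(M, W) // q.1 ≤ p ⁻¹ᵁ V ∧ IsGen M q.1 q.2}
    refine eq_of_resO_eq T (fun k : κ => σ ⁻¹ᵁ k.1.1) V
      (fun k => preimage_section_le p σ hσ k.2.1) ?_ _ _ fun k => ?_
    · intro y hy
      have hy' : σ.base y ∈ p ⁻¹ᵁ V := le_preimage_section p σ hσ V hy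
      obtain ⟨W₀, hW₀, hx, s, hs⟩ := hM _ hy'
      exact Opens.mem_iSup.mpr ⟨⟨⟨W₀, s⟩, hW₀, hs⟩, hx⟩
    · have e1 := h₁ _ k.2.1 k.1.2
      rw [hc _ k.2.1 k.1.2, e'.map_smul, h₂ _ k.2.1 k.1.2, section_app_app p σ hσ] at e1
      have hgen := he _ k.2.1 _ k.2.2
      have hinj := (isGen_iff.1 hgen _ (le_refl _)).1
      apply hinj
      simp only [resM_id]
      rw [e1, resO_one, one_smul]
  rw [hc W h t, hd, map_one, resO_one, one_smul]

include hσ in
/-- **Cocycle identity**: a composite of normalised local isomorphisms is the normalised local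
isomorphism. -/
theorem normalFor_cocycle {V : T.Opens} (hΓ : Function.Surjective (p.app V))
    (hM : LocGen M (p ⁻¹ᵁ V))
    (e : SemiHom σ M (unitM T) (p ⁻¹ᵁ V)) (he : e.PresGen)
    (e' : SemiHom σ M' (unitM T) (p ⁻¹ᵁ V)) (e'' : SemiHom σ M'' (unitM T) (p ⁻¹ᵁ V))
    (Φ : LocHom M M' (p ⁻¹ᵁ V)) (Φ' : LocHom M' M'' (p ⁻¹ᵁ V)) (Φ'' : LocHom M M'' (p ⁻¹ᵁ V))
    (hΦ : IsNormalFor σ e e' Φ) (hΦ' : IsNormalFor σ e' e'' Φ') (hΦ'' : IsNormalFor σ e e'' Φ'')
    (hg : Φ''.PresGen)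
    (W : X.Opens) (h : W ≤ p ⁻¹ᵁ V) (t : Γ(M, W)) :
    Φ'.map W h (Φ.map W h t) = Φ''.map W h t :=
  normalFor_unique p σ hσ hΓ hM e he e'' (Φ.comp Φ') Φ'' (hΦ.comp σ hΦ') hΦ'' hg W h t

include hσ in
/-- A normalised local automorphism is the identity. -/
theorem normalFor_self {V : T.Opens} (hΓ : Function.Surjective (p.app V))
    (hM : LocGen M (p ⁻¹ᵁ V))
    (e : SemiHom σ M (unitM T) (p ⁻¹ᵁ V)) (he : e.PresGen)
    (Φ : LocHom M M (p ⁻¹ᵁ V)) (hΦ : IsNormalFor σ e e Φ)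
    (W : X.Opens) (h : W ≤ p ⁻¹ᵁ V) (t : Γ(M, W)) : Φ.map W h t = t :=
  normalFor_unique p σ hσ hΓ hM e he e Φ (LocHom.id M _) hΦ (IsNormalFor.id σ e)
    (LocHom.id_isInv M _).presGen W h t

end

end Fermat.Agent.S25.Top.H56
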