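import Fermat.Agent.S25.Top.H56_Normal

/-!
# S25, package TOP (helper56): a pull-back is determined by an evaluation

`f : Y ⟶ X`, `M : X.Modules` locally generated by one section, `N : Y.Modules`.

* `nonempty_iso_of_local` : a compatible family of semilinear maps `e i : SemiHom f M N (U i)` on an
  open cover `U` of `X` which preserve generating sections gives `f^* M ≅ N`;
* `nonempty_iso_of_presGen` : the case of one global semilinear map;
* `nonempty_rigidification` : for `N = 𝒪_Y` (rigidification of a glued sheaf along a section).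

This file contains no unproved statement.
-/

set_option autoImplicit false

open CategoryTheory AlgebraicGeometry TopologicalSpace Opposite

universe u

namespace Fermat.Agent.S25.Top.H56

open Fermat.Agent.S25.Glue Fermat.Agent.S25.Glue.H56

variable {X Y : Scheme.{u}}

/-- A compatible family of semilinear maps `Γ(M, W) → Γ(N, f⁻¹W)` (`W` small) which preserve
generating sections identifies `N` with the pull-back of `M`. -/
theorem nonempty_iso_of_local (f : Y ⟶ X) (M : X.Modules) (N : Y.Modules) {ι : Type u}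
    (U : ι → X.Opens) (hU : ∀ x : X, ∃ i, x ∈ U i) (hM : ∀ i, LocGen M (U i))
    (e : ∀ i, SemiHom f M N (U i)) (he : ∀ i, (e i).PresGen)
    (hcompat : ∀ (i j : ι) (W : X.Opens) (hi : W ≤ U i) (hj : W ≤ U j) (t : Γ(M, W)),
      (e i).map W hi t = (e j).map W hj t) :
    Nonempty ((Scheme.Modules.pullback f).obj M ≅ N) := by
  classical
  let κ : Type u := {q : Σ (_ : ι) (W : X.Opens), Γ(M, W) // q.2.1 ≤ U q.1 ∧ IsGen M q.2.1 q.2.2}
  let V : κ → Y.Opens := fun k => f ⁻¹ᵁ k.1.2.1
  have hV : ∀ y : Y, ∃ k, y ∈ V k := by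
    intro y
    obtain ⟨i, hi⟩ := hU (f.base y)
    obtain ⟨W, hW, hx, s, hs⟩ := hM i _ hi
    exact ⟨⟨⟨i, W, s⟩, hW, hs⟩, hx⟩
  let s : ∀ k : κ, Γ((Scheme.Modules.pullback f).obj M, V k) := fun k =>
    pullSec f M k.1.2.1 k.1.2.2
  have hs : ∀ k, IsGen ((Scheme.Modules.pullback f).obj M) (V k) (s k) := fun k =>
    isGen_pullSec f _ M _ k.2.2
  let s' : ∀ k : κ, Γ(N, V k) := fun k => (e k.1.1).map k.1.2.1 k.2.1 k.1.2.2
  have hs' : ∀ k, IsGen N (V k) (s' k) := fun k => he k.1.1 _ k.2.1 _ k.2.2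
  have hcomp : ∀ (k l : κ) (u : Γ(Y, V k ⊓ V l)),
      resM ((Scheme.Modules.pullback f).obj M) inf_le_right (s l) =
        u • resM ((Scheme.Modules.pullback f).obj M) inf_le_left (s k) →
      resM N inf_le_right (s' l) = u • resM N inf_le_left (s' k) := by
    intro k l u hu
    -- the transition function of the generators downstairs
    have hle : V k ⊓ V l ≤ f ⁻¹ᵁ (k.1.2.1 ⊓ l.1.2.1) := fun y hy => ⟨hy.1, hy.2⟩
    obtain ⟨u₀, hu₀⟩ : ∃ u₀ : Γ(X, k.1.2.1 ⊓ l.1.2.1),
        u₀ • resM M inf_le_left k.1.2.2 = resM M inf_le_right l.1.2.2 :=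
      ⟨_, coord_smul_res k.2.2 inf_le_left _⟩
    -- upstairs, for the pull-back
    have h1 : resM ((Scheme.Modules.pullback f).obj M) inf_le_right (s l) =
        resO Y hle (f.app _ u₀) •
          resM ((Scheme.Modules.pullback f).obj M) inf_le_left (s k) := by
      have := congrArg (pullSec f M (k.1.2.1 ⊓ l.1.2.1)) hu₀
      rw [pullSec_smul] at this
      have h2 := congrArg (resM ((Scheme.Modules.pullback f).obj M) hle) this
      rw [resM_smul] at h2
      have e1 : resM ((Scheme.Modules.pullback f).obj M) hle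
          (pullSec f M (k.1.2.1 ⊓ l.1.2.1) (resM M inf_le_left k.1.2.2)) =
          resM ((Scheme.Modules.pullback f).obj M) inf_le_left (s k) := by
        change _ = resM _ _ (pullSec f M k.1.2.1 k.1.2.2)
        unfold resM
        rw [pullSec_res]
        exact map_map_eq _ _ _ _ _
      have e2 : resM ((Scheme.Modules.pullback f).obj M) hle
          (pullSec f M (k.1.2.1 ⊓ l.1.2.1) (resM M inf_le_right l.1.2.2)) =
          resM ((Scheme.Modules.pullback f).obj M) inf_le_right (s l) := by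
        change _ = resM _ _ (pullSec f M l.1.2.1 l.1.2.2)
        unfold resM
        rw [pullSec_res]
        exact map_map_eq _ _ _ _ _
      rw [e1, e2] at h2
      exact h2.symm
    have hu' : u = resO Y hle (f.app _ u₀) :=
      (isGen_iff.1 (hs k) _ inf_le_left).1 (hu.symm.trans h1)
    -- for the evaluations
    have hk : k.1.2.1 ⊓ l.1.2.1 ≤ U k.1.1 := inf_le_left.trans k.2.1
    have hl : k.1.2.1 ⊓ l.1.2.1 ≤ U l.1.1 := inf_le_right.trans l.2.1
    have h3 := congrArg ((e l.1.1).map _ hl) hu₀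
    rw [(e l.1.1).map_smul, (e l.1.1).map_res _ _ l.2.1 inf_le_right,
      ← hcompat k.1.1 l.1.1 _ hk hl, (e k.1.1).map_res _ _ k.2.1 inf_le_left] at h3
    have h4 := congrArg (resM N hle) h3
    rw [resM_smul, resM_resM, resM_resM] at h4
    rw [hu']
    exact h4.symm
  obtain ⟨φ, -⟩ := exists_iso_of_gen _ N V hV s hs s' hs' hcomp
  exact ⟨φ⟩

/-- A semilinear map `Γ(M, W) → Γ(N, f⁻¹W)` which preserves generating sections identifies `N` with
the pull-back of `M`. -/
theorem nonempty_iso_of_presGen (f : Y ⟶ X) (M : X.Modules) (N : Y.Modules) (hM : LocGen M ⊤)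
    (e : SemiHom f M N ⊤) (he : e.PresGen) :
    Nonempty ((Scheme.Modules.pullback f).obj M ≅ N) :=
  nonempty_iso_of_local f M N (fun _ : PUnit.{u + 1} => (⊤ : X.Opens)) (fun _ => ⟨⟨⟩, trivial⟩)
    (fun _ => hM) (fun _ => e) (fun _ => he) (fun _ _ _ _ _ _ => rfl)

/-- **Rigidification of a glued sheaf**: compatible local evaluations along a section `σ` give
`σ^* M ≅ 𝒪`. -/
theorem nonempty_rigidification (σ : Y ⟶ X) (M : X.Modules) {ι : Type u}
    (U : ι → X.Opens) (hU : ∀ x : X, ∃ i, x ∈ U i) (hM : ∀ i, LocGen M (U i))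
    (e : ∀ i, SemiHom σ M (unitM Y) (U i)) (he : ∀ i, (e i).PresGen)
    (hcompat : ∀ (i j : ι) (W : X.Opens) (hi : W ≤ U i) (hj : W ≤ U j) (t : Γ(M, W)),
      (e i).map W hi t = (e j).map W hj t) :
    Nonempty ((Scheme.Modules.pullback σ).obj M ≅ SheafOfModules.unit Y.ringCatSheaf) :=
  nonempty_iso_of_local σ M (unitM Y) U hU hM e he hcompat

end Fermat.Agent.S25.Top.H56
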