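/-
S25 (row 24), package TOP, leaf S-GRINV (helper60): INTERFACE of the sub-cuts (Mathlib only).

* `LocPrin I`     : the ideal `I` is principal on a principal open neighbourhood of every prime;
* `OmegaCyc k B`  : the module of differentials `Ω[B⁄k]` is cyclic on a principal open neighbourhood
                    of every prime;
* `Stmt_GLP`      : a nonzero locally principal ideal of a domain is an invertible module;
* `Stmt_GNAK`     : Nakayama: local generation modulo `I ^ 2` is local generation;
* `Stmt_GDIAG`    : the ideal of the diagonal of a curve is invertible.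
Route: the note "S25 S-GRINV route and sub-cuts (helper60)".
-/
import Mathlib

set_option autoImplicit false

universe u

open TensorProduct

namespace Fermat.Agent.S25.Top.S.H60

/-- The ideal `I` is principal on a principal open neighbourhood `D(d)` of every prime. -/
def LocPrin {S : Type u} [CommRing S] (I : Ideal S) : Prop :=
  ∀ p : Ideal S, p.IsPrime → ∃ t d : S, t ∈ I ∧ d ∉ p ∧ ∀ i ∈ I, ∃ b : S, d * i = b * t

/-- The module of differentials is cyclic on a principal open neighbourhood of every prime. -/
def OmegaCyc (k : Type u) (B : Type u) [CommRing k] [CommRing B] [Algebra k B] : Prop :=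
  ∀ q : Ideal B, q.IsPrime → ∃ (ω : Ω[B⁄k]) (b : B), b ∉ q ∧ ∀ η : Ω[B⁄k], ∃ c : B, b • η = c • ω

/-- **G-LP**: a nonzero locally principal ideal of a domain is an invertible module. -/
def Stmt_GLP : Prop :=
  ∀ (S : Type u) [CommRing S] [IsDomain S] (I : Ideal S), I ≠ ⊥ → LocPrin I → Module.Invertible S I

/-- **G-NAK**: a finitely generated ideal which is locally generated by one element modulo `I ^ 2`
at the primes containing it is locally principal. -/
def Stmt_GNAK : Prop :=
  ∀ (S : Type u) [CommRing S] (I : Ideal S), I.FG →
    (∀ p : Ideal S, p.IsPrime → I ≤ p →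
      ∃ t s : S, t ∈ I ∧ s ∉ p ∧ ∀ i ∈ I, ∃ b : S, s * i - b * t ∈ I ^ 2) →
    LocPrin I

/-- **G-DIAG**: the ideal of the diagonal is invertible. -/
def Stmt_GDIAG : Prop :=
  ∀ (k : Type u) [Field k] (B : Type u) [CommRing B] [Algebra k B] [Algebra.FiniteType k B]
    [IsDomain (B ⊗[k] B)], KaehlerDifferential.ideal k B ≠ ⊥ → OmegaCyc k B →
    LocPrin (KaehlerDifferential.ideal k B) ∧
      Module.Invertible (B ⊗[k] B) (KaehlerDifferential.ideal k B)

end Fermat.Agent.S25.Top.S.H60
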