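/-
S25 (row 24), package TOP, leaf S-GRINV, sub-cut G-MIX (helper5; route: helper60's note
"S25 S-GRINV route and sub-cuts").

The graph of a point `β : B0 → R` of the chart `V0` has the ideal `gr0 β = ker (R ⊗ B0 → R)` on
`V0 × Spec R` and the ideal `gr1 β = ι1⁻¹ (ι0 (gr0 β) · (R ⊗ B01))` on `V1 × Spec R`.

* `ext_gen`, `locPrin_comap_map` : ABSTRACT descent of local principality along a localisation
  (Mathlib only);
* `map_comap_ι0`, `map_comap_ι1` : `ι_i (ι_i⁻¹ J) · (R ⊗ B01) = J`;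
* `overlap_eq` : `gr0 β · (R ⊗ B01) = gr1 β · (R ⊗ B01)` for EVERY point `β` (third clause of
  `IsRelDiv`), any `R`;
* `mixElt1_mem`, `mixElt0_mem` : `β x0 ⊗ z1 - 1 ∈ gr1 (inl β)`, `β z1 ⊗ x0 - 1 ∈ gr0 (inr β)`;
* `locPrin_gr1_inl`, `locPrin_gr0_inr` : **G-MIX**, any `R` (the other-chart ideal finitely
  generated): `LocPrin (gr0 (inl β)) → LocPrin (gr1 (inl β))`, and symmetrically;
* `isNoetherianRing_tensor` : `R ⊗ B` is noetherian for `R`, `B` of finite type over `k`;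
* `gmix_univ0`, `gmix_univ1` : G-MIX for the universal points `R = B0`, `β = id` (and `B1`);
* `gr0_inl_id`, `gr1_inr_id` : the ideals of the universal points on their own chart are the
  diagonal ideals `KaehlerDifferential.ideal k B_i`;
* `mix01`, `mix10` : `B0 ⊗ B1 → B01`, `B1 ⊗ B0 → B01`; `gr1_inl_id`, `gr0_inr_id` : the ideals of
  the universal points on the other chart are their kernels; `mix01_surjective`,
  `mix10_surjective`;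
* **`stmt_GMIX`** : `LocPrin` of the two diagonal ideals gives `LocPrin (ker mix01)` and
  `LocPrin (ker mix10)`.
-/
import Fermat.Agent.S25.Top.DefsS
import Fermat.Agent.S25.Top.H60_SGrDefs
import Fermat.Agent.S25.LB.H60_Unit

set_option autoImplicit false
set_option linter.style.haveILetI false
set_option linter.unusedSectionVars false

universe u

open TensorProduct

noncomputable section

namespace Fermat.Agent.S25.Top.S.H5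

open Fermat.Agent.S25 Fermat.Agent.S25.LB Fermat.Agent.S25.Top.S
open Fermat.Agent.S25.Top.S.H60 (LocPrin)

/-! ### The abstract descent -/

section Abs

variable {S0 S1 S' : Type u} [CommRing S0] [CommRing S1] [CommRing S']

/-- Extension: a local generator of `K` gives a local generator of `K.map φ`. -/
theorem ext_gen (φ : S0 →+* S') (K : Ideal S0) (t d : S0)
    (h : ∀ i ∈ K, ∃ b : S0, d * i = b * t) :
    ∀ i ∈ K.map φ, ∃ b : S', φ d * i = b * φ t := by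
  intro i hi
  refine Submodule.span_induction (p := fun i _ => ∃ b : S', φ d * i = b * φ t) ?_ ?_ ?_ ?_ hi
  · rintro _ ⟨j, hj, rfl⟩
    obtain ⟨b, hb⟩ := h j hj
    exact ⟨φ b, by rw [← map_mul, hb, map_mul]⟩
  · exact ⟨0, by rw [mul_zero, zero_mul]⟩
  · rintro a b _ _ ⟨ba, ha⟩ ⟨bb, hb⟩
    exact ⟨ba + bb, by rw [mul_add, ha, hb, add_mul]⟩
  · rintro c a _ ⟨ba, ha⟩
    exact ⟨c * ba, by rw [smul_eq_mul, mul_left_comm, ha, mul_assoc]⟩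

/-- **Descent of local principality** along a localisation `φ1 : S1 → S'` at `z`: if `K0` is
locally principal, then so is `φ1⁻¹ (φ0 K0 · S')`, provided it is finitely generated and `z` lies
in no prime containing it. -/
theorem locPrin_comap_map (φ0 : S0 →+* S') (φ1 : S1 →+* S') (z : S1)
    (hinj : Function.Injective φ1) (hunit : IsUnit (φ1 z))
    (hsurj : ∀ s' : S', ∃ (n : ℕ) (s : S1), φ1 z ^ n * s' = φ1 s)
    (K0 : Ideal S0) (hK0 : LocPrin K0)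
    (hfg : (Ideal.comap φ1 (Ideal.map φ0 K0)).FG)
    (hz : ∀ p : Ideal S1, p.IsPrime → Ideal.comap φ1 (Ideal.map φ0 K0) ≤ p → z ∉ p) :
    LocPrin (Ideal.comap φ1 (Ideal.map φ0 K0)) := by
  classical
  intro p hp
  by_cases hle : Ideal.comap φ1 (Ideal.map φ0 K0) ≤ p
  · have hzp : z ∉ p := hz p hp hle
    -- the prime of `S'` over `p`
    letI : Algebra S1 S' := φ1.toAlgebra
    haveI : IsLocalization.Away z S' := by
      refine IsLocalization.Away.mk z hunit ?_ ?_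
      · intro s'
        obtain ⟨n, s, hs⟩ := hsurj s'
        exact ⟨n, s, by rw [mul_comm]; exact hs⟩
      · intro a b hab
        exact ⟨0, by rw [pow_zero, one_mul, one_mul]; exact hinj hab⟩
    have hdisj : Disjoint (Submonoid.powers z : Set S1) (p : Set S1) := by
      rw [Set.disjoint_left]
      rintro _ ⟨n, rfl⟩ hn
      exact hzp (hp.mem_of_pow_mem n hn)
    have hp' : (Ideal.map φ1 p).IsPrime :=
      IsLocalization.isPrime_of_isPrime_disjoint (Submonoid.powers z) S' p hp hdisj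
    have hcm : Ideal.comap φ1 (Ideal.map φ1 p) = p :=
      IsLocalization.under_map_of_isPrime_disjoint (Submonoid.powers z) S' hp hdisj
    have hp0 : (Ideal.comap φ0 (Ideal.map φ1 p)).IsPrime := Ideal.comap_isPrime φ0 _
    obtain ⟨t0, d0, ht0, hd0, hgen0⟩ := hK0 _ hp0
    have hgen' := ext_gen φ0 K0 t0 d0 hgen0
    have hd' : φ0 d0 ∉ Ideal.map φ1 p := hd0
    have ht' : φ0 t0 ∈ Ideal.map φ0 K0 := Ideal.mem_map_of_mem φ0 ht0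
    obtain ⟨n, t1, hn⟩ := hsurj (φ0 t0)
    obtain ⟨m, d1, hm⟩ := hsurj (φ0 d0)
    have ht1 : t1 ∈ Ideal.comap φ1 (Ideal.map φ0 K0) := by
      rw [Ideal.mem_comap, ← hn]
      exact Ideal.mul_mem_left _ _ ht'
    have hzp' : ∀ j : ℕ, φ1 z ^ j ∉ Ideal.map φ1 p := by
      intro j hj
      have : z ^ j ∈ Ideal.comap φ1 (Ideal.map φ1 p) := by
        rw [Ideal.mem_comap, map_pow]; exact hj
      rw [hcm] at this
      exact hzp (hp.mem_of_pow_mem j this)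
    have hd1 : d1 ∉ p := by
      intro hd
      have h1 : φ1 d1 ∈ Ideal.map φ1 p := Ideal.mem_map_of_mem φ1 hd
      rw [← hm] at h1
      rcases hp'.mem_or_mem h1 with h2 | h2
      · exact hzp' m h2
      · exact hd' h2
    -- each element of the ideal, with its own exponent
    have key : ∀ i ∈ Ideal.comap φ1 (Ideal.map φ0 K0),
        ∃ (l : ℕ) (b : S1), d1 * z ^ (n + l) * i = b * t1 := by
      intro i hi
      obtain ⟨b', hb'⟩ := hgen' (φ1 i) hi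
      obtain ⟨l, b1, hl⟩ := hsurj b'
      refine ⟨l, z ^ m * b1, hinj ?_⟩
      rw [map_mul, map_mul, map_mul, map_mul, map_pow, map_pow, ← hm, ← hl, ← hn, pow_add]
      calc φ1 z ^ m * φ0 d0 * (φ1 z ^ n * φ1 z ^ l) * φ1 i
          = φ1 z ^ m * (φ1 z ^ n * φ1 z ^ l) * (φ0 d0 * φ1 i) := by ring
        _ = φ1 z ^ m * (φ1 z ^ n * φ1 z ^ l) * (b' * φ0 t0) := by rw [hb']
        _ = φ1 z ^ m * (φ1 z ^ l * b') * (φ1 z ^ n * φ0 t0) := by ring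
    obtain ⟨T, hT⟩ := hfg
    have hTmem : ∀ g ∈ T, g ∈ Ideal.comap φ1 (Ideal.map φ0 K0) := fun g hg => by
      rw [← hT]; exact Ideal.subset_span hg
    choose! l b hlb using key
    refine ⟨t1, d1 * z ^ (n + T.sup l), ht1, ?_, ?_⟩
    · intro hmem
      rcases hp.mem_or_mem hmem with h1 | h1
      · exact hd1 h1
      · exact hzp (hp.mem_of_pow_mem _ h1)
    · intro i hi
      rw [← hT] at hi
      refine Submodule.span_induction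
        (p := fun i _ => ∃ b : S1, d1 * z ^ (n + T.sup l) * i = b * t1) ?_ ?_ ?_ ?_ hi
      · intro g hg
        have hle : l g ≤ T.sup l := Finset.le_sup hg
        refine ⟨z ^ (T.sup l - l g) * b g, ?_⟩
        have e : n + T.sup l = (n + l g) + (T.sup l - l g) := by omega
        rw [e, pow_add]
        calc d1 * (z ^ (n + l g) * z ^ (T.sup l - l g)) * g
            = z ^ (T.sup l - l g) * (d1 * z ^ (n + l g) * g) := by ring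
          _ = z ^ (T.sup l - l g) * (b g * t1) := by rw [hlb g (hTmem g hg)]
          _ = z ^ (T.sup l - l g) * b g * t1 := by ring
      · exact ⟨0, by rw [mul_zero, zero_mul]⟩
      · rintro a c _ _ ⟨ba, ha⟩ ⟨bc, hc⟩
        exact ⟨ba + bc, by rw [mul_add, ha, hc, add_mul]⟩
      · rintro c a _ ⟨ba, ha⟩
        exact ⟨c * ba, by rw [smul_eq_mul, mul_left_comm, ha, mul_assoc]⟩
  · -- `p` does not contain the ideal
    obtain ⟨t, ht, htp⟩ := Set.not_subset.mp hle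
    exact ⟨t, t, ht, htp, fun i _ => ⟨i, mul_comm t i⟩⟩

/-- For a localisation `φ : S → S'` at `z`: `φ (φ⁻¹ J) · S' = J`. -/
theorem map_comap_of_surj (φ : S1 →+* S') (z : S1) (w : S') (hw : w * φ z = 1)
    (hsurj : ∀ s' : S', ∃ (n : ℕ) (s : S1), φ z ^ n * s' = φ s) (J : Ideal S') :
    (J.comap φ).map φ = J := by
  refine le_antisymm Ideal.map_comap_le fun y hy => ?_
  obtain ⟨n, s, hs⟩ := hsurj y
  have hsJ : s ∈ J.comap φ := by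
    rw [Ideal.mem_comap, ← hs]
    exact Ideal.mul_mem_left _ _ hy
  have e : y = w ^ n * φ s := by
    rw [← hs, ← mul_assoc, ← mul_pow, hw, one_pow, one_mul]
  rw [e]
  exact Ideal.mul_mem_left _ _ (Ideal.mem_map_of_mem φ hsJ)

end Abs

/-! ### The two charts of a good curve datum -/

section Charts

variable {k : Type u} [Field k] {𝒞 : CurveDatum k} (R : Type u) [CommRing R] [Algebra k R]

theorem unit10 : ((1 : R) ⊗ₜ[k] 𝒞.i1 𝒞.z1 : R ⊗[k] 𝒞.B01) * ((1 : R) ⊗ₜ[k] 𝒞.i0 𝒞.x0) = 1 := by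
  rw [mul_comm]
  exact Triple.unit_mul_unit 𝒞 R

theorem map_comap_ι0 (h : 𝒞.IsGood) (J : Ideal (R ⊗[k] 𝒞.B01)) :
    (J.comap (𝒞.ι0 R)).map (𝒞.ι0 R) = J :=
  map_comap_of_surj (𝒞.ι0 R) ((1 : R) ⊗ₜ[k] 𝒞.x0) ((1 : R) ⊗ₜ[k] 𝒞.i1 𝒞.z1) (unit10 R)
    (fun m => H60.surj0_unit R h m) J

theorem map_comap_ι1 (h : 𝒞.IsGood) (J : Ideal (R ⊗[k] 𝒞.B01)) :
    (J.comap (𝒞.ι1 R)).map (𝒞.ι1 R) = J :=
  map_comap_of_surj (𝒞.ι1 R) ((1 : R) ⊗ₜ[k] 𝒞.z1) ((1 : R) ⊗ₜ[k] 𝒞.i0 𝒞.x0)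
    (Triple.unit_mul_unit 𝒞 R) (fun m => H60.surj1_unit R h m) J

variable {R}

theorem gr0_inl (β : 𝒞.B0 →ₐ[k] R) :
    gr0 (Sum.inl β : CPt 𝒞 R) = RingHom.ker (ev0 β) := rfl

theorem gr1_inl (β : 𝒞.B0 →ₐ[k] R) :
    gr1 (Sum.inl β : CPt 𝒞 R)
      = Ideal.comap (𝒞.ι1 R) (Ideal.map (𝒞.ι0 R) (gr0 (Sum.inl β : CPt 𝒞 R))) := rfl

theorem gr1_inr (β : 𝒞.B1 →ₐ[k] R) :
    gr1 (Sum.inr β : CPt 𝒞 R) = RingHom.ker (ev1 β) := rfl

theorem gr0_inr (β : 𝒞.B1 →ₐ[k] R) :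
    gr0 (Sum.inr β : CPt 𝒞 R)
      = Ideal.comap (𝒞.ι0 R) (Ideal.map (𝒞.ι1 R) (gr1 (Sum.inr β : CPt 𝒞 R))) := rfl

/-- **The overlap clause of `IsRelDiv`**, for every point and every `R`. -/
theorem overlap_eq (h : 𝒞.IsGood) (β : CPt 𝒞 R) :
    (gr0 β).map (𝒞.ι0 R) = (gr1 β).map (𝒞.ι1 R) := by
  rcases β with β | β
  · rw [gr1_inl, map_comap_ι1 R h]
  · rw [gr0_inr, map_comap_ι0 R h]

theorem ev0_tmul (β : 𝒞.B0 →ₐ[k] R) (r : R) (b : 𝒞.B0) : ev0 β (r ⊗ₜ[k] b) = r * β b := by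
  unfold ev0
  rw [Algebra.TensorProduct.lift_tmul]
  rfl

theorem ev1_tmul (β : 𝒞.B1 →ₐ[k] R) (r : R) (b : 𝒞.B1) : ev1 β (r ⊗ₜ[k] b) = r * β b := by
  unfold ev1
  rw [Algebra.TensorProduct.lift_tmul]
  rfl

/-- `β x0 ⊗ z1 - 1` lies in the ideal of the graph of `β : B0 → R` on the chart `V1`. -/
theorem mixElt1_mem (β : 𝒞.B0 →ₐ[k] R) :
    (β 𝒞.x0 ⊗ₜ[k] 𝒞.z1 - 1 : R ⊗[k] 𝒞.B1) ∈ gr1 (Sum.inl β : CPt 𝒞 R) := by
  rw [gr1_inl, Ideal.mem_comap]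
  have h0 : (β 𝒞.x0 ⊗ₜ[k] (1 : 𝒞.B0) - (1 : R) ⊗ₜ[k] 𝒞.x0 : R ⊗[k] 𝒞.B0)
      ∈ gr0 (Sum.inl β : CPt 𝒞 R) := by
    rw [gr0_inl, RingHom.mem_ker, map_sub, ev0_tmul, ev0_tmul, map_one, mul_one, one_mul,
      sub_self]
  have e : 𝒞.ι1 R (β 𝒞.x0 ⊗ₜ[k] 𝒞.z1 - 1)
      = ((1 : R) ⊗ₜ[k] 𝒞.i1 𝒞.z1 : R ⊗[k] 𝒞.B01)
        * 𝒞.ι0 R (β 𝒞.x0 ⊗ₜ[k] (1 : 𝒞.B0) - (1 : R) ⊗ₜ[k] 𝒞.x0) := by
    rw [map_sub, map_sub, map_one, H60.ι1_tmul, H60.ι0_tmul, H60.ι0_tmul, mul_sub, unit10,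
      Algebra.TensorProduct.tmul_mul_tmul, one_mul, map_one, mul_one]
  rw [e]
  exact Ideal.mul_mem_left _ _ (Ideal.mem_map_of_mem _ h0)

/-- `β z1 ⊗ x0 - 1` lies in the ideal of the graph of `β : B1 → R` on the chart `V0`. -/
theorem mixElt0_mem (β : 𝒞.B1 →ₐ[k] R) :
    (β 𝒞.z1 ⊗ₜ[k] 𝒞.x0 - 1 : R ⊗[k] 𝒞.B0) ∈ gr0 (Sum.inr β : CPt 𝒞 R) := by
  rw [gr0_inr, Ideal.mem_comap]
  have h0 : (β 𝒞.z1 ⊗ₜ[k] (1 : 𝒞.B1) - (1 : R) ⊗ₜ[k] 𝒞.z1 : R ⊗[k] 𝒞.B1)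
      ∈ gr1 (Sum.inr β : CPt 𝒞 R) := by
    rw [gr1_inr, RingHom.mem_ker, map_sub, ev1_tmul, ev1_tmul, map_one, mul_one, one_mul,
      sub_self]
  have e : 𝒞.ι0 R (β 𝒞.z1 ⊗ₜ[k] 𝒞.x0 - 1)
      = ((1 : R) ⊗ₜ[k] 𝒞.i0 𝒞.x0 : R ⊗[k] 𝒞.B01)
        * 𝒞.ι1 R (β 𝒞.z1 ⊗ₜ[k] (1 : 𝒞.B1) - (1 : R) ⊗ₜ[k] 𝒞.z1) := by
    rw [map_sub, map_sub, map_one, H60.ι0_tmul, H60.ι1_tmul, H60.ι1_tmul, mul_sub,
      Triple.unit_mul_unit, Algebra.TensorProduct.tmul_mul_tmul, one_mul, map_one, mul_one]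
  rw [e]
  exact Ideal.mul_mem_left _ _ (Ideal.mem_map_of_mem _ h0)

/-- `1 ⊗ z1` lies in no prime containing the ideal of the graph of `β : B0 → R` on `V1`. -/
theorem z_notMem (β : 𝒞.B0 →ₐ[k] R) (p : Ideal (R ⊗[k] 𝒞.B1)) (hp : p.IsPrime)
    (hle : gr1 (Sum.inl β : CPt 𝒞 R) ≤ p) : ((1 : R) ⊗ₜ[k] 𝒞.z1 : R ⊗[k] 𝒞.B1) ∉ p := by
  intro hz
  have h1 : (β 𝒞.x0 ⊗ₜ[k] 𝒞.z1 : R ⊗[k] 𝒞.B1) ∈ p := by
    have e : (β 𝒞.x0 ⊗ₜ[k] 𝒞.z1 : R ⊗[k] 𝒞.B1)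
        = (β 𝒞.x0 ⊗ₜ[k] (1 : 𝒞.B1)) * ((1 : R) ⊗ₜ[k] 𝒞.z1) := by
      rw [Algebra.TensorProduct.tmul_mul_tmul, mul_one, one_mul]
    rw [e]
    exact Ideal.mul_mem_left _ _ hz
  have h2 := hle (mixElt1_mem β)
  have h3 : (1 : R ⊗[k] 𝒞.B1) ∈ p := by
    have := p.sub_mem h1 h2
    rwa [sub_sub_cancel] at this
  exact hp.ne_top ((Ideal.eq_top_iff_one p).mpr h3)

/-- `1 ⊗ x0` lies in no prime containing the ideal of the graph of `β : B1 → R` on `V0`. -/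
theorem x_notMem (β : 𝒞.B1 →ₐ[k] R) (p : Ideal (R ⊗[k] 𝒞.B0)) (hp : p.IsPrime)
    (hle : gr0 (Sum.inr β : CPt 𝒞 R) ≤ p) : ((1 : R) ⊗ₜ[k] 𝒞.x0 : R ⊗[k] 𝒞.B0) ∉ p := by
  intro hz
  have h1 : (β 𝒞.z1 ⊗ₜ[k] 𝒞.x0 : R ⊗[k] 𝒞.B0) ∈ p := by
    have e : (β 𝒞.z1 ⊗ₜ[k] 𝒞.x0 : R ⊗[k] 𝒞.B0)
        = (β 𝒞.z1 ⊗ₜ[k] (1 : 𝒞.B0)) * ((1 : R) ⊗ₜ[k] 𝒞.x0) := by
      rw [Algebra.TensorProduct.tmul_mul_tmul, mul_one, one_mul]
    rw [e]
    exact Ideal.mul_mem_left _ _ hz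
  have h2 := hle (mixElt0_mem β)
  have h3 : (1 : R ⊗[k] 𝒞.B0) ∈ p := by
    have := p.sub_mem h1 h2
    rwa [sub_sub_cancel] at this
  exact hp.ne_top ((Ideal.eq_top_iff_one p).mpr h3)

/-- **G-MIX**, chart `V0` to chart `V1`, any `R`. -/
theorem locPrin_gr1_inl (h : 𝒞.IsGood) (β : 𝒞.B0 →ₐ[k] R)
    (hfg : (gr1 (Sum.inl β : CPt 𝒞 R)).FG)
    (hD : LocPrin (gr0 (Sum.inl β : CPt 𝒞 R))) : LocPrin (gr1 (Sum.inl β : CPt 𝒞 R)) := by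
  rw [gr1_inl] at hfg ⊢
  refine locPrin_comap_map (𝒞.ι0 R) (𝒞.ι1 R) ((1 : R) ⊗ₜ[k] 𝒞.z1) (H60.ι1_injective R h)
    ?_ (fun m => H60.surj1_unit R h m) _ hD hfg (fun p hp hle => z_notMem β p hp hle)
  exact IsUnit.of_mul_eq_one _ (unit10 R)

/-- **G-MIX**, chart `V1` to chart `V0`, any `R`. -/
theorem locPrin_gr0_inr (h : 𝒞.IsGood) (β : 𝒞.B1 →ₐ[k] R)
    (hfg : (gr0 (Sum.inr β : CPt 𝒞 R)).FG)
    (hD : LocPrin (gr1 (Sum.inr β : CPt 𝒞 R))) : LocPrin (gr0 (Sum.inr β : CPt 𝒞 R)) := by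
  rw [gr0_inr] at hfg ⊢
  refine locPrin_comap_map (𝒞.ι1 R) (𝒞.ι0 R) ((1 : R) ⊗ₜ[k] 𝒞.x0) (H60.ι0_injective R h)
    ?_ (fun m => H60.surj0_unit R h m) _ hD hfg (fun p hp hle => x_notMem β p hp hle)
  exact IsUnit.of_mul_eq_one _ (Triple.unit_mul_unit 𝒞 R)

end Charts

/-! ### The universal points -/

section Univ

variable {k : Type u} [Field k] (𝒞 : CurveDatum k)

/-- `B0 ⊗ B1 → B01`, `a ⊗ b ↦ i0 a * i1 b`. -/
def mix01 : (𝒞.B0 ⊗[k] 𝒞.B1) →ₐ[k] 𝒞.B01 :=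
  Algebra.TensorProduct.lift 𝒞.i0 𝒞.i1 (fun _ _ => Commute.all _ _)

/-- `B1 ⊗ B0 → B01`, `b ⊗ a ↦ i1 b * i0 a`. -/
def mix10 : (𝒞.B1 ⊗[k] 𝒞.B0) →ₐ[k] 𝒞.B01 :=
  Algebra.TensorProduct.lift 𝒞.i1 𝒞.i0 (fun _ _ => Commute.all _ _)

/-- `B0 ⊗ B01 → B01`, `a ⊗ c ↦ i0 a * c`. -/
def mid0 : (𝒞.B0 ⊗[k] 𝒞.B01) →ₐ[k] 𝒞.B01 :=
  Algebra.TensorProduct.lift 𝒞.i0 (AlgHom.id k 𝒞.B01) (fun _ _ => Commute.all _ _)

/-- `B1 ⊗ B01 → B01`, `b ⊗ c ↦ i1 b * c`. -/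
def mid1 : (𝒞.B1 ⊗[k] 𝒞.B01) →ₐ[k] 𝒞.B01 :=
  Algebra.TensorProduct.lift 𝒞.i1 (AlgHom.id k 𝒞.B01) (fun _ _ => Commute.all _ _)

variable {𝒞}

theorem mix01_tmul (a : 𝒞.B0) (b : 𝒞.B1) : mix01 𝒞 (a ⊗ₜ[k] b) = 𝒞.i0 a * 𝒞.i1 b := by
  unfold mix01
  rw [Algebra.TensorProduct.lift_tmul]

theorem mix10_tmul (b : 𝒞.B1) (a : 𝒞.B0) : mix10 𝒞 (b ⊗ₜ[k] a) = 𝒞.i1 b * 𝒞.i0 a := by
  unfold mix10
  rw [Algebra.TensorProduct.lift_tmul]

theorem mid0_tmul (a : 𝒞.B0) (c : 𝒞.B01) : mid0 𝒞 (a ⊗ₜ[k] c) = 𝒞.i0 a * c := by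
  unfold mid0
  rw [Algebra.TensorProduct.lift_tmul]
  rfl

theorem mid1_tmul (b : 𝒞.B1) (c : 𝒞.B01) : mid1 𝒞 (b ⊗ₜ[k] c) = 𝒞.i1 b * c := by
  unfold mid1
  rw [Algebra.TensorProduct.lift_tmul]
  rfl

theorem mid0_ι1 (x : 𝒞.B0 ⊗[k] 𝒞.B1) : mid0 𝒞 (𝒞.ι1 𝒞.B0 x) = mix01 𝒞 x := by
  induction x using TensorProduct.induction_on with
  | zero => rw [map_zero, map_zero, map_zero]
  | tmul a b => rw [H60.ι1_tmul, mid0_tmul, mix01_tmul]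
  | add x y hx hy => rw [map_add, map_add, map_add, hx, hy]

theorem mid1_ι0 (x : 𝒞.B1 ⊗[k] 𝒞.B0) : mid1 𝒞 (𝒞.ι0 𝒞.B1 x) = mix10 𝒞 x := by
  induction x using TensorProduct.induction_on with
  | zero => rw [map_zero, map_zero, map_zero]
  | tmul a b => rw [H60.ι0_tmul, mid1_tmul, mix10_tmul]
  | add x y hx hy => rw [map_add, map_add, map_add, hx, hy]

theorem mid0_ι0 (y : 𝒞.B0 ⊗[k] 𝒞.B0) :
    mid0 𝒞 (𝒞.ι0 𝒞.B0 y) = 𝒞.i0 (ev0 (AlgHom.id k 𝒞.B0) y) := by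
  induction y using TensorProduct.induction_on with
  | zero => rw [map_zero, map_zero, map_zero, map_zero]
  | tmul a b => rw [H60.ι0_tmul, mid0_tmul, ev0_tmul, map_mul]; rfl
  | add x y hx hy => rw [map_add, map_add, map_add, map_add, hx, hy]

theorem mid1_ι1 (y : 𝒞.B1 ⊗[k] 𝒞.B1) :
    mid1 𝒞 (𝒞.ι1 𝒞.B1 y) = 𝒞.i1 (ev1 (AlgHom.id k 𝒞.B1) y) := by
  induction y using TensorProduct.induction_on with
  | zero => rw [map_zero, map_zero, map_zero, map_zero]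
  | tmul a b => rw [H60.ι1_tmul, mid1_tmul, ev1_tmul, map_mul]; rfl
  | add x y hx hy => rw [map_add, map_add, map_add, map_add, hx, hy]

/-- The ideal of the universal point of `V0` on `V0` is the ideal of the diagonal. -/
theorem gr0_inl_id :
    gr0 (Sum.inl (AlgHom.id k 𝒞.B0) : CPt 𝒞 𝒞.B0) = KaehlerDifferential.ideal k 𝒞.B0 := by
  have e : ∀ x : 𝒞.B0 ⊗[k] 𝒞.B0,
      ev0 (AlgHom.id k 𝒞.B0) x = Algebra.TensorProduct.lmul' k x := by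
    intro x
    induction x using TensorProduct.induction_on with
    | zero => rw [map_zero, map_zero]
    | tmul a b => rw [ev0_tmul, Algebra.TensorProduct.lmul'_apply_tmul]; rfl
    | add x y hx hy => rw [map_add, map_add, hx, hy]
  ext x
  rw [gr0_inl, RingHom.mem_ker, KaehlerDifferential.ideal, RingHom.mem_ker]
  exact Eq.congr_left (e x)

/-- The ideal of the universal point of `V1` on `V1` is the ideal of the diagonal. -/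
theorem gr1_inr_id :
    gr1 (Sum.inr (AlgHom.id k 𝒞.B1) : CPt 𝒞 𝒞.B1) = KaehlerDifferential.ideal k 𝒞.B1 := by
  have e : ∀ x : 𝒞.B1 ⊗[k] 𝒞.B1,
      ev1 (AlgHom.id k 𝒞.B1) x = Algebra.TensorProduct.lmul' k x := by
    intro x
    induction x using TensorProduct.induction_on with
    | zero => rw [map_zero, map_zero]
    | tmul a b => rw [ev1_tmul, Algebra.TensorProduct.lmul'_apply_tmul]; rfl
    | add x y hx hy => rw [map_add, map_add, hx, hy]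
  ext x
  rw [gr1_inr, RingHom.mem_ker, KaehlerDifferential.ideal, RingHom.mem_ker]
  exact Eq.congr_left (e x)

theorem map_ι0_ker (h : 𝒞.IsGood) :
    Ideal.map (𝒞.ι0 𝒞.B0) (gr0 (Sum.inl (AlgHom.id k 𝒞.B0) : CPt 𝒞 𝒞.B0))
      = RingHom.ker (mid0 𝒞) := by
  refine le_antisymm ?_ fun y hy => ?_
  · rw [Ideal.map_le_iff_le_comap]
    intro y hy
    rw [gr0_inl, RingHom.mem_ker] at hy
    rw [Ideal.mem_comap, RingHom.mem_ker, mid0_ι0, hy, map_zero]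
  · rw [RingHom.mem_ker] at hy
    obtain ⟨n, p, hp⟩ := H60.surj0_unit 𝒞.B0 h y
    have h1 : 𝒞.i0 (ev0 (AlgHom.id k 𝒞.B0) p) = 0 := by
      rw [← mid0_ι0, ← hp, map_mul, hy, mul_zero]
    have h2 : ev0 (AlgHom.id k 𝒞.B0) p = 0 :=
      H60.i0_injective h (by rw [h1, map_zero])
    have e : y = ((1 : 𝒞.B0) ⊗ₜ[k] 𝒞.i1 𝒞.z1 : 𝒞.B0 ⊗[k] 𝒞.B01) ^ n * 𝒞.ι0 𝒞.B0 p := by
      rw [← hp, ← mul_assoc, ← mul_pow, unit10, one_pow, one_mul]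
    rw [e]
    exact Ideal.mul_mem_left _ _ (Ideal.mem_map_of_mem _ h2)

theorem map_ι1_ker (h : 𝒞.IsGood) :
    Ideal.map (𝒞.ι1 𝒞.B1) (gr1 (Sum.inr (AlgHom.id k 𝒞.B1) : CPt 𝒞 𝒞.B1))
      = RingHom.ker (mid1 𝒞) := by
  refine le_antisymm ?_ fun y hy => ?_
  · rw [Ideal.map_le_iff_le_comap]
    intro y hy
    rw [gr1_inr, RingHom.mem_ker] at hy
    rw [Ideal.mem_comap, RingHom.mem_ker, mid1_ι1, hy, map_zero]
  · rw [RingHom.mem_ker] at hy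
    obtain ⟨n, p, hp⟩ := H60.surj1_unit 𝒞.B1 h y
    have h1 : 𝒞.i1 (ev1 (AlgHom.id k 𝒞.B1) p) = 0 := by
      rw [← mid1_ι1, ← hp, map_mul, hy, mul_zero]
    have h2 : ev1 (AlgHom.id k 𝒞.B1) p = 0 :=
      H60.i1_injective h (by rw [h1, map_zero])
    have e : y = ((1 : 𝒞.B1) ⊗ₜ[k] 𝒞.i0 𝒞.x0 : 𝒞.B1 ⊗[k] 𝒞.B01) ^ n * 𝒞.ι1 𝒞.B1 p := by
      rw [← hp, ← mul_assoc, ← mul_pow, Triple.unit_mul_unit, one_pow, one_mul]
    rw [e]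
    exact Ideal.mul_mem_left _ _ (Ideal.mem_map_of_mem _ h2)

/-- The ideal of the universal point of `V0` on `V1` is the kernel of `B0 ⊗ B1 → B01`. -/
theorem gr1_inl_id (h : 𝒞.IsGood) :
    gr1 (Sum.inl (AlgHom.id k 𝒞.B0) : CPt 𝒞 𝒞.B0) = RingHom.ker (mix01 𝒞) := by
  ext x
  rw [gr1_inl, Ideal.mem_comap, map_ι0_ker h, RingHom.mem_ker, RingHom.mem_ker]
  exact Eq.congr_left (mid0_ι1 x)

/-- The ideal of the universal point of `V1` on `V0` is the kernel of `B1 ⊗ B0 → B01`. -/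
theorem gr0_inr_id (h : 𝒞.IsGood) :
    gr0 (Sum.inr (AlgHom.id k 𝒞.B1) : CPt 𝒞 𝒞.B1) = RingHom.ker (mix10 𝒞) := by
  ext x
  rw [gr0_inr, Ideal.mem_comap, map_ι1_ker h, RingHom.mem_ker, RingHom.mem_ker]
  exact Eq.congr_left (mid1_ι0 x)

theorem mix01_surjective (h : 𝒞.IsGood) : Function.Surjective (mix01 𝒞) := by
  letI : Algebra 𝒞.B1 𝒞.B01 := 𝒞.i1.toRingHom.toAlgebra
  haveI : IsLocalization.Away 𝒞.z1 𝒞.B01 := h.loc1
  intro c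
  obtain ⟨n, b1, hb⟩ := IsLocalization.Away.surj 𝒞.z1 c
  have hb' : c * 𝒞.i1 𝒞.z1 ^ n = 𝒞.i1 b1 := hb
  refine ⟨(𝒞.x0 ^ n) ⊗ₜ[k] b1, ?_⟩
  rw [mix01_tmul, ← hb', map_pow, mul_comm c, ← mul_assoc, ← mul_pow, 𝒞.hxz, one_pow, one_mul]

theorem mix10_surjective (h : 𝒞.IsGood) : Function.Surjective (mix10 𝒞) := by
  letI : Algebra 𝒞.B0 𝒞.B01 := 𝒞.i0.toRingHom.toAlgebra
  haveI : IsLocalization.Away 𝒞.x0 𝒞.B01 := h.loc0
  intro c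
  obtain ⟨n, b0, hb⟩ := IsLocalization.Away.surj 𝒞.x0 c
  have hb' : c * 𝒞.i0 𝒞.x0 ^ n = 𝒞.i0 b0 := hb
  refine ⟨(𝒞.z1 ^ n) ⊗ₜ[k] b0, ?_⟩
  rw [mix10_tmul, ← hb', map_pow, mul_comm c, ← mul_assoc, ← mul_pow, mul_comm (𝒞.i1 𝒞.z1),
    𝒞.hxz, one_pow, one_mul]

/-- `B ⊗ B'` is noetherian for `B`, `B'` of finite type over the field `k`. -/
theorem isNoetherianRing_tensor (B B' : Type u) [CommRing B] [CommRing B'] [Algebra k B]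
    [Algebra k B'] [Algebra.FiniteType k B] [Algebra.FiniteType k B'] :
    IsNoetherianRing (B ⊗[k] B') := by
  haveI : IsNoetherianRing B := Algebra.FiniteType.isNoetherianRing k B
  exact Algebra.FiniteType.isNoetherianRing B (B ⊗[k] B')

/-- **G-MIX** for the universal point of `V0`. -/
theorem gmix_univ0 (h : 𝒞.IsGood)
    (hD : LocPrin (gr0 (Sum.inl (AlgHom.id k 𝒞.B0) : CPt 𝒞 𝒞.B0))) :
    LocPrin (gr1 (Sum.inl (AlgHom.id k 𝒞.B0) : CPt 𝒞 𝒞.B0)) := by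
  haveI := h.smooth0
  haveI := h.smooth1
  haveI : IsNoetherianRing (𝒞.B0 ⊗[k] 𝒞.B1) := isNoetherianRing_tensor 𝒞.B0 𝒞.B1
  exact locPrin_gr1_inl h _ (IsNoetherian.noetherian _) hD

/-- **G-MIX** for the universal point of `V1`. -/
theorem gmix_univ1 (h : 𝒞.IsGood)
    (hD : LocPrin (gr1 (Sum.inr (AlgHom.id k 𝒞.B1) : CPt 𝒞 𝒞.B1))) :
    LocPrin (gr0 (Sum.inr (AlgHom.id k 𝒞.B1) : CPt 𝒞 𝒞.B1)) := by
  haveI := h.smooth0
  haveI := h.smooth1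
  haveI : IsNoetherianRing (𝒞.B1 ⊗[k] 𝒞.B0) := isNoetherianRing_tensor 𝒞.B1 𝒞.B0
  exact locPrin_gr0_inr h _ (IsNoetherian.noetherian _) hD

/-- **G-MIX** (helper60's form): local principality of the two diagonal ideals gives local
principality of the kernels of `B0 ⊗ B1 → B01` and `B1 ⊗ B0 → B01`. -/
theorem stmt_GMIX (h : 𝒞.IsGood) (hD0 : LocPrin (KaehlerDifferential.ideal k 𝒞.B0))
    (hD1 : LocPrin (KaehlerDifferential.ideal k 𝒞.B1)) :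
    LocPrin (RingHom.ker (mix01 𝒞)) ∧ LocPrin (RingHom.ker (mix10 𝒞)) := by
  rw [← gr0_inl_id] at hD0
  rw [← gr1_inr_id] at hD1
  rw [← gr1_inl_id h, ← gr0_inr_id h]
  exact ⟨gmix_univ0 h hD0, gmix_univ1 h hD1⟩

end Univ

end Fermat.Agent.S25.Top.S.H5
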