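import Mathlib
import Fermat.Agent.S25.Num.H50_Ded

/-!
# S25, TOP-SURJ, S-GRINV sub-cut G-RANK (helper9): the differentials of a chart are locally cyclic

`OmegaCyc k B`: for every prime `q` of `B` there are `ω : Ω[B⁄k]` and `b ∉ q` with `b • Ω ⊆ B ω`.
Proved for every Dedekind domain `B` of finite type over an algebraically closed field `k`
(a maximal ideal `m` is the kernel of a point, `m = (t) + m²`, hence `Ω = B dt + m Ω`, Nakayama),
in particular for the two charts `B0`, `B1` of a good curve datum.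
-/

set_option autoImplicit false
set_option linter.style.haveILetI false
set_option linter.unusedSectionVars false

universe u

open KaehlerDifferential

namespace Fermat.Agent.S25.Top.S.H9

open Fermat.Agent.S25 LB

/-- `Ω[B⁄k]` is locally generated by one element. -/
def OmegaCyc (k B : Type u) [CommRing k] [CommRing B] [Algebra k B] : Prop :=
  ∀ q : Ideal B, q.IsPrime →
    ∃ (ω : Ω[B⁄k]) (b : B), b ∉ q ∧ ∀ η : Ω[B⁄k], ∃ c : B, b • η = c • ω

section Gen

variable {k B : Type u} [Field k] [CommRing B] [Algebra k B]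

/-- the differential of an element of `m²` lies in `m Ω` -/
theorem D_mem_smul_top_of_mem_sq (m : Ideal B) {e : B} (he : e ∈ m ^ 2) :
    D k B e ∈ m • (⊤ : Submodule B Ω[B⁄k]) := by
  rw [pow_two] at he
  refine Submodule.mul_induction_on he ?_ ?_
  · intro u hu v hv
    rw [Derivation.leibniz]
    exact add_mem (Submodule.smul_mem_smul hu trivial) (Submodule.smul_mem_smul hv trivial)
  · intro x y hx hy
    rw [map_add]
    exact add_mem hx hy

/-- if `m = ker φ` for a point `φ` and `m = (t) + m²`, then `Ω = B dt + m Ω` -/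
theorem top_le_span_sup_smul (φ : B →ₐ[k] k) (t : B)
    (ht : ∀ n ∈ RingHom.ker φ.toRingHom, ∃ d : B, ∃ e ∈ (RingHom.ker φ.toRingHom) ^ 2,
      t * d + e = n) (htm : t ∈ RingHom.ker φ.toRingHom) :
    (⊤ : Submodule B Ω[B⁄k]) ≤
      Submodule.span B {D k B t} ⊔ (RingHom.ker φ.toRingHom) • (⊤ : Submodule B Ω[B⁄k]) := by
  have key : Submodule.span B (Set.range (D k B)) ≤
      Submodule.span B {D k B t} ⊔ (RingHom.ker φ.toRingHom) • (⊤ : Submodule B Ω[B⁄k]) := by
    rw [Submodule.span_le]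
    rintro _ ⟨b, rfl⟩
    have hn : b - algebraMap k B (φ b) ∈ RingHom.ker φ.toRingHom := by
      rw [RingHom.mem_ker]
      change φ (b - algebraMap k B (φ b)) = 0
      rw [map_sub, AlgHom.commutes, Algebra.algebraMap_self_apply, sub_self]
    obtain ⟨d, e, he, hde⟩ := ht _ hn
    have hb : D k B b = d • D k B t + (t • D k B d + D k B e) := by
      have h1 : D k B b = D k B (b - algebraMap k B (φ b)) := by
        rw [map_sub, Derivation.map_algebraMap, sub_zero]
      rw [h1, ← hde, map_add, Derivation.leibniz]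
      abel
    change D k B b ∈ _
    rw [hb]
    refine add_mem (Submodule.mem_sup_left
      (Submodule.smul_mem _ d (Submodule.mem_span_singleton_self _))) (Submodule.mem_sup_right ?_)
    exact add_mem (Submodule.smul_mem_smul htm trivial) (D_mem_smul_top_of_mem_sq _ he)
  rwa [KaehlerDifferential.span_range_derivation] at key

variable (k B)

/-- **G-RANK, general form**: the differentials of a Dedekind domain of finite type over an
algebraically closed field are locally cyclic. -/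
theorem omegaCyc_of_isDedekindDomain [IsAlgClosed k] [IsDedekindDomain B]
    [Algebra.FiniteType k B] : OmegaCyc k B := by
  intro q hq
  obtain ⟨m, hm, hqm⟩ := Ideal.exists_le_maximal q hq.ne_top
  haveI := hm
  obtain ⟨φ, hφ⟩ := Num.H50.exists_point_of_isMaximal k B m
  -- a generator of `m` modulo `m²`
  have hex : ∃ t ∈ m, ∀ n ∈ m, ∃ d : B, ∃ e ∈ m ^ 2, t * d + e = n := by
    by_cases hm0 : m = ⊥
    · refine ⟨0, m.zero_mem, fun n hn => ⟨0, 0, zero_mem _, ?_⟩⟩
      rw [hm0, Ideal.mem_bot] at hn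
      rw [hn, mul_zero, add_zero]
    · obtain ⟨t, ht1, ht2⟩ := Ideal.exists_mem_pow_notMem_pow_succ m hm0 hm.ne_top 1
      rw [pow_one] at ht1
      refine ⟨t, ht1, fun n hn => ?_⟩
      exact Ideal.exists_mul_add_mem_pow_succ hm0 t n (by rwa [pow_one]) ht2 (by rwa [pow_one])
  obtain ⟨t, htm, ht⟩ := hex
  have hle := top_le_span_sup_smul (k := k) φ t (by rw [hφ]; exact ht) (by rw [hφ]; exact htm)
  rw [hφ] at hle
  obtain ⟨r, hr1, hr⟩ := Submodule.exists_sub_one_mem_and_smul_le_of_fg_of_le_sup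
    (N := Submodule.span B {D k B t}) (N' := (⊤ : Submodule B Ω[B⁄k])) (P := ⊤) (I := m)
    Module.Finite.fg_top le_rfl hle
  refine ⟨D k B t, r, ?_, fun η => ?_⟩
  · intro hrq
    have h1 : r ∈ m := hqm hrq
    have h2 : (1 : B) ∈ m := by
      have := m.sub_mem h1 hr1
      rwa [sub_sub_cancel] at this
    exact hm.ne_top ((Ideal.eq_top_iff_one m).2 h2)
  · have h1 : r • η ∈ Submodule.span B {D k B t} :=
      hr (Submodule.smul_mem_pointwise_smul η r ⊤ trivial)
    obtain ⟨c, hc⟩ := Submodule.mem_span_singleton.1 h1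
    exact ⟨c, hc.symm⟩

end Gen

variable {k : Type u} [Field k] [IsAlgClosed k] {𝒞 : CurveDatum k}

/-- **G-RANK** for the chart `B0`. -/
theorem omegaCyc_B0 (h : 𝒞.IsGood) : OmegaCyc k 𝒞.B0 :=
  haveI := Num.H50.isDedekindDomain_B0 𝒞 h
  haveI := Num.H50.finiteType_B0 𝒞 h
  omegaCyc_of_isDedekindDomain k 𝒞.B0

/-- **G-RANK** for the chart `B1`. -/
theorem omegaCyc_B1 (h : 𝒞.IsGood) : OmegaCyc k 𝒞.B1 :=
  haveI := Num.H50.isDedekindDomain_B1 𝒞 h
  haveI := Num.H50.finiteType_B1 𝒞 h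
  omegaCyc_of_isDedekindDomain k 𝒞.B1

/-- **G-RANK**, unfolded form. -/
theorem stmt_GRANK (h : 𝒞.IsGood) :
    (∀ q : Ideal 𝒞.B0, q.IsPrime →
      ∃ (ω : Ω[𝒞.B0⁄k]) (b : 𝒞.B0), b ∉ q ∧ ∀ η : Ω[𝒞.B0⁄k], ∃ c : 𝒞.B0, b • η = c • ω) ∧
    (∀ q : Ideal 𝒞.B1, q.IsPrime →
      ∃ (ω : Ω[𝒞.B1⁄k]) (b : 𝒞.B1), b ∉ q ∧ ∀ η : Ω[𝒞.B1⁄k], ∃ c : 𝒞.B1, b • η = c • ω) :=
  ⟨omegaCyc_B0 h, omegaCyc_B1 h⟩

end Fermat.Agent.S25.Top.S.H9
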