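/-
S25 (row 24), package TOP, leaf S-GRINV (helper60's route), the UNIVERSAL points (helper5).

For the universal point of the chart `V0` (`R = B0`, `β = id`) and of the chart `V1` (`R = B1`,
`β = id`) the pair of graph ideals is a relative effective Cartier divisor:

* `mixElt1_ne_zero`, `mixElt0_ne_zero` : `x0 ⊗ z1 - 1 ≠ 0` in `B0 ⊗ B1`, `z1 ⊗ x0 - 1 ≠ 0` in
  `B1 ⊗ B0`;
* `gr1_univ0_ne_bot`, `gr0_univ1_ne_bot`, `diag0_ne_bot`, `diag1_ne_bot` : the four ideals are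
  not zero;
* `isDomain_B00`, … : the four tensor products are domains (`k` algebraically closed);
* **`isRelDiv_univ0`**, **`isRelDiv_univ1`** : `Stmt_GDIAG → IsRelDiv (gr0 β) (gr1 β)` for the two
  universal points (G-DIAG + G-RANK (helper9) + G-MIX + G-LP (helper60) + `overlap_eq`);
* `locPrin_univ0`, `locPrin_univ1` : the four ideals are locally principal.
-/
import Fermat.Agent.S25.Top.H5_GMix
import Fermat.Agent.S25.Top.H60_SGrLP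
import Fermat.Agent.S25.Top.H9_GRank
import Fermat.Agent.S26.C.H13_TensorDomain

set_option autoImplicit false
set_option linter.style.haveILetI false
set_option linter.unusedSectionVars false

universe u

open TensorProduct

noncomputable section

namespace Fermat.Agent.S25.Top.S.H5

open Fermat.Agent.S25 Fermat.Agent.S25.LB Fermat.Agent.S25.Top.S
open Fermat.Agent.S25.Top.S.H60 (LocPrin)

section Univ2

variable {k : Type u} [Field k] {𝒞 : CurveDatum k}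

theorem eR_tmul (R : Type u) [CommRing R] [Algebra k R] (r : R) (b : 𝒞.B1) :
    𝒞.eR R (r ⊗ₜ[k] b) = r * algebraMap k R (𝒞.e b) := by
  unfold CurveDatum.eR
  rw [Algebra.TensorProduct.lift_tmul]
  rfl

/-- `x0 ⊗ z1 - 1 ≠ 0` in `B0 ⊗ B1` (evaluate the second factor at the base point). -/
theorem mixElt1_ne_zero (h : 𝒞.IsGood) :
    ((AlgHom.id k 𝒞.B0) 𝒞.x0 ⊗ₜ[k] 𝒞.z1 - 1 : 𝒞.B0 ⊗[k] 𝒞.B1) ≠ 0 := by
  haveI := h.dom0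
  intro h0
  have h1 := congrArg (𝒞.eR 𝒞.B0) h0
  rw [map_sub, map_one, map_zero, eR_tmul, 𝒞.he, map_zero, mul_zero, zero_sub,
    neg_eq_zero] at h1
  exact one_ne_zero h1

/-- `z1 ⊗ x0 - 1 ≠ 0` in `B1 ⊗ B0`. -/
theorem mixElt0_ne_zero (h : 𝒞.IsGood) :
    ((AlgHom.id k 𝒞.B1) 𝒞.z1 ⊗ₜ[k] 𝒞.x0 - 1 : 𝒞.B1 ⊗[k] 𝒞.B0) ≠ 0 := by
  intro h0
  have h1 := congrArg (Algebra.TensorProduct.comm k 𝒞.B1 𝒞.B0) h0
  rw [map_sub, map_one, map_zero] at h1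
  have h2 : (Algebra.TensorProduct.comm k 𝒞.B1 𝒞.B0) ((AlgHom.id k 𝒞.B1) 𝒞.z1 ⊗ₜ[k] 𝒞.x0)
      = (AlgHom.id k 𝒞.B0) 𝒞.x0 ⊗ₜ[k] 𝒞.z1 := rfl
  rw [h2] at h1
  exact mixElt1_ne_zero h h1

theorem gr1_univ0_ne_bot (h : 𝒞.IsGood) :
    gr1 (Sum.inl (AlgHom.id k 𝒞.B0) : CPt 𝒞 𝒞.B0) ≠ ⊥ := by
  intro h0
  have h1 := mixElt1_mem (AlgHom.id k 𝒞.B0) (𝒞 := 𝒞)
  rw [h0, Ideal.mem_bot] at h1
  exact mixElt1_ne_zero h h1

theorem gr0_univ1_ne_bot (h : 𝒞.IsGood) :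
    gr0 (Sum.inr (AlgHom.id k 𝒞.B1) : CPt 𝒞 𝒞.B1) ≠ ⊥ := by
  intro h0
  have h1 := mixElt0_mem (AlgHom.id k 𝒞.B1) (𝒞 := 𝒞)
  rw [h0, Ideal.mem_bot] at h1
  exact mixElt0_ne_zero h h1

theorem gr0_univ0_ne_bot (h : 𝒞.IsGood) :
    gr0 (Sum.inl (AlgHom.id k 𝒞.B0) : CPt 𝒞 𝒞.B0) ≠ ⊥ := by
  intro h0
  apply gr1_univ0_ne_bot h
  rw [gr1_inl, h0, Ideal.map_bot]
  exact (RingHom.injective_iff_ker_eq_bot _).mp (H60.ι1_injective 𝒞.B0 h)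

theorem gr1_univ1_ne_bot (h : 𝒞.IsGood) :
    gr1 (Sum.inr (AlgHom.id k 𝒞.B1) : CPt 𝒞 𝒞.B1) ≠ ⊥ := by
  intro h0
  apply gr0_univ1_ne_bot h
  rw [gr0_inr, h0, Ideal.map_bot]
  exact (RingHom.injective_iff_ker_eq_bot _).mp (H60.ι0_injective 𝒞.B1 h)

/-- The ideal of the diagonal of `B0` is not zero. -/
theorem diag0_ne_bot (h : 𝒞.IsGood) : KaehlerDifferential.ideal k 𝒞.B0 ≠ ⊥ := by
  rw [← gr0_inl_id]
  exact gr0_univ0_ne_bot h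

/-- The ideal of the diagonal of `B1` is not zero. -/
theorem diag1_ne_bot (h : 𝒞.IsGood) : KaehlerDifferential.ideal k 𝒞.B1 ≠ ⊥ := by
  rw [← gr1_inr_id]
  exact gr1_univ1_ne_bot h

variable [IsAlgClosed k]

theorem isDomain_B00 (h : 𝒞.IsGood) : IsDomain (𝒞.B0 ⊗[k] 𝒞.B0) :=
  haveI := h.dom0
  Fermat.Agent.S26.C.H13.isDomain_tensorProduct (K := k) 𝒞.B0 𝒞.B0

theorem isDomain_B01 (h : 𝒞.IsGood) : IsDomain (𝒞.B0 ⊗[k] 𝒞.B1) :=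
  haveI := h.dom0
  haveI := h.dom1
  Fermat.Agent.S26.C.H13.isDomain_tensorProduct (K := k) 𝒞.B0 𝒞.B1

theorem isDomain_B10 (h : 𝒞.IsGood) : IsDomain (𝒞.B1 ⊗[k] 𝒞.B0) :=
  haveI := h.dom0
  haveI := h.dom1
  Fermat.Agent.S26.C.H13.isDomain_tensorProduct (K := k) 𝒞.B1 𝒞.B0

theorem isDomain_B11 (h : 𝒞.IsGood) : IsDomain (𝒞.B1 ⊗[k] 𝒞.B1) :=
  haveI := h.dom1
  Fermat.Agent.S26.C.H13.isDomain_tensorProduct (K := k) 𝒞.B1 𝒞.B1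

/-- G-DIAG applied to the chart `B0`. -/
theorem diag0 (h : 𝒞.IsGood) (hDIAG : H60.Stmt_GDIAG.{u}) :
    LocPrin (KaehlerDifferential.ideal k 𝒞.B0) ∧
      Module.Invertible (𝒞.B0 ⊗[k] 𝒞.B0) (KaehlerDifferential.ideal k 𝒞.B0) :=
  haveI := h.smooth0
  haveI := isDomain_B00 h
  hDIAG k 𝒞.B0 (diag0_ne_bot h) (H9.omegaCyc_B0 h)

/-- G-DIAG applied to the chart `B1`. -/
theorem diag1 (h : 𝒞.IsGood) (hDIAG : H60.Stmt_GDIAG.{u}) :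
    LocPrin (KaehlerDifferential.ideal k 𝒞.B1) ∧
      Module.Invertible (𝒞.B1 ⊗[k] 𝒞.B1) (KaehlerDifferential.ideal k 𝒞.B1) :=
  haveI := h.smooth1
  haveI := isDomain_B11 h
  hDIAG k 𝒞.B1 (diag1_ne_bot h) (H9.omegaCyc_B1 h)

/-- The two ideals of the universal point of `V0` are locally principal. -/
theorem locPrin_univ0 (h : 𝒞.IsGood) (hDIAG : H60.Stmt_GDIAG.{u}) :
    LocPrin (gr0 (Sum.inl (AlgHom.id k 𝒞.B0) : CPt 𝒞 𝒞.B0)) ∧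
      LocPrin (gr1 (Sum.inl (AlgHom.id k 𝒞.B0) : CPt 𝒞 𝒞.B0)) := by
  have h0 : LocPrin (gr0 (Sum.inl (AlgHom.id k 𝒞.B0) : CPt 𝒞 𝒞.B0)) := by
    rw [gr0_inl_id]
    exact (diag0 h hDIAG).1
  exact ⟨h0, gmix_univ0 h h0⟩

/-- The two ideals of the universal point of `V1` are locally principal. -/
theorem locPrin_univ1 (h : 𝒞.IsGood) (hDIAG : H60.Stmt_GDIAG.{u}) :
    LocPrin (gr0 (Sum.inr (AlgHom.id k 𝒞.B1) : CPt 𝒞 𝒞.B1)) ∧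
      LocPrin (gr1 (Sum.inr (AlgHom.id k 𝒞.B1) : CPt 𝒞 𝒞.B1)) := by
  have h1 : LocPrin (gr1 (Sum.inr (AlgHom.id k 𝒞.B1) : CPt 𝒞 𝒞.B1)) := by
    rw [gr1_inr_id]
    exact (diag1 h hDIAG).1
  exact ⟨gmix_univ1 h h1, h1⟩

/-- **The universal point of `V0`**: its graph is a relative effective Cartier divisor. -/
theorem isRelDiv_univ0 (h : 𝒞.IsGood) (hDIAG : H60.Stmt_GDIAG.{u}) :
    IsRelDiv (gr0 (Sum.inl (AlgHom.id k 𝒞.B0) : CPt 𝒞 𝒞.B0))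
      (gr1 (Sum.inl (AlgHom.id k 𝒞.B0) : CPt 𝒞 𝒞.B0)) := by
  haveI := isDomain_B00 h
  haveI := isDomain_B01 h
  obtain ⟨hl0, hl1⟩ := locPrin_univ0 h hDIAG
  exact ⟨H60.invertible_of_locPrin _ (gr0_univ0_ne_bot h) hl0,
    H60.invertible_of_locPrin _ (gr1_univ0_ne_bot h) hl1, overlap_eq h _⟩

/-- **The universal point of `V1`**: its graph is a relative effective Cartier divisor. -/
theorem isRelDiv_univ1 (h : 𝒞.IsGood) (hDIAG : H60.Stmt_GDIAG.{u}) :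
    IsRelDiv (gr0 (Sum.inr (AlgHom.id k 𝒞.B1) : CPt 𝒞 𝒞.B1))
      (gr1 (Sum.inr (AlgHom.id k 𝒞.B1) : CPt 𝒞 𝒞.B1)) := by
  haveI := isDomain_B10 h
  haveI := isDomain_B11 h
  obtain ⟨hl0, hl1⟩ := locPrin_univ1 h hDIAG
  exact ⟨H60.invertible_of_locPrin _ (gr0_univ1_ne_bot h) hl0,
    H60.invertible_of_locPrin _ (gr1_univ1_ne_bot h) hl1, overlap_eq h _⟩

end Univ2

end Fermat.Agent.S25.Top.S.H5
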