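import Fermat.Agent.S25.Top.H87_SGrNak

/-!
# S25 (row 24), package TOP, leaf S-GRINV, sub-cut G-DIAG (helper87)

`gdiag_of : H60.Stmt_GLP → H60.Stmt_GDIAG` : the ideal `I` of the diagonal of a curve is locally
principal and invertible.

Proof.  `Ω[B⁄k] = I / I ^ 2`, and `B` acts through `b ↦ b ⊗ 1`.  If `Ω` is generated by `ω` on `D(b)`,
`b ∉ q`, lift `ω` to `t ∈ I`; then `(b ⊗ 1) I ⊆ (t) + I ^ 2`, which is the hypothesis of G-NAK at the
primes `p` of `B ⊗ B` over `q`.  G-NAK gives `LocPrin I`, G-LP gives invertibility.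

This file contains no `sorry`.
-/

set_option autoImplicit false

universe u

open TensorProduct

namespace Fermat.Agent.S25.Top.S.H87

open Fermat.Agent.S25.Top.S.H60

section

variable {k : Type u} [Field k] {B : Type u} [CommRing B] [Algebra k B]

/-- `B` acts on the differentials through `b ↦ b ⊗ 1`. -/
theorem h87_smul_kaehler (b : B) (η : Ω[B⁄k]) :
    b • η = ((b ⊗ₜ[k] (1 : B)) : B ⊗[k] B) • η := by
  have h : (b ⊗ₜ[k] (1 : B) : B ⊗[k] B) = b • (1 : B ⊗[k] B) := by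
    rw [Algebra.TensorProduct.one_def, TensorProduct.smul_tmul', smul_eq_mul, mul_one]
  rw [h, smul_assoc, one_smul]

/-- The hypothesis of G-NAK for the ideal of the diagonal. -/
theorem h87_diag_nak (hΩ : OmegaCyc k B) (p : Ideal (B ⊗[k] B)) (hp : p.IsPrime) :
    ∃ t s : B ⊗[k] B, t ∈ KaehlerDifferential.ideal k B ∧ s ∉ p ∧
      ∀ i ∈ KaehlerDifferential.ideal k B, ∃ b : B ⊗[k] B,
        s * i - b * t ∈ KaehlerDifferential.ideal k B ^ 2 := by
  let incl : B →+* B ⊗[k] B := (Algebra.TensorProduct.includeLeft : B →ₐ[k] B ⊗[k] B).toRingHom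
  have hq : (p.comap incl).IsPrime := Ideal.comap_isPrime incl p
  obtain ⟨ω, b, hb, hcyc⟩ := hΩ (p.comap incl) hq
  obtain ⟨⟨t, ht⟩, hω⟩ := KaehlerDifferential.fromIdeal_surjective k B ω
  refine ⟨t, b ⊗ₜ[k] 1, ht, fun h => hb (Ideal.mem_comap.2 h), fun i hi => ?_⟩
  obtain ⟨c, hc⟩ := hcyc (KaehlerDifferential.fromIdeal k B ⟨i, hi⟩)
  refine ⟨c ⊗ₜ[k] 1, ?_⟩
  have hx : KaehlerDifferential.fromIdeal k B ((b ⊗ₜ[k] (1 : B) : B ⊗[k] B) • ⟨i, hi⟩)
      = b • KaehlerDifferential.fromIdeal k B ⟨i, hi⟩ := by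
    rw [h87_smul_kaehler]
    exact (KaehlerDifferential.fromIdeal k B).map_smul _ _
  have hy : KaehlerDifferential.fromIdeal k B ((c ⊗ₜ[k] (1 : B) : B ⊗[k] B) • ⟨t, ht⟩)
      = c • KaehlerDifferential.fromIdeal k B ⟨t, ht⟩ := by
    rw [h87_smul_kaehler]
    exact (KaehlerDifferential.fromIdeal k B).map_smul _ _
  have e : KaehlerDifferential.fromIdeal k B ((b ⊗ₜ[k] (1 : B) : B ⊗[k] B) • ⟨i, hi⟩)
      = KaehlerDifferential.fromIdeal k B ((c ⊗ₜ[k] (1 : B) : B ⊗[k] B) • ⟨t, ht⟩) := by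
    rw [hx, hy, hc, hω]
  have e' : (KaehlerDifferential.ideal k B).toCotangent
        ((b ⊗ₜ[k] (1 : B) : B ⊗[k] B) • ⟨i, hi⟩)
      = (KaehlerDifferential.ideal k B).toCotangent
        ((c ⊗ₜ[k] (1 : B) : B ⊗[k] B) • ⟨t, ht⟩) := e
  exact (Ideal.toCotangent_eq (KaehlerDifferential.ideal k B)).1 e'

end

/-- **G-DIAG** (from G-LP): the ideal of the diagonal is locally principal and invertible. -/
theorem gdiag_of (hLP : Stmt_GLP.{u}) : Stmt_GDIAG.{u} := by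
  intro k _ B _ _ _ _ hne hΩ
  have hfg : (KaehlerDifferential.ideal k B).FG := KaehlerDifferential.ideal_fg k B
  have hloc : LocPrin (KaehlerDifferential.ideal k B) :=
    stmt_GNAK (B ⊗[k] B) (KaehlerDifferential.ideal k B) hfg
      (fun p hp _ => h87_diag_nak hΩ p hp)
  exact ⟨hloc, hLP (B ⊗[k] B) (KaehlerDifferential.ideal k B) hne hloc⟩

end Fermat.Agent.S25.Top.S.H87
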