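/-
S25 (row 24), package TOP, leaf S-GRINV, the UNIVERSAL points, CLOSED form (helper5):
`H5_GUniv` with G-DIAG (helper87, `H87.gdiag_of`) and G-LP (helper60, `H60.stmt_GLP`) plugged in.

* `stmt_GDIAG_closed : H60.Stmt_GDIAG`;
* **`isRelDiv_univ0_closed`**, **`isRelDiv_univ1_closed`** : the graphs of the two universal
  points are relative effective Cartier divisors, unconditionally;
* `locPrin_univ0_closed`, `locPrin_univ1_closed`.
-/
import Fermat.Agent.S25.Top.H5_GUniv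
import Fermat.Agent.S25.Top.H87_SGrDiag

set_option autoImplicit false

universe u

open TensorProduct

namespace Fermat.Agent.S25.Top.S.H5

open Fermat.Agent.S25 Fermat.Agent.S25.LB Fermat.Agent.S25.Top.S
open Fermat.Agent.S25.Top.S.H60 (LocPrin)

/-- **G-DIAG**, unconditional. -/
theorem stmt_GDIAG_closed : H60.Stmt_GDIAG.{u} := H87.gdiag_of H60.stmt_GLP

variable {k : Type u} [Field k] [IsAlgClosed k] {𝒞 : CurveDatum k}

theorem locPrin_univ0_closed (h : 𝒞.IsGood) :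
    LocPrin (gr0 (Sum.inl (AlgHom.id k 𝒞.B0) : CPt 𝒞 𝒞.B0)) ∧
      LocPrin (gr1 (Sum.inl (AlgHom.id k 𝒞.B0) : CPt 𝒞 𝒞.B0)) :=
  locPrin_univ0 h stmt_GDIAG_closed

theorem locPrin_univ1_closed (h : 𝒞.IsGood) :
    LocPrin (gr0 (Sum.inr (AlgHom.id k 𝒞.B1) : CPt 𝒞 𝒞.B1)) ∧
      LocPrin (gr1 (Sum.inr (AlgHom.id k 𝒞.B1) : CPt 𝒞 𝒞.B1)) :=
  locPrin_univ1 h stmt_GDIAG_closed

/-- **The universal point of `V0`**, unconditional. -/
theorem isRelDiv_univ0_closed (h : 𝒞.IsGood) :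
    IsRelDiv (gr0 (Sum.inl (AlgHom.id k 𝒞.B0) : CPt 𝒞 𝒞.B0))
      (gr1 (Sum.inl (AlgHom.id k 𝒞.B0) : CPt 𝒞 𝒞.B0)) :=
  isRelDiv_univ0 h stmt_GDIAG_closed

/-- **The universal point of `V1`**, unconditional. -/
theorem isRelDiv_univ1_closed (h : 𝒞.IsGood) :
    IsRelDiv (gr0 (Sum.inr (AlgHom.id k 𝒞.B1) : CPt 𝒞 𝒞.B1))
      (gr1 (Sum.inr (AlgHom.id k 𝒞.B1) : CPt 𝒞 𝒞.B1)) :=
  isRelDiv_univ1 h stmt_GDIAG_closed

end Fermat.Agent.S25.Top.S.H5
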