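/-
helper60, S25 package TOP, leaf S-GRINV: THE ASSEMBLY.

`Stmt_GRINV` (the graph of an `R`-point is a relative effective Cartier divisor) follows from
* `Stmt_GUNIV`   : the statement at the two universal points (`R = B_i`, `β = id`)           (helper5, `H5_GUniv`)
* `Stmt_GFLATBC` : base change of an invertible ideal with flat quotient is invertible          (helper64 / helper60)
* `Stmt_GFLATQ`  : the four quotients at the universal points are flat over the left factor     (helper73)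
* `H54.stmt_GRBC`: graph ideals commute with base change                                        (helper54)
* `H5.overlap_eq`: the overlap clause                                                            (helper5)
-/
import Fermat.Agent.S25.Top.H54_SGrBC
import Fermat.Agent.S25.Top.H5_GMix

set_option autoImplicit false

universe u

open TensorProduct

namespace Fermat.Agent.S25.Top.S.H60

open Fermat.Agent.S25 Fermat.Agent.S25.LB Fermat.Agent.S25.Top.S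

/-- **G-FLATBC** (tmap form): the base change of an invertible ideal `I ⊂ A ⊗ B` with `(A ⊗ B)/I` flat over `A`
is an invertible ideal of `R ⊗ B`. -/
def Stmt_GFLATBC : Prop :=
  ∀ (k : Type u) [Field k] (A R B : Type u) [CommRing A] [Algebra k A] [CommRing R] [Algebra k R]
    [CommRing B] [Algebra k B] (f : A →ₐ[k] R) (I : Ideal (A ⊗[k] B)),
    Module.Invertible (A ⊗[k] B) I → Module.Flat A ((A ⊗[k] B) ⧸ I) →
      Module.Invertible (R ⊗[k] B) (I.map (Chart.tmap f B))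

/-- **G-FLATQ**: the quotients by the graph ideals of the universal points are flat over the base (left factor). -/
def Stmt_GFLATQ : Prop :=
  ∀ (k : Type u) [Field k] [IsAlgClosed k] (𝒞 : CurveDatum k), 𝒞.IsGood →
    Module.Flat 𝒞.B0 ((𝒞.B0 ⊗[k] 𝒞.B0) ⧸ gr0 (Sum.inl (AlgHom.id k 𝒞.B0) : CPt 𝒞 𝒞.B0)) ∧
    Module.Flat 𝒞.B0 ((𝒞.B0 ⊗[k] 𝒞.B1) ⧸ gr1 (Sum.inl (AlgHom.id k 𝒞.B0) : CPt 𝒞 𝒞.B0)) ∧
    Module.Flat 𝒞.B1 ((𝒞.B1 ⊗[k] 𝒞.B0) ⧸ gr0 (Sum.inr (AlgHom.id k 𝒞.B1) : CPt 𝒞 𝒞.B1)) ∧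
    Module.Flat 𝒞.B1 ((𝒞.B1 ⊗[k] 𝒞.B1) ⧸ gr1 (Sum.inr (AlgHom.id k 𝒞.B1) : CPt 𝒞 𝒞.B1))

/-- **G-UNIV**: `S-GRINV` at the two universal points. -/
def Stmt_GUNIV : Prop :=
  ∀ (k : Type u) [Field k] [IsAlgClosed k] (𝒞 : CurveDatum k), 𝒞.IsGood →
    IsRelDiv (gr0 (Sum.inl (AlgHom.id k 𝒞.B0) : CPt 𝒞 𝒞.B0)) (gr1 (Sum.inl (AlgHom.id k 𝒞.B0) : CPt 𝒞 𝒞.B0)) ∧
    IsRelDiv (gr0 (Sum.inr (AlgHom.id k 𝒞.B1) : CPt 𝒞 𝒞.B1)) (gr1 (Sum.inr (AlgHom.id k 𝒞.B1) : CPt 𝒞 𝒞.B1))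

section

variable {k : Type u} [Field k] {𝒞 : CurveDatum k} {R : Type u} [CommRing R] [Algebra k R]

theorem map_inl_id (β : 𝒞.B0 →ₐ[k] R) :
    CPt.map β (Sum.inl (AlgHom.id k 𝒞.B0) : CPt 𝒞 𝒞.B0) = Sum.inl β := by
  show Sum.inl (β.comp (AlgHom.id k 𝒞.B0)) = Sum.inl β
  rw [AlgHom.comp_id]

theorem map_inr_id (β : 𝒞.B1 →ₐ[k] R) :
    CPt.map β (Sum.inr (AlgHom.id k 𝒞.B1) : CPt 𝒞 𝒞.B1) = Sum.inr β := by
  show Sum.inr (β.comp (AlgHom.id k 𝒞.B1)) = Sum.inr β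
  rw [AlgHom.comp_id]

end

/-- **S-GRINV from the universal points.** -/
theorem stmt_GRINV_of (hBC : Stmt_GFLATBC.{u}) (hQ : Stmt_GFLATQ.{u}) (hU : Stmt_GUNIV.{u}) :
    Stmt_GRINV.{u} := by
  intro k _ _ 𝒞 h R _ _ β
  obtain ⟨⟨i00, i01, -⟩, ⟨i10, i11, -⟩⟩ := hU k 𝒞 h
  obtain ⟨f00, f01, f10, f11⟩ := hQ k 𝒞 h
  refine ⟨?_, ?_, H5.overlap_eq h β⟩
  · rcases β with β | β
    · have e := (H54.stmt_GRBC k 𝒞 h 𝒞.B0 R β (Sum.inl (AlgHom.id k 𝒞.B0))).1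
      rw [map_inl_id] at e
      rw [e]
      exact hBC k 𝒞.B0 R 𝒞.B0 β _ i00 f00
    · have e := (H54.stmt_GRBC k 𝒞 h 𝒞.B1 R β (Sum.inr (AlgHom.id k 𝒞.B1))).1
      rw [map_inr_id] at e
      rw [e]
      exact hBC k 𝒞.B1 R 𝒞.B0 β _ i10 f10
  · rcases β with β | β
    · have e := (H54.stmt_GRBC k 𝒞 h 𝒞.B0 R β (Sum.inl (AlgHom.id k 𝒞.B0))).2
      rw [map_inl_id] at e
      rw [e]
      exact hBC k 𝒞.B0 R 𝒞.B1 β _ i01 f01
    · have e := (H54.stmt_GRBC k 𝒞 h 𝒞.B1 R β (Sum.inr (AlgHom.id k 𝒞.B1))).2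
      rw [map_inr_id] at e
      rw [e]
      exact hBC k 𝒞.B1 R 𝒞.B1 β _ i11 f11

end Fermat.Agent.S25.Top.S.H60
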