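/-
S25 (row 24), package TOP, leaf S-GRINV, sub-cut G-LP (helper60): a nonzero locally principal ideal
of a domain is an invertible module.

Proof: `F ∈ I` nonzero, `J := ((F) : I)`.  The ideal `{x | x F ∈ I J}` lies in no prime: at a prime `p`
take `t, d` from `LocPrin`; `d F = c t`, `d c ∈ J`, so `d ^ 2 F = t (d c) ∈ I J`.  Hence `I J = (F)`
and `Chart.H85.invertible_of_mul_eq_span` applies.
-/
import Fermat.Agent.S25.Top.H60_SGrDefs
import Fermat.Agent.S25.Chart.H85_DivAbs

set_option autoImplicit false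

universe u

open TensorProduct

namespace Fermat.Agent.S25.Top.S.H60

section LP

variable {S : Type u} [CommRing S]

/-- The colon ideal `((F) : I)`. -/
def colonF (I : Ideal S) (F : S) : Ideal S where
  carrier := {x | ∀ i ∈ I, ∃ b : S, x * i = b * F}
  add_mem' := by
    intro x y hx hy i hi
    obtain ⟨b, hb⟩ := hx i hi
    obtain ⟨c, hc⟩ := hy i hi
    exact ⟨b + c, by rw [add_mul, add_mul, hb, hc]⟩
  zero_mem' := fun i _ => ⟨0, by rw [zero_mul, zero_mul]⟩
  smul_mem' := by
    intro a x hx i hi
    obtain ⟨b, hb⟩ := hx i hi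
    exact ⟨a * b, by rw [smul_eq_mul, mul_assoc, hb, mul_assoc]⟩

theorem mem_colonF {I : Ideal S} {F x : S} :
    x ∈ colonF I F ↔ ∀ i ∈ I, ∃ b : S, x * i = b * F := Iff.rfl

theorem self_mem_colonF (I : Ideal S) (F : S) : F ∈ colonF I F :=
  fun i _ => ⟨i, mul_comm F i⟩

theorem mul_colonF_le (I : Ideal S) (F : S) : I * colonF I F ≤ Ideal.span {F} := by
  rw [Ideal.mul_le]
  intro i hi x hx
  obtain ⟨b, hb⟩ := hx i hi
  rw [mul_comm, hb]
  exact Ideal.mul_mem_left _ _ (Ideal.subset_span rfl)

/-- For a locally principal ideal: `I * ((F) : I) = (F)` for every `F ∈ I`. -/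
theorem mul_colonF_eq {I : Ideal S} (hI : LocPrin I) {F : S} (hF : F ∈ I) :
    I * colonF I F = Ideal.span {F} := by
  refine le_antisymm (mul_colonF_le I F) ?_
  rw [Ideal.span_singleton_le_iff_mem]
  -- the ideal of all `x` with `x F ∈ I J`
  let 𝔞 : Ideal S :=
    { carrier := {x | x * F ∈ I * colonF I F}
      add_mem' := fun {x y} hx hy => by
        show (x + y) * F ∈ I * colonF I F
        rw [add_mul]
        exact Ideal.add_mem _ hx hy
      zero_mem' := by
        show (0 : S) * F ∈ I * colonF I F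
        rw [zero_mul]
        exact Ideal.zero_mem _
      smul_mem' := fun a x hx => by
        show (a • x) * F ∈ I * colonF I F
        rw [smul_eq_mul, mul_assoc]
        exact Ideal.mul_mem_left _ a hx }
  have htop : 𝔞 = ⊤ := by
    by_contra hne
    obtain ⟨p, hp, hle⟩ := Ideal.exists_le_maximal 𝔞 hne
    obtain ⟨t, d, ht, hd, hdI⟩ := hI p hp.isPrime
    obtain ⟨c, hc⟩ := hdI F hF
    have hdc : d * c ∈ colonF I F := by
      intro i hi
      obtain ⟨b, hb⟩ := hdI i hi
      refine ⟨b * d, ?_⟩
      calc d * c * i = c * (d * i) := by ring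
        _ = c * (b * t) := by rw [hb]
        _ = b * (c * t) := by ring
        _ = b * (d * F) := by rw [hc]
        _ = b * d * F := by ring
    have h1 : d * d ∈ 𝔞 := by
      show d * d * F ∈ I * colonF I F
      have h2 : d * d * F = t * (d * c) := by
        calc d * d * F = d * (d * F) := by ring
          _ = d * (c * t) := by rw [hc]
          _ = t * (d * c) := by ring
      rw [h2]
      exact Ideal.mul_mem_mul ht hdc
    exact hd ((hp.isPrime.mem_or_mem (hle h1)).elim id id)
  have h1 : (1 : S) ∈ 𝔞 := by rw [htop]; exact Submodule.mem_top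
  have h2 : (1 : S) * F ∈ I * colonF I F := h1
  rwa [one_mul] at h2

/-- **G-LP** -/
theorem invertible_of_locPrin [IsDomain S] (I : Ideal S) (hne : I ≠ ⊥) (hI : LocPrin I) :
    Module.Invertible S I := by
  obtain ⟨F, hF, hF0⟩ := Submodule.exists_mem_ne_zero_of_ne_bot hne
  have h1 : colonF I F * I = Ideal.span {F} := by
    rw [mul_comm]
    exact mul_colonF_eq hI hF
  exact Fermat.Agent.S25.Chart.H85.invertible_of_mul_eq_span h1
    (fun c hc => (mul_eq_zero.mp hc).resolve_right hF0)

theorem stmt_GLP : Stmt_GLP.{u} := fun _ _ _ I hne hI => invertible_of_locPrin I hne hI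

end LP

end Fermat.Agent.S25.Top.S.H60
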