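import Mathlib

/-!
# S25, package TOP: locally constant fibre invariants on a connected scheme (helper61)

`chi_const`: let `T'` be a (pre)connected scheme over `Spec k` and `X` a rule which attaches to every
affine test scheme `u : Spec R ⟶ T'` over `k` a function `PrimeSpectrum R → ℤ` which is locally
constant and compatible with base change `R → R'`.  Then `X` takes one and the same value at all
points of all test schemes.  (Mathlib only.)
-/

set_option autoImplicit false
set_option linter.style.haveILetI false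

universe u

open CategoryTheory AlgebraicGeometry

namespace Fermat.Agent.S25.Top.H61

variable {k : Type u} [CommRing k]

/-- The structure morphism of `Spec R` for a `k`-algebra `R`. -/
noncomputable abbrev sR (k : Type u) [CommRing k] (R : Type u) [CommRing R] [Algebra k R] :
    Spec (CommRingCat.of R) ⟶ Spec (CommRingCat.of k) :=
  Spec.map (CommRingCat.ofHom (algebraMap k R))

/-- The `k`-algebra structure on `R` defined by a morphism `Spec R ⟶ Spec k`. -/
@[reducible] noncomputable def algOfHom {R : Type u} [CommRing R]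
    (σ : Spec (CommRingCat.of R) ⟶ Spec (CommRingCat.of k)) : Algebra k R :=
  (Spec.preimage σ).hom.toAlgebra

theorem sR_algOfHom {R : Type u} [CommRing R]
    (σ : Spec (CommRingCat.of R) ⟶ Spec (CommRingCat.of k)) :
    @sR k _ R _ (algOfHom σ) = σ := by
  letI := algOfHom σ
  change Spec.map (CommRingCat.ofHom (Spec.preimage σ).hom) = σ
  rw [CommRingCat.ofHom_hom, Spec.map_preimage]

/-- A rule `X` as in the header. -/
structure FibRule {T' : Scheme.{u}} (τ : T' ⟶ Spec (CommRingCat.of k)) where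
  X : ∀ (R : Type u) [CommRing R] [Algebra k R] (u : Spec (CommRingCat.of R) ⟶ T'),
    u ≫ τ = sR k R → PrimeSpectrum R → ℤ
  loc : ∀ (R : Type u) [CommRing R] [Algebra k R] (u : Spec (CommRingCat.of R) ⟶ T')
    (hu : u ≫ τ = sR k R), IsLocallyConstant (X R u hu)
  bc : ∀ (R R' : Type u) [CommRing R] [Algebra k R] [CommRing R'] [Algebra k R'] [Algebra R R']
    [IsScalarTower k R R'] (u : Spec (CommRingCat.of R) ⟶ T') (hu : u ≫ τ = sR k R)
    (u' : Spec (CommRingCat.of R') ⟶ T') (hu' : u' ≫ τ = sR k R'),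
    u' = Spec.map (CommRingCat.ofHom (algebraMap R R')) ≫ u →
    ∀ p' : PrimeSpectrum R', X R' u' hu' p' = X R u hu (PrimeSpectrum.comap (algebraMap R R') p')

/-- The residue field of a point, as a type with its field structure. -/
def Kx (T' : Scheme.{u}) (x : T') : Type u := IsLocalRing.ResidueField (T'.presheaf.stalk x)

noncomputable instance instFieldKx (T' : Scheme.{u}) (x : T') : Field (Kx T' x) :=
  inferInstanceAs (Field (IsLocalRing.ResidueField (T'.presheaf.stalk x)))

/-- The canonical morphism `Spec κ(x) ⟶ T'`. -/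
noncomputable def fromKx (T' : Scheme.{u}) (x : T') : Spec (CommRingCat.of (Kx T' x)) ⟶ T' :=
  T'.fromSpecResidueField x

/-- A field-valued point factors through the residue field of its image. -/
theorem exists_factor_Kx (T' : Scheme.{u}) (K : Type u) [Field K]
    (ψ : Spec (CommRingCat.of K) ⟶ T') :
    ∃ φ : Kx T' (ψ (IsLocalRing.closedPoint K)) →+* K,
      Spec.map (CommRingCat.ofHom φ) ≫ fromKx T' (ψ (IsLocalRing.closedPoint K)) = ψ := by
  refine ⟨(T'.descResidueField (Scheme.stalkClosedPointTo ψ)).hom, ?_⟩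
  exact Scheme.descResidueField_stalkClosedPointTo_fromSpecResidueField K T' ψ

namespace FibRule

variable {T' : Scheme.{u}} {τ : T' ⟶ Spec (CommRingCat.of k)} (F : FibRule τ)

/-- The value of the rule at a point of `T'`. -/
noncomputable def val (x : T') : ℤ :=
  @FibRule.X k _ T' τ F (Kx T' x) _ (algOfHom (fromKx T' x ≫ τ)) (fromKx T' x)
    (sR_algOfHom (fromKx T' x ≫ τ)).symm (IsLocalRing.closedPoint (Kx T' x))

/-- The rule at a field-valued point is the value at its image. -/
theorem X_field (K : Type u) [Field K] [Algebra k K] (ψ : Spec (CommRingCat.of K) ⟶ T')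
    (hψ : ψ ≫ τ = sR k K) (q : PrimeSpectrum K) :
    F.X K ψ hψ q = F.val (ψ (IsLocalRing.closedPoint K)) := by
  obtain ⟨φ, hφ⟩ := exists_factor_Kx T' K ψ
  generalize ψ (IsLocalRing.closedPoint K) = x at φ hφ
  letI : Algebra k (Kx T' x) := algOfHom (fromKx T' x ≫ τ)
  have hκ : fromKx T' x ≫ τ = sR k (Kx T' x) := (sR_algOfHom (fromKx T' x ≫ τ)).symm
  letI : Algebra (Kx T' x) K := φ.toAlgebra
  haveI : IsScalarTower k (Kx T' x) K := by
    refine IsScalarTower.of_algebraMap_eq' ?_
    have h1 : sR k K = Spec.map (CommRingCat.ofHom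
        ((algebraMap (Kx T' x) K).comp (algebraMap k (Kx T' x)))) := by
      rw [CommRingCat.ofHom_comp, Spec.map_comp]
      change _ = Spec.map (CommRingCat.ofHom φ) ≫ sR k (Kx T' x)
      rw [← hψ, ← hφ, Category.assoc, hκ]
    have h2 := Spec.map_injective h1
    exact congrArg (fun f => f.hom) h2
  have hbc := F.bc (Kx T' x) K (fromKx T' x) hκ ψ hψ hφ.symm q
  rw [hbc]
  unfold val
  congr 1
  exact Subsingleton.elim _ _

/-- The rule is the value at the image point. -/
theorem X_eq_val (R : Type u) [CommRing R] [Algebra k R] (u : Spec (CommRingCat.of R) ⟶ T')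
    (hu : u ≫ τ = sR k R) (p : PrimeSpectrum R) :
    F.X R u hu p = F.val (u (show ↥(Spec (CommRingCat.of R)) from p)) := by
  let κ := p.asIdeal.ResidueField
  letI : Algebra k κ := ((algebraMap R κ).comp (algebraMap k R)).toAlgebra
  haveI : IsScalarTower k R κ := IsScalarTower.of_algebraMap_eq fun _ => rfl
  let ψ : Spec (CommRingCat.of κ) ⟶ T' := Spec.map (CommRingCat.ofHom (algebraMap R κ)) ≫ u
  have hψ : ψ ≫ τ = sR k κ := by
    change (Spec.map (CommRingCat.ofHom (algebraMap R κ)) ≫ u) ≫ τ = _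
    rw [Category.assoc, hu, ← Spec.map_comp, ← CommRingCat.ofHom_comp]
  have hbc := F.bc R κ u hu ψ hψ rfl (IsLocalRing.closedPoint κ)
  have hp : PrimeSpectrum.comap (algebraMap R κ) (IsLocalRing.closedPoint κ) = p := by
    ext x
    change algebraMap R κ x ∈ IsLocalRing.maximalIdeal κ ↔ x ∈ p.asIdeal
    rw [IsLocalRing.maximalIdeal_eq_bot, Ideal.mem_bot, Ideal.algebraMap_residueField_eq_zero]
  rw [hp] at hbc
  rw [← hbc, F.X_field κ ψ hψ]
  have hpt : ψ (IsLocalRing.closedPoint κ) = u (show ↥(Spec (CommRingCat.of R)) from p) := by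
    change u ((Spec.map (CommRingCat.ofHom (algebraMap R κ))) (IsLocalRing.closedPoint κ)) = _
    exact congrArg (fun z => u z) hp
  rw [hpt]

/-- The value is locally constant. -/
theorem isLocallyConstant_val : IsLocallyConstant F.val := by
  rw [IsLocallyConstant.iff_exists_open]
  intro x
  let 𝒰 := T'.affineOpenCover
  obtain ⟨y, hy⟩ := 𝒰.covers x
  let j := 𝒰.idx x
  let R : Type u := 𝒰.X j
  let u : Spec (CommRingCat.of R) ⟶ T' := 𝒰.f j
  letI : Algebra k R := algOfHom (u ≫ τ)
  have hu : u ≫ τ = sR k R := (sR_algOfHom (u ≫ τ)).symm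
  obtain ⟨V, hV, hyV, hconst⟩ := (IsLocallyConstant.iff_exists_open _).1 (F.loc R u hu) y
  haveI : IsOpenImmersion u := 𝒰.map_prop j
  refine ⟨u '' V, u.isOpenEmbedding.isOpenMap V hV, ⟨y, hyV, hy⟩, ?_⟩
  rintro _ ⟨y', hy', rfl⟩
  have h1 := F.X_eq_val R u hu y'
  have h2 := F.X_eq_val R u hu y
  have h3 := hconst y' hy'
  rw [← hy]
  exact h1.symm.trans (h3.trans h2)

/-- **CONST**: on a preconnected scheme the rule is constant. -/
theorem chi_const [PreconnectedSpace T']
    (R₁ : Type u) [CommRing R₁] [Algebra k R₁] (u₁ : Spec (CommRingCat.of R₁) ⟶ T')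
    (hu₁ : u₁ ≫ τ = sR k R₁) (p₁ : PrimeSpectrum R₁)
    (R₂ : Type u) [CommRing R₂] [Algebra k R₂] (u₂ : Spec (CommRingCat.of R₂) ⟶ T')
    (hu₂ : u₂ ≫ τ = sR k R₂) (p₂ : PrimeSpectrum R₂) :
    F.X R₁ u₁ hu₁ p₁ = F.X R₂ u₂ hu₂ p₂ := by
  rw [F.X_eq_val, F.X_eq_val]
  exact F.isLocallyConstant_val.apply_eq_of_preconnectedSpace _ _

end FibRule

end Fermat.Agent.S25.Top.H61
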