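import Mathlib
import Fermat.Agent.S25.P1.DefsC
import Fermat.Agent.S25.P1.DefsD
import Fermat.Agent.S25.P1.H45_Iso
import Fermat.Agent.S25.P1.H45_BCTrans
import Fermat.Agent.S25.P1.H92_FieldExt

/-!
# S25, package TOP: fibre numbers of two-chart data and base change (helper61)

Euler characteristic `chiAt N p = h0At N p - h1At N p` of the fibres of two-chart data:

* `chiAt_iso`        : invariant under `Data.Iso`;
* `chiAt_of_field`   : for a field `K` with `Algebra A K` whose kernel is `p`,
                       `chiF (N.baseChange K) = chiAt N p`;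
* `chiAt_baseChange` : `chiAt (N.baseChange A') p' = chiAt N (comap p')`;
* `chiAt_field`      : over a field, `chiAt N p = chiF N`.

Mathlib + the landed P1 leaves (`H45.bcTrans`, `H45.h0Equiv`, `H45.h1Equiv`, `H92.finrank_H*_baseChange`).
-/

set_option autoImplicit false
set_option linter.style.haveILetI false

universe u

open TensorProduct

namespace Fermat.Agent.S25.Top.H61

open Fermat.Agent.S25.P1

section Iso

variable {A : Type u} [CommRing A]

theorem bc_comm (A' : Type u) [CommRing A'] [Algebra A A'] {M M' P P' : Type u}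
    [AddCommGroup M] [Module A M] [AddCommGroup M'] [Module A M'] [AddCommGroup P] [Module A P]
    [AddCommGroup P'] [Module A P'] (e : M ≃ₗ[A] M') (e' : P ≃ₗ[A] P') (f : M →ₗ[A] P)
    (f' : M' →ₗ[A] P') (h : ∀ m, e' (f m) = f' (e m)) (x : A' ⊗[A] M) :
    (LinearEquiv.baseChange A A' _ _ e') (f.baseChange A' x) =
      f'.baseChange A' ((LinearEquiv.baseChange A A' _ _ e) x) := by
  induction x using TensorProduct.induction_on with
  | zero => simp
  | tmul a m => simp [h]
  | add x y hx hy => simp only [map_add, hx, hy]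

/-- Base change of an isomorphism of two-chart data. -/
noncomputable def isoBc {N N' : Data A} (E : Data.Iso N N') (A' : Type u) [CommRing A']
    [Algebra A A'] : Data.Iso (N.baseChange A') (N'.baseChange A') where
  e0 := LinearEquiv.baseChange A A' _ _ E.e0
  e1 := LinearEquiv.baseChange A A' _ _ E.e1
  e01 := LinearEquiv.baseChange A A' _ _ E.e01
  e0_X := fun n => bc_comm A' E.e0 E.e0 N.X0 N'.X0 E.e0_X n
  e1_Z := fun n => bc_comm A' E.e1 E.e1 N.Z1 N'.Z1 E.e1_Z n
  e01_T := fun n => bc_comm A' E.e01 E.e01 N.T.toLinearMap N'.T.toLinearMap E.e01_T n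
  e_j0 := fun n => bc_comm A' E.e0 E.e01 N.j0 N'.j0 E.e_j0 n
  e_j1 := fun n => bc_comm A' E.e1 E.e01 N.j1 N'.j1 E.e_j1 n

end Iso

section Field

variable {K : Type u} [Field K]

/-- The Euler characteristic of two-chart data over a field. -/
noncomputable def chiF (N : Data K) : ℤ :=
  (Module.finrank K N.H0 : ℤ) - (Module.finrank K N.H1 : ℤ)

theorem chiF_iso {N N' : Data K} (E : Data.Iso N N') : chiF N = chiF N' := by
  unfold chiF
  rw [(H45.h0Equiv E).finrank_eq, (H45.h1Equiv E).finrank_eq]

theorem chiF_baseChange (N : Data K) (K' : Type u) [Field K'] [Algebra K K'] :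
    chiF (N.baseChange K') = chiF N := by
  unfold chiF
  rw [H92.finrank_H0_baseChange N K', H92.finrank_H1_baseChange N K']

end Field

section At

variable {A : Type u} [CommRing A]

/-- The Euler characteristic of the fibre at `p`. -/
noncomputable def chiAt (N : Data A) (p : PrimeSpectrum A) : ℤ :=
  (N.h0At p : ℤ) - (N.h1At p : ℤ)

theorem chiAt_eq_chiF (N : Data A) (p : PrimeSpectrum A) : chiAt N p = chiF (N.fibre p) := rfl

theorem chiAt_iso {N N' : Data A} (E : Data.Iso N N') (p : PrimeSpectrum A) :
    chiAt N p = chiAt N' p := by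
  rw [chiAt_eq_chiF, chiAt_eq_chiF]
  exact chiF_iso (isoBc E _)

/-- The fibre numbers can be computed in any field `K` over `A` whose kernel is `p`. -/
theorem chiAt_of_field (N : Data A) (K : Type u) [Field K] [Algebra A K] (p : PrimeSpectrum A)
    (hp : p.asIdeal = RingHom.ker (algebraMap A K)) : chiF (N.baseChange K) = chiAt N p := by
  -- the field homomorphism `κ(p) → K`
  let φ : p.asIdeal.ResidueField →+* K :=
    Ideal.ResidueField.lift p.asIdeal (algebraMap A K) (le_of_eq hp) (by
      intro x hx
      rw [Submonoid.mem_comap, IsUnit.mem_submonoid_iff, isUnit_iff_ne_zero]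
      intro h0
      exact hx (by rw [hp]; exact h0))
  letI : Algebra p.asIdeal.ResidueField K := φ.toAlgebra
  haveI : IsScalarTower A p.asIdeal.ResidueField K :=
    IsScalarTower.of_algebraMap_eq fun x =>
      (Ideal.ResidueField.lift_algebraMap p.asIdeal (algebraMap A K) _ _ x).symm
  rw [chiAt_eq_chiF, ← chiF_baseChange (N.fibre p) K]
  exact (chiF_iso (H45.bcTrans p.asIdeal.ResidueField K N)).symm

/-- Over a field the fibre numbers are the global ones. -/
theorem chiAt_field {K : Type u} [Field K] (N : Data K) (p : PrimeSpectrum K) :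
    chiAt N p = chiF N := by
  rw [chiAt_eq_chiF]
  exact chiF_baseChange N _

/-- The fibre numbers of a base change. -/
theorem chiAt_baseChange (N : Data A) (A' : Type u) [CommRing A'] [Algebra A A']
    (p' : PrimeSpectrum A') :
    chiAt (N.baseChange A') p' = chiAt N (PrimeSpectrum.comap (algebraMap A A') p') := by
  letI : Algebra A p'.asIdeal.ResidueField :=
    ((algebraMap A' p'.asIdeal.ResidueField).comp (algebraMap A A')).toAlgebra
  haveI : IsScalarTower A A' p'.asIdeal.ResidueField := IsScalarTower.of_algebraMap_eq fun _ => rfl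
  have h1 : chiAt (N.baseChange A') p' = chiF (N.baseChange p'.asIdeal.ResidueField) := by
    rw [chiAt_eq_chiF]
    exact chiF_iso (H45.bcTrans A' p'.asIdeal.ResidueField N)
  rw [h1]
  refine chiAt_of_field N p'.asIdeal.ResidueField _ ?_
  ext x
  change x ∈ Ideal.comap (algebraMap A A') p'.asIdeal ↔ _
  rw [Ideal.mem_comap, RingHom.mem_ker]
  change _ ↔ algebraMap A' p'.asIdeal.ResidueField (algebraMap A A' x) = 0
  rw [Ideal.algebraMap_residueField_eq_zero]

end At

end Fermat.Agent.S25.Top.H61
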