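import Fermat.Agent.S25.Top.DefsP
import Fermat.Agent.S25.LB.DefsE
import Fermat.Agent.S25.Top.H61_DegFib
import Fermat.Agent.S25.Top.H61_Const

/-!
# S25, TOP-AEZDEG: fibrewise algebraically equivalent to zero ⟹ fibrewise of degree zero (helper61)

`stmt_AEZDEG_of : Bridge.Stmt_T1 → Bridge.Stmt_T2 → Bridge.Stmt_T4 → LB.Stmt_ISODATA → P1.Stmt_CHI →
  LB.Stmt_VB → Top.Stmt_AEZDEG`.

Proof: no Riemann–Roch, only the local constancy of the Euler characteristic (`P1.Stmt_CHI`) along the
connecting family of the algebraic equivalence (`H61.FibRule.chi_const` on the connected `T'`), the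
dictionary sheaves ⟷ triples (T1, T2, T4) and the invariance of the fibre numbers under base change
(`H61.chiAt_baseChange`).  The value at the trivial end is `1 - g` by `S.P'.unit_mem`.
-/

set_option autoImplicit false
set_option linter.style.haveILetI false
set_option linter.unusedSimpArgs false
set_option linter.unusedVariables false

universe u

open CategoryTheory CategoryTheory.Limits AlgebraicGeometry AlgebraicGeometry.RelPicard NeronModelInfra
  GoodReductionJacobian TensorProduct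

namespace Fermat.Agent.S25.Top.H61

open Fermat.Agent.S25 Fermat.Agent.S25.P1

variable {k : Type u} [Field k] {C : Scheme.{u}} {c : C ⟶ Spec (CommRingCat.of k)}
  {ε : SchemeHomOver (𝟙 (Spec (CommRingCat.of k))) c}

/-- Pull-back along a factorisation `f ≫ g = h`. -/
noncomputable def pbIso {X Y Z : Scheme.{u}} {f : X ⟶ Y} {g : Y ⟶ Z} {h : X ⟶ Z} (e : f ≫ g = h)
    (L : Z.Modules) :
    (Scheme.Modules.pullback f).obj ((Scheme.Modules.pullback g).obj L) ≅
      (Scheme.Modules.pullback h).obj L :=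
  (Scheme.Modules.pullbackComp _ _).app L ≪≫ (Scheme.Modules.pullbackCongr e).app L

/-! ## The dictionary and the fibre numbers -/

section Dict

variable {𝒞 : LB.CurveDatum k} (ρ : Bridge.Realizes c ε 𝒞)

/-- Isomorphic invertible sheaves have triples with the same fibre numbers. -/
theorem chiAt_of_sheafIso (good : 𝒞.IsGood) (hT2 : Bridge.Stmt_T2.{u})
    (hISOD : LB.Stmt_ISODATA.{u})
    {R : Type u} [CommRing R] [Algebra k R] {N N' : (Bridge.XR c R).Modules}
    (hN : Scheme.Modules.IsInvertible N) (hN' : Scheme.Modules.IsInvertible N')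
    {L L' : LB.Triple 𝒞 R} (hL : Bridge.IsTripleOf ρ R N L) (hL' : Bridge.IsTripleOf ρ R N' L')
    (e : N ≅ N') (p : PrimeSpectrum R) : chiAt L.toData p = chiAt L'.toData p := by
  obtain ⟨i⟩ := (hT2 k c ε 𝒞 good ρ R N N' L L' hN hN' hL hL').1 ⟨e⟩
  obtain ⟨E⟩ := hISOD k 𝒞 R L L' i
  exact chiAt_iso E p

/-- The fibre numbers of the triple of a pull-back along `C × Spec R' ⟶ C × Spec R`. -/
theorem chiAt_bc (good : 𝒞.IsGood) (hT1 : Bridge.Stmt_T1.{u}) (hT2 : Bridge.Stmt_T2.{u})
    (hT4 : Bridge.Stmt_T4.{u}) (hISOD : LB.Stmt_ISODATA.{u})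
    {R R' : Type u} [CommRing R] [Algebra k R] [CommRing R'] [Algebra k R'] [Algebra R R']
    [IsScalarTower k R R'] {N : (Bridge.XR c R).Modules} (hN : Scheme.Modules.IsInvertible N)
    {N' : (Bridge.XR c R').Modules} (hN' : Scheme.Modules.IsInvertible N')
    {L : LB.Triple 𝒞 R} (hL : Bridge.IsTripleOf ρ R N L)
    {L' : LB.Triple 𝒞 R'} (hL' : Bridge.IsTripleOf ρ R' N' L')
    (e : N' ≅ (Scheme.Modules.pullback (Bridge.bcMap c R R')).obj N) (p' : PrimeSpectrum R') :
    chiAt L'.toData p' = chiAt L.toData (PrimeSpectrum.comap (algebraMap R R') p') := by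
  have hinv : Scheme.Modules.IsInvertible
      ((Scheme.Modules.pullback (Bridge.bcMap c R R')).obj N) := hN.pullback _
  obtain ⟨L'', hL''⟩ := hT1 k c ε 𝒞 good ρ R' _ hinv
  obtain ⟨_, _, _, E, -⟩ := hT4 k c ε 𝒞 good ρ R R' N L L'' hN hL hL''
  rw [chiAt_of_sheafIso ρ good hT2 hISOD hN' hinv hL' hL'' e p', ← chiAt_iso E p',
    chiAt_baseChange]

end Dict

/-- A triple of a trivial invertible sheaf is of degree zero. -/
theorem isDeg0_of_iso_unit (S : DegSetup c ε) (hT1 : Bridge.Stmt_T1.{u})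
    (hT2 : Bridge.Stmt_T2.{u}) (hISOD : LB.Stmt_ISODATA.{u})
    {R : Type u} [CommRing R] [Algebra k R] {N : (Bridge.XR c R).Modules}
    (hN : Scheme.Modules.IsInvertible N)
    (e : N ≅ SheafOfModules.unit (Bridge.XR c R).ringCatSheaf)
    {L : LB.Triple S.𝒞 R} (hL : Bridge.IsTripleOf S.ρ R N L) : IsDeg0 S.g L := by
  have h1 : DegZero S.ρ S.g (Bridge.tR k R) (RigidifiedLineBundle.unit (Bridge.tR k R)) :=
    (S.hP' _ _).1 (S.P'.unit_mem _)
  let φ : SchemeHomOver (Bridge.tR k R) (Bridge.tR k R) := ⟨𝟙 _, Category.id_comp _⟩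
  have hinv₀ := ((RigidifiedLineBundle.unit (c := c) (ε := ε) (Bridge.tR k R)).pullbackAlong
    φ).isInvertible
  obtain ⟨L₀, hL₀⟩ := hT1 k c ε S.𝒞 S.good S.ρ R _ hinv₀
  have hdeg := h1 R φ L₀ hL₀
  have e₀ : ((RigidifiedLineBundle.unit (c := c) (ε := ε) (Bridge.tR k R)).pullbackAlong φ).L ≅
      SheafOfModules.unit (Bridge.XR c R).ringCatSheaf :=
    Scheme.Modules.pullbackUnitIso _
  intro p
  have := chiAt_of_sheafIso S.ρ S.good hT2 hISOD hN hinv₀ hL hL₀ (e ≪≫ e₀.symm) p
  exact this.trans (hdeg p)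


/-! ## The maps `C × Spec R' ⟶ A ×_K T'` -/

section Maps

variable {T : Scheme.{u}} (t : T ⟶ Spec (CommRingCat.of k)) (K : Type u) [Field K] [Algebra k K]
  (s : SchemeHomOver (Bridge.tR k K) t)

/-- `θ : C × Spec K ⟶ A`, `A` the fibre of `C × T` over `s`. -/
noncomputable def thetaMap : Bridge.XR c K ⟶ pullback (pullback.snd c t) s.1 :=
  pullback.lift (baseChangeSnd c s) (pullback.snd c (Bridge.tR k K)) (by
    simp only [baseChangeSnd, pullback.lift_snd])

theorem thetaMap_fst :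
    thetaMap (c := c) t K s ≫ pullback.fst (pullback.snd c t) s.1 = baseChangeSnd c s := by
  simp only [thetaMap, pullback.lift_fst]

theorem thetaMap_snd :
    thetaMap (c := c) t K s ≫ fibreAt c t s.1 = pullback.snd c (Bridge.tR k K) := by
  simp only [thetaMap, fibreAt, pullback.lift_snd]

/-- `θ₁ : C × Spec K ⟶ A ×_K Spec K`. -/
noncomputable def thetaOne :
    Bridge.XR c K ⟶ pullback (fibreAt c t s.1) (𝟙 (Spec (CommRingCat.of K))) :=
  pullback.lift (thetaMap t K s) (pullback.snd c (Bridge.tR k K)) (by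
    rw [thetaMap_snd, Category.comp_id])

variable {T' : Scheme.{u}} (h' : T' ⟶ Spec (CommRingCat.of K))

/-- `u ≫ h'` as a morphism over `k`. -/
noncomputable def uK (R' : Type u) [CommRing R'] [Algebra k R']
    (u : Spec (CommRingCat.of R') ⟶ T') (hu : u ≫ h' ≫ Bridge.tR k K = sR k R') :
    SchemeHomOver (Bridge.tR k R') (Bridge.tR k K) :=
  ⟨u ≫ h', by rw [Category.assoc]; exact hu⟩

theorem baseChangeSnd_snd' {T₁ T₂ : Scheme.{u}} {t₁ : T₁ ⟶ Spec (CommRingCat.of k)}
    {t₂ : T₂ ⟶ Spec (CommRingCat.of k)} (g : SchemeHomOver t₂ t₁) :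
    baseChangeSnd c g ≫ pullback.snd c t₁ = pullback.snd c t₂ ≫ g.1 := by
  simp only [baseChangeSnd, pullback.lift_snd]

theorem baseChangeSnd_fst' {T₁ T₂ : Scheme.{u}} {t₁ : T₁ ⟶ Spec (CommRingCat.of k)}
    {t₂ : T₂ ⟶ Spec (CommRingCat.of k)} (g : SchemeHomOver t₂ t₁) :
    baseChangeSnd c g ≫ pullback.fst c t₁ = pullback.fst c t₂ := by
  simp only [baseChangeSnd, pullback.lift_fst, Category.comp_id]

/-- `w_u : C × Spec R' ⟶ A ×_K T'` for `u : Spec R' ⟶ T'` over `k`. -/
noncomputable def wMap (R' : Type u) [CommRing R'] [Algebra k R']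
    (u : Spec (CommRingCat.of R') ⟶ T') (hu : u ≫ h' ≫ Bridge.tR k K = sR k R') :
    Bridge.XR c R' ⟶ pullback (fibreAt c t s.1) h' :=
  pullback.lift (baseChangeSnd c (uK K h' R' u hu) ≫ thetaMap t K s)
    (pullback.snd c (Bridge.tR k R') ≫ u) (by
      rw [Category.assoc, thetaMap_snd, baseChangeSnd_snd', Category.assoc]
      rfl)

theorem wMap_fst (R' : Type u) [CommRing R'] [Algebra k R']
    (u : Spec (CommRingCat.of R') ⟶ T') (hu : u ≫ h' ≫ Bridge.tR k K = sR k R') :
    wMap (c := c) t K s h' R' u hu ≫ pullback.fst (fibreAt c t s.1) h' =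
      baseChangeSnd c (uK K h' R' u hu) ≫ thetaMap t K s := by
  simp only [wMap, pullback.lift_fst]

theorem wMap_snd (R' : Type u) [CommRing R'] [Algebra k R']
    (u : Spec (CommRingCat.of R') ⟶ T') (hu : u ≫ h' ≫ Bridge.tR k K = sR k R') :
    wMap (c := c) t K s h' R' u hu ≫ pullback.snd (fibreAt c t s.1) h' =
      pullback.snd c (Bridge.tR k R') ≫ u := by
  simp only [wMap, pullback.lift_snd]

/-- Compatibility of `w` with base change. -/
theorem bcMap_wMap (R R' : Type u) [CommRing R] [Algebra k R] [CommRing R'] [Algebra k R']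
    [Algebra R R'] [IsScalarTower k R R']
    (u : Spec (CommRingCat.of R) ⟶ T') (hu : u ≫ h' ≫ Bridge.tR k K = sR k R)
    (u' : Spec (CommRingCat.of R') ⟶ T') (hu' : u' ≫ h' ≫ Bridge.tR k K = sR k R')
    (huu' : u' = Spec.map (CommRingCat.ofHom (algebraMap R R')) ≫ u) :
    Bridge.bcMap c R R' ≫ wMap (c := c) t K s h' R u hu = wMap (c := c) t K s h' R' u' hu' := by
  subst huu'
  apply pullback.hom_ext
  · rw [Category.assoc, wMap_fst, wMap_fst, ← Category.assoc]
    congr 1
    apply pullback.hom_ext <;>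
      simp only [Bridge.bcMap, uK, baseChangeSnd, Category.assoc, pullback.lift_fst,
        pullback.lift_snd, pullback.lift_fst_assoc, pullback.lift_snd_assoc, Category.comp_id]
  · rw [Category.assoc, wMap_snd, wMap_snd]
    simp only [Bridge.bcMap, baseChangeSnd, Category.assoc, pullback.lift_fst,
      pullback.lift_snd, pullback.lift_fst_assoc, pullback.lift_snd_assoc, Category.comp_id]

/-- At a section `σ` of `h'`, `w_σ = θ₁ ≫ (A ×_K σ)`. -/
theorem wMap_section (σ : SchemeHomOver (𝟙 (Spec (CommRingCat.of K))) h')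
    (hu : σ.1 ≫ h' ≫ Bridge.tR k K = sR k K) :
    wMap (c := c) t K s h' K σ.1 hu = thetaOne t K s ≫ baseChangeSnd (fibreAt c t s.1) σ := by
  apply pullback.hom_ext
  · rw [wMap_fst]
    have h1 : baseChangeSnd c (uK K h' K σ.1 hu) = 𝟙 _ := by
      apply pullback.hom_ext
      · simp only [uK, baseChangeSnd, pullback.lift_fst, Category.comp_id, Category.id_comp]
      · simp only [uK, baseChangeSnd, pullback.lift_snd, Category.id_comp, σ.2, Category.comp_id]
    rw [h1, Category.id_comp]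
    simp only [thetaOne, baseChangeSnd, Category.assoc, pullback.lift_fst,
      pullback.lift_fst_assoc, Category.comp_id]
  · rw [wMap_snd]
    simp only [thetaOne, baseChangeSnd, Category.assoc, pullback.lift_snd,
      pullback.lift_snd_assoc]

end Maps

/-! ## The rule of the connecting family -/

section Main

/-- The fibre numbers of the connecting family, as a rule on the test schemes of `T'`. -/
noncomputable def famRule (S : DegSetup c ε) (hT1 : Bridge.Stmt_T1.{u}) (hT2 : Bridge.Stmt_T2.{u})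
    (hT4 : Bridge.Stmt_T4.{u}) (hISOD : LB.Stmt_ISODATA.{u}) (hCHI : P1.Stmt_CHI.{u})
    (hVB : LB.Stmt_VB.{u}) {T : Scheme.{u}} (t : T ⟶ Spec (CommRingCat.of k)) (K : Type u)
    [Field K] [Algebra k K] (s : SchemeHomOver (Bridge.tR k K) t) {T' : Scheme.{u}}
    (h' : T' ⟶ Spec (CommRingCat.of K)) (M' : (pullback (fibreAt c t s.1) h').Modules)
    (hM' : Scheme.Modules.IsInvertible M') : FibRule (k := k) (h' ≫ Bridge.tR k K) where
  X R' _ _ u hu p' :=
    chiAt (Classical.choose (hT1 k c ε S.𝒞 S.good S.ρ R'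
      ((Scheme.Modules.pullback (wMap t K s h' R' u hu)).obj M') (hM'.pullback _))).toData p'
  loc R' _ _ u hu := hCHI R' _ (hVB k S.𝒞 S.good R' _)
  bc R R' _ _ _ _ _ _ u hu u' hu' huu' p' :=
    chiAt_bc S.ρ S.good hT1 hT2 hT4 hISOD (hM'.pullback _) (hM'.pullback _)
      (Classical.choose_spec (hT1 k c ε S.𝒞 S.good S.ρ R
        ((Scheme.Modules.pullback (wMap t K s h' R u hu)).obj M') (hM'.pullback _)))
      (Classical.choose_spec (hT1 k c ε S.𝒞 S.good S.ρ R'
        ((Scheme.Modules.pullback (wMap t K s h' R' u' hu')).obj M') (hM'.pullback _)))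
      (pbIso (bcMap_wMap t K s h' R R' u hu u' hu' huu') M').symm p'

/-- **Key step**: the fibre of `M` at a field-valued point `s` at which it is algebraically equivalent
to zero has degree zero. -/
theorem isDeg0_of_isAlgEquivZero (S : DegSetup c ε) (hT1 : Bridge.Stmt_T1.{u})
    (hT2 : Bridge.Stmt_T2.{u}) (hT4 : Bridge.Stmt_T4.{u}) (hISOD : LB.Stmt_ISODATA.{u})
    (hCHI : P1.Stmt_CHI.{u}) (hVB : LB.Stmt_VB.{u})
    {T : Scheme.{u}} (t : T ⟶ Spec (CommRingCat.of k))
    (M : RigidifiedLineBundle c ε t) (K : Type u) [Field K] [Algebra k K]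
    (s : SchemeHomOver (Bridge.tR k K) t)
    (hAE : IsAlgEquivZero (fibreAt c t s.1)
      ((Scheme.Modules.pullback (pullback.fst (pullback.snd c t) s.1)).obj M.L))
    (L : LB.Triple S.𝒞 K) (hL : Bridge.IsTripleOf S.ρ K (M.pullbackAlong s).L L) :
    IsDeg0 S.g L := by
  obtain ⟨T', h', hft, hgi, M', hM', t₀, t₁, ⟨e₀⟩, ⟨e₁⟩⟩ := hAE
  haveI := hgi
  haveI : IsIntegral T' := GeometricallyIntegral.isIntegral_of_subsingleton h'
  haveI : PreconnectedSpace T' := inferInstance
  have hu₀ : t₀.1 ≫ h' ≫ Bridge.tR k K = sR k K := by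
    rw [← Category.assoc, t₀.2, Category.id_comp]
  have hu₁ : t₁.1 ≫ h' ≫ Bridge.tR k K = sR k K := by
    rw [← Category.assoc, t₁.2, Category.id_comp]
  intro q
  have hconst := (famRule S hT1 hT2 hT4 hISOD hCHI hVB t K s h' M' hM').chi_const
    K t₁.1 hu₁ q K t₀.1 hu₀ q
  -- the end `t₁`
  have hfst1 : thetaOne (c := c) t K s ≫ pullback.fst (fibreAt c t s.1) (𝟙 _) = thetaMap t K s := by
    simp only [thetaOne, pullback.lift_fst]
  have iso₁ : (M.pullbackAlong s).L ≅
      (Scheme.Modules.pullback (wMap t K s h' K t₁.1 hu₁)).obj M' :=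
    ((pbIso (wMap_section t K s h' t₁ hu₁).symm M').symm ≪≫
      (Scheme.Modules.pullback (thetaOne t K s)).mapIso e₁ ≪≫
      pbIso hfst1 _ ≪≫ pbIso (thetaMap_fst t K s) M.L).symm
  have hleft := chiAt_of_sheafIso S.ρ S.good hT2 hISOD (M.pullbackAlong s).isInvertible
    (hM'.pullback _) hL
    (Classical.choose_spec (hT1 k c ε S.𝒞 S.good S.ρ K
      ((Scheme.Modules.pullback (wMap t K s h' K t₁.1 hu₁)).obj M') (hM'.pullback _))) iso₁ q
  -- the end `t₀`
  have iso₀ : (Scheme.Modules.pullback (wMap t K s h' K t₀.1 hu₀)).obj M' ≅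
      SheafOfModules.unit (Bridge.XR c K).ringCatSheaf :=
    (pbIso (wMap_section t K s h' t₀ hu₀).symm M').symm ≪≫
      (Scheme.Modules.pullback (thetaOne t K s)).mapIso e₀ ≪≫
      Scheme.Modules.pullbackUnitIso _
  have hright := isDeg0_of_iso_unit S hT1 hT2 hISOD (hM'.pullback _) iso₀
    (Classical.choose_spec (hT1 k c ε S.𝒞 S.good S.ρ K
      ((Scheme.Modules.pullback (wMap t K s h' K t₀.1 hu₀)).obj M') (hM'.pullback _))) q
  exact hleft.trans (hconst.trans hright)

end Main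

/-- **TOP-AEZDEG** from the dictionary (T1, T2, T4, ISODATA), the local constancy of the Euler
characteristic (P1-CHI) and LB-VB. -/
theorem stmt_AEZDEG_of (hT1 : Bridge.Stmt_T1.{u}) (hT2 : Bridge.Stmt_T2.{u})
    (hT4 : Bridge.Stmt_T4.{u}) (hISOD : LB.Stmt_ISODATA.{u}) (hCHI : P1.Stmt_CHI.{u})
    (hVB : LB.Stmt_VB.{u}) : Stmt_AEZDEG.{u} := by
  intro k _ _ C c _ _ _ ε S T t M hM
  refine (S.hP' t M).2 ?_
  intro R _ _ φ L hL p
  -- a geometric point over `p`
  obtain ⟨K, hKf, hKc, f, -⟩ : ∃ (K : Type u) (_ : Field K) (_ : IsAlgClosed K)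
      (_ : p.asIdeal.ResidueField →+* K), True :=
    ⟨AlgebraicClosure p.asIdeal.ResidueField, inferInstance, inferInstance,
      algebraMap _ _, trivial⟩
  letI : Algebra R K := (f.comp (algebraMap R p.asIdeal.ResidueField)).toAlgebra
  letI : Algebra k K := ((algebraMap R K).comp (algebraMap k R)).toAlgebra
  haveI : IsScalarTower k R K := IsScalarTower.of_algebraMap_eq fun _ => rfl
  let s : SchemeHomOver (Bridge.tR k K) t := postComp φ (specOver k R K)
  have hinvK := (M.pullbackAlong s).isInvertible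
  obtain ⟨LK, hLK⟩ := hT1 k c ε S.𝒞 S.good S.ρ K _ hinvK
  have hdeg : IsDeg0 S.g LK :=
    isDeg0_of_isAlgEquivZero S hT1 hT2 hT4 hISOD hCHI hVB t M K s (hM K s.1) LK hLK
  have e : (M.pullbackAlong s).L ≅
      (Scheme.Modules.pullback (Bridge.bcMap c R K)).obj (M.pullbackAlong φ).L :=
    (pbIso (baseChangeSnd_comp c φ (specOver k R K)) M.L).symm
  let q : PrimeSpectrum K := IsLocalRing.closedPoint K
  have hq := chiAt_bc S.ρ S.good hT1 hT2 hT4 hISOD (M.pullbackAlong φ).isInvertible hinvK hL hLK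
    e q
  have hp : PrimeSpectrum.comap (algebraMap R K) q = p := by
    ext x
    change algebraMap R K x ∈ IsLocalRing.maximalIdeal K ↔ x ∈ p.asIdeal
    rw [IsLocalRing.maximalIdeal_eq_bot, Ideal.mem_bot]
    change f (algebraMap R p.asIdeal.ResidueField x) = 0 ↔ _
    rw [map_eq_zero_iff _ f.injective, Ideal.algebraMap_residueField_eq_zero]
  rw [hp] at hq
  exact hq.symm.trans (hdeg q)

end Fermat.Agent.S25.Top.H61
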