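import Mathlib

/-!
# S25, package TOP, part PROP: properness and irreducibility from a surjection on `k`-points

`k` algebraically closed, `j : J ⟶ Spec k` locally of finite type and separated, `y : Y ⟶ Spec k`
proper, `π : Y ⟶ J` a `k`-morphism such that every `k`-point of `J` lifts to a `k`-point of `Y`.
Then `π` is surjective, `j` is proper, and `J` is irreducible (integral) if `Y` is irreducible
(and `J` is reduced).
-/

set_option autoImplicit false
set_option linter.style.haveILetI false

universe u

open CategoryTheory CategoryTheory.Limits AlgebraicGeometry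

namespace Fermat.Agent.S25.Top.H61

variable {k : Type u} [Field k] [IsAlgClosed k] {J Y : Scheme.{u}}

/-- A proper `k`-morphism onto all `k`-points of a separated `k`-scheme locally of finite type is
surjective. -/
theorem surjective_of_kpoints (j : J ⟶ Spec (CommRingCat.of k)) (y : Y ⟶ Spec (CommRingCat.of k))
    [IsProper y] [LocallyOfFiniteType j] [IsSeparated j] (π : Y ⟶ J) (hπ : π ≫ j = y)
    (hsurj : ∀ p : Spec (CommRingCat.of k) ⟶ J, p ≫ j = 𝟙 _ →
      ∃ q : Spec (CommRingCat.of k) ⟶ Y, q ≫ π = p) : Surjective π := by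
  haveI : IsProper (π ≫ j) := by rw [hπ]; infer_instance
  haveI : IsProper π := IsProper.of_comp π j
  haveI : JacobsonSpace J := LocallyOfFiniteType.jacobsonSpace j
  have hclosed : IsClosed (Set.range π) := π.isClosedMap.isClosed_range
  have hcp : closedPoints J ⊆ Set.range π := by
    intro x hx
    obtain ⟨q, hq⟩ := hsurj (pointOfClosedPoint j x hx) (pointOfClosedPoint_comp j x hx)
    have h2 := pointOfClosedPoint_apply j x hx (IsLocalRing.closedPoint k)
    rw [← hq] at h2
    exact ⟨_, h2⟩
  have hrange : Set.range π = Set.univ := by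
    have h1 := closure_inter_closedPoints (X := J) hclosed
    rw [Set.inter_eq_right.2 hcp, closure_closedPoints] at h1
    exact h1.symm
  exact ⟨Set.range_eq_univ.1 hrange⟩

/-- `J` is proper. -/
theorem isProper_of_kpoints (j : J ⟶ Spec (CommRingCat.of k)) (y : Y ⟶ Spec (CommRingCat.of k))
    [IsProper y] [LocallyOfFiniteType j] [IsSeparated j] (π : Y ⟶ J) (hπ : π ≫ j = y)
    (hsurj : ∀ p : Spec (CommRingCat.of k) ⟶ J, p ≫ j = 𝟙 _ →
      ∃ q : Spec (CommRingCat.of k) ⟶ Y, q ≫ π = p) : IsProper j := by
  haveI := surjective_of_kpoints j y π hπ hsurj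
  haveI : UniversallyClosed (π ≫ j) := by rw [hπ]; infer_instance
  haveI : UniversallyClosed j := UniversallyClosed.of_comp_surjective π j
  exact { }

/-- `J` is irreducible if `Y` is. -/
theorem irreducibleSpace_of_kpoints (j : J ⟶ Spec (CommRingCat.of k))
    (y : Y ⟶ Spec (CommRingCat.of k))
    [IsProper y] [LocallyOfFiniteType j] [IsSeparated j] (π : Y ⟶ J) (hπ : π ≫ j = y)
    (hsurj : ∀ p : Spec (CommRingCat.of k) ⟶ J, p ≫ j = 𝟙 _ →
      ∃ q : Spec (CommRingCat.of k) ⟶ Y, q ≫ π = p) [IrreducibleSpace Y] :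
    IrreducibleSpace J := by
  have hs := (surjective_of_kpoints j y π hπ hsurj).surj
  have hirr : IsIrreducible (Set.univ : Set J) := by
    have := (IrreducibleSpace.isIrreducible_univ Y).image π π.continuous.continuousOn
    rwa [Set.image_univ, Set.range_eq_univ.2 hs] at this
  exact (irreducibleSpace_def J).2 hirr

/-- `J` is integral if `Y` is irreducible and `J` is reduced. -/
theorem isIntegral_of_kpoints (j : J ⟶ Spec (CommRingCat.of k)) (y : Y ⟶ Spec (CommRingCat.of k))
    [IsProper y] [LocallyOfFiniteType j] [IsSeparated j] (π : Y ⟶ J) (hπ : π ≫ j = y)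
    (hsurj : ∀ p : Spec (CommRingCat.of k) ⟶ J, p ≫ j = 𝟙 _ →
      ∃ q : Spec (CommRingCat.of k) ⟶ Y, q ≫ π = p) [IrreducibleSpace Y] [IsReduced J] :
    IsIntegral J := by
  haveI := irreducibleSpace_of_kpoints j y π hπ hsurj
  exact isIntegral_of_irreducibleSpace_of_isReduced J

end Fermat.Agent.S25.Top.H61
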