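/-
S25 (row 24), package TOP, leaf S-GRINV, sub-cut **G-FLATBC** (helper64).  Mathlib only.

An invertible ideal `I ⊂ S` of an `A`-algebra `S` whose quotient `S ⧸ I` is flat over `A` stays invertible
after every base change `A → R`: the extension of `I` to the pushout `S' = R ⊗_A S` is `S' ⊗_S I`.

* `lTensor_subtype_injective` : `S' ⊗_S I → S' ⊗_S S` is injective;
* `mulMap`, `mulMap_tmul`, `mulMap_injective`, `range_mulMap` : the map `S' ⊗_S I → S'`;
* `tensorEquivMap : S' ⊗_S I ≃ₗ[S'] I.map (algebraMap S S')`;
* `invertible_map_of_isPushout` : the extended ideal is an invertible `S'`-module;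
* `invertible_map_tensorMap` : the concrete form for `A ⊗[k] B → R ⊗[k] B`, `f ⊗ id`.
-/
import Mathlib

set_option autoImplicit false

universe u

open TensorProduct

namespace Fermat.Agent.S25.Top.S.H64

section Pushout

variable (A R S S' : Type u) [CommRing A] [CommRing R] [CommRing S] [CommRing S']
  [Algebra A R] [Algebra A S] [Algebra S S'] [Algebra R S'] [Algebra A S']
  [IsScalarTower A R S'] [IsScalarTower A S S'] [hpo : Algebra.IsPushout A R S S']
  (I : Ideal S)

/-- Flatness of `S ⧸ I` over `A` makes `R ⊗_A I → R ⊗_A S` injective. -/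
theorem lTensor_base_injective [Module.Flat A (S ⧸ I)] :
    Function.Injective
      (LinearMap.lTensor R ((Submodule.subtype I).restrictScalars A)) := by
  refine LinearMap.lTensor_injective_of_exact_of_flat
    (f := (Ideal.Quotient.mkₐ A I).toLinearMap) ?_
    ((Submodule.subtype I).restrictScalars A) ?_ ?_ R
  · exact Ideal.Quotient.mk_surjective
  · exact Subtype.val_injective
  · intro x
    constructor
    · intro hx
      have hx' : x ∈ I := by
        have : Ideal.Quotient.mk I x = 0 := hx
        exact Ideal.Quotient.eq_zero_iff_mem.mp this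
      exact ⟨⟨x, hx'⟩, rfl⟩
    · rintro ⟨y, rfl⟩
      exact Ideal.Quotient.eq_zero_iff_mem.mpr y.2

include hpo in
/-- `S' ⊗_S I → S' ⊗_S S` is injective. -/
theorem lTensor_subtype_injective [Module.Flat A (S ⧸ I)] :
    Function.Injective (LinearMap.lTensor S' (Submodule.subtype I)) := by
  -- naturality of `cancelBaseChange`
  let eI := Algebra.IsPushout.cancelBaseChange A R S S' I
  let eS := Algebra.IsPushout.cancelBaseChange A R S S' S
  have key : ∀ w : R ⊗[A] I,
      LinearMap.lTensor S' (Submodule.subtype I) (eI.symm w) =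
        eS.symm (LinearMap.lTensor R ((Submodule.subtype I).restrictScalars A) w) := by
    intro w
    induction w using TensorProduct.induction_on with
    | zero =>
      rw [LinearEquiv.map_zero, LinearMap.map_zero, LinearMap.map_zero, LinearEquiv.map_zero]
    | tmul r i =>
      rw [Algebra.IsPushout.cancelBaseChange_symm_tmul, LinearMap.lTensor_tmul,
        LinearMap.lTensor_tmul, Algebra.IsPushout.cancelBaseChange_symm_tmul]
      rfl
    | add x y hx hy =>
      rw [LinearEquiv.map_add, LinearMap.map_add, LinearMap.map_add, LinearEquiv.map_add, hx, hy]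
  intro x y hxy
  have hx := key (eI x)
  have hy := key (eI y)
  rw [LinearEquiv.symm_apply_apply] at hx hy
  rw [hx, hy] at hxy
  have h1 := lTensor_base_injective A R S I (eS.symm.injective hxy)
  exact eI.injective h1

/-- The multiplication map `S' ⊗_S I → S'`, `s' ⊗ i ↦ s' * i`. -/
noncomputable def mulMap : S' ⊗[S] I →ₗ[S'] S' :=
  (TensorProduct.AlgebraTensorModule.rid S S' S').toLinearMap ∘ₗ
    (TensorProduct.AlgebraTensorModule.lTensor S' S' (Submodule.subtype I))

theorem mulMap_tmul (s : S') (i : I) :
    mulMap S S' I (s ⊗ₜ[S] i) = s * algebraMap S S' (i : S) := by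
  simp [mulMap, Algebra.smul_def, mul_comm]

include hpo in
theorem mulMap_injective [Module.Flat A (S ⧸ I)] : Function.Injective (mulMap S S' I) := by
  intro x y hxy
  have h : (TensorProduct.AlgebraTensorModule.rid S S' S')
      (LinearMap.lTensor S' (Submodule.subtype I) x) =
      (TensorProduct.AlgebraTensorModule.rid S S' S')
      (LinearMap.lTensor S' (Submodule.subtype I) y) := hxy
  exact lTensor_subtype_injective A R S S' I
    ((TensorProduct.AlgebraTensorModule.rid S S' S').injective h)

theorem range_mulMap :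
    LinearMap.range (mulMap S S' I) = I.map (algebraMap S S') := by
  apply le_antisymm
  · rintro _ ⟨w, rfl⟩
    induction w using TensorProduct.induction_on with
    | zero => simp
    | tmul s i =>
      rw [mulMap_tmul]
      exact Ideal.mul_mem_left _ _ (Ideal.mem_map_of_mem _ i.2)
    | add x y hx hy =>
      rw [map_add]
      exact Ideal.add_mem _ hx hy
  · rw [Ideal.map, Ideal.span_le]
    rintro _ ⟨i, hi, rfl⟩
    exact ⟨(1 : S') ⊗ₜ[S] (⟨i, hi⟩ : I), by rw [mulMap_tmul, one_mul]⟩

/-- `S' ⊗_S I ≃ I S'`. -/
noncomputable def tensorEquivMap (_h : Algebra.IsPushout A R S S') [Module.Flat A (S ⧸ I)] :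
    S' ⊗[S] I ≃ₗ[S'] (I.map (algebraMap S S') : Ideal S') :=
  (LinearEquiv.ofInjective (mulMap S S' I) (mulMap_injective A R S S' I)).trans
    (LinearEquiv.ofEq _ _ (range_mulMap S S' I))

theorem tensorEquivMap_tmul [Module.Flat A (S ⧸ I)] (s : S') (i : I) :
    ((tensorEquivMap A R S S' I hpo (s ⊗ₜ[S] i) : (I.map (algebraMap S S') : Ideal S')) : S') =
      s * algebraMap S S' (i : S) := by
  change mulMap S S' I (s ⊗ₜ[S] i) = _
  exact mulMap_tmul S S' I s i

include hpo in
/-- **G-FLATBC** (pushout form): an invertible ideal with `A`-flat quotient stays invertible after base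
change. -/
theorem invertible_map_of_isPushout [Module.Invertible S I] [Module.Flat A (S ⧸ I)] :
    Module.Invertible S' (I.map (algebraMap S S') : Ideal S') :=
  Module.Invertible.congr (tensorEquivMap A R S S' I hpo)

end Pushout

section Concrete

variable (k A R B : Type u) [CommRing k] [CommRing A] [CommRing R] [CommRing B]
  [Algebra k A] [Algebra k R] [Algebra k B]

/-- **G-FLATBC** (concrete form, `RingHom` version): `f : A → R`, `I ⊂ A ⊗ B` invertible with `(A ⊗ B) ⧸ I` flat
over `A` (left factor); then the extension of `I` along `f ⊗ id : A ⊗ B → R ⊗ B` is invertible. -/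
theorem invertible_map_tensorMap_toRingHom (f : A →ₐ[k] R) (I : Ideal (A ⊗[k] B))
    [Module.Invertible (A ⊗[k] B) I] (hfl : Module.Flat A ((A ⊗[k] B) ⧸ I)) :
    Module.Invertible (R ⊗[k] B)
      (I.map (Algebra.TensorProduct.map f (AlgHom.id k B)).toRingHom : Ideal (R ⊗[k] B)) := by
  letI : Algebra A R := f.toRingHom.toAlgebra
  haveI : IsScalarTower k A R := IsScalarTower.of_algebraMap_eq (fun x => (f.commutes x).symm)
  letI : Algebra (A ⊗[k] B) (R ⊗[k] B) :=
    (Algebra.TensorProduct.map f (AlgHom.id k B)).toRingHom.toAlgebra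
  haveI : IsScalarTower A (A ⊗[k] B) (R ⊗[k] B) := IsScalarTower.of_algebraMap_eq (fun a => rfl)
  haveI : Algebra.IsPushout A R (A ⊗[k] B) (R ⊗[k] B) := by
    refine Algebra.IsPushout.tensorProduct_tensorProduct k B A R ?_
    ext b
    change Algebra.TensorProduct.map f (AlgHom.id k B) ((1 : A) ⊗ₜ[k] b) = (1 : R) ⊗ₜ[k] b
    rw [Algebra.TensorProduct.map_tmul, map_one, AlgHom.id_apply]
  exact invertible_map_of_isPushout A R (A ⊗[k] B) (R ⊗[k] B) I

/-- **G-FLATBC** (concrete form, `AlgHom` version; `Chart.tmap f B` is this map by definition). -/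
theorem invertible_map_tensorMap (f : A →ₐ[k] R) (I : Ideal (A ⊗[k] B))
    [Module.Invertible (A ⊗[k] B) I] (hfl : Module.Flat A ((A ⊗[k] B) ⧸ I)) :
    Module.Invertible (R ⊗[k] B)
      (I.map (Algebra.TensorProduct.map f (AlgHom.id k B)) : Ideal (R ⊗[k] B)) :=
  invertible_map_tensorMap_toRingHom k A R B f I hfl

end Concrete

end Fermat.Agent.S25.Top.S.H64
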