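/-
helper72, S25 package TOP, leaf AEZDEG, cut CONST (Mathlib only): a rule `χ` which attaches to
every affine test scheme `u : Spec R ⟶ T` a locally constant function on `Spec R`, compatible
with base change, takes the same value at any two points of any two test schemes, if `T` is
connected.

* `chiPt χ x`              : the value of `χ` at the point `x` of `T` (through `Spec κ(x) ⟶ T`);
* `chi_eq_chiPt`           : `χ R u p = chiPt χ (u p)`;
* `isLocallyConstant_chiPt`: `chiPt χ` is locally constant on `T`;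
* `const_of_locallyConstant` : the absolute form of CONST.
-/
import Mathlib

set_option autoImplicit false
set_option linter.style.haveILetI false
set_option linter.unusedSectionVars false

universe u

open CategoryTheory CategoryTheory.Limits AlgebraicGeometry

namespace Fermat.Agent.S25.Top.H72c

variable {T : Scheme.{u}} {Z : Type*}
  (χ : ∀ (R : CommRingCat.{u}), (Spec R ⟶ T) → PrimeSpectrum R → Z)

/-- The value of `χ` at a point of `T`. -/
noncomputable def chiPt (x : T) : Z :=
  χ (T.residueField x) (T.fromSpecResidueField x) (IsLocalRing.closedPoint (T.residueField x))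

variable {χ}

/-- Base change compatibility, for arbitrary morphisms between affine schemes. -/
theorem chi_comp
    (hbc : ∀ (R R' : CommRingCat.{u}) (f : R ⟶ R') (u : Spec R ⟶ T) (p' : PrimeSpectrum R'),
      χ R' (Spec.map f ≫ u) p' = χ R u (PrimeSpectrum.comap f.hom p'))
    {R R' : CommRingCat.{u}} (g : Spec R' ⟶ Spec R) (u : Spec R ⟶ T) (p' : PrimeSpectrum R') :
    χ R' (g ≫ u) p' = χ R u (g p') := by
  obtain ⟨f, rfl⟩ := Spec.map_surjective g
  exact hbc R R' f u p'

/-- `χ` is determined by its values at the points of `T`. -/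
theorem chi_eq_chiPt
    (hbc : ∀ (R R' : CommRingCat.{u}) (f : R ⟶ R') (u : Spec R ⟶ T) (p' : PrimeSpectrum R'),
      χ R' (Spec.map f ≫ u) p' = χ R u (PrimeSpectrum.comap f.hom p'))
    (R : CommRingCat.{u}) (u : Spec R ⟶ T) (p : PrimeSpectrum R) :
    χ R u p = chiPt χ (u p) := by
  have h1 := chi_comp hbc ((Spec R).fromSpecResidueField p) u
    (IsLocalRing.closedPoint ((Spec R).residueField p))
  rw [Scheme.fromSpecResidueField_apply] at h1
  have h2 := hbc (T.residueField (u p)) ((Spec R).residueField p) (u.residueFieldMap p)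
    (T.fromSpecResidueField (u p)) (IsLocalRing.closedPoint ((Spec R).residueField p))
  rw [Scheme.Hom.SpecMap_residueFieldMap_fromSpecResidueField] at h2
  rw [← h1, h2]
  unfold chiPt
  congr 1
  exact Subsingleton.elim _ _

/-- The values at the points form a locally constant function. -/
theorem isLocallyConstant_chiPt
    (hlc : ∀ (R : CommRingCat.{u}) (u : Spec R ⟶ T), IsLocallyConstant (χ R u))
    (hbc : ∀ (R R' : CommRingCat.{u}) (f : R ⟶ R') (u : Spec R ⟶ T) (p' : PrimeSpectrum R'),
      χ R' (Spec.map f ≫ u) p' = χ R u (PrimeSpectrum.comap f.hom p')) :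
    IsLocallyConstant (chiPt χ) := by
  intro s
  rw [isOpen_iff_forall_mem_open]
  intro x hx
  obtain ⟨_, ⟨U, hU, rfl⟩, hxU, -⟩ :=
    T.isBasis_affineOpens.exists_subset_of_mem_open (Set.mem_univ x) isOpen_univ
  have hemb : Topology.IsOpenEmbedding (hU.fromSpec : Spec Γ(T, U) → T) :=
    hU.fromSpec.isOpenEmbedding
  have hopen : IsOpen ((χ Γ(T, U) hU.fromSpec) ⁻¹' s) := hlc Γ(T, U) hU.fromSpec s
  refine ⟨hU.fromSpec '' ((χ Γ(T, U) hU.fromSpec) ⁻¹' s), ?_, hemb.isOpenMap _ hopen, ?_⟩
  · rintro _ ⟨p, hp, rfl⟩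
    have := chi_eq_chiPt hbc Γ(T, U) hU.fromSpec p
    change chiPt χ (hU.fromSpec p) ∈ s
    rw [← this]
    exact hp
  · have hxr : x ∈ Set.range hU.fromSpec := by
      rw [hU.range_fromSpec]
      exact hxU
    obtain ⟨p, rfl⟩ := hxr
    refine ⟨p, ?_, rfl⟩
    change χ Γ(T, U) hU.fromSpec p ∈ s
    rw [chi_eq_chiPt hbc]
    exact hx

/-- **CONST** (absolute form): on a connected scheme, a locally constant rule compatible with
base change is constant. -/
theorem const_of_locallyConstant [PreconnectedSpace T]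
    (hlc : ∀ (R : CommRingCat.{u}) (u : Spec R ⟶ T), IsLocallyConstant (χ R u))
    (hbc : ∀ (R R' : CommRingCat.{u}) (f : R ⟶ R') (u : Spec R ⟶ T) (p' : PrimeSpectrum R'),
      χ R' (Spec.map f ≫ u) p' = χ R u (PrimeSpectrum.comap f.hom p'))
    (R R' : CommRingCat.{u}) (u : Spec R ⟶ T) (u' : Spec R' ⟶ T)
    (p : PrimeSpectrum R) (p' : PrimeSpectrum R') : χ R u p = χ R' u' p' := by
  rw [chi_eq_chiPt hbc, chi_eq_chiPt hbc]
  exact (isLocallyConstant_chiPt hlc hbc).apply_eq_of_preconnectedSpace _ _

end Fermat.Agent.S25.Top.H72c
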