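/-
helper72, S25 package TOP, leaf AEZDEG, cut CONST, form over a base field `K`:
test schemes are `Spec R` for `K`-algebras `R` with a morphism to `T` over `K`
(`TestOver h R` is the prelude's `SchemeHomOver (Bridge.tR K R) h`, unfolded).

* `const_over` : on a connected `K`-scheme `T`, a rule `χ` on the test schemes over `K` which is
  locally constant and compatible with `K`-algebra maps is constant.
-/
import Mathlib
import Fermat.Agent.S25.Top.H72_AezConst

set_option autoImplicit false
set_option linter.style.haveILetI false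
set_option linter.unusedSectionVars false

universe u

open CategoryTheory CategoryTheory.Limits AlgebraicGeometry

namespace Fermat.Agent.S25.Top.H72c

variable {K : Type u} [Field K] {T : Scheme.{u}} (h : T ⟶ Spec (CommRingCat.of K)) {Z : Type*}

/-- Morphisms `Spec R ⟶ T` over `K` (= `SchemeHomOver (Bridge.tR K R) h`). -/
abbrev TestOver (R : Type u) [CommRing R] [Algebra K R] : Type u :=
  {φ : Spec (CommRingCat.of R) ⟶ T // φ ≫ h = Spec.map (CommRingCat.ofHom (algebraMap K R))}

/-- The `K`-algebra structure on `R` induced by `u : Spec R ⟶ T`. -/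
@[reducible] noncomputable def algOf {R : CommRingCat.{u}} (u : Spec R ⟶ T) : Algebra K R :=
  (Spec.preimage (u ≫ h)).hom.toAlgebra

theorem algOf_algebraMap {R : CommRingCat.{u}} (u : Spec R ⟶ T) :
    @algebraMap K R _ _ (algOf h u) = (Spec.preimage (u ≫ h)).hom := rfl

theorem algOf_spec {R : CommRingCat.{u}} (u : Spec R ⟶ T) :
    u ≫ h = Spec.map (CommRingCat.ofHom (@algebraMap K R _ _ (algOf h u))) := by
  rw [algOf_algebraMap, CommRingCat.ofHom_hom, Spec.map_preimage]

variable (χ : ∀ (R : Type u) [CommRing R] [Algebra K R], TestOver h R → PrimeSpectrum R → Z)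

/-- The rule `χ` on all affine test schemes. -/
noncomputable def chiAbs (R : CommRingCat.{u}) (u : Spec R ⟶ T) : PrimeSpectrum R → Z :=
  @χ R _ (algOf h u) ⟨u, algOf_spec h u⟩

variable {h χ}

/-- Base change compatibility with explicit algebra structures. -/
theorem hbc_gen
    (hbc : ∀ (R R' : Type u) [CommRing R] [Algebra K R] [CommRing R'] [Algebra K R']
      (f : R →ₐ[K] R') (u : TestOver h R) (u' : TestOver h R'),
      u'.1 = Spec.map (CommRingCat.ofHom f.toRingHom) ≫ u.1 →
      ∀ p' : PrimeSpectrum R', χ R' u' p' = χ R u (PrimeSpectrum.comap f.toRingHom p'))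
    (R R' : Type u) [CommRing R] [CommRing R'] (a : Algebra K R) (a' : Algebra K R')
    (f : R →+* R') (hf : ∀ c, f (@algebraMap K R _ _ a c) = @algebraMap K R' _ _ a' c)
    (u : @TestOver K _ T h R _ a) (u' : @TestOver K _ T h R' _ a')
    (hu : u'.1 = Spec.map (CommRingCat.ofHom f) ≫ u.1) (p' : PrimeSpectrum R') :
    @χ R' _ a' u' p' = @χ R _ a u (PrimeSpectrum.comap f p') := by
  letI := a
  letI := a'
  exact hbc R R' { f with commutes' := hf } u u' hu p'

/-- **CONST** over a base field. -/
theorem const_over [PreconnectedSpace T]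
    (hlc : ∀ (R : Type u) [CommRing R] [Algebra K R] (u : TestOver h R),
      IsLocallyConstant (χ R u))
    (hbc : ∀ (R R' : Type u) [CommRing R] [Algebra K R] [CommRing R'] [Algebra K R']
      (f : R →ₐ[K] R') (u : TestOver h R) (u' : TestOver h R'),
      u'.1 = Spec.map (CommRingCat.ofHom f.toRingHom) ≫ u.1 →
      ∀ p' : PrimeSpectrum R', χ R' u' p' = χ R u (PrimeSpectrum.comap f.toRingHom p'))
    (R R' : Type u) [CommRing R] [Algebra K R] [CommRing R'] [Algebra K R']
    (u : TestOver h R) (u' : TestOver h R') (p : PrimeSpectrum R) (p' : PrimeSpectrum R') :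
    χ R u p = χ R' u' p' := by
  have hlc' : ∀ (A : CommRingCat.{u}) (v : Spec A ⟶ T), IsLocallyConstant (chiAbs h χ A v) :=
    fun A v => @hlc A _ (algOf h v) ⟨v, algOf_spec h v⟩
  have hbc' : ∀ (A A' : CommRingCat.{u}) (f : A ⟶ A') (v : Spec A ⟶ T)
      (q' : PrimeSpectrum A'),
      chiAbs h χ A' (Spec.map f ≫ v) q' = chiAbs h χ A v (PrimeSpectrum.comap f.hom q') := by
    intro A A' f v q'
    refine hbc_gen hbc A A' (algOf h v) (algOf h (Spec.map f ≫ v)) f.hom ?_ _ _ rfl q'
    intro c
    rw [algOf_algebraMap, algOf_algebraMap]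
    have e : Spec.preimage ((Spec.map f ≫ v) ≫ h) = Spec.preimage (v ≫ h) ≫ f := by
      apply Spec.map_injective
      rw [Spec.map_preimage, Spec.map_comp, Spec.map_preimage, Category.assoc]
    rw [e]
    rfl
  -- comparison of `χ` with `chiAbs`
  have key : ∀ (A : Type u) [CommRing A] [Algebra K A] (v : TestOver h A) (q : PrimeSpectrum A),
      χ A v q = chiAbs h χ (CommRingCat.of A) v.1 q := by
    intro A _ _ v q
    have := hbc_gen hbc A A (algOf h (R := CommRingCat.of A) v.1) inferInstance (RingHom.id A)
      ?_ ⟨v.1, algOf_spec h v.1⟩ v ?_ q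
    · rw [this]
      rfl
    · intro c
      change (Spec.preimage (R := CommRingCat.of K) (S := CommRingCat.of A) (v.1 ≫ h)).hom c =
        algebraMap K A c
      have e : Spec.preimage (R := CommRingCat.of K) (S := CommRingCat.of A) (v.1 ≫ h) =
          CommRingCat.ofHom (algebraMap K A) := by
        apply Spec.map_injective
        rw [Spec.map_preimage, v.2]
      rw [e]
      rfl
    · change v.1 = Spec.map (𝟙 (CommRingCat.of A)) ≫ v.1
      rw [Spec.map_id, Category.id_comp]
  rw [key R u p, key R' u' p']
  exact const_of_locallyConstant hlc' hbc' _ _ _ _ _ _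

end Fermat.Agent.S25.Top.H72c
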