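import Fermat.Agent.S25.Top.DefsS
import Fermat.Agent.S25.Num.H47_Eff

/-!
# S25 TOP-SURJ (helper77): the dictionary over the base field

Over `R = k` the language of `Top/DefsS.lean` (graph ideals `gr0`, `gr1` in `k ⊗ B_i`, twists `IsTw`)
is the language of NUM (`Num.ext0`, `Num.ext1`, `Num.IsTwist`):

* `mem_ext0_iff`, `mem_ext1_iff` : `x ∈ ext_i J ↔ lid x ∈ J`;
* `gr0_inl`, `gr1_inl`, `gr0_inr`, `gr1_inr` : `gr_i` of a `k`-point is `ext_i` of its divisor;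
* `isTw_ext_iff` : `IsTw (ext0 J0) (ext1 J1) L L' ↔ Num.IsTwist J0 J1 L L'`;
* `isUnitR_iff` : `IsUnitR U ↔ Num.IsUnitTriple U`;
* `ptD0`, `ptD1` : the divisor of a `k`-point (`CPt 𝒞 k`); `divD0`, `divD1` : the divisor of a family of
  points; `div0_eq`, `div1_eq`; `isEffDiv_divD`, `ddeg_divD` (degree = number of points).
-/

set_option autoImplicit false

universe u

open TensorProduct

namespace Fermat.Agent.S25.Top.S.H77

open Fermat.Agent.S25 Fermat.Agent.S25.LB Fermat.Agent.S25.Num Fermat.Agent.S25.Top.S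

section Gen

variable {k : Type u} [Field k] {B : Type u} [CommRing B] [Algebra k B]

/-- Every element of `k ⊗ B` is `1 ⊗ b`. -/
theorem eq_one_tmul_lid (x : k ⊗[k] B) : x = (1 : k) ⊗ₜ[k] (Algebra.TensorProduct.lid k B x) := by
  have h := (Algebra.TensorProduct.lid k B).symm_apply_apply x
  rw [Algebra.TensorProduct.lid_symm_apply] at h
  exact h.symm

theorem lid_one_tmul (b : B) : Algebra.TensorProduct.lid k B ((1 : k) ⊗ₜ[k] b) = b := by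
  rw [Algebra.TensorProduct.lid_tmul, one_smul]

/-- `x ∈ J (k ⊗ B) ↔ lid x ∈ J`. -/
theorem mem_map_includeRight_iff (J : Ideal B) (x : k ⊗[k] B) :
    x ∈ J.map (Algebra.TensorProduct.includeRight : B →ₐ[k] k ⊗[k] B) ↔
      Algebra.TensorProduct.lid k B x ∈ J := by
  constructor
  · intro hx
    have hle : J.map (Algebra.TensorProduct.includeRight : B →ₐ[k] k ⊗[k] B) ≤
        J.comap (Algebra.TensorProduct.lid k B : k ⊗[k] B →ₐ[k] B) := by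
      rw [Ideal.map_le_iff_le_comap]
      intro b hb
      rw [Ideal.mem_comap, Ideal.mem_comap]
      show Algebra.TensorProduct.lid k B ((1 : k) ⊗ₜ[k] b) ∈ J
      rw [lid_one_tmul]
      exact hb
    exact hle hx
  · intro hx
    rw [eq_one_tmul_lid x]
    exact Ideal.mem_map_of_mem (Algebra.TensorProduct.includeRight : B →ₐ[k] k ⊗[k] B) hx

end Gen

section Dict

variable {k : Type u} [Field k] {𝒞 : CurveDatum k}

theorem mem_ext0_iff (J : Ideal 𝒞.B0) (x : k ⊗[k] 𝒞.B0) :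
    x ∈ ext0 J ↔ Algebra.TensorProduct.lid k 𝒞.B0 x ∈ J :=
  mem_map_includeRight_iff J x

theorem mem_ext1_iff (J : Ideal 𝒞.B1) (x : k ⊗[k] 𝒞.B1) :
    x ∈ ext1 J ↔ Algebra.TensorProduct.lid k 𝒞.B1 x ∈ J :=
  mem_map_includeRight_iff J x

theorem ev0_apply (q : 𝒞.B0 →ₐ[k] k) (x : k ⊗[k] 𝒞.B0) :
    ev0 q x = q (Algebra.TensorProduct.lid k 𝒞.B0 x) := by
  conv_lhs => rw [eq_one_tmul_lid x]
  rw [ev0, Algebra.TensorProduct.lift_tmul]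
  simp

theorem ev1_apply (q : 𝒞.B1 →ₐ[k] k) (x : k ⊗[k] 𝒞.B1) :
    ev1 q x = q (Algebra.TensorProduct.lid k 𝒞.B1 x) := by
  conv_lhs => rw [eq_one_tmul_lid x]
  rw [ev1, Algebra.TensorProduct.lift_tmul]
  simp

theorem lid_ι0 (x : k ⊗[k] 𝒞.B0) :
    Algebra.TensorProduct.lid k 𝒞.B01 (𝒞.ι0 k x) = 𝒞.i0 (Algebra.TensorProduct.lid k 𝒞.B0 x) := by
  conv_lhs => rw [eq_one_tmul_lid x]
  show Algebra.TensorProduct.lid k 𝒞.B01
    (Algebra.TensorProduct.map (AlgHom.id k k) 𝒞.i0 ((1 : k) ⊗ₜ[k] _)) = _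
  rw [Algebra.TensorProduct.map_tmul, AlgHom.id_apply, lid_one_tmul]

theorem lid_ι1 (x : k ⊗[k] 𝒞.B1) :
    Algebra.TensorProduct.lid k 𝒞.B01 (𝒞.ι1 k x) = 𝒞.i1 (Algebra.TensorProduct.lid k 𝒞.B1 x) := by
  conv_lhs => rw [eq_one_tmul_lid x]
  show Algebra.TensorProduct.lid k 𝒞.B01
    (Algebra.TensorProduct.map (AlgHom.id k k) 𝒞.i1 ((1 : k) ⊗ₜ[k] _)) = _
  rw [Algebra.TensorProduct.map_tmul, AlgHom.id_apply, lid_one_tmul]

/-- `x ∈ (J (k ⊗ B0)) (k ⊗ B01) ↔ lid x ∈ J B01`. -/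
theorem mem_map_ι0_ext0_iff (J : Ideal 𝒞.B0) (y : k ⊗[k] 𝒞.B01) :
    y ∈ (ext0 J).map (𝒞.ι0 k) ↔ Algebra.TensorProduct.lid k 𝒞.B01 y ∈ J.map 𝒞.i0 := by
  constructor
  · intro hy
    have hle : (ext0 J).map (𝒞.ι0 k) ≤
        (J.map 𝒞.i0).comap (Algebra.TensorProduct.lid k 𝒞.B01 : k ⊗[k] 𝒞.B01 →ₐ[k] 𝒞.B01) := by
      rw [Ideal.map_le_iff_le_comap]
      intro x hx
      rw [Ideal.mem_comap, Ideal.mem_comap]
      show Algebra.TensorProduct.lid k 𝒞.B01 (𝒞.ι0 k x) ∈ J.map 𝒞.i0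
      rw [lid_ι0]
      exact Ideal.mem_map_of_mem 𝒞.i0 ((mem_ext0_iff J x).1 hx)
    exact hle hy
  · intro hy
    have hle : J.map 𝒞.i0 ≤ ((ext0 J).map (𝒞.ι0 k)).comap
        (Algebra.TensorProduct.includeRight : 𝒞.B01 →ₐ[k] k ⊗[k] 𝒞.B01) := by
      rw [Ideal.map_le_iff_le_comap]
      intro b hb
      rw [Ideal.mem_comap, Ideal.mem_comap]
      show (1 : k) ⊗ₜ[k] (𝒞.i0 b) ∈ (ext0 J).map (𝒞.ι0 k)
      have h1 : 𝒞.ι0 k ((1 : k) ⊗ₜ[k] b) = (1 : k) ⊗ₜ[k] (𝒞.i0 b) := rfl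
      rw [← h1]
      refine Ideal.mem_map_of_mem (𝒞.ι0 k) ?_
      rw [mem_ext0_iff, lid_one_tmul]
      exact hb
    have := hle hy
    rw [Ideal.mem_comap] at this
    rw [eq_one_tmul_lid y]
    exact this

/-- `x ∈ (J (k ⊗ B1)) (k ⊗ B01) ↔ lid x ∈ J B01`. -/
theorem mem_map_ι1_ext1_iff (J : Ideal 𝒞.B1) (y : k ⊗[k] 𝒞.B01) :
    y ∈ (ext1 J).map (𝒞.ι1 k) ↔ Algebra.TensorProduct.lid k 𝒞.B01 y ∈ J.map 𝒞.i1 := by
  constructor
  · intro hy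
    have hle : (ext1 J).map (𝒞.ι1 k) ≤
        (J.map 𝒞.i1).comap (Algebra.TensorProduct.lid k 𝒞.B01 : k ⊗[k] 𝒞.B01 →ₐ[k] 𝒞.B01) := by
      rw [Ideal.map_le_iff_le_comap]
      intro x hx
      rw [Ideal.mem_comap, Ideal.mem_comap]
      show Algebra.TensorProduct.lid k 𝒞.B01 (𝒞.ι1 k x) ∈ J.map 𝒞.i1
      rw [lid_ι1]
      exact Ideal.mem_map_of_mem 𝒞.i1 ((mem_ext1_iff J x).1 hx)
    exact hle hy
  · intro hy
    have hle : J.map 𝒞.i1 ≤ ((ext1 J).map (𝒞.ι1 k)).comap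
        (Algebra.TensorProduct.includeRight : 𝒞.B01 →ₐ[k] k ⊗[k] 𝒞.B01) := by
      rw [Ideal.map_le_iff_le_comap]
      intro b hb
      rw [Ideal.mem_comap, Ideal.mem_comap]
      show (1 : k) ⊗ₜ[k] (𝒞.i1 b) ∈ (ext1 J).map (𝒞.ι1 k)
      have h1 : 𝒞.ι1 k ((1 : k) ⊗ₜ[k] b) = (1 : k) ⊗ₜ[k] (𝒞.i1 b) := rfl
      rw [← h1]
      refine Ideal.mem_map_of_mem (𝒞.ι1 k) ?_
      rw [mem_ext1_iff, lid_one_tmul]
      exact hb
    have := hle hy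
    rw [Ideal.mem_comap] at this
    rw [eq_one_tmul_lid y]
    exact this

/-- The graph ideal of a `k`-point of `V0` on `V0`. -/
theorem ker_ev0 (q : 𝒞.B0 →ₐ[k] k) : RingHom.ker (ev0 q) = ext0 (RingHom.ker q) := by
  ext x
  rw [RingHom.mem_ker, mem_ext0_iff, RingHom.mem_ker, ev0_apply]

/-- The graph ideal of a `k`-point of `V1` on `V1`. -/
theorem ker_ev1 (q : 𝒞.B1 →ₐ[k] k) : RingHom.ker (ev1 q) = ext1 (RingHom.ker q) := by
  ext x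
  rw [RingHom.mem_ker, mem_ext1_iff, RingHom.mem_ker, ev1_apply]

theorem gr0_inl (q : 𝒞.B0 →ₐ[k] k) :
    gr0 (Sum.inl q : CPt 𝒞 k) = ext0 (RingHom.ker q) :=
  ker_ev0 q

theorem gr1_inr (q : 𝒞.B1 →ₐ[k] k) :
    gr1 (Sum.inr q : CPt 𝒞 k) = ext1 (RingHom.ker q) :=
  ker_ev1 q

theorem gr1_inl (q : 𝒞.B0 →ₐ[k] k) :
    gr1 (Sum.inl q : CPt 𝒞 k) = ext1 (tr01 (RingHom.ker q)) := by
  show Ideal.comap (𝒞.ι1 k) (Ideal.map (𝒞.ι0 k) (RingHom.ker (ev0 q))) = _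
  rw [ker_ev0]
  ext x
  rw [Ideal.mem_comap, mem_map_ι0_ext0_iff, mem_ext1_iff, lid_ι1]
  rfl

theorem gr0_inr (q : 𝒞.B1 →ₐ[k] k) :
    gr0 (Sum.inr q : CPt 𝒞 k) = ext0 (tr10 (RingHom.ker q)) := by
  show Ideal.comap (𝒞.ι0 k) (Ideal.map (𝒞.ι1 k) (RingHom.ker (ev1 q))) = _
  rw [ker_ev1]
  ext x
  rw [Ideal.mem_comap, mem_map_ι1_ext1_iff, mem_ext0_iff, lid_ι0]
  rfl

/-- Twists: the two languages agree. -/
theorem isTw_ext_iff (J0 : Ideal 𝒞.B0) (J1 : Ideal 𝒞.B1) (L L' : Triple 𝒞 k) :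
    IsTw (ext0 J0) (ext1 J1) L L' ↔ IsTwist J0 J1 L L' :=
  Iff.rfl

/-- Unit triples: the two languages agree. -/
theorem isUnitR_iff (U : Triple 𝒞 k) : IsUnitR U ↔ IsUnitTriple U :=
  Iff.rfl

/-! ## The divisor of a family of `k`-points -/

/-- The ideal in `B0` of a `k`-point. -/
def ptD0 : CPt 𝒞 k → Ideal 𝒞.B0
  | Sum.inl q => RingHom.ker q
  | Sum.inr q => tr10 (RingHom.ker q)

/-- The ideal in `B1` of a `k`-point. -/
def ptD1 : CPt 𝒞 k → Ideal 𝒞.B1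
  | Sum.inl q => tr01 (RingHom.ker q)
  | Sum.inr q => RingHom.ker q

theorem gr0_eq (β : CPt 𝒞 k) : gr0 β = ext0 (ptD0 β) := by
  rcases β with q | q
  · exact gr0_inl q
  · exact gr0_inr q

theorem gr1_eq (β : CPt 𝒞 k) : gr1 β = ext1 (ptD1 β) := by
  rcases β with q | q
  · exact gr1_inl q
  · exact gr1_inr q

/-- The ideal in `B0` of the divisor of a family of `k`-points. -/
noncomputable def divD0 {g : ℕ} (β : Fin g → CPt 𝒞 k) : Ideal 𝒞.B0 := ∏ j, ptD0 (β j)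

/-- The ideal in `B1` of the divisor of a family of `k`-points. -/
noncomputable def divD1 {g : ℕ} (β : Fin g → CPt 𝒞 k) : Ideal 𝒞.B1 := ∏ j, ptD1 (β j)

theorem ext0_mul (I J : Ideal 𝒞.B0) : ext0 (I * J) = ext0 I * ext0 J :=
  Ideal.map_mul _ I J

theorem ext1_mul (I J : Ideal 𝒞.B1) : ext1 (I * J) = ext1 I * ext1 J :=
  Ideal.map_mul _ I J

theorem ext0_top : ext0 (⊤ : Ideal 𝒞.B0) = ⊤ := by
  ext x
  rw [mem_ext0_iff]
  simp

theorem ext1_top : ext1 (⊤ : Ideal 𝒞.B1) = ⊤ := by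
  ext x
  rw [mem_ext1_iff]
  simp

theorem ext0_one : ext0 (1 : Ideal 𝒞.B0) = 1 := by
  rw [Ideal.one_eq_top, ext0_top, Ideal.one_eq_top]

theorem ext1_one : ext1 (1 : Ideal 𝒞.B1) = 1 := by
  rw [Ideal.one_eq_top, ext1_top, Ideal.one_eq_top]

theorem ext0_prod {n : ℕ} (I : Fin n → Ideal 𝒞.B0) : ext0 (∏ j, I j) = ∏ j, ext0 (I j) := by
  induction n with
  | zero => simp [ext0_top]
  | succ n ih =>
    rw [Fin.prod_univ_succ, Fin.prod_univ_succ, ext0_mul, ih]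

theorem ext1_prod {n : ℕ} (I : Fin n → Ideal 𝒞.B1) : ext1 (∏ j, I j) = ∏ j, ext1 (I j) := by
  induction n with
  | zero => simp [ext1_top]
  | succ n ih =>
    rw [Fin.prod_univ_succ, Fin.prod_univ_succ, ext1_mul, ih]

theorem div0_eq {g : ℕ} (β : Fin g → CPt 𝒞 k) : div0 β = ext0 (divD0 β) := by
  unfold div0 divD0
  rw [ext0_prod]
  exact Finset.prod_congr rfl (fun j _ => gr0_eq (β j))

theorem div1_eq {g : ℕ} (β : Fin g → CPt 𝒞 k) : div1 β = ext1 (divD1 β) := by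
  unfold div1 divD1
  rw [ext1_prod]
  exact Finset.prod_congr rfl (fun j _ => gr1_eq (β j))

theorem ext0_pow (I : Ideal 𝒞.B0) (n : ℕ) : ext0 (I ^ n) = ext0 I ^ n :=
  Ideal.map_pow _ I n

theorem ext1_pow (I : Ideal 𝒞.B1) (n : ℕ) : ext1 (I ^ n) = ext1 I ^ n :=
  Ideal.map_pow _ I n

theorem divD0_succ {n : ℕ} (β : Fin (n + 1) → CPt 𝒞 k) :
    divD0 β = ptD0 (β 0) * divD0 (fun j => β j.succ) :=
  Fin.prod_univ_succ _

theorem divD1_succ {n : ℕ} (β : Fin (n + 1) → CPt 𝒞 k) :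
    divD1 β = ptD1 (β 0) * divD1 (fun j => β j.succ) :=
  Fin.prod_univ_succ _

variable [IsAlgClosed k]

/-- The divisor of a `k`-point is an effective divisor of degree one. -/
theorem isEffDiv_ptD (hPTS : Stmt_PTS.{u}) (hC : 𝒞.IsGood) (β : CPt 𝒞 k) :
    IsEffDiv (ptD0 β) (ptD1 β) ∧ ddeg (ptD0 β) (ptD1 β) = 1 := by
  obtain ⟨h0, h1, -⟩ := hPTS k 𝒞 hC
  rcases β with q | q
  · exact ⟨(h0 q).1, (h0 q).2.1⟩
  · exact ⟨(h1 q).1, (h1 q).2.1⟩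

/-- The divisor of a family of `g` points is an effective divisor of degree `g`. -/
theorem isEffDiv_divD (hPTS : Stmt_PTS.{u}) (hC : 𝒞.IsGood) {g : ℕ} (β : Fin g → CPt 𝒞 k) :
    IsEffDiv (divD0 β) (divD1 β) ∧ ddeg (divD0 β) (divD1 β) = g := by
  induction g with
  | zero =>
    have h := H47.ddeg_top hPTS hC
    unfold divD0 divD1
    simp only [Finset.univ_eq_empty, Finset.prod_empty, Ideal.one_eq_top, Nat.cast_zero]
    exact h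
  | succ n ih =>
    obtain ⟨-, -, h3⟩ := hPTS k 𝒞 hC
    obtain ⟨hE, hd⟩ := ih (fun j => β j.succ)
    obtain ⟨hE0, hd0⟩ := isEffDiv_ptD hPTS hC (β 0)
    obtain ⟨hE', hd', -, -⟩ := h3 _ _ _ _ hE0 hE
    rw [divD0_succ, divD1_succ]
    refine ⟨hE', ?_⟩
    rw [hd', hd0, hd]
    push_cast
    ring

/-- The divisor `g · q` is an effective divisor of degree `g`. -/
theorem isEffDiv_pow (hPTS : Stmt_PTS.{u}) (hC : 𝒞.IsGood) (β : CPt 𝒞 k) (g : ℕ) :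
    IsEffDiv (ptD0 β ^ g) (ptD1 β ^ g) ∧ ddeg (ptD0 β ^ g) (ptD1 β ^ g) = g := by
  have h := isEffDiv_divD hPTS hC (fun _ : Fin g => β)
  unfold divD0 divD1 at h
  simpa [Finset.prod_const] using h

end Dict

end Fermat.Agent.S25.Top.S.H77
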