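/-
helper77, S25 (Jacobian exists), package TOP-SURJ, leaf S-LOCFAM: the family `FamOf ρ y pr` of triples
`O(Σ_j Γ_(pr j) - g ε)` on the affine test schemes of `Y` is a `LocFam`.

* `congr`, `uniq` : `Stmt_FAMUNIQ` and `Stmt_PT` (d);
* `bc`            : `Stmt_FAMBC` and the base change of `ptMor` (`ptMor_map`, proved here);
* `loc`           : `Stmt_PT` (b) for every `j`, product of the denominators, `Stmt_FAMEX`, `Stmt_RIGLOC`,
                    then the base change to `Localization.Away (r₁ a)`: `LB.Stmt_BCEX`, `Stmt_RIGBC`, `Stmt_FAMBC`.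
-/
import Fermat.Agent.S25.Top.DefsS2
import Fermat.Agent.S25.LB.DefsE

set_option autoImplicit false

universe u

open CategoryTheory CategoryTheory.Limits AlgebraicGeometry AlgebraicGeometry.RelPicard NeronModelInfra
  GoodReductionJacobian TensorProduct

namespace Fermat.Agent.S25.Top.S.H77L

open Fermat.Agent.S25 Fermat.Agent.S25.LB

/-! ## Lifting algebra maps through a localisation -/

section Lift

variable {k : Type u} [Field k] {R S : Type u} [CommRing R] [Algebra k R] [CommRing S] [Algebra k S]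

/-- The `k`-algebra map `R[1/r] → S` of a `k`-algebra map `f : R → S` with `f r` a unit. -/
noncomputable def liftAway (f : R →ₐ[k] S) (r : R) (hr : IsUnit (f r)) :
    Localization.Away r →ₐ[k] S :=
  { IsLocalization.Away.lift (S := Localization.Away r) r (g := f.toRingHom) hr with
    commutes' := fun a => by
      show IsLocalization.Away.lift (S := Localization.Away r) r (g := f.toRingHom) hr
        (algebraMap k (Localization.Away r) a) = algebraMap k S a
      rw [IsScalarTower.algebraMap_apply k R (Localization.Away r), IsLocalization.Away.lift_eq]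
      exact f.commutes a }

theorem liftAway_algebraMap (f : R →ₐ[k] S) (r : R) (hr : IsUnit (f r)) (x : R) :
    liftAway f r hr (algebraMap R (Localization.Away r) x) = f x :=
  IsLocalization.Away.lift_eq (S := Localization.Away r) r (g := f.toRingHom) hr x

theorem liftAway_comp (f : R →ₐ[k] S) (r : R) (hr : IsUnit (f r)) :
    (liftAway f r hr).comp (Chart.awayMap r) = f :=
  AlgHom.ext fun x => liftAway_algebraMap f r hr x

end Lift

/-! ## Base change of the points -/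

section Pt

variable {k : Type u} [Field k] {C : Scheme.{u}} {c : C ⟶ Spec (CommRingCat.of k)}
  {ε : SchemeHomOver (𝟙 (Spec (CommRingCat.of k))) c} {𝒞 : CurveDatum k}

/-- `ptMor` commutes with base change (the form of `Stmt_PT` (c) for an algebra map). -/
theorem ptMor_map (ρ : Bridge.Realizes c ε 𝒞) {R R' : Type u} [CommRing R] [Algebra k R]
    [CommRing R'] [Algebra k R'] (f : R →ₐ[k] R') (β : CPt 𝒞 R) :
    Spec.map (CommRingCat.ofHom f.toRingHom) ≫ ptMor ρ R β = ptMor ρ R' (β.map f) := by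
  cases β with
  | inl β =>
    show Spec.map (CommRingCat.ofHom f.toRingHom) ≫
        Spec.map (CommRingCat.ofHom ((β : 𝒞.B0 →+* R).comp
          (ρ.φ0.symm : Γ(C, ρ.U₀) →+* 𝒞.B0))) ≫ ρ.aff₀.fromSpec =
      Spec.map (CommRingCat.ofHom (((f.comp β : 𝒞.B0 →ₐ[k] R') : 𝒞.B0 →+* R').comp
          (ρ.φ0.symm : Γ(C, ρ.U₀) →+* 𝒞.B0))) ≫ ρ.aff₀.fromSpec
    rw [← Category.assoc, ← Spec.map_comp, ← CommRingCat.ofHom_comp]
    rfl
  | inr β =>
    show Spec.map (CommRingCat.ofHom f.toRingHom) ≫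
        Spec.map (CommRingCat.ofHom ((β : 𝒞.B1 →+* R).comp
          (ρ.φ1.symm : Γ(C, ρ.U₁) →+* 𝒞.B1))) ≫ ρ.aff₁.fromSpec =
      Spec.map (CommRingCat.ofHom (((f.comp β : 𝒞.B1 →ₐ[k] R') : 𝒞.B1 →+* R').comp
          (ρ.φ1.symm : Γ(C, ρ.U₁) →+* 𝒞.B1))) ≫ ρ.aff₁.fromSpec
    rw [← Category.assoc, ← Spec.map_comp, ← CommRingCat.ofHom_comp]
    rfl

/-- Transport of a presentation of a point along an algebra map. -/
theorem pt_transport (ρ : Bridge.Realizes c ε 𝒞) {R A A' : Type u} [CommRing R] [Algebra k R]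
    [CommRing A] [Algebra k A] [CommRing A'] [Algebra k A'] (F : Spec (CommRingCat.of R) ⟶ C)
    (a : R →ₐ[k] A) (β : CPt 𝒞 A) (h : A →ₐ[k] A')
    (hβ : Spec.map (CommRingCat.ofHom a.toRingHom) ≫ F = ptMor ρ A β) :
    Spec.map (CommRingCat.ofHom (h.comp a).toRingHom) ≫ F = ptMor ρ A' (β.map h) := by
  rw [← ptMor_map ρ h β, ← hβ, ← Category.assoc, ← Spec.map_comp, ← CommRingCat.ofHom_comp]
  rfl

/-- Equal graph ideals give equal divisors. -/
theorem div_eq_of_gr_eq {R : Type u} [CommRing R] [Algebra k R] {g : ℕ} (β β' : Fin g → CPt 𝒞 R)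
    (h : ∀ j, gr0 (β j) = gr0 (β' j) ∧ gr1 (β j) = gr1 (β' j)) :
    div0 β = div0 β' ∧ div1 β = div1 β' :=
  ⟨Finset.prod_congr rfl fun j _ => (h j).1, Finset.prod_congr rfl fun j _ => (h j).2⟩

end Pt

/-! ## Commutative algebra of the localisations -/

section Loc

variable {k : Type u} [Field k] {R : Type u} [CommRing R] [Algebra k R]

theorem isUnit_away_of_dvd {r s : R} (h : r ∣ s) :
    IsUnit (Chart.awayMap (k := k) s r) :=
  isUnit_of_dvd_unit ((algebraMap R (Localization.Away s)).map_dvd h)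
    (IsLocalization.Away.algebraMap_isUnit s)

/-- The prime of `R[1/r]` of a prime `p` of `R` with `r ∉ p`. -/
noncomputable def primeAway (p : PrimeSpectrum R) (r : R) (hr : r ∉ p.asIdeal) :
    PrimeSpectrum (Localization.Away r) :=
  ⟨Ideal.map (algebraMap R (Localization.Away r)) p.asIdeal,
    IsLocalization.isPrime_of_isPrime_disjoint (Submonoid.powers r) _ _ p.isPrime
      (Set.disjoint_left.2 fun x hx hxp => by
        obtain ⟨n, rfl⟩ := hx
        exact hr (p.isPrime.mem_of_pow_mem n hxp))⟩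

/-- An element of `R[1/r]` outside the prime of `p` is, up to a power of `r`, an element of `R`
outside `p`. -/
theorem exists_num_not_mem (p : PrimeSpectrum R) (r : R) (hr : r ∉ p.asIdeal)
    (x : Localization.Away r) (hx : x ∉ (primeAway p r hr).asIdeal) :
    ∃ (a : R) (s : R), a ∉ p.asIdeal ∧ IsUnit (algebraMap R (Localization.Away r) s) ∧
      x * algebraMap R (Localization.Away r) s = algebraMap R (Localization.Away r) a := by
  obtain ⟨⟨a, s⟩, hs⟩ := IsLocalization.surj (Submonoid.powers r) x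
  refine ⟨a, s, fun ha => hx ?_, IsLocalization.map_units _ s, hs⟩
  have hmem : x * algebraMap R (Localization.Away r) s ∈ (primeAway p r hr).asIdeal := by
    rw [hs]
    exact Ideal.mem_map_of_mem _ ha
  rcases (primeAway p r hr).isPrime.mem_or_mem hmem with h | h
  · exact h
  · exact absurd ((primeAway p r hr).asIdeal.eq_top_of_isUnit_mem h (IsLocalization.map_units _ s))
      (primeAway p r hr).isPrime.ne_top

end Loc

/-! ## The family is a `LocFam` -/

section Main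

variable {k : Type u} [Field k] {C : Scheme.{u}} {c : C ⟶ Spec (CommRingCat.of k)}
  {ε : SchemeHomOver (𝟙 (Spec (CommRingCat.of k))) c} {𝒞 : CurveDatum k}

/-- Finitely many points of `C` with values in `R` are chart points over a common principal open
neighbourhood of a given prime. -/
theorem exists_common_chart (ρ : Bridge.Realizes c ε 𝒞)
    (hPb : ∀ (R : Type u) [CommRing R] [Algebra k R] (f : Spec (CommRingCat.of R) ⟶ C),
      f ≫ c = Bridge.tR k R → ∀ p : PrimeSpectrum R, ∃ r : R, r ∉ p.asIdeal ∧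
        ∃ β : CPt 𝒞 (Localization.Away r),
          Spec.map (CommRingCat.ofHom (algebraMap R (Localization.Away r))) ≫ f =
            ptMor ρ (Localization.Away r) β)
    (R : Type u) [CommRing R] [Algebra k R] {g : ℕ} (F : Fin g → (Spec (CommRingCat.of R) ⟶ C))
    (hF : ∀ j, F j ≫ c = Bridge.tR k R) (p : PrimeSpectrum R) :
    ∃ r : R, r ∉ p.asIdeal ∧ ∃ β : Fin g → CPt 𝒞 (Localization.Away r),
      ∀ j, Spec.map (CommRingCat.ofHom (Chart.awayMap (k := k) r).toRingHom) ≫ F j =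
        ptMor ρ (Localization.Away r) (β j) := by
  choose r hr β hβ using fun j => hPb R (F j) (hF j) p
  refine ⟨∏ j, r j, fun h => ?_, ?_⟩
  · obtain ⟨j, -, hj⟩ := (p.isPrime.prod_mem_iff).1 h
    exact hr j hj
  · have hu : ∀ j, IsUnit (Chart.awayMap (k := k) (∏ j, r j) (r j)) := fun j =>
      isUnit_away_of_dvd (Finset.dvd_prod_of_mem r (Finset.mem_univ j))
    refine ⟨fun j => (β j).map (liftAway (Chart.awayMap (∏ j, r j)) (r j) (hu j)), fun j => ?_⟩
    have := pt_transport ρ (F j) (Chart.awayMap (k := k) (r j)) (β j)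
      (liftAway (Chart.awayMap (∏ j, r j)) (r j) (hu j)) (hβ j)
    rwa [liftAway_comp] at this

/-- **loc**: the family exists, with a rigid member, over a principal open neighbourhood of every prime. -/
theorem famOf_loc [IsAlgClosed k] (ρ : Bridge.Realizes c ε 𝒞) (hgood : 𝒞.IsGood)
    (hPb : ∀ (R : Type u) [CommRing R] [Algebra k R] (f : Spec (CommRingCat.of R) ⟶ C),
      f ≫ c = Bridge.tR k R → ∀ p : PrimeSpectrum R, ∃ r : R, r ∉ p.asIdeal ∧
        ∃ β : CPt 𝒞 (Localization.Away r),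
          Spec.map (CommRingCat.ofHom (algebraMap R (Localization.Away r))) ≫ f =
            ptMor ρ (Localization.Away r) β)
    (hEX : Stmt_FAMEX.{u}) (hBC : Stmt_FAMBC.{u}) (hRL : Stmt_RIGLOC.{u}) (hRB : Stmt_RIGBC.{u})
    (hBE : LB.Stmt_BCEX.{u}) {Y : Scheme.{u}} (y : Y ⟶ Spec (CommRingCat.of k)) (g : ℕ)
    (pr : Fin g → (Y ⟶ C)) (hpr : ∀ j, pr j ≫ c = y)
    (R : Type u) [CommRing R] [Algebra k R] (φ : SchemeHomOver (Bridge.tR k R) y)
    (p : PrimeSpectrum R) :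
    ∃ r : R, r ∉ p.asIdeal ∧ ∃ L : Triple 𝒞 (Localization.Away r),
      L.IsRigid ∧ FamOf ρ y pr (Localization.Away r)
        (postComp φ (specOver k R (Localization.Away r))) L := by
  -- the points over a common neighbourhood `D(r₁)`
  obtain ⟨r₁, hr₁, β₁, hβ₁⟩ := exists_common_chart ρ hPb R (fun j => φ.1 ≫ pr j)
    (fun j => by rw [Category.assoc, hpr j, φ.2]) p
  -- the family over `D(r₁)`
  obtain ⟨N₁, hN₁⟩ := hEX k 𝒞 hgood (Localization.Away r₁) g β₁
  -- it is rigid over `D(r₂)`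
  obtain ⟨r₂, hr₂, hrig⟩ := hRL k 𝒞 hgood (Localization.Away r₁) N₁ (primeAway p r₁ hr₁)
  obtain ⟨a, s, ha, hs, has⟩ := exists_num_not_mem p r₁ hr₁ r₂ hr₂
  have hr : r₁ * a ∉ p.asIdeal := fun h =>
    (p.isPrime.mem_or_mem h).elim hr₁ ha
  have hu₁ : IsUnit (Chart.awayMap (k := k) (r₁ * a) r₁) := isUnit_away_of_dvd (Dvd.intro _ rfl)
  let h₁ : Localization.Away r₁ →ₐ[k] Localization.Away (r₁ * a) :=
    liftAway (Chart.awayMap (r₁ * a)) r₁ hu₁
  have hu₂ : IsUnit (h₁ r₂) := by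
    have h1 : h₁ r₂ * h₁ (algebraMap R (Localization.Away r₁) s) =
        Chart.awayMap (k := k) (r₁ * a) a := by
      rw [← map_mul, has]
      exact liftAway_algebraMap _ _ _ _
    have h2 : IsUnit (Chart.awayMap (k := k) (r₁ * a) a) := isUnit_away_of_dvd (Dvd.intro_left _ rfl)
    rw [← h1] at h2
    exact isUnit_of_mul_isUnit_left h2
  let h₂ : Localization.Away r₂ →ₐ[k] Localization.Away (r₁ * a) := liftAway h₁ r₂ hu₂
  obtain ⟨N₂, ⟨b₁₂⟩⟩ := hBE k 𝒞 hgood _ _ (Chart.awayMap (k := k) r₂) N₁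
  obtain ⟨N₃, ⟨b₂₃⟩⟩ := hBE k 𝒞 hgood _ _ h₂ N₂
  have hN₂ : N₂.IsRigid := hrig N₂ ⟨b₁₂⟩
  have hN₃ : N₃.IsRigid := (hRB k 𝒞 hgood _ N₂ hN₂).2 _ h₂ N₃ ⟨b₂₃⟩
  have hF₂ := hBC k 𝒞 hgood _ _ (Chart.awayMap (k := k) r₂) g β₁ N₁ N₂ hN₁ ⟨b₁₂⟩
  have hF₃ := hBC k 𝒞 hgood _ _ h₂ g _ N₂ N₃ hF₂ ⟨b₂₃⟩
  refine ⟨r₁ * a, hr, N₃, hN₃, _, fun j => ?_, hF₃⟩
  have e1 := pt_transport ρ (φ.1 ≫ pr j) (Chart.awayMap (k := k) r₁) (β₁ j)
    (Chart.awayMap (k := k) r₂) (hβ₁ j)
  have e2 := pt_transport ρ (φ.1 ≫ pr j) _ _ h₂ e1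
  have hcomp : h₂.comp ((Chart.awayMap (k := k) r₂).comp (Chart.awayMap (k := k) r₁)) =
      Chart.awayMap (k := k) (r₁ * a) := by
    rw [← AlgHom.comp_assoc, liftAway_comp, liftAway_comp]
  rw [hcomp] at e2
  rw [← e2]
  exact Category.assoc _ _ _

/-- **S-LOCFAM**: `FamOf` is a `LocFam`. -/
theorem stmt_LOCFAM_of (hPT : Stmt_PT.{u}) (hEX : Stmt_FAMEX.{u}) (hUQ : Stmt_FAMUNIQ.{u})
    (hBC : Stmt_FAMBC.{u}) (hRL : Stmt_RIGLOC.{u}) (hRB : Stmt_RIGBC.{u})
    (hBE : LB.Stmt_BCEX.{u}) : Stmt_LOCFAM.{u} := by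
  intro k _ _ C c ε 𝒞 hgood ρ Y y g pr hpr
  obtain ⟨_, hPb, _, hPd⟩ := hPT k c ε 𝒞 hgood ρ
  refine ⟨{ Fam := fun R _ _ φ L => FamOf ρ y pr R φ L
            congr := ?_, uniq := ?_, bc := ?_, loc := ?_ }, fun R _ _ φ L => Iff.rfl⟩
  · rintro R _ _ φ L L' ⟨β, hβ, hL⟩ hiso
    exact ⟨β, hβ, (hUQ k 𝒞 hgood R g β β L L' rfl rfl hL).2 hiso⟩
  · rintro R _ _ φ L L' ⟨β, hβ, hL⟩ ⟨β', hβ', hL'⟩ _ _
    obtain ⟨h0, h1⟩ := div_eq_of_gr_eq β β' fun j =>
      hPd R (β j) (β' j) ((hβ j).symm.trans (hβ' j))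
    exact (hUQ k 𝒞 hgood R g β β' L L' h0 h1 hL).1 hL'
  · rintro R R' _ _ _ _ _ _ φ L L' ⟨β, hβ, hL⟩ hbc
    refine ⟨fun j => (β j).map (IsScalarTower.toAlgHom k R R'), fun j => ?_,
      hBC k 𝒞 hgood R R' _ g β L L' hL hbc⟩
    rw [← ptMor_map ρ (IsScalarTower.toAlgHom k R R') (β j), ← hβ j]
    exact Category.assoc _ _ _
  · intro R _ _ φ p
    exact famOf_loc ρ hgood hPb hEX hBC hRL hRB hBE y g pr hpr R φ p

end Main

end Fermat.Agent.S25.Top.S.H77L
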