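/-
helper7, S25 (Jacobian exists), package TOP, leaf **TOP-SETUP**, unconditional:

* `stmt_LINK : Bridge.Stmt_LINK`  (from `Bridge.H7.stmt_LINK_of` and helper66's `Curve.H66.stmt_BCOVER`);
* `stmt_SETUP : Stmt_SETUP`.
-/
import Fermat.Agent.S25.Top.H7_Setup
import Fermat.Agent.S25.Bridge.H7_Link
import Fermat.Agent.S25.Curve.H66_BCoverFinal

set_option autoImplicit false

universe u

namespace Fermat.Agent.S25.Top.H7

open Fermat.Agent.S25

/-- **LINK**, unconditional. -/
theorem stmt_LINK : Bridge.Stmt_LINK.{u} :=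
  Bridge.H7.stmt_LINK_of Curve.H66.stmt_BCOVER

/-- **TOP-SETUP**, unconditional. -/
theorem stmt_SETUP : Stmt_SETUP.{u} :=
  stmt_SETUP_of stmt_LINK

end Fermat.Agent.S25.Top.H7
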