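/-
helper80, S25 package TOP, TOP-SURJ leaf **S-PT** (`Top.S.Stmt_PT` of `Top/DefsS2.lean`):
points of the curve in the charts.

* `factor`, `factor_spec`, `factor_unique` : a morphism `Spec S ⟶ X` with image in an affine open `U`
  is `Spec.map ψ ≫ hU.fromSpec` for a unique `ψ : Γ(X, U) ⟶ S`;
* `fromSpec_comp` : `hU.fromSpec ≫ c = Spec.map (kSec c U)`;
* `stmt_PT_of : Stmt_GRCHART → Stmt_PT`.
-/
import Fermat.Agent.S25.Top.DefsS2

set_option autoImplicit false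

universe u

open CategoryTheory CategoryTheory.Limits AlgebraicGeometry AlgebraicGeometry.RelPicard NeronModelInfra
  GoodReductionJacobian TensorProduct

namespace Fermat.Agent.S25.Top.S.H80

open Fermat.Agent.S25 Fermat.Agent.S25.LB

/-! ## Morphisms from an affine scheme into an affine open -/

section Factor

variable {X : Scheme.{u}} {U : X.Opens} (hU : IsAffineOpen U) {S : CommRingCat.{u}}

/-- the ring map of a morphism `Spec S ⟶ X` with image in the affine open `U` -/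
noncomputable def factor (f : Spec S ⟶ X) (h : (⊤ : (Spec S).Opens) ≤ f ⁻¹ᵁ U) : Γ(X, U) ⟶ S :=
  f.appLE U ⊤ h ≫ (Scheme.ΓSpecIso S).hom

theorem factor_spec (f : Spec S ⟶ X) (h : (⊤ : (Spec S).Opens) ≤ f ⁻¹ᵁ U) :
    Spec.map (factor f h) ≫ hU.fromSpec = f := by
  rw [factor, Spec.map_comp, Category.assoc,
    IsAffineOpen.SpecMap_appLE_fromSpec f hU (isAffineOpen_top (Spec S)) h,
    IsAffineOpen.fromSpec_top, Scheme.isoSpec_Spec_inv, ← Category.assoc, ← Spec.map_comp,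
    Iso.inv_hom_id, Spec.map_id, Category.id_comp]

theorem factor_unique {ψ ψ' : Γ(X, U) ⟶ S}
    (h : Spec.map ψ ≫ hU.fromSpec = Spec.map ψ' ≫ hU.fromSpec) : ψ = ψ' :=
  Spec.map_injective ((cancel_mono hU.fromSpec).1 h)

theorem le_preimage_of_eq (ψ : Γ(X, U) ⟶ S) :
    (⊤ : (Spec S).Opens) ≤ (Spec.map ψ ≫ hU.fromSpec) ⁻¹ᵁ U := by
  intro z _
  change (Spec.map ψ ≫ hU.fromSpec) z ∈ U
  have : (Spec.map ψ ≫ hU.fromSpec) z ∈ Set.range hU.fromSpec := ⟨Spec.map ψ z, rfl⟩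
  rw [hU.range_fromSpec] at this
  exact this

end Factor

/-! ## The structure map on an affine open -/

section Struct

variable {k : Type u} [Field k] {C : Scheme.{u}} (c : C ⟶ Spec (CommRingCat.of k))

theorem fromSpec_comp {U : C.Opens} (hU : IsAffineOpen U) :
    hU.fromSpec ≫ c = Spec.map (CommRingCat.ofHom (Curve.kSec c U)) := by
  have h := IsAffineOpen.SpecMap_appLE_fromSpec c (isAffineOpen_top (Spec (CommRingCat.of k))) hU
    (le_top : U ≤ c ⁻¹ᵁ ⊤)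
  rw [IsAffineOpen.fromSpec_top, Scheme.isoSpec_Spec_inv, ← Spec.map_comp] at h
  rw [← h]
  rfl

/-- a morphism `Spec.map ψ ≫ fromSpec` is over `k` iff `ψ` is a `k`-algebra map -/
theorem comp_c_eq_iff {U : C.Opens} (hU : IsAffineOpen U) {R : Type u} [CommRing R] [Algebra k R]
    (ψ : Γ(C, U) →+* R) :
    (Spec.map (CommRingCat.ofHom ψ) ≫ hU.fromSpec) ≫ c = Bridge.tR k R ↔
      ∀ a : k, ψ (Curve.kSec c U a) = algebraMap k R a := by
  rw [Category.assoc, fromSpec_comp c hU, ← Spec.map_comp, ← CommRingCat.ofHom_comp]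
  constructor
  · intro h a
    have h2 := congrArg CommRingCat.Hom.hom (Spec.map_injective h)
    exact congrArg (fun g : k →+* R => g a) h2
  · intro h
    have : ψ.comp (Curve.kSec c U) = algebraMap k R := RingHom.ext h
    rw [this]

/-- presentation of a `k`-morphism `Spec R ⟶ C` with image in an affine open `U` with `Γ(C, U) ≅ B` -/
theorem exists_alg {U : C.Opens} (hU : IsAffineOpen U) {B : Type u} [CommRing B] [Algebra k B]
    (φ : B ≃+* Γ(C, U)) (hφ : ∀ a : k, φ (algebraMap k B a) = Curve.kSec c U a)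
    {R : Type u} [CommRing R] [Algebra k R] (g : Spec (CommRingCat.of R) ⟶ C)
    (hg : g ≫ c = Bridge.tR k R) (h : ∀ z, g z ∈ U) :
    ∃ β : B →ₐ[k] R,
      g = Spec.map (CommRingCat.ofHom ((β : B →+* R).comp (φ.symm : Γ(C, U) →+* B))) ≫
        hU.fromSpec := by
  have hle : (⊤ : (Spec (CommRingCat.of R)).Opens) ≤ g ⁻¹ᵁ U := fun z _ => h z
  have hs := factor_spec hU g hle
  set ψ : Γ(C, U) →+* R := (factor g hle).hom with hψ
  have hs' : Spec.map (CommRingCat.ofHom ψ) ≫ hU.fromSpec = g := hs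
  have hk : ∀ a : k, ψ (Curve.kSec c U a) = algebraMap k R a :=
    (comp_c_eq_iff c hU ψ).1 (by rw [hs', hg])
  refine ⟨{ toRingHom := ψ.comp (φ : B →+* Γ(C, U)), commutes' := fun a => ?_ }, ?_⟩
  · change ψ (φ (algebraMap k B a)) = _
    rw [hφ, hk]
  · rw [← hs']
    congr 3
    ext y
    change ψ y = ψ (φ (φ.symm y))
    rw [RingEquiv.apply_symm_apply]

/-- the presentation is unique -/
theorem alg_unique {U : C.Opens} (hU : IsAffineOpen U) {B : Type u} [CommRing B] [Algebra k B]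
    (φ : B ≃+* Γ(C, U)) {R : Type u} [CommRing R] [Algebra k R] (β β' : B →ₐ[k] R)
    (h : Spec.map (CommRingCat.ofHom ((β : B →+* R).comp (φ.symm : Γ(C, U) →+* B))) ≫ hU.fromSpec =
      Spec.map (CommRingCat.ofHom ((β' : B →+* R).comp (φ.symm : Γ(C, U) →+* B))) ≫
        hU.fromSpec) : β = β' := by
  have h2 := congrArg CommRingCat.Hom.hom (factor_unique hU h)
  ext b
  have h3 := congrArg (fun g : Γ(C, U) →+* R => g (φ b)) h2
  simpa using h3

/-- the image of `Spec.map ψ ≫ fromSpec` lies in `U` -/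
theorem mem_of_eq {U : C.Opens} (hU : IsAffineOpen U) {S : CommRingCat.{u}} (ψ : Γ(C, U) ⟶ S)
    (z : Spec S) : (Spec.map ψ ≫ hU.fromSpec) z ∈ U := by
  have : (Spec.map ψ ≫ hU.fromSpec) z ∈ Set.range hU.fromSpec := ⟨Spec.map ψ z, rfl⟩
  rw [hU.range_fromSpec] at this
  exact this

end Struct

/-! ## The four parts of S-PT -/

section Pt

variable {k : Type u} [Field k] {C : Scheme.{u}} {c : C ⟶ Spec (CommRingCat.of k)}
  {ε : SchemeHomOver (𝟙 (Spec (CommRingCat.of k))) c} {𝒞 : CurveDatum k}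
  (ρ : Bridge.Realizes c ε 𝒞)

theorem ptMor_inl (R : Type u) [CommRing R] [Algebra k R] (β : 𝒞.B0 →ₐ[k] R) :
    ptMor ρ R (Sum.inl β) =
      Spec.map (CommRingCat.ofHom
        ((β : 𝒞.B0 →+* R).comp (ρ.φ0.symm : Γ(C, ρ.U₀) →+* 𝒞.B0))) ≫ ρ.aff₀.fromSpec := rfl

theorem ptMor_inr (R : Type u) [CommRing R] [Algebra k R] (β : 𝒞.B1 →ₐ[k] R) :
    ptMor ρ R (Sum.inr β) =
      Spec.map (CommRingCat.ofHom
        ((β : 𝒞.B1 →+* R).comp (ρ.φ1.symm : Γ(C, ρ.U₁) →+* 𝒞.B1))) ≫ ρ.aff₁.fromSpec := rfl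

/-- **(a)** `ptMor` is a morphism over `k` -/
theorem ptMor_comp (R : Type u) [CommRing R] [Algebra k R] (β : CPt 𝒞 R) :
    ptMor ρ R β ≫ c = Bridge.tR k R := by
  rcases β with β | β
  · rw [ptMor_inl, comp_c_eq_iff]
    intro a
    change β (ρ.φ0.symm (Curve.kSec c ρ.U₀ a)) = _
    rw [← ρ.φ0_alg a, RingEquiv.symm_apply_apply, β.commutes]
  · rw [ptMor_inr, comp_c_eq_iff]
    intro a
    change β (ρ.φ1.symm (Curve.kSec c ρ.U₁ a)) = _
    rw [← ρ.φ1_alg a, RingEquiv.symm_apply_apply, β.commutes]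

theorem ptMor_inl_mem (R : Type u) [CommRing R] [Algebra k R] (β : 𝒞.B0 →ₐ[k] R)
    (z : Spec (CommRingCat.of R)) : ptMor ρ R (Sum.inl β) z ∈ ρ.U₀ :=
  mem_of_eq ρ.aff₀ _ z

theorem ptMor_inr_mem (R : Type u) [CommRing R] [Algebra k R] (β : 𝒞.B1 →ₐ[k] R)
    (z : Spec (CommRingCat.of R)) : ptMor ρ R (Sum.inr β) z ∈ ρ.U₁ :=
  mem_of_eq ρ.aff₁ _ z

/-- **(c)** base change -/
theorem ptMor_map (R R' : Type u) [CommRing R] [Algebra k R] [CommRing R'] [Algebra k R']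
    (f : R →ₐ[k] R') (β : CPt 𝒞 R) :
    Spec.map (CommRingCat.ofHom (f : R →+* R')) ≫ ptMor ρ R β = ptMor ρ R' (β.map f) := by
  rcases β with β | β
  · change _ = ptMor ρ R' (Sum.inl (f.comp β))
    rw [ptMor_inl, ptMor_inl, ← Category.assoc, ← Spec.map_comp, ← CommRingCat.ofHom_comp]
    rfl
  · change _ = ptMor ρ R' (Sum.inr (f.comp β))
    rw [ptMor_inr, ptMor_inr, ← Category.assoc, ← Spec.map_comp, ← CommRingCat.ofHom_comp]
    rfl

/-- a point of `Spec R` mapped into an open `U` has a principal open neighbourhood mapped into `U` -/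
theorem exists_away {X : Scheme.{u}} (U : X.Opens) (R : Type u) [CommRing R]
    (f : Spec (CommRingCat.of R) ⟶ X) (p : PrimeSpectrum R)
    (hp : f (show Spec (CommRingCat.of R) from p) ∈ U) :
    ∃ r : R, r ∉ p.asIdeal ∧ ∀ z : Spec (CommRingCat.of (Localization.Away r)),
      (Spec.map (CommRingCat.ofHom (algebraMap R (Localization.Away r))) ≫ f) z ∈ U := by
  have hopen : IsOpen {z : PrimeSpectrum R | f (show Spec (CommRingCat.of R) from z) ∈ U} :=
    (f ⁻¹ᵁ U).isOpen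
  have hmem : p ∈ {z : PrimeSpectrum R | f (show Spec (CommRingCat.of R) from z) ∈ U} := hp
  obtain ⟨t, ⟨r, rfl⟩, hpt, hsub⟩ :=
    (PrimeSpectrum.isTopologicalBasis_basic_opens (R := R)).exists_subset_of_mem_open hmem hopen
  refine ⟨r, hpt, fun z => ?_⟩
  have hz : (Spec.map (CommRingCat.ofHom (algebraMap R (Localization.Away r))) z :
      PrimeSpectrum R) ∈ (PrimeSpectrum.basicOpen r : Set (PrimeSpectrum R)) := by
    change r ∉ Ideal.comap (algebraMap R (Localization.Away r)) (z : PrimeSpectrum _).asIdeal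
    intro hr
    have hu : IsUnit (algebraMap R (Localization.Away r) r) :=
      IsLocalization.Away.algebraMap_isUnit r
    exact (z : PrimeSpectrum _).isPrime.ne_top (Ideal.eq_top_of_isUnit_mem _ hr hu)
  exact hsub hz

/-- **(b)** every point is locally a chart point -/
theorem exists_local (R : Type u) [CommRing R] [Algebra k R] (f : Spec (CommRingCat.of R) ⟶ C)
    (hf : f ≫ c = Bridge.tR k R) (p : PrimeSpectrum R) :
    ∃ r : R, r ∉ p.asIdeal ∧ ∃ β : CPt 𝒞 (Localization.Away r),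
      Spec.map (CommRingCat.ofHom (algebraMap R (Localization.Away r))) ≫ f =
        ptMor ρ (Localization.Away r) β := by
  have hcov : f (show Spec (CommRingCat.of R) from p) ∈ ((ρ.U₀ ⊔ ρ.U₁ : C.Opens) : Set C) := by
    rw [ρ.cover]; trivial
  rw [TopologicalSpace.Opens.coe_sup] at hcov
  have hover : ∀ r : R, (Spec.map (CommRingCat.ofHom (algebraMap R (Localization.Away r))) ≫ f) ≫ c =
      Bridge.tR k (Localization.Away r) := by
    intro r
    rw [Category.assoc, hf, ← Spec.map_comp, ← CommRingCat.ofHom_comp,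
      ← IsScalarTower.algebraMap_eq]
  rcases hcov with h0 | h1
  · obtain ⟨r, hr, hz⟩ := exists_away ρ.U₀ R f p h0
    obtain ⟨β, hβ⟩ := exists_alg c ρ.aff₀ ρ.φ0 ρ.φ0_alg _ (hover r) hz
    exact ⟨r, hr, Sum.inl β, hβ⟩
  · obtain ⟨r, hr, hz⟩ := exists_away ρ.U₁ R f p h1
    obtain ⟨β, hβ⟩ := exists_alg c ρ.aff₁ ρ.φ1 ρ.φ1_alg _ (hover r) hz
    exact ⟨r, hr, Sum.inr β, hβ⟩

theorem restrict_eq {U V : C.Opens} (hU : IsAffineOpen U) (hV : IsAffineOpen V) (hVU : V ≤ U)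
    {S : Type u} [CommRing S] (ψ : Γ(C, V) →+* S) :
    Spec.map (CommRingCat.ofHom (ψ.comp (Curve.res hVU))) ≫ hU.fromSpec =
      Spec.map (CommRingCat.ofHom ψ) ≫ hV.fromSpec := by
  rw [CommRingCat.ofHom_comp, Spec.map_comp, Category.assoc]
  congr 1
  exact hU.map_fromSpec hV (homOfLE hVU).op

theorem aff01 : IsAffineOpen (ρ.U₀ ⊓ ρ.U₁) := by
  rw [← ρ.basic₀]
  exact ρ.aff₀.basicOpen _

/-- a point presented in both charts comes from a point of the overlap -/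
theorem exists_overlap (R : Type u) [CommRing R] [Algebra k R] (β : 𝒞.B0 →ₐ[k] R)
    (β' : 𝒞.B1 →ₐ[k] R) (h : ptMor ρ R (Sum.inl β) = ptMor ρ R (Sum.inr β')) :
    ∃ β01 : 𝒞.B01 →ₐ[k] R, β01.comp 𝒞.i0 = β ∧ β01.comp 𝒞.i1 = β' := by
  have hmem : ∀ z, ptMor ρ R (Sum.inl β) z ∈ ρ.U₀ ⊓ ρ.U₁ := fun z =>
    ⟨ptMor_inl_mem ρ R β z, by rw [h]; exact ptMor_inr_mem ρ R β' z⟩
  obtain ⟨β01, hβ01⟩ := exists_alg c (aff01 ρ) ρ.φ01 ρ.φ01_alg _
    (ptMor_comp ρ R (Sum.inl β)) hmem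
  refine ⟨β01, ?_, ?_⟩
  · apply alg_unique ρ.aff₀ ρ.φ0
    refine Eq.trans ?_ hβ01.symm
    rw [← restrict_eq ρ.aff₀ (aff01 ρ) inf_le_left]
    congr 3
    ext y
    change β01 (𝒞.i0 (ρ.φ0.symm y)) = β01 (ρ.φ01.symm (Curve.res inf_le_left y))
    congr 1
    rw [RingEquiv.eq_symm_apply, ρ.φ_i0, RingEquiv.apply_symm_apply]
  · apply alg_unique ρ.aff₁ ρ.φ1
    refine Eq.trans ?_ (hβ01.symm.trans h)
    rw [← restrict_eq ρ.aff₁ (aff01 ρ) inf_le_right]
    congr 3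
    ext y
    change β01 (𝒞.i1 (ρ.φ1.symm y)) = β01 (ρ.φ01.symm (Curve.res inf_le_right y))
    congr 1
    rw [RingEquiv.eq_symm_apply, ρ.φ_i1, RingEquiv.apply_symm_apply]

/-- **(d)** two presentations of the same point have the same graph ideals -/
theorem gr_eq_of_ptMor_eq (hG : Stmt_GRCHART.{u}) (hgood : 𝒞.IsGood) (R : Type u) [CommRing R]
    [Algebra k R] (β β' : CPt 𝒞 R) (h : ptMor ρ R β = ptMor ρ R β') :
    gr0 β = gr0 β' ∧ gr1 β = gr1 β' := by
  rcases β with β | β <;> rcases β' with β' | β'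
  · have : β = β' := alg_unique ρ.aff₀ ρ.φ0 β β' h
    subst this
    exact ⟨rfl, rfl⟩
  · obtain ⟨β01, rfl, rfl⟩ := exists_overlap ρ R β β' h
    exact (hG k 𝒞 hgood R).1 β01
  · obtain ⟨β01, rfl, rfl⟩ := exists_overlap ρ R β' β h.symm
    exact ⟨((hG k 𝒞 hgood R).1 β01).1.symm, ((hG k 𝒞 hgood R).1 β01).2.symm⟩
  · have : β = β' := alg_unique ρ.aff₁ ρ.φ1 β β' h
    subst this
    exact ⟨rfl, rfl⟩

end Pt

/-- **S-PT** from S-GRCHART -/
theorem stmt_PT_of (hG : Stmt_GRCHART.{u}) : Stmt_PT.{u} := by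
  intro k _ C c ε 𝒞 hgood ρ
  refine ⟨fun R _ _ β => ptMor_comp ρ R β, fun R _ _ f hf p => exists_local ρ R f hf p,
    fun R R' _ _ _ _ _ _ β => ?_, fun R _ _ β β' h => gr_eq_of_ptMor_eq ρ hG hgood R β β' h⟩
  exact ptMor_map ρ R R' (IsScalarTower.toAlgHom k R R') β

end Fermat.Agent.S25.Top.S.H80
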