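/-
helper81, S25 (Jacobian exists), package TOP, part S (sub-planner helper45), leaf **S-DEG**.

`deg_of  : Trip.Stmt_DEGLC → Trip.Stmt_DEGK → LB.Stmt_BCEX → S.Stmt_FAMBC → S.Stmt_DEGK → S.Stmt_DEG`
`deg_of' : Trip.Stmt_DEGLC → S.Stmt_FAMBC → S.Stmt_DEGK → S.Stmt_DEG`  (landed leaves plugged in).

Proof: `R` is a domain, so `Spec R` is connected and the locally constant function `p ↦ degAt N p`
(`Trip.Stmt_DEGLC`) is constant; `R` is of finite type over the algebraically closed field `k`, so a maximal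
ideal is the kernel of a `k`-point `t` (Nullstellensatz, `Trip.H82.exists_kpoint_of_isMaximal`); the fibre
`Nt` of `N` at `t` (`LB.Stmt_BCEX`) is a member of the family over `k` (`S.Stmt_FAMBC`), so `chi Nt = 1 - genus`
(`S.Stmt_DEGK`), and `chiAt N (ker t) = chi Nt` (`Trip.Stmt_DEGK`).
-/
import Fermat.Agent.S25.Top.DefsS
import Fermat.Agent.S25.Trip.Defs
import Fermat.Agent.S25.Trip.H82_Cover
import Fermat.Agent.S25.Trip.H36_DegBC
import Fermat.Agent.S25.LB.H36_BC

set_option autoImplicit false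
set_option linter.style.haveILetI false
set_option linter.unusedSectionVars false
set_option linter.unusedVariables false

universe u

open TensorProduct

namespace Fermat.Agent.S25.Top.S.H81

open Fermat.Agent.S25 Fermat.Agent.S25.LB Fermat.Agent.S25.Chart Fermat.Agent.S25.Num
  Fermat.Agent.S25.Trip

variable {k : Type u} [Field k] {𝒞 : CurveDatum k}

/-- The dictionary between the two forms of "fibrewise of degree zero". -/
theorem isDeg0_iff_deg0 {R : Type u} [CommRing R] [Algebra k R] (N : Triple 𝒞 R) :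
    Top.IsDeg0 (Num.genus 𝒞) N ↔ Trip.Deg0 N := by
  unfold Top.IsDeg0 Trip.Deg0 Trip.degAt Trip.chiAt
  constructor
  · intro h p
    rw [h p, sub_self]
  · intro h p
    exact sub_eq_zero.1 (h p)

/-- A triple over a domain of finite type over an algebraically closed field whose fibre at every `k`-point has
degree zero is fibrewise of degree zero. -/
theorem deg0_of_kpoints [IsAlgClosed k] (hDLC : Trip.Stmt_DEGLC.{u}) (hg : 𝒞.IsGood)
    {R : Type u} [CommRing R] [Algebra k R] [IsDomain R] [Algebra.FiniteType k R] (N : Triple 𝒞 R)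
    (h : ∀ t : R →ₐ[k] k, Trip.degAt N (Trip.ptPrime t) = 0) : Trip.Deg0 N := by
  -- a `k`-point
  obtain ⟨m, hm⟩ := Ideal.exists_maximal R
  obtain ⟨t, -⟩ := Trip.H82.exists_kpoint_of_isMaximal (k := k) m
  -- `Spec R` is connected
  haveI : IrreducibleSpace (PrimeSpectrum R) := PrimeSpectrum.irreducibleSpace
  intro p
  have hc := (hDLC k 𝒞 hg R N).apply_eq_of_preconnectedSpace p (Trip.ptPrime t)
  change Trip.degAt N p = Trip.degAt N (Trip.ptPrime t) at hc
  rw [hc]
  exact h t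

/-- **S-DEG** from its inputs. -/
theorem deg_of (hDLC : Trip.Stmt_DEGLC.{u}) (hDK : Trip.Stmt_DEGK.{u}) (hEX : LB.Stmt_BCEX.{u})
    (hFB : S.Stmt_FAMBC.{u}) (hSK : S.Stmt_DEGK.{u}) : S.Stmt_DEG.{u} := by
  intro k _ _ 𝒞 hg R _ _ _ _ g β N hN
  rw [isDeg0_iff_deg0]
  refine deg0_of_kpoints hDLC hg N (fun t => ?_)
  obtain ⟨Nt, ⟨βt⟩⟩ := hEX k 𝒞 hg R k t N
  have hfam : S.IsFam (fun j => (β j).map t) Nt := hFB k 𝒞 hg R k t g β N Nt hN ⟨βt⟩
  have hchi : Num.chi Nt = 1 - (Num.genus 𝒞 : ℤ) := hSK k 𝒞 hg g _ Nt hfam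
  have h1 := ((hDK k 𝒞 hg).2 R N t Nt βt).1
  unfold Trip.degAt
  rw [h1, hchi, sub_self]

/-- **S-DEG** with the landed leaves (`LB.H36.stmt_BCEX`, `Trip.H36.stmt_DEGK`) plugged in. -/
theorem deg_of' (hDLC : Trip.Stmt_DEGLC.{u}) (hFB : S.Stmt_FAMBC.{u}) (hSK : S.Stmt_DEGK.{u}) :
    S.Stmt_DEG.{u} :=
  deg_of hDLC Trip.H36.stmt_DEGK LB.H36.stmt_BCEX hFB hSK

end Fermat.Agent.S25.Top.S.H81
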