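/-
helper81, S25 (Jacobian exists), package TOP, part S (sub-planner helper45), leaf **S-DEGALL**.

`degall_of  : S.Stmt_DEG → S.Stmt_FAMEX → S.Stmt_FAMBC → S.Stmt_FAMUNIQ → S.Stmt_DEGALL`
`degall_of' : Trip.Stmt_DEGLC → S.Stmt_FAMEX → S.Stmt_FAMBC → S.Stmt_FAMUNIQ → S.Stmt_DEGK → S.Stmt_DEGALL`
(the landed leaves `LB.H36.stmt_BCEX`, `Trip.H36.stmt_DEGBC` and `S.H81.deg_of'` plugged in).

Proof: let `p` be a prime of `R`, `D := R ⧸ p` (a domain), `f : R → D`.  The finitely many points `(β j).map f`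
have values in a finitely generated `k`-subalgebra `A ⊆ D` (`B0`, `B1` are of finite type), which is a domain of
finite type.  The family `N_A` over `A` (`S.Stmt_FAMEX`) is fibrewise of degree zero (`S.Stmt_DEG`).  Its base
change to `D` and the base change of `N` to `D` are both members of the family over `D` (`S.Stmt_FAMBC`), hence
isomorphic (`S.Stmt_FAMUNIQ`); the Euler characteristic of the fibre of `N` at `p` is the one of the fibre of the
base change at the zero ideal of `D` (`Trip.Stmt_DEGBC`).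
-/
import Fermat.Agent.S25.Top.DefsS2
import Fermat.Agent.S25.Top.H81_SDeg
import Fermat.Agent.S25.Trip.H98_DegUnit

set_option autoImplicit false
set_option linter.style.haveILetI false
set_option linter.unusedSectionVars false
set_option linter.unusedVariables false

universe u

open TensorProduct

namespace Fermat.Agent.S25.Top.S.H81L

open Fermat.Agent.S25 Fermat.Agent.S25.LB Fermat.Agent.S25.Chart Fermat.Agent.S25.Num
  Fermat.Agent.S25.Trip

variable {k : Type u} [Field k] {𝒞 : CurveDatum k}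

section Sub

variable {D : Type u} [CommRing D] [Algebra k D]

/-- The subalgebra of values of a chart point. -/
noncomputable def valRange : CPt 𝒞 D → Subalgebra k D
  | Sum.inl β => β.range
  | Sum.inr β => β.range

theorem valRange_fg (hg : 𝒞.IsGood) (β : CPt 𝒞 D) : (valRange β).FG := by
  haveI := hg.smooth0
  haveI := hg.smooth1
  cases β with
  | inl β =>
    change (β.range).FG
    rw [← Algebra.map_top]
    exact (Algebra.FiniteType.out (R := k) (A := 𝒞.B0)).map β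
  | inr β =>
    change (β.range).FG
    rw [← Algebra.map_top]
    exact (Algebra.FiniteType.out (R := k) (A := 𝒞.B1)).map β

/-- The subalgebra generated by the values of finitely many chart points. -/
noncomputable def valAlg {g : ℕ} (β : Fin g → CPt 𝒞 D) : Subalgebra k D :=
  Finset.univ.sup (fun j => valRange (β j))

theorem valAlg_fg (hg : 𝒞.IsGood) {g : ℕ} (β : Fin g → CPt 𝒞 D) : (valAlg β).FG := by
  unfold valAlg
  refine Finset.sup_induction (p := fun S : Subalgebra k D => S.FG) ?_ ?_ ?_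
  · exact Subalgebra.fg_bot
  · intro S hS S' hS'
    exact hS.sup hS'
  · intro j _
    exact valRange_fg hg (β j)

theorem valRange_le {g : ℕ} (β : Fin g → CPt 𝒞 D) (j : Fin g) : valRange (β j) ≤ valAlg β :=
  Finset.le_sup (f := fun j => valRange (β j)) (Finset.mem_univ j)

/-- A chart point with values in a subalgebra containing its values. -/
noncomputable def restrictPt (A : Subalgebra k D) :
    ∀ β : CPt 𝒞 D, valRange β ≤ A → CPt 𝒞 ↥A
  | Sum.inl β, h => Sum.inl (β.codRestrict A (fun x => h ⟨x, rfl⟩))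
  | Sum.inr β, h => Sum.inr (β.codRestrict A (fun x => h ⟨x, rfl⟩))

theorem restrictPt_map (A : Subalgebra k D) (β : CPt 𝒞 D) (h : valRange β ≤ A) :
    (restrictPt A β h).map A.val = β := by
  cases β with
  | inl β => rfl
  | inr β => rfl

end Sub

/-- **S-DEGALL** from its inputs. -/
theorem degall_of_aux (hDBC : Trip.Stmt_DEGBC.{u}) (hEX : LB.Stmt_BCEX.{u})
    (hDEG : S.Stmt_DEG.{u}) (hFE : S.Stmt_FAMEX.{u}) (hFB : S.Stmt_FAMBC.{u})
    (hFU : S.Stmt_FAMUNIQ.{u}) : S.Stmt_DEGALL.{u} := by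
  intro k _ _ 𝒞 hg R _ _ g β N hN p
  change Trip.chiAt N p = 1 - (Num.genus 𝒞 : ℤ)
  -- the domain `D = R ⧸ p`
  haveI : p.asIdeal.IsPrime := p.isPrime
  let f : R →ₐ[k] (R ⧸ p.asIdeal) := Ideal.Quotient.mkₐ k p.asIdeal
  let β' : Fin g → CPt 𝒞 (R ⧸ p.asIdeal) := fun j => (β j).map f
  -- the subalgebra of values
  let A : Subalgebra k (R ⧸ p.asIdeal) := valAlg β'
  haveI : Algebra.FiniteType k ↥A := (Subalgebra.fg_iff_finiteType A).1 (valAlg_fg hg β')
  let β'' : Fin g → CPt 𝒞 ↥A := fun j => restrictPt A (β' j) (valRange_le β' j)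
  have hβ'' : (fun j => (β'' j).map A.val) = β' := by
    funext j
    exact restrictPt_map A (β' j) (valRange_le β' j)
  -- the family over `A`
  obtain ⟨NA, hNA⟩ := hFE k 𝒞 hg ↥A g β''
  have hdegA : Top.IsDeg0 (Num.genus 𝒞) NA := hDEG k 𝒞 hg ↥A g β'' NA hNA
  -- its base change to `D`
  obtain ⟨ND', ⟨γ'⟩⟩ := hEX k 𝒞 hg ↥A (R ⧸ p.asIdeal) A.val NA
  have hND' : S.IsFam β' ND' := by
    have h1 := hFB k 𝒞 hg ↥A (R ⧸ p.asIdeal) A.val g β'' NA ND' hNA ⟨γ'⟩
    rw [hβ''] at h1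
    exact h1
  -- the base change of `N` to `D`
  obtain ⟨ND, ⟨γ⟩⟩ := hEX k 𝒞 hg R (R ⧸ p.asIdeal) f N
  have hND : S.IsFam β' ND := hFB k 𝒞 hg R (R ⧸ p.asIdeal) f g β N ND hN ⟨γ⟩
  -- they are isomorphic
  obtain ⟨E⟩ := (hFU k 𝒞 hg (R ⧸ p.asIdeal) g β' β' ND ND' rfl rfl hND).1 hND'
  -- the Euler characteristics
  let z : PrimeSpectrum (R ⧸ p.asIdeal) := ⟨⊥, Ideal.isPrime_bot⟩
  have hz : PrimeSpectrum.comap f.toRingHom z = p := by
    apply PrimeSpectrum.ext
    change Ideal.comap (Ideal.Quotient.mk p.asIdeal) ⊥ = p.asIdeal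
    rw [← RingHom.ker_eq_comap_bot, Ideal.mk_ker]
  have h1 : Trip.chiAt ND z = Trip.chiAt N p := by
    have h := hDBC k 𝒞 hg R (R ⧸ p.asIdeal) f N ND γ z
    rw [hz] at h
    exact h
  have h2 : Trip.chiAt ND z = Trip.chiAt ND' z := Trip.H98.chiAt_eq_of_iso hDBC hg E z
  have h3 : Trip.chiAt ND' z = Trip.chiAt NA (PrimeSpectrum.comap A.val.toRingHom z) :=
    hDBC k 𝒞 hg ↥A (R ⧸ p.asIdeal) A.val NA ND' γ' z
  rw [← h1, h2, h3]
  exact hdegA _

/-- **S-DEGALL** with the landed leaves `LB.H36.stmt_BCEX`, `Trip.H36.stmt_DEGBC` plugged in. -/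
theorem degall_of (hDEG : S.Stmt_DEG.{u}) (hFE : S.Stmt_FAMEX.{u}) (hFB : S.Stmt_FAMBC.{u})
    (hFU : S.Stmt_FAMUNIQ.{u}) : S.Stmt_DEGALL.{u} :=
  degall_of_aux Trip.H36.stmt_DEGBC LB.H36.stmt_BCEX hDEG hFE hFB hFU

/-- **S-DEGALL** with `S.H81.deg_of'` plugged in as well. -/
theorem degall_of' (hDLC : Trip.Stmt_DEGLC.{u}) (hFE : S.Stmt_FAMEX.{u}) (hFB : S.Stmt_FAMBC.{u})
    (hFU : S.Stmt_FAMUNIQ.{u}) (hSK : S.Stmt_DEGK.{u}) : S.Stmt_DEGALL.{u} :=
  degall_of (S.H81.deg_of' hDLC hFB hSK) hFE hFB hFU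

end Fermat.Agent.S25.Top.S.H81L
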