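import Fermat.Agent.S25.Top.H87_SGrDiag
import Fermat.Agent.S25.Top.H60_SGrLP

/-!
# S25 (row 24), package TOP, leaf S-GRINV, sub-cut G-DIAG, unconditional (helper87)

`stmt_GDIAG : H60.Stmt_GDIAG` = `gdiag_of` applied to helper60's `H60.stmt_GLP`.
-/

set_option autoImplicit false

universe u

namespace Fermat.Agent.S25.Top.S.H87

/-- **G-DIAG**: the ideal of the diagonal of a curve is locally principal and invertible. -/
theorem stmt_GDIAG : Fermat.Agent.S25.Top.S.H60.Stmt_GDIAG.{u} :=
  gdiag_of Fermat.Agent.S25.Top.S.H60.stmt_GLP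

end Fermat.Agent.S25.Top.S.H87
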