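import Fermat.Agent.S25.Top.H60_SGrDefs

/-!
# S25 (row 24), package TOP, leaf S-GRINV, sub-cut G-NAK (helper87)

`stmt_GNAK : Top.S.H60.Stmt_GNAK` : a finitely generated ideal `I` which is generated by one element
modulo `I ^ 2` near every prime containing it is locally principal.

Proof (determinant trick).  Let `I = (v₁, …, v_m)`, `p ⊇ I` prime, `t ∈ I`, `s ∉ p` with
`s v_a = b_a t + ∑_c X_ac v_c`, `X_ac ∈ I`.  Then `(s - X) v = t b`, so `d v = t (adj (s - X) b)` for
`d = det (s - X)`, and `d ≡ s ^ m` modulo `I ⊆ p`, so `d ∉ p`.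

This file contains no `sorry`.
-/

set_option autoImplicit false

universe u

namespace Fermat.Agent.S25.Top.S.H87

open Fermat.Agent.S25.Top.S.H60

section

variable {S : Type u} [CommRing S]

/-- Elements of `I ^ 2` in terms of generators of `I`, with coefficients in `I`. -/
theorem h87_sq_coeff (I : Ideal S) {m : ℕ} (v : Fin m → S)
    (hv : Ideal.span (Set.range v) = I) (w : S) (hw : w ∈ I ^ 2) :
    ∃ y : Fin m → S, (∀ c, y c ∈ I) ∧ w = ∑ c, y c * v c := by
  rw [pow_two] at hw
  change w ∈ I • I at hw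
  refine Submodule.smul_induction_on hw ?_ ?_
  · intro x hx z hz
    have hz' : z ∈ Ideal.span (Set.range v) := by rw [hv]; exact hz
    obtain ⟨c, rfl⟩ := Ideal.mem_span_range_iff_exists_fun.1 hz'
    refine ⟨fun a => x * c a, fun a => I.mul_mem_right _ hx, ?_⟩
    rw [smul_eq_mul, Finset.mul_sum]
    exact Finset.sum_congr rfl (fun a _ => by ring)
  · rintro x z ⟨y, hy, rfl⟩ ⟨y', hy', rfl⟩
    refine ⟨fun a => y a + y' a, fun a => I.add_mem (hy a) (hy' a), ?_⟩
    rw [← Finset.sum_add_distrib]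
    exact Finset.sum_congr rfl (fun a _ => by ring)

/-- The determinant of `s - X` is not in a prime `p` if `s ∉ p` and the entries of `X` are in `p`. -/
theorem h87_det_notMem (p : Ideal S) [p.IsPrime] {m : ℕ} (s : S) (hs : s ∉ p)
    (X : Matrix (Fin m) (Fin m) S) (hX : ∀ a c, X a c ∈ p) :
    (s • (1 : Matrix (Fin m) (Fin m) S) - X).det ∉ p := by
  intro hd
  have h1 : Ideal.Quotient.mk p (s • (1 : Matrix (Fin m) (Fin m) S) - X).det = 0 :=
    Ideal.Quotient.eq_zero_iff_mem.2 hd
  rw [RingHom.map_det] at h1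
  have h2 : (Ideal.Quotient.mk p).mapMatrix (s • (1 : Matrix (Fin m) (Fin m) S) - X)
      = (Ideal.Quotient.mk p s) • (1 : Matrix (Fin m) (Fin m) (S ⧸ p)) := by
    ext a c
    have hXac : Ideal.Quotient.mk p (X a c) = 0 := Ideal.Quotient.eq_zero_iff_mem.2 (hX a c)
    by_cases hac : a = c
    · subst hac
      simp [hXac]
    · simp [hac, hXac]
  rw [h2, Matrix.det_smul, Matrix.det_one, mul_one] at h1
  have h3 : Ideal.Quotient.mk p s = 0 := eq_zero_of_pow_eq_zero h1
  exact hs (Ideal.Quotient.eq_zero_iff_mem.1 h3)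

end

/-- **G-NAK**. -/
theorem stmt_GNAK : Stmt_GNAK.{u} := by
  intro S _ I hfg h p hp
  classical
  by_cases hIp : I ≤ p
  · obtain ⟨t, s, ht, hs, hrel⟩ := h p hp hIp
    obtain ⟨m, v, hv⟩ := Submodule.fg_iff_exists_fin_generating_family.1 hfg
    have hvI : ∀ a, v a ∈ I := fun a => by
      rw [← hv]; exact Submodule.subset_span ⟨a, rfl⟩
    -- the relations
    have hrel' : ∀ a, ∃ (b : S) (y : Fin m → S), (∀ c, y c ∈ I) ∧
        s * v a - b * t = ∑ c, y c * v c := by
      intro a
      obtain ⟨b, hb⟩ := hrel (v a) (hvI a)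
      obtain ⟨y, hy, e⟩ := h87_sq_coeff I v hv _ hb
      exact ⟨b, y, hy, e⟩
    choose b X hXI hbX using hrel'
    let Xm : Matrix (Fin m) (Fin m) S := Matrix.of X
    let A : Matrix (Fin m) (Fin m) S := s • (1 : Matrix (Fin m) (Fin m) S) - Xm
    have hA : A.mulVec v = fun a => b a * t := by
      funext a
      have e1 : A.mulVec v a = s * v a - ∑ c, X a c * v c := by
        show (s • (1 : Matrix (Fin m) (Fin m) S) - Xm).mulVec v a = _
        rw [Matrix.sub_mulVec, Matrix.smul_mulVec, Matrix.one_mulVec]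
        rfl
      rw [e1, ← hbX a]
      ring
    have hd : ∀ a, A.det * v a = (A.adjugate.mulVec b) a * t := by
      intro a
      have e2 : A.adjugate.mulVec (A.mulVec v) = A.det • v := by
        rw [Matrix.mulVec_mulVec, Matrix.adjugate_mul, Matrix.smul_mulVec, Matrix.one_mulVec]
      have e3 : A.adjugate.mulVec (fun a => b a * t) = fun a => (A.adjugate.mulVec b) a * t := by
        funext a
        simp only [Matrix.mulVec, dotProduct, Finset.sum_mul, mul_assoc]
      rw [hA, e3] at e2
      have := congrFun e2 a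
      simp only [Pi.smul_apply, smul_eq_mul] at this
      exact this.symm
    have hdp : A.det ∉ p :=
      h87_det_notMem p s hs Xm (fun a c => hIp (hXI a c))
    refine ⟨t, A.det, ht, hdp, fun i hi => ?_⟩
    have hi' : i ∈ Ideal.span (Set.range v) := by
      change i ∈ Submodule.span S (Set.range v)
      rw [hv]; exact hi
    obtain ⟨z, rfl⟩ := Ideal.mem_span_range_iff_exists_fun.1 hi'
    refine ⟨∑ a, z a * (A.adjugate.mulVec b) a, ?_⟩
    rw [Finset.mul_sum, Finset.sum_mul]
    refine Finset.sum_congr rfl (fun a _ => ?_)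
    rw [mul_left_comm, hd a, mul_assoc]
  · obtain ⟨t, htI, htp⟩ := Set.not_subset.1 hIp
    exact ⟨t, t, htI, htp, fun i _ => ⟨i, mul_comm t i⟩⟩

end Fermat.Agent.S25.Top.S.H87
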