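/-
helper89, S25 package TOP, leaf TOP-DEGLOC, closed: `stmt_DEGLOC : Stmt_DEGLOC` (unconditional), from
`stmt_DEGLOC_of` and the landed dictionary (T1 helper24, T2 helper99 + AFFHOM helper54, T4 helper34) and
fibre calculus (LB-VB helper7, BCTRANS helper45, FIELDEXT helper92, TW helper36).
-/
import Fermat.Agent.S25.Top.H89_DegLoc
import Fermat.Agent.S25.Bridge.H24_T1Final
import Fermat.Agent.S25.Bridge.H99_T2Closed
import Fermat.Agent.S25.Bridge.H54_AffHom
import Fermat.Agent.S25.Bridge.H34_T4Close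
import Fermat.Agent.S25.LB.H7_VB
import Fermat.Agent.S25.P1.H45_BCTrans
import Fermat.Agent.S25.P1.H92_FieldExt
import Fermat.Agent.S25.P1.H36_Tw

set_option autoImplicit false

universe u

namespace Fermat.Agent.S25.Top.H89

open Fermat.Agent.S25

/-- **TOP-DEGLOC**, unconditional. -/
theorem stmt_DEGLOC : Stmt_DEGLOC.{u} :=
  stmt_DEGLOC_of Bridge.H24.stmt_T1 (Bridge.H99.stmt_T2_of_AFFHOM Bridge.H54.stmt_AFFHOM)
    Bridge.H34.stmt_T4 LB.H7.stmt_VB P1.H45.stmt_BCTRANS P1.H92.stmt_FIELDEXT P1.H36.stmt_TW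

end Fermat.Agent.S25.Top.H89
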