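import Fermat.Agent.S25.Top.DefsF
import Fermat.Agent.S25.LB.DefsE

/-!
# S25, package TOP, translation Trip → Top, leaf FAM-DICT (helper99)

`stmt_FAMDICT_of : Bridge.Stmt_T1 → Bridge.Stmt_T2 → Stmt_FAMPULL → LB.Stmt_BCUNIQ → Stmt_FAMDICT`:
`M` is classified by `𝓛` through `homOf k φ` iff the triple of `M` is classified by the triple of `𝓛`
through `φ`.

Proof.  Let `N := (homOf k φ)^* 𝓛` and `Q'` a triple of `N` (T1); `Q'` is a base change of `Q` along `φ`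
(FAM-PULL).  (→) `N ≅ M` gives `Q' ≅ L` (T2).  (←) a base change `Qφ ≅ L` of `Q` is isomorphic to `Q'`
(BCUNIQ), hence `Q' ≅ L` and `N ≅ M` (T2).
-/

set_option autoImplicit false
set_option linter.unusedSectionVars false
set_option linter.unusedVariables false
set_option linter.style.haveILetI false

universe u

open CategoryTheory CategoryTheory.Limits AlgebraicGeometry AlgebraicGeometry.RelPicard NeronModelInfra
  GoodReductionJacobian TensorProduct

namespace Fermat.Agent.S25.Top.F.H99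

open Fermat.Agent.S25

section Iso

variable {k : Type u} [Field k] {𝒞 : LB.CurveDatum k} {R : Type u} [CommRing R] [Algebra k R]

/-- the identity isomorphism of a triple -/
def tIsoRefl (L : LB.Triple 𝒞 R) : LB.Triple.Iso L L where
  e0 := LinearEquiv.refl _ _
  e1 := LinearEquiv.refl _ _
  e01 := LinearEquiv.refl _ _
  comm0 _ := rfl
  comm1 _ := rfl

/-- the inverse of an isomorphism of triples -/
def tIsoSymm {L L' : LB.Triple 𝒞 R} (I : LB.Triple.Iso L L') : LB.Triple.Iso L' L where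
  e0 := I.e0.symm
  e1 := I.e1.symm
  e01 := I.e01.symm
  comm0 p := by
    apply I.e01.injective
    rw [LinearEquiv.apply_symm_apply, I.comm0, LinearEquiv.apply_symm_apply]
  comm1 p := by
    apply I.e01.injective
    rw [LinearEquiv.apply_symm_apply, I.comm1, LinearEquiv.apply_symm_apply]

/-- the composite of two isomorphisms of triples -/
def tIsoTrans {L L' L'' : LB.Triple 𝒞 R} (I : LB.Triple.Iso L L') (J : LB.Triple.Iso L' L'') :
    LB.Triple.Iso L L'' where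
  e0 := I.e0.trans J.e0
  e1 := I.e1.trans J.e1
  e01 := I.e01.trans J.e01
  comm0 p := by
    change J.e01 (I.e01 (L.r0 p)) = L''.r0 (J.e0 (I.e0 p))
    rw [I.comm0, J.comm0]
  comm1 p := by
    change J.e01 (I.e01 (L.r1 p)) = L''.r1 (J.e1 (I.e1 p))
    rw [I.comm1, J.comm1]

end Iso

/-- **FAM-DICT** from T1, T2, FAM-PULL and BCUNIQ. -/
theorem stmt_FAMDICT_of (hT1 : Bridge.Stmt_T1.{u}) (hT2 : Bridge.Stmt_T2.{u})
    (hPull : Stmt_FAMPULL.{u}) (hU : LB.Stmt_BCUNIQ.{u}) : Stmt_FAMDICT.{u} := by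
  intro k _ C c ε 𝒞 hgood ρ B R _ _ _ _ 𝓛 Q M L φ hQ hL
  have hNinv : Scheme.Modules.IsInvertible (𝓛.pullbackAlong (homOf k φ)).L :=
    (𝓛.pullbackAlong (homOf k φ)).isInvertible
  obtain ⟨Q', hQ'⟩ := hT1 k c ε 𝒞 hgood ρ R (𝓛.pullbackAlong (homOf k φ)).L hNinv
  obtain ⟨bc⟩ := hPull k c ε 𝒞 hgood ρ B R φ 𝓛.L Q Q' 𝓛.isInvertible hQ hQ'
  have hiff := hT2 k c ε 𝒞 hgood ρ R (𝓛.pullbackAlong (homOf k φ)).L M.L Q' L hNinv
    M.isInvertible hQ' hL
  constructor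
  · intro h
    obtain ⟨I⟩ := hiff.1 h
    exact ⟨Q', ⟨bc⟩, ⟨tIsoSymm I⟩⟩
  · rintro ⟨Qφ, ⟨bc'⟩, ⟨I⟩⟩
    obtain ⟨J⟩ := hU k 𝒞 hgood B R φ Q Q Q' Qφ bc bc' ⟨tIsoRefl Q⟩
    exact hiff.2 ⟨tIsoTrans J (tIsoSymm I)⟩

end Fermat.Agent.S25.Top.F.H99
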