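import Mathlib.RingTheory.Smooth.IntegralClosure
import Mathlib.RingTheory.Unramified.Field
import Mathlib.RingTheory.LocalProperties.Reduced
import Mathlib.RingTheory.Etale.Basic

/-!
# S25 / TOP, leaf TOP-RED (helper99): a smooth algebra over a field is reduced

* `isReduced_of_etale_domain` : an étale algebra over a domain is reduced (flatness + the generic
  fibre is étale over the fraction field);
* `isReduced_of_away_cover` : reducedness is local for the basic opens;
* `isReduced_of_smooth_domain` : a smooth algebra over a domain is reduced;
* `stmt_TOP_RED` : **a smooth algebra over a field is reduced**.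
-/

set_option autoImplicit false

open TensorProduct

namespace Fermat.Agent.S25.Top.H99

universe u v

/-- An étale algebra over a domain is reduced. -/
theorem isReduced_of_etale_domain (P : Type u) (S : Type v) [CommRing P] [IsDomain P]
    [CommRing S] [Algebra P S] [Algebra.Etale P S] : IsReduced S := by
  have hinj : Function.Injective
      (Algebra.TensorProduct.includeRight : S →ₐ[P] FractionRing P ⊗[P] S) :=
    Algebra.TensorProduct.includeRight_injective (IsFractionRing.injective P (FractionRing P))
  have : IsReduced (FractionRing P ⊗[P] S) :=
    Algebra.FormallyUnramified.isReduced_of_field (FractionRing P) _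
  exact isReduced_of_injective _ hinj

/-- Reducedness is local for the basic opens: if every maximal ideal misses some `f` with
`S[1/f]` reduced, then `S` is reduced. -/
theorem isReduced_of_away_cover (S : Type v) [CommRing S]
    (h : ∀ m : Ideal S, m.IsMaximal → ∃ f ∉ m, IsReduced (Localization.Away f)) :
    IsReduced S := by
  constructor
  intro x hx
  by_contra hne
  have hI : LinearMap.ker (LinearMap.toSpanSingleton S S x) ≠ ⊤ := by
    intro htop
    have h1 : (1 : S) ∈ LinearMap.ker (LinearMap.toSpanSingleton S S x) := by
      rw [htop]
      exact Submodule.mem_top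
    rw [LinearMap.mem_ker, LinearMap.toSpanSingleton_apply, one_smul] at h1
    exact hne h1
  obtain ⟨m, hm, hle⟩ := Ideal.exists_le_maximal _ hI
  obtain ⟨f, hfm, hred⟩ := h m hm
  have h0 : algebraMap S (Localization.Away f) x = 0 :=
    (hx.map (algebraMap S (Localization.Away f))).eq_zero
  rw [← (algebraMap S (Localization.Away f)).map_zero,
    IsLocalization.eq_iff_exists (Submonoid.powers f)] at h0
  obtain ⟨⟨c, k, rfl⟩, hc⟩ := h0
  have hmem : f ^ k ∈ m := by
    apply hle
    rw [LinearMap.mem_ker, LinearMap.toSpanSingleton_apply, smul_eq_mul]
    simpa using hc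
  exact hfm (hm.isPrime.mem_of_pow_mem k hmem)

/-- A smooth algebra over a domain is reduced. -/
theorem isReduced_of_smooth_domain (R : Type u) (B : Type v) [CommRing R] [IsDomain R]
    [CommRing B] [Algebra R B] [Algebra.Smooth R B] : IsReduced B := by
  apply isReduced_of_away_cover
  intro m hm
  have : m.IsPrime := hm.isPrime
  obtain ⟨f, hfm, n, _, _, _⟩ :=
    Algebra.IsSmoothAt.exists_isStandardEtale_mvPolynomial (R := R) (p := m)
  exact ⟨f, hfm, isReduced_of_etale_domain (MvPolynomial (Fin n) R) _⟩

/-- **TOP-RED**: a smooth algebra over a field is reduced. -/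
theorem stmt_TOP_RED (k : Type u) [Field k] (B : Type v) [CommRing B] [Algebra k B]
    [Algebra.Smooth k B] : IsReduced B :=
  isReduced_of_smooth_domain k B

end Fermat.Agent.S25.Top.H99
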