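import Fermat.Agent.S25.Top.H99_Red
import Mathlib.AlgebraicGeometry.Morphisms.Smooth
import Mathlib.AlgebraicGeometry.Properties

/-!
# S25 / TOP, leaf CH-RED (helper99): a scheme smooth over a field (or over any integral affine
scheme) is reduced

* `isReduced_section_of_smooth` : the sections of a smooth `X ⟶ Spec R`, `R` a domain, over an
  affine open are a reduced ring;
* `isReduced_of_smooth_spec_domain` : `X ⟶ Spec R` smooth, `R` a domain, then `X` is reduced;
* `stmt_CH_RED` : **`X ⟶ Spec k` smooth, `k` a field, then `X` is reduced** (the component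
  `∀ a, IsReduced (𝒳.X a)` of `Top.Stmt_CHARTS` follows from `∀ a, Smooth (𝒳.x a)`).
-/

set_option autoImplicit false
set_option linter.style.haveILetI false

open CategoryTheory AlgebraicGeometry

namespace Fermat.Agent.S25.Top.H99

universe u

/-- The sections over an affine open of a scheme smooth over `Spec R`, `R` a domain, are a
reduced ring. -/
theorem isReduced_section_of_smooth {R : Type u} [CommRing R] [IsDomain R] {X : Scheme.{u}}
    (x : X ⟶ Spec (CommRingCat.of R)) [Smooth x] (V : X.Opens) (hV : IsAffineOpen V) :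
    _root_.IsReduced Γ(X, V) := by
  have h := x.smooth_appLE (isAffineOpen_top (Spec (CommRingCat.of R))) hV le_top
  letI : Algebra Γ(Spec (CommRingCat.of R), ⊤) Γ(X, V) := (x.appLE ⊤ V le_top).hom.toAlgebra
  have hs : Algebra.Smooth Γ(Spec (CommRingCat.of R), ⊤) Γ(X, V) := h
  have hd : IsDomain Γ(Spec (CommRingCat.of R), ⊤) :=
    MulEquiv.isDomain R
      (Scheme.ΓSpecIso (CommRingCat.of R)).commRingCatIsoToRingEquiv.toMulEquiv
  exact isReduced_of_smooth_domain Γ(Spec (CommRingCat.of R), ⊤) Γ(X, V)

/-- A scheme smooth over `Spec R`, `R` a domain, is reduced. -/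
theorem isReduced_of_smooth_spec_domain {R : Type u} [CommRing R] [IsDomain R] {X : Scheme.{u}}
    (x : X ⟶ Spec (CommRingCat.of R)) [Smooth x] : IsReduced X := by
  have hst : ∀ p : X, _root_.IsReduced (X.presheaf.stalk p) := by
    intro p
    obtain ⟨V, hV, hpV, -⟩ :=
      exists_isAffineOpen_mem_and_subset (X := X) (x := p) (U := ⊤) (by simp)
    have hred := isReduced_section_of_smooth x V hV
    letI := X.presheaf.algebra_section_stalk ⟨p, hpV⟩
    have hloc := hV.isLocalization_stalk ⟨p, hpV⟩
    exact isReduced_localizationPreserves (hV.primeIdealOf ⟨p, hpV⟩).asIdeal.primeCompl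
      (X.presheaf.stalk p) hred
  exact isReduced_of_isReduced_stalk X

/-- **CH-RED**: a scheme smooth over a field is reduced. -/
theorem stmt_CH_RED {k : Type u} [Field k] {X : Scheme.{u}}
    (x : X ⟶ Spec (CommRingCat.of k)) [Smooth x] : IsReduced X :=
  isReduced_of_smooth_spec_domain x

end Fermat.Agent.S25.Top.H99
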